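import Mathlib

/-!
# Cusps, the Farey tessellation and Manin's theorem
-/

set_option autoImplicit false

open Matrix
open scoped MatrixGroups

noncomputable section

namespace Fermat.Agent.H16.LR

/-- Cusps. -/
abbrev Cu := OnePoint ℚ

/-- The embedding of `SL₂(ℤ)` into `GL₂(ℚ)`. -/
abbrev ι (γ : SL(2, ℤ)) : GL (Fin 2) ℚ := Matrix.SpecialLinearGroup.mapGL ℚ γ

/-- The cusp `a / b`. -/
def cv (a b : ℚ) : Cu := if b = 0 then OnePoint.infty else ((a / b : ℚ) : OnePoint ℚ)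

theorem cv_zero (a : ℚ) : cv a 0 = OnePoint.infty := by simp [cv]

theorem cv_of_ne {a b : ℚ} (h : b ≠ 0) : cv a b = ((a / b : ℚ) : OnePoint ℚ) := by simp [cv, h]

theorem cv_one (a : ℚ) : cv a 1 = ((a : ℚ) : OnePoint ℚ) := by simp [cv]

theorem smul_cv (g : GL (Fin 2) ℚ) {a b : ℚ} (h : a ≠ 0 ∨ b ≠ 0) :
    g • cv a b = cv (g 0 0 * a + g 0 1 * b) (g 1 0 * a + g 1 1 * b) := by
  by_cases hb : b = 0
  · subst hb
    have ha : a ≠ 0 := by simpa using h
    rw [cv_zero, OnePoint.smul_infty_eq_ite, cv]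
    by_cases hc : g 1 0 = 0
    · simp [hc]
    · have : g 1 0 * a + g 1 1 * 0 ≠ 0 := by simpa using ⟨hc, ha⟩
      rw [if_neg hc, if_neg this]
      congr 1
      field_simp
      ring
  · rw [cv_of_ne hb, OnePoint.smul_some_eq_ite, cv]
    have e : g 1 0 * a + g 1 1 * b = (g 1 0 * (a / b) + g 1 1) * b := by field_simp
    have e' : g 0 0 * a + g 0 1 * b = (g 0 0 * (a / b) + g 0 1) * b := by field_simp
    by_cases hc : g 1 0 * (a / b) + g 1 1 = 0
    · have : g 1 0 * a + g 1 1 * b = 0 := by rw [e, hc, zero_mul]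
      rw [if_pos hc, if_pos this]
    · have : g 1 0 * a + g 1 1 * b ≠ 0 := by rw [e]; exact mul_ne_zero hc hb
      rw [if_neg hc, if_neg this, e, e', mul_div_mul_right _ _ hb]

theorem cv_eq_of {a b a' b' : ℚ} (h : a * b' = a' * b) (h1 : a ≠ 0 ∨ b ≠ 0)
    (h2 : a' ≠ 0 ∨ b' ≠ 0) : cv a b = cv a' b' := by
  by_cases hb : b = 0
  · subst hb
    have ha : a ≠ 0 := by simpa using h1
    have hb' : b' = 0 := by simpa [ha] using h
    rw [hb', cv_zero, cv_zero]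
  · have hb' : b' ≠ 0 := by
      rintro rfl
      have ha' : a' ≠ 0 := by simpa using h2
      simp [hb, ha'] at h
    rw [cv_of_ne hb, cv_of_ne hb']
    congr 1
    field_simp
    linarith

theorem ι_apply (γ : SL(2, ℤ)) (i j : Fin 2) : (ι γ) i j = ((γ i j : ℤ) : ℚ) := by
  simp [ι]

theorem ι_mul (γ γ' : SL(2, ℤ)) : ι (γ * γ') = ι γ * ι γ' := map_mul _ _ _

theorem ι_inv (γ : SL(2, ℤ)) : ι γ⁻¹ = (ι γ)⁻¹ := map_inv _ _

theorem ι_one : ι 1 = 1 := map_one _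

theorem infty_eq : (OnePoint.infty : Cu) = cv 1 0 := (cv_zero 1).symm

theorem zero_eq : ((0 : ℚ) : Cu) = cv 0 1 := by rw [cv_one]

/-- The image of `∞`. -/
theorem ι_infty (γ : SL(2, ℤ)) : ι γ • (OnePoint.infty : Cu) = cv (γ 0 0 : ℤ) (γ 1 0 : ℤ) := by
  rw [infty_eq, smul_cv _ (Or.inl one_ne_zero)]
  simp only [ι_apply]
  simp

/-- The image of `0`. -/
theorem ι_zero (γ : SL(2, ℤ)) : ι γ • ((0 : ℚ) : Cu) = cv (γ 0 1 : ℤ) (γ 1 1 : ℤ) := by
  rw [zero_eq, smul_cv _ (Or.inr one_ne_zero)]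
  simp only [ι_apply]
  simp

theorem det_eq (γ : SL(2, ℤ)) : γ 0 0 * γ 1 1 - γ 0 1 * γ 1 0 = 1 := by
  have := γ.det_coe
  rwa [Matrix.det_fin_two] at this

theorem neg_smul_cu (γ : SL(2, ℤ)) (r : Cu) : ι (-γ) • r = ι γ • r := by
  induction r using OnePoint.rec with
  | infty =>
    rw [ι_infty, ι_infty]
    have h := det_eq γ
    refine cv_eq_of ?_ ?_ ?_
    · simp
    · by_contra hc
      push Not at hc
      simp at hc
      rw [hc.1, hc.2] at h
      simp at h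
    · by_contra hc
      push Not at hc
      simp at hc
      rw [hc.1, hc.2] at h
      simp at h
  | coe c =>
    rw [OnePoint.smul_some_eq_ite, OnePoint.smul_some_eq_ite]
    simp only [ι_apply]
    have e1 : (((-γ) 1 0 : ℤ) : ℚ) * c + (((-γ) 1 1 : ℤ) : ℚ) = - (((γ 1 0 : ℤ) : ℚ) * c + ((γ 1 1 : ℤ) : ℚ)) := by
      simp; ring
    have e2 : (((-γ) 0 0 : ℤ) : ℚ) * c + (((-γ) 0 1 : ℤ) : ℚ) = - (((γ 0 0 : ℤ) : ℚ) * c + ((γ 0 1 : ℤ) : ℚ)) := by
      simp; ring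
    rw [e1, e2]
    simp only [neg_eq_zero]
    split_ifs
    · rfl
    · rw [neg_div_neg_eq]

open ModularGroup

theorem S_infty : ι S • (OnePoint.infty : Cu) = ((0 : ℚ) : Cu) := by
  rw [ι_infty, zero_eq]; simp [S]

theorem S_zero : ι S • ((0 : ℚ) : Cu) = (OnePoint.infty : Cu) := by
  rw [ι_zero]; simp [S, cv]

theorem T_infty : ι T • (OnePoint.infty : Cu) = (OnePoint.infty : Cu) := by
  rw [ι_infty]; simp [T, cv]

/-- The order three element: `0 ↦ ∞ ↦ 1 ↦ 0`. -/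
def U : SL(2, ℤ) := ⟨!![1, -1; 1, 0], by norm_num [Matrix.det_fin_two_of]⟩

theorem U_00 : U 0 0 = 1 := rfl
theorem U_01 : U 0 1 = -1 := rfl
theorem U_10 : U 1 0 = 1 := rfl
theorem U_11 : U 1 1 = 0 := rfl

theorem U_infty : ι U • (OnePoint.infty : Cu) = ((1 : ℚ) : Cu) := by
  rw [ι_infty, U_00, U_10]; simp [cv]

theorem U_zero : ι U • ((0 : ℚ) : Cu) = (OnePoint.infty : Cu) := by
  rw [ι_zero, U_01, U_11]; simp [cv]

theorem U_one : ι U • ((1 : ℚ) : Cu) = ((0 : ℚ) : Cu) := by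
  rw [← cv_one, smul_cv _ (Or.inl one_ne_zero)]
  simp only [ι_apply, U_00, U_01, U_10, U_11]
  simp [cv]

theorem S_mul_S : S * S = -1 := by
  ext i j; fin_cases i <;> fin_cases j <;> simp [S, Matrix.mul_apply, Fin.sum_univ_two]

theorem U_mul_U_mul_U : U * (U * U) = -1 := by
  ext i j; fin_cases i <;> fin_cases j <;> rfl

theorem U_eq : U = T * S := by
  ext i j; fin_cases i <;> fin_cases j <;> rfl

theorem ι_mul_smul (γ γ' : SL(2, ℤ)) (r : Cu) : ι (γ * γ') • r = ι γ • ι γ' • r := by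
  rw [ι_mul, mul_smul]

end Fermat.Agent.H16.LR
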