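import Mathlib
import Fermat.Agent.H16.LR.Cusp

/-!
# Hecke operators on modules with an action of `GL₂(ℚ)`
-/

set_option autoImplicit false

open Matrix ModularGroup CongruenceSubgroup
open scoped MatrixGroups

noncomputable section

namespace Fermat.Agent.H16.LR

/-- The matrix with given entries (if invertible). -/
def gq (a b c d : ℚ) : GL (Fin 2) ℚ :=
  if h : (!![a, b; c, d] : Matrix (Fin 2) (Fin 2) ℚ).det ≠ 0 then
    GeneralLinearGroup.mkOfDetNeZero _ h else 1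

theorem coe_gq {a b c d : ℚ} (h : a * d - b * c ≠ 0) :
    (gq a b c d : Matrix (Fin 2) (Fin 2) ℚ) = !![a, b; c, d] := by
  have h' : (!![a, b; c, d] : Matrix (Fin 2) (Fin 2) ℚ).det ≠ 0 := by
    rw [Matrix.det_fin_two_of]; exact h
  rw [gq, dif_pos h']
  rfl

theorem gq_00 {a b c d : ℚ} (h : a * d - b * c ≠ 0) : (gq a b c d) 0 0 = a := by
  rw [coe_gq h]; rfl
theorem gq_01 {a b c d : ℚ} (h : a * d - b * c ≠ 0) : (gq a b c d) 0 1 = b := by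
  rw [coe_gq h]; rfl
theorem gq_10 {a b c d : ℚ} (h : a * d - b * c ≠ 0) : (gq a b c d) 1 0 = c := by
  rw [coe_gq h]; rfl
theorem gq_11 {a b c d : ℚ} (h : a * d - b * c ≠ 0) : (gq a b c d) 1 1 = d := by
  rw [coe_gq h]; rfl

theorem gq_mul {a b c d a' b' c' d' : ℚ} (h : a * d - b * c ≠ 0) (h' : a' * d' - b' * c' ≠ 0) :
    gq a b c d * gq a' b' c' d' =
      gq (a * a' + b * c') (a * b' + b * d') (c * a' + d * c') (c * b' + d * d') := by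
  have h'' : (a * a' + b * c') * (c * b' + d * d') - (a * b' + b * d') * (c * a' + d * c') ≠ 0 := by
    have : (a * a' + b * c') * (c * b' + d * d') - (a * b' + b * d') * (c * a' + d * c') =
      (a * d - b * c) * (a' * d' - b' * c') := by ring
    rw [this]; exact mul_ne_zero h h'
  apply Units.ext
  rw [Units.val_mul, coe_gq h, coe_gq h', coe_gq h'', Matrix.mul_fin_two]

theorem gq_one : gq 1 0 0 1 = 1 := by
  apply Units.ext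
  rw [coe_gq (by norm_num)]
  ext i j; fin_cases i <;> fin_cases j <;> simp

theorem ι_eq (γ : SL(2, ℤ)) : ι γ = gq (γ 0 0 : ℤ) (γ 0 1 : ℤ) (γ 1 0 : ℤ) (γ 1 1 : ℤ) := by
  have h : ((γ 0 0 : ℤ) : ℚ) * ((γ 1 1 : ℤ) : ℚ) - ((γ 0 1 : ℤ) : ℚ) * ((γ 1 0 : ℤ) : ℚ) ≠ 0 := by
    have := det_eq γ
    have h2 : ((γ 0 0 : ℤ) : ℚ) * ((γ 1 1 : ℤ) : ℚ) - ((γ 0 1 : ℤ) : ℚ) * ((γ 1 0 : ℤ) : ℚ) = 1 := by
      exact_mod_cast this
    rw [h2]; exact one_ne_zero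
  apply Units.ext
  rw [coe_gq h]
  ext i j
  fin_cases i <;> fin_cases j <;> simp [ι]

/-- An element of `SL₂(ℤ)`. -/
def sl (a b c d : ℤ) (h : a * d - b * c = 1) : SL(2, ℤ) :=
  ⟨!![a, b; c, d], by rw [Matrix.det_fin_two_of]; exact h⟩

theorem sl_mem {M : ℕ} {a b c d : ℤ} (h : a * d - b * c = 1) (hc : (M : ℤ) ∣ c) :
    sl a b c d h ∈ Gamma0 M := by
  rw [Gamma0_mem]
  exact (ZMod.intCast_zmod_eq_zero_iff_dvd _ _).mpr hc

theorem ι_sl {a b c d : ℤ} (h : a * d - b * c = 1) : ι (sl a b c d h) = gq a b c d := by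
  rw [ι_eq]; rfl

theorem mem_Gamma0_iff {M : ℕ} {γ : SL(2, ℤ)} : γ ∈ Gamma0 M ↔ (M : ℤ) ∣ γ 1 0 := by
  rw [Gamma0_mem]
  exact ZMod.intCast_zmod_eq_zero_iff_dvd _ _

/-- A right action of `GL₂(ℚ)` on an additive group. -/
structure RA (𝒳 : Type*) [AddCommGroup 𝒳] where
  act : GL (Fin 2) ℚ → 𝒳 →+ 𝒳
  act_one : ∀ x, act 1 x = x
  act_mul : ∀ g h x, act (g * h) x = act h (act g x)
  act_sc : ∀ n : ℚ, n ≠ 0 → ∀ x, act (gq n 0 0 n) x = x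

namespace RA

variable {𝒳 : Type*} [AddCommGroup 𝒳] (A : RA 𝒳)

/-- Invariants of `Γ₀(M)`. -/
def Inv (M : ℕ) (F : 𝒳) : Prop := ∀ γ ∈ Gamma0 M, A.act (ι γ) F = F

/-- The operator `U_ℓ`. -/
def UU (l : ℕ) (F : 𝒳) : 𝒳 := ∑ b ∈ Finset.range l, A.act (gq 1 b 0 l) F

/-- The operator `T_ℓ`. -/
def TT (l : ℕ) (F : 𝒳) : 𝒳 := A.act (gq l 0 0 1) F + A.UU l F

/-- The cosets. -/
abbrev Qt (N q : ℕ) := Gamma0 N ⧸ (Gamma0 (N * q)).subgroupOf (Gamma0 N)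

instance (N q : ℕ) [NeZero (N * q)] : Fintype (Qt N q) := by
  have : ((Gamma0 (N * q)).subgroupOf (Gamma0 N)).FiniteIndex := inferInstance
  exact Subgroup.fintypeQuotientOfFiniteIndex

/-- The trace from `Γ₀(Nq)` to `Γ₀(N)`. -/
def tr (N q : ℕ) [NeZero (N * q)] (F : 𝒳) : 𝒳 :=
  ∑ z : Qt N q, A.act (ι ((z.out : Gamma0 N) : SL(2, ℤ))⁻¹) F

variable {A}

theorem Inv.mono {M M' : ℕ} (h : M ∣ M') {F : 𝒳} (hF : A.Inv M F) : A.Inv M' F := fun γ hγ ↦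
  hF γ (by
    rw [mem_Gamma0_iff] at hγ ⊢
    exact (Int.natCast_dvd_natCast.mpr h).trans hγ)

theorem Inv.act_eq {N q : ℕ} {F : 𝒳} (hF : A.Inv (N * q) F) (hq : q.Coprime N)
    {γ γ' : SL(2, ℤ)} (h : γ ∈ Gamma0 N) (h' : γ' ∈ Gamma0 N)
    (hd : (q : ℤ) ∣ γ 1 0 * γ' 1 1 - γ 1 1 * γ' 1 0) : A.act (ι γ) F = A.act (ι γ') F := by
  have h1 : γ = (γ * γ'⁻¹) * γ' := by group
  have h2 : γ * γ'⁻¹ ∈ Gamma0 (N * q) := by
    have h3 : γ * γ'⁻¹ ∈ Gamma0 N := mul_mem h (inv_mem h')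
    rw [mem_Gamma0_iff] at h3 ⊢
    push_cast
    have h4 : (γ * γ'⁻¹) 1 0 = γ 1 0 * γ' 1 1 - γ 1 1 * γ' 1 0 := by
      rw [SpecialLinearGroup.SL2_inv_expl]
      simp [Matrix.mul_apply, Fin.sum_univ_two]
      try ring
    refine IsCoprime.mul_dvd ?_ h3 ?_
    · exact Nat.isCoprime_iff_coprime.mpr hq.symm
    · rw [h4]; exact hd
  conv_lhs => rw [h1]
  rw [ι_mul, A.act_mul, hF _ h2]

theorem Qt_eq_iff {N q : ℕ} (hq : q.Coprime N) (γ γ' : Gamma0 N) :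
    ((γ⁻¹ : Gamma0 N) : Qt N q) = ((γ'⁻¹ : Gamma0 N) : Qt N q) ↔
      (q : ℤ) ∣ (γ : SL(2, ℤ)) 1 0 * (γ' : SL(2, ℤ)) 1 1 - (γ : SL(2, ℤ)) 1 1 * (γ' : SL(2, ℤ)) 1 0 := by
  rw [QuotientGroup.eq, inv_inv, Subgroup.mem_subgroupOf]
  have h3 : ((γ * γ'⁻¹ : Gamma0 N) : SL(2, ℤ)) ∈ Gamma0 N := (γ * γ'⁻¹).2
  have h4 : ((γ * γ'⁻¹ : Gamma0 N) : SL(2, ℤ)) 1 0 =
      (γ : SL(2, ℤ)) 1 0 * (γ' : SL(2, ℤ)) 1 1 - (γ : SL(2, ℤ)) 1 1 * (γ' : SL(2, ℤ)) 1 0 := by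
    rw [Subgroup.coe_mul, Subgroup.coe_inv, SpecialLinearGroup.SL2_inv_expl]
    simp [Matrix.mul_apply, Fin.sum_univ_two]
    try ring
  rw [mem_Gamma0_iff] at h3 ⊢
  rw [h4] at h3 ⊢
  push_cast
  constructor
  · intro h; exact (dvd_mul_left _ _).trans h
  · intro h
    exact IsCoprime.mul_dvd (Nat.isCoprime_iff_coprime.mpr hq.symm) h3 h

/-- The trace as a sum over arbitrary representatives. -/
theorem tr_eq_sum {N q : ℕ} [NeZero (N * q)] (hq : q.Coprime N) {F : 𝒳} (hF : A.Inv (N * q) F)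
    {J : Type*} [Fintype J] (γ : J → Gamma0 N)
    (hγ : Function.Bijective fun j ↦ (((γ j)⁻¹ : Gamma0 N) : Qt N q)) :
    A.tr N q F = ∑ j, A.act (ι ((γ j : Gamma0 N) : SL(2, ℤ))) F := by
  rw [tr, ← Equiv.sum_comp (Equiv.ofBijective _ hγ)]
  refine Finset.sum_congr rfl fun j _ ↦ ?_
  rw [Equiv.ofBijective_apply]
  set z := (((((γ j)⁻¹ : Gamma0 N) : Qt N q)).out : Gamma0 N) with hz
  have h1 : (((z⁻¹)⁻¹ : Gamma0 N) : Qt N q) = (((γ j)⁻¹ : Gamma0 N) : Qt N q) := by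
    rw [inv_inv, hz, QuotientGroup.out_eq']
  rw [Qt_eq_iff hq] at h1
  have h2 := hF.act_eq hq (z⁻¹).2 (γ j).2 h1
  rw [Subgroup.coe_inv] at h2
  exact h2

theorem tr_inv {N q : ℕ} [NeZero (N * q)] (hq : q.Coprime N) {F : 𝒳} (hF : A.Inv (N * q) F) :
    A.Inv N (A.tr N q F) := by
  intro γ hγ
  have h1 := tr_eq_sum hq hF (J := Qt N q) (fun z ↦ (z.out : Gamma0 N)⁻¹ * ⟨γ, hγ⟩) (by
    rw [Finite.injective_iff_bijective.symm]
    intro z z' h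
    simp only [_root_.mul_inv_rev, inv_inv] at h
    have h2 := congrArg (fun w : Qt N q ↦ (⟨γ, hγ⟩ : Gamma0 N) • w) h
    simp only [MulAction.Quotient.smul_coe, smul_eq_mul, mul_inv_cancel_left] at h2
    rwa [QuotientGroup.out_eq', QuotientGroup.out_eq'] at h2)
  conv_rhs => rw [h1]
  rw [tr, map_sum]
  refine Finset.sum_congr rfl fun z _ ↦ ?_
  rw [← A.act_mul, ← ι_mul]
  rfl

end RA

end Fermat.Agent.H16.LR
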