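import Mathlib
import Fermat.Agent.H16.LR.Act

/-!
# Hecke identities
-/

set_option autoImplicit false

open Matrix ModularGroup CongruenceSubgroup
open scoped MatrixGroups

noncomputable section

namespace Fermat.Agent.H16.LR

theorem gq_mul' {a b c d a' b' c' d' e f g k : ℚ} (h : a * d - b * c ≠ 0)
    (h' : a' * d' - b' * c' ≠ 0) (h1 : a * a' + b * c' = e) (h2 : a * b' + b * d' = f)
    (h3 : c * a' + d * c' = g) (h4 : c * b' + d * d' = k) :
    gq a b c d * gq a' b' c' d' = gq e f g k := by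
  rw [gq_mul h h', h1, h2, h3, h4]

/-- Periodic sums. -/
theorem sum_range_periodic {𝒳 : Type*} [AddCommMonoid 𝒳] {l : ℕ} (hl : 0 < l) (G : ℤ → 𝒳)
    (hG : ∀ b b' : ℤ, (l : ℤ) ∣ b - b' → G b = G b') {q : ℤ} (hq : IsCoprime q l) :
    ∑ b ∈ Finset.range l, G (q * b) = ∑ b ∈ Finset.range l, G b := by
  have : NeZero l := ⟨hl.ne'⟩
  have key : ∀ H : ℤ → 𝒳, (∀ b b' : ℤ, (l : ℤ) ∣ b - b' → H b = H b') →
      ∑ b ∈ Finset.range l, H b = ∑ z : ZMod l, H z.val := by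
    intro H hH
    rw [Finset.sum_range (fun b : ℕ ↦ H (b : ℤ))]
    refine Fintype.sum_equiv (ZMod.finEquiv l).toEquiv _ _ fun i ↦ ?_
    apply hH
    have h1 : ((ZMod.finEquiv l).toEquiv i).val = (i : ℕ) := by
      obtain ⟨n, rfl⟩ := Nat.exists_eq_succ_of_ne_zero hl.ne'
      rfl
    rw [h1]
    simp
  rw [key G hG, key (fun b ↦ G (q * b)) (fun b b' h ↦ hG _ _ (by
    rw [← mul_sub]; exact dvd_mul_of_dvd_right h _))]
  have hu : IsUnit ((q : ℤ) : ZMod l) := by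
    exact (ZMod.coe_int_isUnit_iff_isCoprime q l).mpr hq.symm
  obtain ⟨u, hu⟩ := hu
  refine Fintype.sum_equiv (Units.mulLeft u) _ _ fun z ↦ ?_
  apply hG
  rw [← ZMod.intCast_zmod_eq_zero_iff_dvd]
  push_cast
  rw [ZMod.natCast_zmod_val, ZMod.natCast_zmod_val, ← hu]
  simp

namespace RA

variable {𝒳 : Type*} [AddCommGroup 𝒳] {A : RA 𝒳}

theorem act_act {a b c d a' b' c' d' e f g k : ℚ} (h : a * d - b * c ≠ 0)
    (h' : a' * d' - b' * c' ≠ 0) (h1 : a * a' + b * c' = e) (h2 : a * b' + b * d' = f)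
    (h3 : c * a' + d * c' = g) (h4 : c * b' + d * d' = k) (x : 𝒳) :
    A.act (gq a' b' c' d') (A.act (gq a b c d) x) = A.act (gq e f g k) x := by
  rw [← A.act_mul, gq_mul' h h' h1 h2 h3 h4]

theorem act_scale {n a b c d e f g k : ℚ} (hn : n ≠ 0) (h : a * d - b * c ≠ 0)
    (h1 : n * a = e) (h2 : n * b = f) (h3 : n * c = g) (h4 : n * d = k) (x : 𝒳) :
    A.act (gq e f g k) x = A.act (gq a b c d) x := by
  have h0 : n * n - 0 * 0 ≠ 0 := by simpa using hn
  rw [← gq_mul' h0 h (e := e) (f := f) (g := g) (k := k) (by linarith) (by linarith)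
    (by linarith) (by linarith), A.act_mul, A.act_sc n hn]

theorem Inv.act_left {M : ℕ} {F : 𝒳} (hF : A.Inv M F) {a b c d : ℤ} (h : a * d - b * c = 1)
    (hc : (M : ℤ) ∣ c) {a' b' c' d' e f g k : ℚ} (h' : a' * d' - b' * c' ≠ 0)
    (h1 : a * a' + b * c' = e) (h2 : a * b' + b * d' = f)
    (h3 : c * a' + d * c' = g) (h4 : c * b' + d * d' = k) :
    A.act (gq e f g k) F = A.act (gq a' b' c' d') F := by
  have h0 : (a : ℚ) * d - b * c ≠ 0 := by
    have : (a : ℚ) * d - b * c = 1 := by exact_mod_cast h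
    rw [this]; exact one_ne_zero
  rw [← gq_mul' h0 h' h1 h2 h3 h4, A.act_mul, ← ι_sl h, hF _ (sl_mem h hc)]

theorem Inv.act_sl {M : ℕ} {F : 𝒳} (hF : A.Inv M F) {a b c d : ℤ} (h : a * d - b * c = 1)
    (hc : (M : ℤ) ∣ c) : A.act (gq a b c d) F = F := by
  rw [← ι_sl h, hF _ (sl_mem h hc)]

/-- Atkin–Lehner matrices. -/
structure WQ (N q : ℕ) where
  x : ℤ
  y : ℤ
  z : ℤ
  t : ℤ
  det : q * x * t - N * y * z = 1

/-- The matrix. -/
def WQ.mat {N q : ℕ} (w : WQ N q) : GL (Fin 2) ℚ := gq (q * w.x) w.y (N * q * w.z) (q * w.t)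

theorem WQ.detq {N q : ℕ} (w : WQ N q) : (q : ℚ) * w.x * w.t - N * w.y * w.z = 1 := by
  exact_mod_cast w.det

theorem WQ.det_ne {N q : ℕ} (hq : q ≠ 0) (w : WQ N q) :
    (q * w.x : ℚ) * (q * w.t) - w.y * (N * q * w.z) ≠ 0 := by
  have h := w.detq
  have : (q * w.x : ℚ) * (q * w.t) - w.y * (N * q * w.z) = q * (q * w.x * w.t - N * w.y * w.z) := by
    ring
  rw [this, h, mul_one]
  exact_mod_cast hq

/-- An Atkin–Lehner matrix with good congruence properties. -/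
theorem exists_WQ {N q : ℕ} (hqN : q.Coprime N) (l : ℕ) (hl : q.Coprime l) :
    ∃ w : WQ N q, (l : ℤ) ∣ w.y ∧ (l : ℤ) ∣ w.z := by
  have h1 : IsCoprime (q : ℤ) ((N : ℤ) * ((l : ℤ) * l)) := by
    have h2 : q.Coprime (N * (l * l)) := Nat.Coprime.mul_right hqN (Nat.Coprime.mul_right hl hl)
    exact_mod_cast Nat.isCoprime_iff_coprime.mpr h2
  obtain ⟨u, v, huv⟩ := h1
  exact ⟨⟨u, -(v * l), l, 1, by linear_combination huv⟩, ⟨-v, by ring⟩, dvd_rfl⟩

theorem Inv.act_WQ {N q : ℕ} (hq : q ≠ 0) {F : 𝒳} (hF : A.Inv (N * q) F) (w w' : WQ N q) :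
    A.act w.mat F = A.act w'.mat F := by
  have h := w.det
  have h' := w'.det
  refine hF.act_left (a := q * w.x * w'.t - w.y * (N * w'.z)) (b := w.y * w'.x - w.x * w'.y)
    (c := N * q * (w.z * w'.t - w.t * w'.z)) (d := q * w.t * w'.x - N * w.z * w'.y) ?_ ?_
    (w'.det_ne hq) ?_ ?_ ?_ ?_
  · linear_combination (w'.det) + (q * w'.x * w'.t - N * w'.y * w'.z) * h
  · push_cast
    exact dvd_mul_right _ _
  all_goals
    have hq' := w'.detq
    have hq := w.detq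
    push_cast
  · linear_combination (q * w.x) * hq'
  · linear_combination (w.y) * hq'
  · linear_combination (N * q * w.z) * hq'
  · linear_combination (q * w.t) * hq'

theorem Inv.inv_WQ {N q : ℕ} (hq : q ≠ 0) {F : 𝒳} (hF : A.Inv (N * q) F) (w : WQ N q) :
    A.Inv (N * q) (A.act w.mat F) := by
  intro γ hγ
  rw [mem_Gamma0_iff] at hγ
  obtain ⟨c, hc⟩ := hγ
  have hd := det_eq γ
  have hw := w.det
  set a := γ 0 0
  set b := γ 0 1
  set d := γ 1 1
  push_cast at hc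
  rw [← A.act_mul, ι_eq, hc]
  rw [WQ.mat, gq_mul' (w.det_ne hq) (a' := a) (b' := b) (c' := ((N * q * c : ℤ) : ℚ)) (d' := d) ?_ rfl rfl rfl rfl]
  · refine hF.act_left (a := (w.x * a + w.y * N * c) * (q * w.t) - (q * w.x * b + w.y * d) * (N * w.z))
      (b := -(w.x * a + w.y * N * c) * w.y + (q * w.x * b + w.y * d) * w.x)
      (c := N * q * ((w.z * a + q * w.t * c) * w.t - (N * w.z * b + w.t * d) * w.z))
      (d := -N * (w.z * a + q * w.t * c) * w.y + q * (N * w.z * b + w.t * d) * w.x) ?_ ?_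
      (w.det_ne hq) ?_ ?_ ?_ ?_
    · have h3 : a * d - b * (N * q * c) = 1 := by rw [← hc]; exact hd
      linear_combination hw + (q * w.x * w.t - N * w.y * w.z) * hw + (q * w.x * w.t - N * w.y * w.z) ^ 2 * h3
    · push_cast
      exact dvd_mul_right _ _
    all_goals
      have hw' := w.detq
      push_cast
    · linear_combination (q * w.x * a + w.y * (N * q * c)) * hw'
    · linear_combination (q * w.x * b + w.y * d) * hw'
    · linear_combination (N * q * w.z * a + q * w.t * (N * q * c)) * hw'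
    · linear_combination (N * q * w.z * b + q * w.t * d) * hw'
  · have h3 : (a : ℚ) * d - b * ((N * q * c : ℤ) : ℚ) = 1 := by
      rw [← hc]; exact_mod_cast hd
    rw [h3]; exact one_ne_zero

theorem Inv.WQ_WQ {N q : ℕ} (hq : q ≠ 0) {F : 𝒳} (hF : A.Inv (N * q) F) (w : WQ N q) :
    A.act w.mat (A.act w.mat F) = F := by
  have hq0 : (q : ℚ) ≠ 0 := by exact_mod_cast hq
  have hw' := w.detq
  have hw := w.det
  have e1 : ((q * w.x * w.x + N * w.y * w.z : ℤ) : ℚ) * ((N * w.y * w.z + q * w.t * w.t : ℤ) : ℚ) -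
    ((w.y * (w.x + w.t) : ℤ) : ℚ) * ((N * q * (w.z * (w.x + w.t)) : ℤ) : ℚ) ≠ 0 := by
    have : ((q * w.x * w.x + N * w.y * w.z : ℤ) : ℚ) * ((N * w.y * w.z + q * w.t * w.t : ℤ) : ℚ) -
      ((w.y * (w.x + w.t) : ℤ) : ℚ) * ((N * q * (w.z * (w.x + w.t)) : ℤ) : ℚ) = 1 := by
      push_cast
      linear_combination hw' + (q * w.x * w.t - N * w.y * w.z) * hw'
    rw [this]; exact one_ne_zero
  rw [WQ.mat, act_act (w.det_ne hq) (w.det_ne hq) rfl rfl rfl rfl,
    act_scale (n := q) (a := ((q * w.x * w.x + N * w.y * w.z : ℤ) : ℚ)) (b := ((w.y * (w.x + w.t) : ℤ) : ℚ))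
      (c := ((N * q * (w.z * (w.x + w.t)) : ℤ) : ℚ)) (d := ((N * w.y * w.z + q * w.t * w.t : ℤ) : ℚ)) hq0 e1]
  · refine hF.act_sl ?_ ?_
    · linear_combination hw + (q * w.x * w.t - N * w.y * w.z) * hw
    · push_cast; exact dvd_mul_right _ _
  all_goals (push_cast; ring)


theorem bij_of {N q : ℕ} [NeZero (N * q)] (hqN : q.Coprime N) {J : Type*} (γ : J → Gamma0 N)
    (h1 : ∀ j j', j ≠ j' → ¬ (q : ℤ) ∣ ((γ j : Gamma0 N) : SL(2, ℤ)) 1 0 * ((γ j' : Gamma0 N) : SL(2, ℤ)) 1 1 -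
      ((γ j : Gamma0 N) : SL(2, ℤ)) 1 1 * ((γ j' : Gamma0 N) : SL(2, ℤ)) 1 0)
    (h2 : ∀ c d : ℤ, ∃ j, (q : ℤ) ∣ ((γ j : Gamma0 N) : SL(2, ℤ)) 1 0 * d -
      ((γ j : Gamma0 N) : SL(2, ℤ)) 1 1 * c) :
    Function.Bijective fun j ↦ (((γ j)⁻¹ : Gamma0 N) : Qt N q) := by
  constructor
  · intro j j' hjj
    by_contra hne
    exact h1 j j' hne ((Qt_eq_iff hqN (γ j) (γ j')).mp hjj)
  · intro z
    induction z using QuotientGroup.induction_on with
    | H g =>
      obtain ⟨j, hj⟩ := h2 (((g⁻¹ : Gamma0 N) : SL(2, ℤ)) 1 0) (((g⁻¹ : Gamma0 N) : SL(2, ℤ)) 1 1)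
      refine ⟨j, ?_⟩
      have := (Qt_eq_iff hqN (γ j) g⁻¹).mpr hj
      rwa [inv_inv] at this

/-- Representatives congruent to `1` modulo `K`. -/
def repK (K q : ℕ) (u : ℤ) : Option (Fin q) → SL(2, ℤ)
  | none => sl 1 (K * u) K (1 + K * K * u) (by ring)
  | some k => sl 1 0 (K * (k : ℕ)) 1 (by ring)

theorem repK_mem {K q N : ℕ} (h : N ∣ K) (u : ℤ) (j : Option (Fin q)) : repK K q u j ∈ Gamma0 N := by
  cases j with
  | none => exact sl_mem (by ring) (by exact_mod_cast h)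
  | some k => exact sl_mem (by ring) (dvd_mul_of_dvd_left (by exact_mod_cast h) _)

theorem repK_cross {K q : ℕ} (hK : K.Coprime q) (hq : q.Prime) (u : ℤ)
    (hu : (q : ℤ) ∣ 1 + K * K * u) (j j' : Option (Fin q)) (hne : j ≠ j') :
    ¬ (q : ℤ) ∣ (repK K q u j) 1 0 * (repK K q u j') 1 1 -
      (repK K q u j) 1 1 * (repK K q u j') 1 0 := by
  have hKq : ¬ (q : ℤ) ∣ K := by
    intro h
    have := Int.natCast_dvd_natCast.mp h
    exact hq.one_lt.ne' (Nat.eq_one_of_dvd_coprimes hK this dvd_rfl)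
  have hp : Prime (q : ℤ) := Nat.prime_iff_prime_int.mp hq
  match j, j' with
  | none, none => exact absurd rfl hne
  | none, some k =>
    intro h
    have h' : (q : ℤ) ∣ K * 1 - (1 + K * K * u) * (K * (k : ℕ)) := h
    have h2 : (q : ℤ) ∣ K := by
      have := dvd_add h' (dvd_mul_of_dvd_left hu (K * (k : ℕ)))
      rwa [sub_add_cancel, mul_one] at this
    exact hKq h2
  | some k, none =>
    intro h
    have h' : (q : ℤ) ∣ (K * (k : ℕ)) * (1 + K * K * u) - 1 * K := h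
    have h2 : (q : ℤ) ∣ K := by
      have := dvd_sub (dvd_mul_of_dvd_right hu (K * (k : ℕ))) h'
      rwa [sub_sub_cancel, one_mul] at this
    exact hKq h2
  | some k, some k' =>
    intro h
    have h' : (q : ℤ) ∣ (K * (k : ℕ)) * 1 - 1 * (K * (k' : ℕ)) := h
    have h2 : (q : ℤ) ∣ K * ((k : ℕ) - (k' : ℕ)) := by
      have e : (K : ℤ) * ((k : ℕ) - (k' : ℕ)) = (K * (k : ℕ)) * 1 - 1 * (K * (k' : ℕ)) := by ring
      rw [e]; exact h'
    rcases hp.dvd_or_dvd h2 with h3 | h3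
    · exact hKq h3
    · apply hne
      congr 1
      have hk := k.2
      have hk' := k'.2
      obtain ⟨m, hm⟩ := h3
      have h4 : ((k : ℕ) : ℤ) < q := by exact_mod_cast hk
      have h5 : ((k' : ℕ) : ℤ) < q := by exact_mod_cast hk'
      have h6 : (0 : ℤ) ≤ ((k : ℕ) : ℤ) := by positivity
      have h7 : (0 : ℤ) ≤ ((k' : ℕ) : ℤ) := by positivity
      have hm0 : m = 0 := by nlinarith
      rw [hm0, mul_zero] at hm
      ext
      omega

theorem repK_surj {K q : ℕ} (hK : K.Coprime q) (hq : q.Prime) (u : ℤ)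
    (hu : (q : ℤ) ∣ 1 + K * K * u) (c d : ℤ) : ∃ j,
    (q : ℤ) ∣ (repK K q u j) 1 0 * d - (repK K q u j) 1 1 * c := by
  have : Fact q.Prime := ⟨hq⟩
  have hKq : (K : ZMod q) ≠ 0 := by
    intro h
    rw [ZMod.natCast_eq_zero_iff] at h
    exact hq.one_lt.ne' (Nat.eq_one_of_dvd_coprimes hK h dvd_rfl)
  by_cases hd : (d : ZMod q) = 0
  · refine ⟨none, ?_⟩
    show (q : ℤ) ∣ K * d - (1 + K * K * u) * c
    exact dvd_sub (dvd_mul_of_dvd_right ((ZMod.intCast_zmod_eq_zero_iff_dvd _ _).mp hd) _)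
      (dvd_mul_of_dvd_left hu _)
  · refine ⟨some ⟨((c : ZMod q) / (K * d)).val, ZMod.val_lt _⟩, ?_⟩
    show (q : ℤ) ∣ K * ((((c : ZMod q) / (K * d)).val : ℕ) : ℤ) * d - 1 * c
    rw [← ZMod.intCast_zmod_eq_zero_iff_dvd]
    push_cast
    rw [ZMod.natCast_zmod_val]
    field_simp
    ring

/-- Trace via representatives congruent to `1` modulo `K`. -/
theorem tr_eq_repK {N q : ℕ} [NeZero (N * q)] (hqN : q.Coprime N) (hq : q.Prime) {F : 𝒳}
    (hF : A.Inv (N * q) F) {K : ℕ} (hNK : N ∣ K) (hK : K.Coprime q) (u : ℤ)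
    (hu : (q : ℤ) ∣ 1 + K * K * u) :
    A.tr N q F = ∑ j, A.act (ι (repK K q u j)) F :=
  tr_eq_sum hqN hF (fun j ↦ (⟨repK K q u j, repK_mem hNK u j⟩ : Gamma0 N))
    (bij_of hqN _ (fun j j' hne ↦ repK_cross hK hq u hu j j' hne)
      (fun c d ↦ repK_surj hK hq u hu c d))

theorem exists_u {K q : ℕ} (hK : K.Coprime q) : ∃ u : ℤ, (q : ℤ) ∣ 1 + K * K * u := by
  have h : IsCoprime ((K : ℤ) * K) (q : ℤ) := by
    exact_mod_cast Nat.isCoprime_iff_coprime.mpr (Nat.Coprime.mul_left hK hK)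
  obtain ⟨a, b, hab⟩ := h
  exact ⟨-a, ⟨b, by linear_combination -hab⟩⟩


/-- Conjugated representatives. -/
def repU (N l q : ℕ) (u β : ℤ) : Option (Fin q) → SL(2, ℤ)
  | none => sl (1 + β * (l * N)) (N * (-(β * β) + u + β * (l * N) * u)) (l * (l * N))
      (-(β * (l * N)) + 1 + (l * N) * (l * N) * u) (by ring)
  | some k => sl (1 + β * (l * N * (k : ℕ))) (-(β * β * N * (k : ℕ))) (l * (l * N * (k : ℕ)))
      (1 - β * (l * N * (k : ℕ))) (by ring)

/-- Conjugated representatives. -/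
def repD (N l q : ℕ) (u : ℤ) : Option (Fin q) → SL(2, ℤ)
  | none => sl 1 (l * (l * N) * u) N (1 + (l * N) * (l * N) * u) (by ring)
  | some k => sl 1 0 (N * (k : ℕ)) 1 (by ring)

theorem repU_mem {N l q : ℕ} (u β : ℤ) (j : Option (Fin q)) : repU N l q u β j ∈ Gamma0 N := by
  cases j with
  | none => exact sl_mem (by ring) ⟨l * l, by ring⟩
  | some k => exact sl_mem (by ring) ⟨l * l * (k : ℕ), by ring⟩

theorem repD_mem {N l q : ℕ} (u : ℤ) (j : Option (Fin q)) : repD N l q u j ∈ Gamma0 N := by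
  cases j with
  | none => exact sl_mem (by ring) (by simp)
  | some k => exact sl_mem (by ring) (by simp)

theorem repU_10 {N l q : ℕ} (u β : ℤ) (j : Option (Fin q)) :
    repU N l q u β j 1 0 = l * (repK (l * N) q u j) 1 0 := by
  cases j with
  | none =>
    show ((l : ℤ) * (l * N)) = l * ((l * N : ℕ) : ℤ)
    push_cast; ring
  | some k =>
    show ((l : ℤ) * (l * N * (k : ℕ))) = l * (((l * N : ℕ) : ℤ) * (k : ℕ))
    push_cast; ring

theorem repU_11 {N l q : ℕ} (u β : ℤ) (j : Option (Fin q)) :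
    repU N l q u β j 1 1 = (repK (l * N) q u j) 1 1 - β * (repK (l * N) q u j) 1 0 := by
  cases j with
  | none =>
    show (-(β * (l * N)) + 1 + (l * N) * (l * N) * u : ℤ) = (1 + ((l * N : ℕ) : ℤ) * ((l * N : ℕ) : ℤ) * u)
      - β * ((l * N : ℕ) : ℤ)
    push_cast; ring
  | some k =>
    show (1 - β * (l * N * (k : ℕ)) : ℤ) = 1 - β * (((l * N : ℕ) : ℤ) * (k : ℕ))
    push_cast; ring

theorem repD_10 {N l q : ℕ} (u : ℤ) (j : Option (Fin q)) :
    l * repD N l q u j 1 0 = (repK (l * N) q u j) 1 0 := by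
  cases j with
  | none =>
    show ((l : ℤ) * N) = ((l * N : ℕ) : ℤ)
    push_cast; ring
  | some k =>
    show ((l : ℤ) * (N * (k : ℕ))) = (((l * N : ℕ) : ℤ) * (k : ℕ))
    push_cast; ring

theorem repD_11 {N l q : ℕ} (u : ℤ) (j : Option (Fin q)) :
    repD N l q u j 1 1 = (repK (l * N) q u j) 1 1 := by
  cases j with
  | none =>
    show (1 + (l * N) * (l * N) * u : ℤ) = (1 + ((l * N : ℕ) : ℤ) * ((l * N : ℕ) : ℤ) * u)
    push_cast; ring
  | some k => rfl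

theorem repU_bij {N l q : ℕ} [NeZero (N * q)] (hqN : q.Coprime N) (hq : q.Prime)
    (hlq : l.Coprime q) (u β : ℤ) (hu : (q : ℤ) ∣ 1 + ((l * N : ℕ) : ℤ) * ((l * N : ℕ) : ℤ) * u) :
    Function.Bijective fun j ↦
      (((⟨repU N l q u β j, repU_mem u β j⟩ : Gamma0 N)⁻¹ : Gamma0 N) : Qt N q) := by
  have hp : Prime (q : ℤ) := Nat.prime_iff_prime_int.mp hq
  have hK : (l * N).Coprime q := Nat.Coprime.mul_left hlq hqN.symm
  have hl : ¬ (q : ℤ) ∣ l := by
    intro h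
    have := Int.natCast_dvd_natCast.mp h
    exact hq.one_lt.ne' (Nat.eq_one_of_dvd_coprimes hlq this dvd_rfl)
  refine bij_of hqN _ (fun j j' hne h ↦ ?_) (fun c d ↦ ?_)
  · dsimp only at h
    rw [repU_10, repU_10, repU_11, repU_11] at h
    refine repK_cross hK hq u hu j j' hne ?_
    rcases hp.dvd_or_dvd (a := (l : ℤ)) (b := (repK (l * N) q u j) 1 0 * (repK (l * N) q u j') 1 1 -
      (repK (l * N) q u j) 1 1 * (repK (l * N) q u j') 1 0) (by
        have e : (l : ℤ) * ((repK (l * N) q u j) 1 0 * (repK (l * N) q u j') 1 1 -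
          (repK (l * N) q u j) 1 1 * (repK (l * N) q u j') 1 0) =
          l * (repK (l * N) q u j) 1 0 * ((repK (l * N) q u j') 1 1 - β * (repK (l * N) q u j') 1 0) -
          ((repK (l * N) q u j) 1 1 - β * (repK (l * N) q u j) 1 0) *
            (l * (repK (l * N) q u j') 1 0) := by ring
        rw [e]; exact h) with h1 | h1
    · exact absurd h1 hl
    · exact h1
  · obtain ⟨j, hj⟩ := repK_surj hK hq u hu c (l * d + β * c)
    refine ⟨j, ?_⟩
    dsimp only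
    rw [repU_10, repU_11]
    convert hj using 1
    ring

theorem repD_bij {N l q : ℕ} [NeZero (N * q)] (hqN : q.Coprime N) (hq : q.Prime)
    (hlq : l.Coprime q) (u : ℤ) (hu : (q : ℤ) ∣ 1 + ((l * N : ℕ) : ℤ) * ((l * N : ℕ) : ℤ) * u) :
    Function.Bijective fun j ↦
      (((⟨repD N l q u j, repD_mem u j⟩ : Gamma0 N)⁻¹ : Gamma0 N) : Qt N q) := by
  have hp : Prime (q : ℤ) := Nat.prime_iff_prime_int.mp hq
  have hK : (l * N).Coprime q := Nat.Coprime.mul_left hlq hqN.symm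
  have hl : ¬ (q : ℤ) ∣ l := by
    intro h
    have := Int.natCast_dvd_natCast.mp h
    exact hq.one_lt.ne' (Nat.eq_one_of_dvd_coprimes hlq this dvd_rfl)
  refine bij_of hqN _ (fun j j' hne h ↦ ?_) (fun c d ↦ ?_)
  · dsimp only at h
    rw [repD_11, repD_11] at h
    refine repK_cross hK hq u hu j j' hne ?_
    rw [← repD_10, ← repD_10]
    have e : (l * repD N l q u j 1 0) * (repK (l * N) q u j') 1 1 -
        (repK (l * N) q u j) 1 1 * (l * repD N l q u j' 1 0) =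
        l * (repD N l q u j 1 0 * (repK (l * N) q u j') 1 1 -
        (repK (l * N) q u j) 1 1 * (repD N l q u j' 1 0)) := by ring
    rw [e]
    exact dvd_mul_of_dvd_right h (l : ℤ)
  · obtain ⟨j, hj⟩ := repK_surj hK hq u hu (l * c) d
    refine ⟨j, ?_⟩
    dsimp only
    rw [repD_11]
    rw [← repD_10] at hj
    rcases hp.dvd_or_dvd (a := (l : ℤ)) (b := repD N l q u j 1 0 * d - (repK (l * N) q u j) 1 1 * c) (by
        have e : (l : ℤ) * (repD N l q u j 1 0 * d - (repK (l * N) q u j) 1 1 * c) =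
          l * repD N l q u j 1 0 * d - (repK (l * N) q u j) 1 1 * (l * c) := by ring
        rw [e]; exact hj) with h1 | h1
    · exact absurd h1 hl
    · exact h1

theorem repU_conj {N l q : ℕ} (hl : l ≠ 0) (u β : ℤ) (j : Option (Fin q)) :
    gq 1 β 0 l * ι (repK (l * N) q u j) = ι (repU N l q u β j) * gq 1 β 0 l := by
  have hl' : (l : ℚ) ≠ 0 := by exact_mod_cast hl
  have h0 : (1 : ℚ) * l - β * 0 ≠ 0 := by simpa using hl'
  cases j with
  | none =>
    have e1 : (1 : ℤ) * (1 + ((l * N : ℕ) : ℤ) * ((l * N : ℕ) : ℤ) * u) - (((l * N : ℕ) : ℤ) * u) * ((l * N : ℕ) : ℤ) = 1 := by ring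
    have e2 : (1 + β * (l * N)) * (-(β * (l * N)) + 1 + (l * N) * (l * N) * u) -
      (N * (-(β * β) + u + β * (l * N) * u)) * (l * (l * N)) = 1 := by ring
    have e3 : ι (repK (l * N) q u none) = gq ((1 : ℤ)) ((((l * N : ℕ) : ℤ) * u : ℤ)) (((l * N : ℕ) : ℤ) : ℤ)
      ((1 + ((l * N : ℕ) : ℤ) * ((l * N : ℕ) : ℤ) * u : ℤ)) := ι_sl e1
    have e4 : ι (repU N l q u β none) = gq ((1 + β * (l * N) : ℤ)) ((N * (-(β * β) + u + β * (l * N) * u) : ℤ))
      ((l * (l * N) : ℤ)) ((-(β * (l * N)) + 1 + (l * N) * (l * N) * u : ℤ)) := ι_sl e2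
    rw [e3, e4, gq_mul' h0 ?_ rfl rfl rfl rfl, gq_mul' ?_ h0 ?_ ?_ ?_ ?_]
    · exact_mod_cast (by rw [e2]; exact one_ne_zero :
        (1 + β * (l * N)) * (-(β * (l * N)) + 1 + (l * N) * (l * N) * u) -
        (N * (-(β * β) + u + β * (l * N) * u)) * (l * (l * N)) ≠ 0)
    · push_cast; ring
    · push_cast; ring
    · push_cast; ring
    · push_cast; ring
    · exact_mod_cast (by rw [e1]; exact one_ne_zero : (1 : ℤ) * (1 + ((l * N : ℕ) : ℤ) * ((l * N : ℕ) : ℤ) * u) - (((l * N : ℕ) : ℤ) * u) * ((l * N : ℕ) : ℤ) ≠ 0)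
  | some k =>
    have e1 : (1 : ℤ) * 1 - 0 * (((l * N : ℕ) : ℤ) * (k : ℕ)) = 1 := by ring
    have e2 : (1 + β * (l * N * (k : ℕ))) * (1 - β * (l * N * (k : ℕ))) -
      (-(β * β * N * (k : ℕ))) * (l * (l * N * (k : ℕ))) = 1 := by ring
    have e3 : ι (repK (l * N) q u (some k)) = gq ((1 : ℤ)) ((0 : ℤ)) ((((l * N : ℕ) : ℤ) * (k : ℕ) : ℤ))
      ((1 : ℤ)) := ι_sl e1
    have e4 : ι (repU N l q u β (some k)) = gq ((1 + β * (l * N * (k : ℕ)) : ℤ)) ((-(β * β * N * (k : ℕ)) : ℤ))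
      ((l * (l * N * (k : ℕ)) : ℤ)) ((1 - β * (l * N * (k : ℕ)) : ℤ)) := ι_sl e2
    rw [e3, e4, gq_mul' h0 ?_ rfl rfl rfl rfl, gq_mul' ?_ h0 ?_ ?_ ?_ ?_]
    · exact_mod_cast (by rw [e2]; exact one_ne_zero :
        (1 + β * (l * N * (k : ℕ))) * (1 - β * (l * N * (k : ℕ))) -
      (-(β * β * N * (k : ℕ))) * (l * (l * N * (k : ℕ))) ≠ 0)
    · push_cast; ring
    · push_cast; ring
    · push_cast; ring
    · push_cast; ring
    · norm_num

theorem repD_conj {N l q : ℕ} (hl : l ≠ 0) (u : ℤ) (j : Option (Fin q)) :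
    gq l 0 0 1 * ι (repK (l * N) q u j) = ι (repD N l q u j) * gq l 0 0 1 := by
  have hl' : (l : ℚ) ≠ 0 := by exact_mod_cast hl
  have h0 : (l : ℚ) * 1 - 0 * 0 ≠ 0 := by simpa using hl'
  cases j with
  | none =>
    have e1 : (1 : ℤ) * (1 + ((l * N : ℕ) : ℤ) * ((l * N : ℕ) : ℤ) * u) - (((l * N : ℕ) : ℤ) * u) * ((l * N : ℕ) : ℤ) = 1 := by ring
    have e2 : (1 : ℤ) * (1 + (l * N) * (l * N) * u) - (l * (l * N) * u) * N = 1 := by ring
    have e3 : ι (repK (l * N) q u none) = gq ((1 : ℤ)) ((((l * N : ℕ) : ℤ) * u : ℤ)) (((l * N : ℕ) : ℤ) : ℤ)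
      ((1 + ((l * N : ℕ) : ℤ) * ((l * N : ℕ) : ℤ) * u : ℤ)) := ι_sl e1
    have e4 : ι (repD N l q u none) = gq ((1 : ℤ)) ((l * (l * N) * u : ℤ))
      ((N : ℤ)) ((1 + (l * N) * (l * N) * u : ℤ)) := ι_sl e2
    rw [e3, e4, gq_mul' h0 ?_ rfl rfl rfl rfl, gq_mul' ?_ h0 ?_ ?_ ?_ ?_]
    · exact_mod_cast (by rw [e2]; exact one_ne_zero :
        (1 : ℤ) * (1 + (l * N) * (l * N) * u) - (l * (l * N) * u) * N ≠ 0)
    · push_cast; ring
    · push_cast; ring
    · push_cast; ring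
    · push_cast; ring
    · exact_mod_cast (by rw [e1]; exact one_ne_zero : (1 : ℤ) * (1 + ((l * N : ℕ) : ℤ) * ((l * N : ℕ) : ℤ) * u) - (((l * N : ℕ) : ℤ) * u) * ((l * N : ℕ) : ℤ) ≠ 0)
  | some k =>
    have e1 : (1 : ℤ) * 1 - 0 * (((l * N : ℕ) : ℤ) * (k : ℕ)) = 1 := by ring
    have e2 : (1 : ℤ) * 1 - 0 * (N * (k : ℕ)) = 1 := by ring
    have e3 : ι (repK (l * N) q u (some k)) = gq ((1 : ℤ)) ((0 : ℤ)) ((((l * N : ℕ) : ℤ) * (k : ℕ) : ℤ))
      ((1 : ℤ)) := ι_sl e1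
    have e4 : ι (repD N l q u (some k)) = gq ((1 : ℤ)) ((0 : ℤ))
      ((N * (k : ℕ) : ℤ)) ((1 : ℤ)) := ι_sl e2
    rw [e3, e4, gq_mul' h0 ?_ rfl rfl rfl rfl, gq_mul' ?_ h0 ?_ ?_ ?_ ?_]
    · norm_num
    · push_cast; ring
    · push_cast; ring
    · push_cast; ring
    · push_cast; ring
    · norm_num

/-- The trace commutes with `U_l`. -/
theorem tr_UU {N q l : ℕ} [NeZero (N * q)] (hqN : q.Coprime N) (hq : q.Prime) (hl : l ≠ 0)
    (hlq : l.Coprime q) {F : 𝒳} (hF : A.Inv (N * q) F) (hUF : A.Inv (N * q) (A.UU l F)) :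
    A.tr N q (A.UU l F) = A.UU l (A.tr N q F) := by
  have hK : (l * N).Coprime q := Nat.Coprime.mul_left hlq hqN.symm
  obtain ⟨u, hu⟩ := exists_u hK
  rw [tr_eq_repK hqN hq hUF (K := l * N) (Dvd.intro_left l rfl) hK u hu]
  simp only [UU, map_sum]
  rw [Finset.sum_comm]
  refine Finset.sum_congr rfl fun b _ ↦ ?_
  rw [tr_eq_sum hqN hF _ (repU_bij hqN hq hlq u b hu), map_sum]
  refine Finset.sum_congr rfl fun j _ ↦ ?_
  rw [← A.act_mul, ← A.act_mul]
  have := repU_conj (N := N) hl u b j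
  rw [Int.cast_natCast] at this
  rw [this]

/-- The trace commutes with `T_l`. -/
theorem tr_TT {N q l : ℕ} [NeZero (N * q)] (hqN : q.Coprime N) (hq : q.Prime) (hl : l ≠ 0)
    (hlq : l.Coprime q) {F : 𝒳} (hF : A.Inv (N * q) F) (hTF : A.Inv (N * q) (A.TT l F)) :
    A.tr N q (A.TT l F) = A.TT l (A.tr N q F) := by
  have hK : (l * N).Coprime q := Nat.Coprime.mul_left hlq hqN.symm
  obtain ⟨u, hu⟩ := exists_u hK
  rw [tr_eq_repK hqN hq hTF (K := l * N) (Dvd.intro_left l rfl) hK u hu]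
  simp only [TT, UU, map_sum, map_add, Finset.sum_add_distrib]
  congr 1
  · rw [tr_eq_sum hqN hF _ (repD_bij hqN hq hlq u hu), map_sum]
    refine Finset.sum_congr rfl fun j _ ↦ ?_
    rw [← A.act_mul, ← A.act_mul, repD_conj (N := N) hl u j]
  · rw [Finset.sum_comm]
    refine Finset.sum_congr rfl fun b _ ↦ ?_
    rw [tr_eq_sum hqN hF _ (repU_bij hqN hq hlq u b hu), map_sum]
    refine Finset.sum_congr rfl fun j _ ↦ ?_
    rw [← A.act_mul, ← A.act_mul]
    have := repU_conj (N := N) hl u b j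
    rw [Int.cast_natCast] at this
    rw [this]


/-- Representatives attached to an Atkin–Lehner matrix. -/
def repW {N q : ℕ} (w : WQ N q) : Option (Fin q) → SL(2, ℤ)
  | none => 1
  | some b => sl w.x (w.x * (b : ℕ) + w.y) (N * w.z) (N * w.z * (b : ℕ) + q * w.t)
      (by have := w.det; linear_combination this)

theorem repW_mem {N q : ℕ} (w : WQ N q) (j : Option (Fin q)) : repW w j ∈ Gamma0 N := by
  cases j with
  | none => exact one_mem _
  | some b => exact sl_mem (by have := w.det; linear_combination this) ⟨w.z, rfl⟩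

theorem WQ.not_dvd {N q : ℕ} (hq : q.Prime) (w : WQ N q) : ¬ (q : ℤ) ∣ N * w.z := by
  rintro ⟨m, hm⟩
  have h1 : (q : ℤ) ∣ 1 := ⟨w.x * w.t - w.y * m, by
    have := w.det; linear_combination -this - w.y * hm⟩
  have := Int.natCast_dvd_natCast.mp (by exact_mod_cast h1 : (q : ℤ) ∣ ((1 : ℕ) : ℤ))
  exact hq.one_lt.ne' (Nat.dvd_one.mp this)

theorem repW_bij {N q : ℕ} [NeZero (N * q)] (hqN : q.Coprime N) (hq : q.Prime) (w : WQ N q) :
    Function.Bijective fun j ↦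
      (((⟨repW w j, repW_mem w j⟩ : Gamma0 N)⁻¹ : Gamma0 N) : Qt N q) := by
  have hp : Prime (q : ℤ) := Nat.prime_iff_prime_int.mp hq
  have hz := w.not_dvd hq
  have : Fact q.Prime := ⟨hq⟩
  refine bij_of hqN _ (fun j j' hne h ↦ ?_) (fun c d ↦ ?_)
  · dsimp only at h
    match j, j' with
    | none, none => exact hne rfl
    | none, some b =>
      have h' : (q : ℤ) ∣ 0 * (N * w.z * (b : ℕ) + q * w.t) - 1 * (N * w.z) := h
      apply hz
      have e : (N * w.z : ℤ) = - (0 * (N * w.z * (b : ℕ) + q * w.t) - 1 * (N * w.z)) := by ring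
      rw [e]
      exact (dvd_neg).mpr h'
    | some b, none =>
      have h' : (q : ℤ) ∣ (N * w.z) * 1 - (N * w.z * (b : ℕ) + q * w.t) * 0 := h
      apply hz
      have e : (N * w.z : ℤ) = (N * w.z) * 1 - (N * w.z * (b : ℕ) + q * w.t) * 0 := by ring
      rw [e]
      exact h'
    | some b, some b' =>
      have h' : (q : ℤ) ∣ (N * w.z) * (N * w.z * (b' : ℕ) + q * w.t) -
        (N * w.z * (b : ℕ) + q * w.t) * (N * w.z) := h
      have e : (N * w.z) * (N * w.z * (b' : ℕ) + q * w.t) -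
        (N * w.z * (b : ℕ) + q * w.t) * (N * w.z) = (N * w.z) * ((N * w.z) * ((b' : ℕ) - (b : ℕ))) := by
        ring
      rw [e] at h'
      rcases hp.dvd_or_dvd h' with h1 | h1
      · exact hz h1
      rcases hp.dvd_or_dvd h1 with h3 | h3
      · exact hz h3
      · apply hne
        congr 1
        have hk := b.2
        have hk' := b'.2
        obtain ⟨m, hm⟩ := h3
        have h4 : ((b : ℕ) : ℤ) < q := by exact_mod_cast hk
        have h5 : ((b' : ℕ) : ℤ) < q := by exact_mod_cast hk'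
        have h6 : (0 : ℤ) ≤ ((b : ℕ) : ℤ) := by positivity
        have h7 : (0 : ℤ) ≤ ((b' : ℕ) : ℤ) := by positivity
        have hm0 : m = 0 := by nlinarith
        rw [hm0, mul_zero] at hm
        ext
        omega
  · by_cases hc : (c : ZMod q) = 0
    · refine ⟨none, ?_⟩
      show (q : ℤ) ∣ 0 * d - 1 * c
      rw [zero_mul, one_mul, zero_sub, dvd_neg]
      exact (ZMod.intCast_zmod_eq_zero_iff_dvd _ _).mp hc
    · refine ⟨some ⟨((d : ZMod q) / c).val, ZMod.val_lt _⟩, ?_⟩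
      show (q : ℤ) ∣ (N * w.z) * d - (N * w.z * ((((d : ZMod q) / c).val : ℕ) : ℤ) + q * w.t) * c
      rw [← ZMod.intCast_zmod_eq_zero_iff_dvd]
      push_cast
      rw [ZMod.natCast_zmod_val, ZMod.natCast_self]
      field_simp
      ring

theorem tr_eq_repW {N q : ℕ} [NeZero (N * q)] (hqN : q.Coprime N) (hq : q.Prime) {F : 𝒳}
    (hF : A.Inv (N * q) F) (w : WQ N q) :
    A.tr N q F = F + ∑ b ∈ Finset.range q, A.act (gq w.x (w.x * b + w.y) (N * w.z) (N * w.z * b + q * w.t)) F := by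
  rw [tr_eq_sum hqN hF _ (repW_bij hqN hq w), Fintype.sum_option]
  congr 1
  · show A.act (ι 1) F = F
    rw [ι_one, A.act_one]
  · rw [Finset.sum_range]
    refine Finset.sum_congr rfl fun b _ ↦ ?_
    have : ι (repW w (some b)) = gq ((w.x : ℤ)) ((w.x * (b : ℕ) + w.y : ℤ)) ((N * w.z : ℤ))
      ((N * w.z * (b : ℕ) + q * w.t : ℤ)) := ι_sl (by have := w.det; linear_combination this)
    show A.act (ι (repW w (some b))) F = _
    rw [this]
    push_cast
    rfl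

theorem WQ.det1 {N q : ℕ} (w : WQ N q) (b : ℚ) :
    (w.x : ℚ) * (N * w.z * b + q * w.t) - (w.x * b + w.y) * (N * w.z) ≠ 0 := by
  have := w.detq
  have e : (w.x : ℚ) * (N * w.z * b + q * w.t) - (w.x * b + w.y) * (N * w.z) = 1 := by
    linear_combination this
  rw [e]; exact one_ne_zero

/-- On level `N`, `w` acts as the degeneracy map. -/
theorem Inv.act_w {N q : ℕ} (hq : q ≠ 0) {f : 𝒳} (hf : A.Inv N f) (w : WQ N q) :
    A.act w.mat f = A.act (gq q 0 0 1) f := by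
  refine hf.act_left (a := w.x) (b := w.y) (c := N * w.z) (d := q * w.t) ?_ ?_ ?_ ?_ ?_ ?_ ?_
  · linear_combination w.det
  · exact dvd_mul_right _ _
  · simpa using hq
  all_goals (push_cast; ring)

theorem Inv.inv_act_w {N q : ℕ} (hq : q ≠ 0) {f : 𝒳} (hf : A.Inv N f) (w : WQ N q) :
    A.Inv (N * q) (A.act (gq q 0 0 1) f) := by
  rw [← hf.act_w hq w]
  exact (hf.mono (dvd_mul_right N q)).inv_WQ hq w

/-- `T_q` through level `Nq`. -/
theorem TT_eq_tr {N q : ℕ} [NeZero (N * q)] (hqN : q.Coprime N) (hq : q.Prime) {f : 𝒳}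
    (hf : A.Inv N f) : A.TT q f = A.tr N q (A.act (gq q 0 0 1) f) := by
  obtain ⟨w, -, -⟩ := exists_WQ hqN 1 (Nat.coprime_one_right q)
  have hq0 : (q : ℚ) ≠ 0 := by exact_mod_cast hq.ne_zero
  rw [tr_eq_repW hqN hq (hf.inv_act_w hq.ne_zero w) w, TT, UU]
  congr 1
  refine Finset.sum_congr rfl fun b _ ↦ ?_
  have hw := w.detq
  rw [act_act (by simpa using hq0) (w.det1 b) rfl rfl rfl rfl]
  symm
  refine hf.act_left (a := q * w.x) (b := w.y) (c := N * w.z) (d := w.t) ?_ ?_ (by simpa using hq0)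
    ?_ ?_ ?_ ?_
  · linear_combination w.det
  · exact dvd_mul_right _ _
  all_goals (push_cast; ring)

/-- The trace and `U_q`. -/
theorem tr_eq_UU {N q : ℕ} [NeZero (N * q)] (hqN : q.Coprime N) (hq : q.Prime) {F : 𝒳}
    (hF : A.Inv (N * q) F) (w : WQ N q) : A.tr N q F = F + A.UU q (A.act w.mat F) := by
  have hq0 : (q : ℚ) ≠ 0 := by exact_mod_cast hq.ne_zero
  rw [tr_eq_repW hqN hq hF w, UU]
  congr 1
  refine Finset.sum_congr rfl fun b _ ↦ ?_
  rw [WQ.mat, act_act (w.det_ne hq.ne_zero) (by simpa using hq0) rfl rfl rfl rfl]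
  symm
  refine act_scale hq0 (w.det1 b) ?_ ?_ ?_ ?_ F
  all_goals ring

theorem TT_inv {N q : ℕ} [NeZero (N * q)] (hqN : q.Coprime N) (hq : q.Prime) {f : 𝒳}
    (hf : A.Inv N f) : A.Inv N (A.TT q f) := by
  obtain ⟨w, -, -⟩ := exists_WQ hqN 1 (Nat.coprime_one_right q)
  rw [TT_eq_tr hqN hq hf]
  exact tr_inv hqN (hf.inv_act_w hq.ne_zero w)

/-- `T_l` commutes with the degeneracy map. -/
theorem TT_deg {N q l : ℕ} (hq : q ≠ 0) (hl : l ≠ 0) (hlq : l.Coprime q) {f : 𝒳}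
    (hf : A.Inv N f) :
    A.TT l (A.act (gq q 0 0 1) f) = A.act (gq q 0 0 1) (A.TT l f) := by
  have hq0 : (q : ℚ) ≠ 0 := by exact_mod_cast hq
  have hl0 : (l : ℚ) ≠ 0 := by exact_mod_cast hl
  simp only [TT, UU, map_add, map_sum]
  congr 1
  · rw [act_act (by simpa using hq0) (by simpa using hl0) rfl rfl rfl rfl,
      act_act (by simpa using hl0) (by simpa using hq0) rfl rfl rfl rfl]
    congr 3 <;> ring
  · have key := sum_range_periodic (Nat.pos_of_ne_zero hl) (fun b : ℤ ↦ A.act (gq q b 0 l) f) ?_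
      (q := q) (Nat.isCoprime_iff_coprime.mpr hlq.symm)
    · refine Eq.trans (Finset.sum_congr rfl fun b _ ↦ ?_) (key.trans (Finset.sum_congr rfl fun b _ ↦ ?_))
      · rw [act_act (by simpa using hq0) (by simpa using hl0) rfl rfl rfl rfl]
        congr 3 <;> push_cast <;> ring
      · rw [act_act (by simpa using hl0) (by simpa using hq0) rfl rfl rfl rfl]
        congr 3 <;> push_cast <;> ring
    · rintro b b' ⟨m, hm⟩
      refine hf.act_left (a := 1) (b := m) (c := 0) (d := 1) (by ring) (dvd_zero _)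
        (by simpa using ⟨hq, hl⟩) ?_ ?_ ?_ ?_
      · push_cast; ring
      · have : (b : ℚ) - b' = l * m := by exact_mod_cast hm
        push_cast; linear_combination -this
      · push_cast; ring
      · push_cast; ring


theorem act_w_diag {N q l : ℕ} (hq : q ≠ 0) (hl : l ≠ 0) {F : 𝒳} (hF : A.Inv (N * q) F)
    (w : WQ N q) (hz : (l : ℤ) ∣ w.z) :
    A.act (gq l 0 0 1) (A.act w.mat F) = A.act w.mat (A.act (gq l 0 0 1) F) := by
  have hl0 : (l : ℚ) ≠ 0 := by exact_mod_cast hl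
  obtain ⟨z', hz'⟩ := hz
  have hz'' : (w.z : ℚ) = l * z' := by exact_mod_cast hz'
  let w' : WQ N q := ⟨w.x, l * w.y, z', w.t, by
    have := w.det; rw [hz'] at this; linear_combination this⟩
  rw [hF.act_WQ hq w w', WQ.mat, WQ.mat,
    act_act (w'.det_ne hq) (by simpa using hl0) rfl rfl rfl rfl,
    act_act (by simpa using hl0) (w.det_ne hq) rfl rfl rfl rfl]
  show A.act (gq (q * w.x * l + ((l * w.y : ℤ) : ℚ) * 0) (q * w.x * 0 + ((l * w.y : ℤ) : ℚ) * 1)
    (N * q * z' * l + q * w.t * 0) (N * q * z' * 0 + q * w.t * 1)) F = _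
  congr 3
  · push_cast; ring
  · push_cast; ring
  · rw [hz'']; ring
  · ring

theorem act_w_UU {N q l : ℕ} (hq : q ≠ 0) (hl : l ≠ 0) (hlq : l.Coprime q) {F : 𝒳}
    (hF : A.Inv (N * q) F) (w : WQ N q) (hy : (l : ℤ) ∣ w.y) (hz : (l : ℤ) ∣ w.z) :
    A.UU l (A.act w.mat F) = A.act w.mat (A.UU l F) := by
  have hl0 : (l : ℚ) ≠ 0 := by exact_mod_cast hl
  obtain ⟨z', hz'⟩ := hz
  obtain ⟨y', hy'⟩ := hy
  have hz'' : (w.z : ℚ) = l * z' := by exact_mod_cast hz'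
  have hy'' : (w.y : ℚ) = l * y' := by exact_mod_cast hy'
  have hd := w.det
  -- `q x²` is the multiplier
  have hcop : IsCoprime ((q : ℤ) * (w.x * w.x)) l := by
    have h1 : IsCoprime ((q : ℤ) * w.x) l := by
      refine ⟨w.t, -(N * y' * w.z), ?_⟩
      rw [hy'] at hd
      linear_combination hd
    have h2 : IsCoprime (w.x : ℤ) l := IsCoprime.of_mul_left_right h1
    have h3 := h1.mul_left h2
    rwa [mul_assoc] at h3
  have key := sum_range_periodic (Nat.pos_of_ne_zero hl)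
    (fun b : ℤ ↦ A.act w.mat (A.act (gq 1 b 0 l) F)) ?_ hcop
  · rw [UU, UU, map_sum]
    refine Eq.trans (Finset.sum_congr rfl fun b _ ↦ ?_) (key.trans (Finset.sum_congr rfl fun b _ ↦ ?_))
    · have e1 : (-(b : ℤ) * (q * w.x + (q * (w.x * w.x) * b) * N * q * w.z) + w.y +
          (q * (w.x * w.x) * b) * q * w.t : ℤ) =
          l * (-(b : ℤ) * ((q * (w.x * w.x) * b) * N * q * z') + y' + q * w.x * b * (N * y' * w.z)) := by
        have hd' : (q : ℤ) * w.x * w.t - 1 = N * (l * y') * w.z := by rw [← hy']; linear_combination hd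
        rw [hz'] at hd' ⊢
        rw [hy']
        linear_combination (q * w.x * b) * hd'
      let w' : WQ N q := ⟨w.x + (q * (w.x * w.x) * b) * N * w.z,
        (-(b : ℤ) * ((q * (w.x * w.x) * b) * N * q * z') + y' + q * w.x * b * (N * y' * w.z)),
        l * w.z, w.t - (b : ℤ) * N * w.z, by
          linear_combination hd + N * w.z * e1⟩
      rw [hF.act_WQ hq w w', WQ.mat, WQ.mat,
        act_act (w'.det_ne hq) (by simpa using hl0) rfl rfl rfl rfl,
        act_act (by simpa using hl0) (w.det_ne hq) rfl rfl rfl rfl]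
      have e2 := congrArg (Int.cast : ℤ → ℚ) e1
      simp only [w']
      push_cast at e2 ⊢
      congr 3
      · ring
      · linear_combination -e2
      · ring
      · ring
    · rfl
  · rintro b b' ⟨m, hm⟩
    congr 1
    refine hF.act_left (a := 1) (b := m) (c := 0) (d := 1) (by ring) (dvd_zero _)
      (by simpa using hl) ?_ ?_ ?_ ?_
    · push_cast; ring
    · have : (b : ℚ) - b' = l * m := by exact_mod_cast hm
      push_cast; linear_combination -this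
    · push_cast; ring
    · push_cast; ring

/-- The Atkin–Lehner involution commutes with `T_l`. -/
theorem TT_w {N q l : ℕ} (hq : q ≠ 0) (hl : l ≠ 0) (hqN : q.Coprime N) (hlq : l.Coprime q) {F : 𝒳}
    (hF : A.Inv (N * q) F) (hTF : A.Inv (N * q) (A.TT l F)) (w : WQ N q) :
    A.TT l (A.act w.mat F) = A.act w.mat (A.TT l F) := by
  obtain ⟨w', hy, hz⟩ := exists_WQ hqN l hlq.symm
  rw [hF.act_WQ hq w w', hTF.act_WQ hq w w']
  simp only [TT, map_add]
  rw [act_w_diag hq hl hF w' hz, act_w_UU hq hl hlq hF w' hy hz]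

/-- The Atkin–Lehner involution commutes with `U_l`. -/
theorem UU_w {N q l : ℕ} (hq : q ≠ 0) (hl : l ≠ 0) (hqN : q.Coprime N) (hlq : l.Coprime q) {F : 𝒳}
    (hF : A.Inv (N * q) F) (hTF : A.Inv (N * q) (A.UU l F)) (w : WQ N q) :
    A.UU l (A.act w.mat F) = A.act w.mat (A.UU l F) := by
  obtain ⟨w', hy, hz⟩ := exists_WQ hqN l hlq.symm
  rw [hF.act_WQ hq w w', hTF.act_WQ hq w w', act_w_UU hq hl hlq hF w' hy hz]


/-- Hecke operators commute. -/
theorem TT_comm {N q l : ℕ} [NeZero N] (hq : q.Prime) (hl : l.Prime) (hqN : q.Coprime N)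
    (hlN : l.Coprime N) (hlq : l.Coprime q) {f : 𝒳} (hf : A.Inv N f) :
    A.TT l (A.TT q f) = A.TT q (A.TT l f) := by
  have : NeZero (N * q) := ⟨mul_ne_zero (NeZero.ne N) hq.ne_zero⟩
  have : NeZero (N * q * l) := ⟨mul_ne_zero (NeZero.ne _) hl.ne_zero⟩
  have : NeZero (N * l) := ⟨mul_ne_zero (NeZero.ne _) hl.ne_zero⟩
  obtain ⟨w, -, -⟩ := exists_WQ hqN 1 (Nat.coprime_one_right q)
  have hT : A.Inv N (A.TT l f) := TT_inv hlN hl hf
  have h1 : A.Inv (N * q) (A.act (gq q 0 0 1) f) := hf.inv_act_w hq.ne_zero w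
  have h2 : A.Inv (N * q) (A.TT l (A.act (gq q 0 0 1) f)) :=
    TT_inv (Nat.Coprime.mul_right hlN hlq) hl h1
  rw [TT_eq_tr hqN hq hf, TT_eq_tr hqN hq hT, ← TT_deg hq.ne_zero hl.ne_zero hlq hf,
    tr_TT hqN hq hl.ne_zero hlq h1 h2]

/-- The trace of a form of level `N`. -/
theorem tr_self {N q : ℕ} [NeZero (N * q)] (hqN : q.Coprime N) (hq : q.Prime) {f : 𝒳}
    (hf : A.Inv N f) : A.tr N q f = (q + 1) • f := by
  rw [tr]
  have : ∀ z : Qt N q, A.act (ι ((z.out : Gamma0 N) : SL(2, ℤ))⁻¹) f = f :=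
    fun z ↦ hf _ (inv_mem z.out.2)
  rw [Finset.sum_congr rfl (fun z _ ↦ this z), Finset.sum_const]
  congr 1
  obtain ⟨w, -, -⟩ := exists_WQ hqN 1 (Nat.coprime_one_right q)
  rw [Finset.card_univ, ← Fintype.card_congr (Equiv.ofBijective _ (repW_bij hqN hq w)),
    Fintype.card_option, Fintype.card_fin]


/-! ### The kernel of the two traces -/

/-- The kernel of `i⁺`. -/
structure Ker (A : RA 𝒳) (N q : ℕ) [NeZero (N * q)] (w : WQ N q) (F : 𝒳) : Prop where
  inv : A.Inv (N * q) F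
  tr0 : A.tr N q F = 0
  tr1 : A.tr N q (A.act w.mat F) = 0

theorem Ker.UU_q {N q : ℕ} [NeZero (N * q)] (hqN : q.Coprime N) (hq : q.Prime) {w : WQ N q} {F : 𝒳}
    (h : Ker A N q w F) : A.UU q F = - A.act w.mat F := by
  have h1 := tr_eq_UU hqN hq (h.inv.inv_WQ hq.ne_zero w) w
  rw [h.tr1, h.inv.WQ_WQ hq.ne_zero] at h1
  rw [eq_neg_iff_add_eq_zero, add_comm]
  exact h1.symm

theorem Ker.act_w {N q : ℕ} [NeZero (N * q)] (hq : q.Prime) {w : WQ N q} {F : 𝒳}
    (h : Ker A N q w F) : Ker A N q w (A.act w.mat F) :=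
  ⟨h.inv.inv_WQ hq.ne_zero w, h.tr1, by rw [h.inv.WQ_WQ hq.ne_zero]; exact h.tr0⟩

theorem tr_neg {N q : ℕ} [NeZero (N * q)] (F : 𝒳) : A.tr N q (-F) = - A.tr N q F := by
  simp [tr, Finset.sum_neg_distrib]

theorem tr_add {N q : ℕ} [NeZero (N * q)] (F F' : 𝒳) :
    A.tr N q (F + F') = A.tr N q F + A.tr N q F' := by
  simp [tr, Finset.sum_add_distrib]

theorem Ker.neg {N q : ℕ} [NeZero (N * q)] {w : WQ N q} {F : 𝒳} (h : Ker A N q w F) :
    Ker A N q w (-F) :=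
  ⟨fun γ hγ ↦ by rw [map_neg, h.inv γ hγ], by rw [tr_neg, h.tr0, neg_zero],
    by rw [map_neg, tr_neg, h.tr1, neg_zero]⟩

theorem Ker.UU_self {N q : ℕ} [NeZero (N * q)] (hqN : q.Coprime N) (hq : q.Prime) {w : WQ N q}
    {F : 𝒳} (h : Ker A N q w F) : Ker A N q w (A.UU q F) := by
  rw [h.UU_q hqN hq]
  exact (h.act_w hq).neg

/-- `U_q² = 1` on the kernel. -/
theorem Ker.UU_UU {N q : ℕ} [NeZero (N * q)] (hqN : q.Coprime N) (hq : q.Prime) {w : WQ N q}
    {F : 𝒳} (h : Ker A N q w F) : A.UU q (A.UU q F) = F := by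
  rw [(h.UU_self hqN hq).UU_q hqN hq, h.UU_q hqN hq, map_neg, h.inv.WQ_WQ hq.ne_zero, neg_neg]

theorem UU_zero {l : ℕ} : A.UU l 0 = 0 := by simp [UU]

theorem TT_zero {l : ℕ} : A.TT l 0 = 0 := by simp [TT, UU]

theorem Ker.UU_ne {N q l : ℕ} [NeZero (N * q)] (hqN : q.Coprime N) (hq : q.Prime) (hl : l ≠ 0)
    (hlq : l.Coprime q) {w : WQ N q} {F : 𝒳} (h : Ker A N q w F)
    (hUF : A.Inv (N * q) (A.UU l F)) : Ker A N q w (A.UU l F) := by
  have h2 := UU_w hq.ne_zero hl hqN hlq h.inv hUF w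
  refine ⟨hUF, ?_, ?_⟩
  · rw [tr_UU hqN hq hl hlq h.inv hUF, h.tr0, UU_zero]
  · rw [← h2, tr_UU hqN hq hl hlq (h.inv.inv_WQ hq.ne_zero w) (by
      rw [h2]; exact hUF.inv_WQ hq.ne_zero w), h.tr1, UU_zero]

theorem Ker.TT_ne {N q l : ℕ} [NeZero (N * q)] (hqN : q.Coprime N) (hq : q.Prime) (hl : l ≠ 0)
    (hlq : l.Coprime q) {w : WQ N q} {F : 𝒳} (h : Ker A N q w F)
    (hUF : A.Inv (N * q) (A.TT l F)) : Ker A N q w (A.TT l F) := by
  have h2 := TT_w hq.ne_zero hl hqN hlq h.inv hUF w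
  refine ⟨hUF, ?_, ?_⟩
  · rw [tr_TT hqN hq hl hlq h.inv hUF, h.tr0, TT_zero]
  · rw [← h2, tr_TT hqN hq hl hlq (h.inv.inv_WQ hq.ne_zero w) (by
      rw [h2]; exact hUF.inv_WQ hq.ne_zero w), h.tr1, TT_zero]

end RA

end Fermat.Agent.H16.LR
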