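import Mathlib
import Fermat.Agent.H16.LR.Cusp

/-!
# Manin's theorem
-/

set_option autoImplicit false

open Matrix ModularGroup
open scoped MatrixGroups

noncomputable section

namespace Fermat.Agent.H16.LR

/-- A matrix with given entries, if the determinant is one. -/
def mat (a b c d : ℤ) : SL(2, ℤ) :=
  if h : (!![a, b; c, d] : Matrix (Fin 2) (Fin 2) ℤ).det = 1 then ⟨!![a, b; c, d], h⟩ else 1

theorem mat_eq (g : SL(2, ℤ)) : mat (g 0 0) (g 0 1) (g 1 0) (g 1 1) = g := by
  have h : (!![g 0 0, g 0 1; g 1 0, g 1 1] : Matrix (Fin 2) (Fin 2) ℤ).det = 1 := by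
    rw [Matrix.det_fin_two_of]
    exact det_eq g
  rw [mat, dif_pos h]
  ext i j
  fin_cases i <;> fin_cases j <;> rfl

/-- There is a reduced matrix sending `∞` to `a / b`. -/
theorem exists_reduced {a b : ℤ} (hb : 0 < b) (hab : IsCoprime a b) :
    ∃ g : SL(2, ℤ), g 0 0 = a ∧ g 1 0 = b ∧ 0 ≤ g 1 1 ∧ g 1 1 < b := by
  obtain ⟨u, v, h⟩ := hab
  -- u a + v b = 1
  set d := u % b with hd
  have h1 := Int.emod_nonneg u hb.ne'
  have h2 := Int.emod_lt_of_pos u hb
  have h3 : u % b + b * (u / b) = u := Int.emod_add_mul_ediv u b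
  have h4 : a * d - (- (v + a * (u / b))) * b = 1 := by
    rw [hd]; linear_combination h + a * h3
  refine ⟨⟨!![a, - (v + a * (u / b)); b, d], by rw [Matrix.det_fin_two_of]; exact h4⟩, rfl, rfl,
    h1, h2⟩

variable {R : Type*} [AddCommGroup R]

/-- The recursive definition of the potential. -/
def rho (x : SL(2, ℤ) → R) : ℕ → ℤ → R
  | 0, _ => 0
  | (b + 1), a =>
    rho x ((a : ZMod (b + 1))⁻¹).val ((a * ((a : ZMod (b + 1))⁻¹).val - 1) / (b + 1 : ℤ)) +
      x (mat a ((a * ((a : ZMod (b + 1))⁻¹).val - 1) / (b + 1 : ℤ)) (b + 1)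
        ((a : ZMod (b + 1))⁻¹).val)
  termination_by b => b
  decreasing_by exact ZMod.val_lt _

theorem rho_reduced (x : SL(2, ℤ) → R) (g : SL(2, ℤ)) (h0 : 0 < g 1 0) (h1 : 0 ≤ g 1 1)
    (h2 : g 1 1 < g 1 0) :
    rho x (g 1 0).natAbs (g 0 0) = rho x (g 1 1).natAbs (g 0 1) + x g := by
  have hdet := det_eq g
  obtain ⟨b, hb⟩ : ∃ b : ℕ, g 1 0 = b + 1 := ⟨(g 1 0).natAbs - 1, by omega⟩
  have hb' : (g 1 0).natAbs = b + 1 := by omega
  have e1 : (((g 0 0 : ℤ) : ZMod (b + 1))⁻¹).val = (g 1 1).natAbs := by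
    have h3 : ((g 0 0 : ℤ) : ZMod (b + 1)) * ((g 1 1 : ℤ) : ZMod (b + 1)) = 1 := by
      have : ((g 0 0 * g 1 1 - g 0 1 * g 1 0 : ℤ) : ZMod (b + 1)) = ((1 : ℤ) : ZMod (b + 1)) := by
        rw [hdet]
      rw [hb] at this
      push_cast at this
      have h4 : ((b : ZMod (b + 1)) + 1) = 0 := by
        exact_mod_cast ZMod.natCast_self (b + 1)
      rw [h4, mul_zero, sub_zero] at this
      exact this
    rw [ZMod.inv_eq_of_mul_eq_one _ _ _ h3]
    have h5 : ((g 1 1 : ℤ) : ZMod (b + 1)) = (((g 1 1).natAbs : ℕ) : ZMod (b + 1)) := by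
      conv_lhs => rw [← Int.natAbs_of_nonneg h1]
      rw [Int.cast_natCast]
    rw [h5, ZMod.val_natCast_of_lt (by omega)]
  have e2 : ((g 1 1).natAbs : ℤ) = g 1 1 := Int.natAbs_of_nonneg h1
  have e3 : (g 0 0 * g 1 1 - 1) / (b + 1 : ℤ) = g 0 1 := by
    have : g 0 0 * g 1 1 - 1 = g 0 1 * (b + 1) := by rw [← hb]; linarith
    rw [this]
    exact Int.mul_ediv_cancel _ (by omega)
  rw [hb', rho, e1, e2, e3, ← hb, mat_eq]

/-- The potential on cusps. -/
def pot (x : SL(2, ℤ) → R) (r : Cu) : R :=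
  OnePoint.elim r 0 (fun q ↦ rho x q.den q.num)

theorem pot_cv (x : SL(2, ℤ) → R) {a b : ℤ} (hb : 0 ≤ b) (hab : IsCoprime a b) :
    pot x (cv a b) = rho x b.natAbs a := by
  rcases hb.eq_or_lt with rfl | hb
  · have h1 : cv ((a : ℤ) : ℚ) ((0 : ℤ) : ℚ) = OnePoint.infty := by simp [cv]
    rw [h1]
    simp [pot, rho]
  · have hb' : ((b : ℤ) : ℚ) ≠ 0 := by exact_mod_cast hb.ne'
    rw [cv_of_ne hb']
    have h1 : ((a : ℚ) / (b : ℚ)).num = a := Rat.num_div_eq_of_coprime hb (by
      exact Int.isCoprime_iff_nat_coprime.mp hab)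
    have h2 : (((a : ℚ) / (b : ℚ)).den : ℤ) = b := Rat.den_div_eq_of_coprime hb (by
      exact Int.isCoprime_iff_nat_coprime.mp hab)
    have h3 : ((a : ℚ) / (b : ℚ)).den = b.natAbs := by omega
    rw [pot, OnePoint.elim_some, h1, h3]

theorem coprime_col0 (g : SL(2, ℤ)) : IsCoprime (g 0 0) (g 1 0) :=
  ⟨g 1 1, - g 0 1, by linear_combination det_eq g⟩

theorem coprime_col1 (g : SL(2, ℤ)) : IsCoprime (g 0 1) (g 1 1) :=
  ⟨- g 1 0, g 0 0, by linear_combination det_eq g⟩

/-- Manin's theorem -/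
theorem exists_potential (x : SL(2, ℤ) → R) (hS : ∀ g, x (g * S) = - x g)
    (hU : ∀ g, x g + x (g * U) + x (g * U * U) = 0) :
    ∃ ρ : Cu → R, ∀ g : SL(2, ℤ),
      ρ (ι g • (OnePoint.infty : Cu)) - ρ (ι g • ((0 : ℚ) : Cu)) = x g := by
  refine ⟨pot x, ?_⟩
  set Rel : SL(2, ℤ) → Prop := fun g ↦
    pot x (ι g • (OnePoint.infty : Cu)) - pot x (ι g • ((0 : ℚ) : Cu)) = x g with hRel
  have hneg : ∀ g, x (-g) = x g := fun g ↦ by
    have h1 : x (g * S * S) = x g := by rw [hS, hS, neg_neg]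
    rwa [mul_assoc, S_mul_S, mul_neg, mul_one] at h1
  have relneg : ∀ g, Rel (-g) → Rel g := fun g h ↦ by
    simp only [hRel] at h ⊢
    rwa [neg_smul_cu, neg_smul_cu, hneg] at h
  have relS : ∀ g, Rel (g * S) → Rel g := fun g h ↦ by
    simp only [hRel] at h ⊢
    rw [ι_mul_smul, ι_mul_smul, S_infty, S_zero, hS] at h
    rw [← neg_inj, ← h]
    abel
  have relU : ∀ g, Rel (g * U) → Rel (g * U * U) → Rel g := fun g h1 h2 ↦ by
    simp only [hRel] at h1 h2 ⊢
    simp only [ι_mul_smul, U_infty, U_zero, U_one] at h1 h2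
    have h3 := hU g
    rw [← h1, ← h2] at h3
    have h4 : x g = - ((pot x (ι g • ((1 : ℚ) : Cu)) - pot x (ι g • (OnePoint.infty : Cu))) +
      (pot x (ι g • ((0 : ℚ) : Cu)) - pot x (ι g • ((1 : ℚ) : Cu)))) := by
      rw [eq_neg_iff_add_eq_zero, ← add_assoc]
      exact h3
    rw [h4]
    abel
  -- reduced matrices
  have relred : ∀ g : SL(2, ℤ), 0 < g 1 0 → 0 ≤ g 1 1 → g 1 1 < g 1 0 → Rel g := by
    intro g h0 h1 h2
    simp only [hRel]
    rw [ι_infty, ι_zero, pot_cv x h0.le (coprime_col0 g), pot_cv x h1 (coprime_col1 g),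
      rho_reduced x g h0 h1 h2]
    abel
  have key : ∀ n : ℕ, ∀ g : SL(2, ℤ), (g 1 0).natAbs + (g 1 1).natAbs = n → Rel g := by
    intro n
    induction n using Nat.strong_induction_on with
    | _ n ih =>
      have step : ∀ g : SL(2, ℤ), (g 1 0).natAbs + (g 1 1).natAbs = n → 0 < g 1 0 →
          - g 1 0 ≤ g 1 1 → g 1 1 < g 1 0 → Rel g := by
        intro g hn h0 h1 h2
        rcases le_or_gt 0 (g 1 1) with h3 | h3
        · exact relred g h0 h3 h2
        · apply relU
          · apply relS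
            apply relneg
            have e0 : (-(g * U * S)) 1 0 = g 1 0 := by
              simp [Matrix.mul_apply, Fin.sum_univ_two, S, U]
            have e1 : (-(g * U * S)) 1 1 = g 1 0 + g 1 1 := by
              simp [Matrix.mul_apply, Fin.sum_univ_two, S, U]
            refine relred _ ?_ ?_ ?_
            · rw [e0]; exact h0
            · rw [e1]; omega
            · rw [e0, e1]; omega
          · have e0 : (g * U * U) 1 0 = g 1 1 := by
              simp [Matrix.mul_apply, Fin.sum_univ_two, U]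
            have e1 : (g * U * U) 1 1 = - (g 1 0 + g 1 1) := by
              simp [Matrix.mul_apply, Fin.sum_univ_two, U]
              try ring
            refine ih _ ?_ _ rfl
            rw [e0, e1]
            omega
      intro g hn
      have hdet := det_eq g
      by_cases c1 : 0 < g 1 0 ∧ - g 1 0 ≤ g 1 1 ∧ g 1 1 < g 1 0
      · exact step g hn c1.1 c1.2.1 c1.2.2
      by_cases c2 : g 1 0 < 0 ∧ g 1 0 ≤ - g 1 1 ∧ - g 1 1 < - g 1 0
      · apply relneg
        have e0 : (-g) 1 0 = - g 1 0 := by simp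
        have e1 : (-g) 1 1 = - g 1 1 := by simp
        apply step
        · rw [e0, e1]; omega
        · rw [e0]; omega
        · rw [e0, e1]; omega
        · rw [e0, e1]; omega
      by_cases c3 : 0 < g 1 1 ∧ - g 1 1 ≤ - g 1 0 ∧ - g 1 0 < g 1 1
      · apply relS
        have e0 : (g * S) 1 0 = g 1 1 := by
          simp [Matrix.mul_apply, Fin.sum_univ_two, S]
        have e1 : (g * S) 1 1 = - g 1 0 := by
          simp [Matrix.mul_apply, Fin.sum_univ_two, S]
        apply step
        · rw [e0, e1]; omega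
        · rw [e0]; omega
        · rw [e0, e1]; omega
        · rw [e0, e1]; omega
      by_cases c4 : g 1 1 < 0 ∧ g 1 1 ≤ g 1 0 ∧ g 1 0 < - g 1 1
      · apply relS
        apply relneg
        have e0 : (-(g * S)) 1 0 = - g 1 1 := by
          simp [Matrix.mul_apply, Fin.sum_univ_two, S]
        have e1 : (-(g * S)) 1 1 = g 1 0 := by
          simp [Matrix.mul_apply, Fin.sum_univ_two, S]
        apply step
        · rw [e0, e1]; omega
        · rw [e0]; omega
        · rw [e0, e1]; omega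
        · rw [e0, e1]; omega
      exfalso
      have h0 : g 1 0 = 0 ∧ g 1 1 = 0 := by omega
      rw [h0.1, h0.2] at hdet
      simp at hdet
  intro g
  exact key _ g rfl

/-- An additive function vanishing on all Farey edges is zero. -/
theorem eq_zero_of_edges {f : Cu → Cu → R} (hadd : ∀ r s t, f r s + f s t = f r t)
    (h : ∀ g : SL(2, ℤ), f (ι g • ((0 : ℚ) : Cu)) (ι g • (OnePoint.infty : Cu)) = 0) :
    ∀ r s, f r s = 0 := by
  have hself : ∀ r, f r r = 0 := fun r ↦ by simpa using hadd r r r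
  have key : ∀ n : ℕ, ∀ a b : ℤ, IsCoprime a b → 0 ≤ b → b.natAbs = n →
      f OnePoint.infty (cv a b) = 0 := by
    intro n
    induction n using Nat.strong_induction_on with
    | _ n ih =>
      intro a b hab hb hn
      rcases hb.eq_or_lt with rfl | hb
      · have h1 : cv ((a : ℤ) : ℚ) ((0 : ℤ) : ℚ) = OnePoint.infty := by simp [cv]
        rw [h1]
        exact hself _
      · obtain ⟨g, h1, h2, h3, h4⟩ := exists_reduced hb hab
        have e := hadd OnePoint.infty (ι g • ((0 : ℚ) : Cu)) (ι g • (OnePoint.infty : Cu))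
        rw [h g, add_zero, ι_zero, ih _ (by omega) _ _ (coprime_col1 g) h3 rfl, ι_infty, h1, h2] at e
        exact e.symm
  have key2 : ∀ s, f OnePoint.infty s = 0 := by
    intro s
    induction s using OnePoint.rec with
    | infty => exact hself _
    | coe q =>
      have h1 : ((q : ℚ) : Cu) = cv ((q.num : ℤ) : ℚ) (((q.den : ℤ)) : ℚ) := by
        rw [cv_of_ne (by exact_mod_cast q.den_ne_zero)]
        congr 1
        push_cast
        exact (Rat.num_div_den q).symm
      rw [h1]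
      exact key _ _ _ (Int.isCoprime_iff_nat_coprime.mpr q.reduced) (by positivity) rfl
  intro r s
  have := hadd OnePoint.infty r s
  rw [key2, key2, zero_add] at this
  exact this

end Fermat.Agent.H16.LR
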