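import Mathlib
import Fermat.Agent.H16.LR.Manin

/-!
# Functions on `SL₂(ℤ) / Γ₀(M)` killed by the Manin relations: base change
-/

set_option autoImplicit false

open Matrix ModularGroup
open scoped MatrixGroups

noncomputable section

namespace Fermat.Agent.H16.LR

/-! ### Abstract orbit functions -/

section Orb

variable {X : Type*} [Fintype X] [DecidableEq X]

/-- A partition of `X` given by the class of each element. -/
structure Part (X : Type*) [DecidableEq X] where
  orb : X → Finset X
  mem_self : ∀ y, y ∈ orb y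
  eq_of_mem : ∀ y z, z ∈ orb y → orb z = orb y

namespace Part

variable (P : Part X)

/-- The relation submodule. -/
def rel : Submodule ℤ (X → ℤ) :=
  Submodule.span ℤ (Set.range fun y ↦ fun z ↦ if z ∈ P.orb y then (1 : ℤ) else 0)

/-- Invariance. -/
def Inv {A : Type*} (a : X → A) : Prop := ∀ y z, z ∈ P.orb y → a z = a y

theorem mem_comm {y z : X} : z ∈ P.orb y ↔ y ∈ P.orb z := by
  constructor
  · intro h; rw [P.eq_of_mem y z h]; exact P.mem_self y
  · intro h; rw [P.eq_of_mem z y h]; exact P.mem_self z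

/-- A representative of the class. -/
def rep (y : X) : X := (show ∃ z, z ∈ P.orb y from ⟨y, P.mem_self y⟩).choose

theorem rep_mem (y : X) : P.rep y ∈ P.orb y :=
  (show ∃ z, z ∈ P.orb y from ⟨y, P.mem_self y⟩).choose_spec

theorem rep_eq_of_mem {y z : X} (h : z ∈ P.orb y) : P.rep z = P.rep y := by
  have h1 : P.orb z = P.orb y := P.eq_of_mem y z h
  unfold rep
  congr 1
  ext w
  rw [h1]

theorem rep_rep (y : X) : P.rep (P.rep y) = P.rep y := P.rep_eq_of_mem (P.rep_mem y)

theorem inv_iff_mem_rel {a : X → ℤ} : P.Inv a ↔ a ∈ P.rel := by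
  constructor
  · intro h
    have : a = ∑ y, (if P.rep y = y then a y else 0) •
        (fun z ↦ if z ∈ P.orb y then (1 : ℤ) else 0) := by
      ext z
      rw [Finset.sum_apply, Finset.sum_eq_single (P.rep z)]
      · have h1 : z ∈ P.orb (P.rep z) := (P.mem_comm).mp (P.rep_mem z)
        simp only [Pi.smul_apply, if_pos h1, P.rep_rep, if_true, smul_eq_mul, mul_one]
        exact h _ _ h1
      · intro y _ hy
        by_cases h1 : P.rep y = y
        · by_cases h2 : z ∈ P.orb y
          · exact absurd ((P.rep_eq_of_mem h2).trans h1).symm hy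
          · simp [h2]
        · simp [h1]
      · intro h1; exact absurd (Finset.mem_univ _) h1
    rw [this]
    refine Submodule.sum_mem _ fun y _ ↦ Submodule.smul_mem _ _ (Submodule.subset_span ⟨y, rfl⟩)
  · intro h
    induction h using Submodule.span_induction with
    | mem a ha =>
      obtain ⟨w, rfl⟩ := ha
      intro y z hz
      have h1 : P.orb z = P.orb y := P.eq_of_mem y z hz
      have : z ∈ P.orb w ↔ y ∈ P.orb w := by
        rw [P.mem_comm, P.mem_comm (y := w) (z := y), h1]
      simp only [this]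
    | zero => intro y z _; rfl
    | add a b _ _ ha hb => intro y z hz; simp only [Pi.add_apply, ha y z hz, hb y z hz]
    | smul c a _ ha => intro y z hz; simp only [Pi.smul_apply, ha y z hz]

/-- Orbit sums vanish. -/
def Null {A : Type*} [AddCommMonoid A] (a : X → A) : Prop := ∀ y, ∑ z ∈ P.orb y, a z = 0

end Part

/-- A pair of partitions is connected. -/
def Conn (P P' : Part X) : Prop :=
  ∀ (n : ℕ) (a : X → ZMod n), P.Inv a → P'.Inv a → ∀ y z, a y = a z

variable (P P' : Part X)

/-- The abstract module of Manin symbols. -/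
abbrev QQ := (X → ℤ) ⧸ (P.rel ⊔ P'.rel)

theorem torsion_free (h : Conn P P') {n : ℤ} (hn : n ≠ 0) {v : X → ℤ}
    (hv : n • v ∈ P.rel ⊔ P'.rel) : v ∈ P.rel ⊔ P'.rel := by
  rcases isEmpty_or_nonempty X with hX | ⟨⟨y0⟩⟩
  · have : v = 0 := Subsingleton.elim _ _
    rw [this]; exact zero_mem _
  obtain ⟨a, ha, b, hb, hab⟩ := Submodule.mem_sup.mp hv
  rw [← P.inv_iff_mem_rel] at ha
  rw [← P'.inv_iff_mem_rel] at hb
  have h1 : ∀ y z, ((a y : ℤ) : ZMod n.natAbs) = ((a z : ℤ) : ZMod n.natAbs) := by
    refine h n.natAbs (fun y ↦ ((a y : ℤ) : ZMod n.natAbs)) (fun y z hz ↦ ?_) (fun y z hz ↦ ?_)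
    · simp only [ha y z hz]
    · have e : ∀ w, ((a w : ℤ) : ZMod n.natAbs) = - ((b w : ℤ) : ZMod n.natAbs) := by
        intro w
        have : a w = n * v w - b w := by
          have := congrFun hab w
          simp only [Pi.add_apply, Pi.smul_apply, smul_eq_mul] at this
          linarith
        rw [this]
        push_cast
        have h2 : ((n : ℤ) : ZMod n.natAbs) = 0 := by
          rw [ZMod.intCast_zmod_eq_zero_iff_dvd]
          exact Int.natAbs_dvd.mpr dvd_rfl
        rw [h2]; ring
      simp only [e, hb y z hz]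
  set c := a y0
  have h2 : ∀ y, n ∣ a y - c := by
    intro y
    have h3 := h1 y y0
    rw [← sub_eq_zero, ← Int.cast_sub, ZMod.intCast_zmod_eq_zero_iff_dvd] at h3
    exact Int.natAbs_dvd.mp h3
  have h3 : ∀ y, n ∣ b y + c := by
    intro y
    have := congrFun hab y
    simp only [Pi.add_apply, Pi.smul_apply, smul_eq_mul] at this
    have e : b y + c = n * v y - (a y - c) := by linarith
    rw [e]
    exact dvd_sub (dvd_mul_right _ _) (h2 y)
  have hv' : v = (fun y ↦ (a y - c) / n) + fun y ↦ (b y + c) / n := by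
    ext y
    have := congrFun hab y
    simp only [Pi.add_apply, Pi.smul_apply, smul_eq_mul] at this ⊢
    apply mul_left_cancel₀ hn
    rw [mul_add, Int.mul_ediv_cancel' (h2 y), Int.mul_ediv_cancel' (h3 y)]
    linarith
  rw [hv']
  refine Submodule.add_mem_sup ?_ ?_
  · rw [← P.inv_iff_mem_rel]
    intro y z hz
    simp only [ha y z hz]
  · rw [← P'.inv_iff_mem_rel]
    intro y z hz
    simp only [hb y z hz]

theorem qq_torsionFree (h : Conn P P') : Module.IsTorsionFree ℤ (QQ P P') := by
  apply Module.IsTorsionFree.of_smul_eq_zero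
  intro n x hx
  obtain ⟨v, rfl⟩ := Submodule.Quotient.mk_surjective _ x
  by_cases hn : n = 0
  · exact Or.inl hn
  · right
    rw [← Submodule.Quotient.mk_smul, Submodule.Quotient.mk_eq_zero] at hx
    rw [Submodule.Quotient.mk_eq_zero]
    exact torsion_free P P' h hn hx

/-- Base change: there is an integral basis of the null functions which works for all
coefficients. -/
theorem exists_basis (h : Conn P P') : ∃ (r : ℕ) (c : Fin r → X → ℤ) (e : Fin r → X → ℤ),
    (∀ i, P.Null (c i) ∧ P'.Null (c i)) ∧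
    (∀ i j, ∑ y, e i y * c j y = if i = j then 1 else 0) ∧
    ∀ {A : Type*} [AddCommGroup A] (φ : X → A), P.Null φ → P'.Null φ →
      ∀ y, φ y = ∑ i, c i y • ∑ z, e i z • φ z := by
  have := qq_torsionFree P P' h
  let b := Module.finBasis ℤ (QQ P P')
  have hb : ∀ i, ∃ v : X → ℤ, (Submodule.Quotient.mk v : QQ P P') = b i := fun i ↦
    Submodule.Quotient.mk_surjective _ (b i)
  choose e he using hb
  set s : X → (X → ℤ) := fun y ↦ Pi.single y 1 with hs
  have hsum : ∀ v : X → ℤ, v = ∑ y, v y • s y := by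
    intro v
    ext z
    simp [hs, Finset.sum_apply, Pi.single_apply]
  have hmk : ∀ v : X → ℤ, (Submodule.Quotient.mk v : QQ P P') =
      ∑ y, v y • (Submodule.Quotient.mk (s y) : QQ P P') := by
    intro v
    conv_lhs => rw [hsum v]
    exact map_sum (Submodule.mkQ _) _ _ |>.trans (Finset.sum_congr rfl fun y _ ↦
      map_smul (Submodule.mkQ _) _ _)
  refine ⟨Module.finrank ℤ (QQ P P'), fun i y ↦ b.repr (Submodule.Quotient.mk (s y)) i, e,
    fun i ↦ ⟨fun y ↦ ?_, fun y ↦ ?_⟩, fun i j ↦ ?_, ?_⟩
  · have h0 : (Submodule.Quotient.mk (fun z ↦ if z ∈ P.orb y then (1 : ℤ) else 0) : QQ P P') = 0 := by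
      rw [Submodule.Quotient.mk_eq_zero]
      exact Submodule.mem_sup_left (Submodule.subset_span ⟨y, rfl⟩)
    rw [hmk] at h0
    have h1 := congrArg (fun w ↦ b.repr w i) h0
    simp only [ite_smul, one_smul, zero_smul, Finset.sum_ite_mem, Finset.univ_inter, map_sum,
      Finsupp.coe_finsetSum, Finset.sum_apply, map_zero, Finsupp.coe_zero, Pi.zero_apply] at h1
    exact h1
  · have h0 : (Submodule.Quotient.mk (fun z ↦ if z ∈ P'.orb y then (1 : ℤ) else 0) : QQ P P') = 0 := by
      rw [Submodule.Quotient.mk_eq_zero]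
      exact Submodule.mem_sup_right (Submodule.subset_span ⟨y, rfl⟩)
    rw [hmk] at h0
    have h1 := congrArg (fun w ↦ b.repr w i) h0
    simp only [ite_smul, one_smul, zero_smul, Finset.sum_ite_mem, Finset.univ_inter, map_sum,
      Finsupp.coe_finsetSum, Finset.sum_apply, map_zero, Finsupp.coe_zero, Pi.zero_apply] at h1
    exact h1
  · have h1 := hmk (e i)
    rw [he] at h1
    have h2 := congrArg (fun w ↦ b.repr w j) h1
    simp only [Module.Basis.repr_self, map_sum, map_smul, Finsupp.coe_finsetSum,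
      Finset.sum_apply, Finsupp.coe_smul, Pi.smul_apply, smul_eq_mul, Finsupp.single_apply] at h2
    exact h2.symm
  · intro A _ φ h1 h2 y
    let L : (X → ℤ) →ₗ[ℤ] A :=
      { toFun := fun v ↦ ∑ y, v y • φ y
        map_add' := fun v w ↦ by simp [add_smul, Finset.sum_add_distrib]
        map_smul' := fun n v ↦ by simp [mul_smul, Finset.smul_sum] }
    have hL : P.rel ⊔ P'.rel ≤ LinearMap.ker L := by
      apply sup_le
      · rw [Part.rel, Submodule.span_le]
        rintro _ ⟨w, rfl⟩
        change ∑ y, (if y ∈ P.orb w then (1 : ℤ) else 0) • φ y = 0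
        simp only [ite_smul, one_smul, zero_smul, Finset.sum_ite_mem, Finset.univ_inter]
        exact h1 w
      · rw [Part.rel, Submodule.span_le]
        rintro _ ⟨w, rfl⟩
        change ∑ y, (if y ∈ P'.orb w then (1 : ℤ) else 0) • φ y = 0
        simp only [ite_smul, one_smul, zero_smul, Finset.sum_ite_mem, Finset.univ_inter]
        exact h2 w
    have e1 : ∀ v, (P.rel ⊔ P'.rel).liftQ L hL (Submodule.Quotient.mk v) = L v := fun v ↦
      Submodule.liftQ_apply _ _ _
    have e2 : L (s y) = φ y := by
      change ∑ z, (s y z) • φ z = φ y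
      simp [hs, Pi.single_apply]
    rw [← e2, ← e1, ← b.sum_repr (Submodule.Quotient.mk (s y)), map_sum]
    refine Finset.sum_congr rfl fun i _ ↦ ?_
    rw [map_smul, ← he i, e1]
    rfl

end Orb

end Fermat.Agent.H16.LR
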