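import Mathlib
import Fermat.Agent.H16.LR.Space

/-!
# Modular symbols for `Γ₀(M)`
-/

set_option autoImplicit false

open Matrix ModularGroup CongruenceSubgroup
open scoped MatrixGroups

noncomputable section

namespace Fermat.Agent.H16.LR

/-- The coset space. -/
abbrev XX (M : ℕ) := SL(2, ℤ) ⧸ Gamma0 M

instance (M : ℕ) [NeZero M] : Fintype (XX M) := Subgroup.fintypeQuotientOfFiniteIndex

instance (M : ℕ) : DecidableEq (XX M) := Classical.decEq _

theorem neg_one_mem (M : ℕ) : (-1 : SL(2, ℤ)) ∈ Gamma0 M := by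
  rw [Gamma0_mem]; simp

theorem smul_mk {M : ℕ} (γ h : SL(2, ℤ)) : γ • (h : XX M) = ((γ * h : SL(2, ℤ)) : XX M) := rfl

theorem neg_smul_XX {M : ℕ} (γ : SL(2, ℤ)) (y : XX M) : (-γ) • y = γ • y := by
  induction y using QuotientGroup.induction_on with
  | H h =>
    rw [smul_mk, smul_mk, QuotientGroup.eq]
    have : (-γ * h)⁻¹ * (γ * h) = -1 := by
      rw [neg_mul, inv_neg, neg_mul, inv_mul_cancel]
    rw [this]
    exact neg_one_mem M

theorem S_smul_S {M : ℕ} (y : XX M) : S • S • y = y := by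
  rw [← mul_smul, S_mul_S, neg_smul_XX, one_smul]

theorem U_smul_U {M : ℕ} (y : XX M) : U • U • U • y = y := by
  rw [← mul_smul, ← mul_smul, mul_assoc, U_mul_U_mul_U, neg_smul_XX, one_smul]

/-- The partition into `S`-orbits. -/
def PS (M : ℕ) : Part (XX M) where
  orb y := {y, S • y}
  mem_self y := by simp
  eq_of_mem y z hz := by
    simp only [Finset.mem_insert, Finset.mem_singleton] at hz
    rcases hz with rfl | rfl
    · rfl
    · rw [S_smul_S, Finset.pair_comm]

/-- The partition into `U`-orbits. -/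
def PU (M : ℕ) : Part (XX M) where
  orb y := {y, U • y, U • U • y}
  mem_self y := by simp
  eq_of_mem y z hz := by
    simp only [Finset.mem_insert, Finset.mem_singleton] at hz
    rcases hz with rfl | rfl | rfl
    · rfl
    · rw [U_smul_U]
      ext w; simp only [Finset.mem_insert, Finset.mem_singleton]; tauto
    · rw [U_smul_U]
      ext w; simp only [Finset.mem_insert, Finset.mem_singleton]; tauto

theorem inv_PS {M : ℕ} {A : Type*} {a : XX M → A} : (PS M).Inv a ↔ ∀ y, a (S • y) = a y := by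
  constructor
  · intro h y; exact h y _ (by simp [PS])
  · intro h y z hz
    simp only [PS, Finset.mem_insert, Finset.mem_singleton] at hz
    rcases hz with rfl | rfl
    · rfl
    · exact h _

theorem inv_PU {M : ℕ} {A : Type*} {a : XX M → A} : (PU M).Inv a ↔ ∀ y, a (U • y) = a y := by
  constructor
  · intro h y; exact h y _ (by simp [PU])
  · intro h y z hz
    simp only [PU, Finset.mem_insert, Finset.mem_singleton] at hz
    rcases hz with rfl | rfl | rfl
    · rfl
    · exact h _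
    · rw [h, h]

theorem constant_of_inv {M : ℕ} {A : Type*} {a : XX M → A} (h1 : ∀ y, a (S • y) = a y)
    (h2 : ∀ y, a (U • y) = a y) (y z : XX M) : a y = a z := by
  let H : Subgroup SL(2, ℤ) :=
    { carrier := {g | ∀ y : XX M, a (g • y) = a y}
      mul_mem' := by
        intro g h hg hh y
        rw [mul_smul, hg, hh]
      one_mem' := by intro y; rw [one_smul]
      inv_mem' := by
        intro g hg y
        have := hg (g⁻¹ • y)
        rw [smul_inv_smul] at this
        exact this.symm }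
  have hS : S ∈ H := h1
  have hU : U ∈ H := h2
  have hT : T ∈ H := by
    have : T = U * S⁻¹ := by rw [U_eq]; group
    rw [this]
    exact H.mul_mem hU (H.inv_mem hS)
  have htop : H = ⊤ := by
    rw [eq_top_iff, ← SpecialLinearGroup.SL2Z_generators, Subgroup.closure_le]
    rintro g (rfl | rfl)
    · exact hS
    · exact hT
  obtain ⟨g, rfl⟩ := MulAction.exists_smul_eq SL(2, ℤ) z y
  have : g ∈ H := by rw [htop]; trivial
  exact this z

theorem conn (M : ℕ) [NeZero M] : Conn (PS M) (PU M) := fun _ _ h1 h2 y z ↦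
  constant_of_inv (inv_PS.mp h1) (inv_PU.mp h2) y z

variable {R : Type*} [AddCommGroup R]

/-- Modular symbols. -/
structure IsSymb (M : ℕ) (f : Cu → Cu → R) : Prop where
  add : ∀ r s t, f r s + f s t = f r t
  inv : ∀ γ ∈ Gamma0 M, ∀ r s, f (ι γ • r) (ι γ • s) = f r s

/-- Values on Farey edges. -/
def xf (f : Cu → Cu → R) (g : SL(2, ℤ)) : R :=
  f (ι g • ((0 : ℚ) : Cu)) (ι g • (OnePoint.infty : Cu))

/-- The Manin function of a symbol. -/
def phi (M : ℕ) (f : Cu → Cu → R) (y : XX M) : R := xf f y.out⁻¹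

/-- Modular symbols vanishing on elliptic edges. -/
structure IsMM (M : ℕ) (f : Cu → Cu → R) : Prop extends IsSymb M f where
  fixS : ∀ y : XX M, S • y = y → phi M f y = 0
  fixU : ∀ y : XX M, U • y = y → phi M f y = 0

variable {M : ℕ} {f : Cu → Cu → R}

theorem IsSymb.self (h : IsSymb M f) (r : Cu) : f r r = 0 := by simpa using h.add r r r

theorem IsSymb.symm (h : IsSymb M f) (r s : Cu) : f s r = - f r s := by
  rw [eq_neg_iff_add_eq_zero, h.add, h.self]

theorem IsSymb.xf_mul (h : IsSymb M f) {γ : SL(2, ℤ)} (hγ : γ ∈ Gamma0 M) (g : SL(2, ℤ)) :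
    xf f (γ * g) = xf f g := by
  rw [xf, ι_mul_smul, ι_mul_smul, h.inv γ hγ, xf]

theorem IsSymb.phi_mk (h : IsSymb M f) (g : SL(2, ℤ)) : phi M f (g : XX M) = xf f g⁻¹ := by
  have h1 : ((g : XX M).out)⁻¹ * g ∈ Gamma0 M := by
    rw [← QuotientGroup.eq, QuotientGroup.out_eq']
  have h2 : (g : XX M).out⁻¹ = ((g : XX M).out)⁻¹ * g * g⁻¹ := by group
  rw [phi, h2, h.xf_mul h1]

theorem xf_mul_inv_S (g : SL(2, ℤ)) : xf f (g * S⁻¹) =
    f (ι g • (OnePoint.infty : Cu)) (ι g • ((0 : ℚ) : Cu)) := by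
  have : S⁻¹ = -S := by rw [eq_comm, ← mul_eq_one_iff_eq_inv, neg_mul, S_mul_S, neg_neg]
  rw [xf, this, ι_mul_smul, ι_mul_smul, neg_smul_cu, neg_smul_cu, S_zero, S_infty]

theorem U_inv_zero : ι U⁻¹ • ((0 : ℚ) : Cu) = ((1 : ℚ) : Cu) := by
  rw [ι_inv, inv_smul_eq_iff, U_one]

theorem U_inv_infty : ι U⁻¹ • (OnePoint.infty : Cu) = ((0 : ℚ) : Cu) := by
  rw [ι_inv, inv_smul_eq_iff, U_zero]

theorem U_inv_one : ι U⁻¹ • ((1 : ℚ) : Cu) = (OnePoint.infty : Cu) := by
  rw [ι_inv, inv_smul_eq_iff, U_infty]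

theorem xf_mul_inv_U (g : SL(2, ℤ)) : xf f (g * U⁻¹) =
    f (ι g • ((1 : ℚ) : Cu)) (ι g • ((0 : ℚ) : Cu)) := by
  rw [xf, ι_mul_smul, ι_mul_smul, U_inv_zero, U_inv_infty]

theorem xf_mul_inv_UU (g : SL(2, ℤ)) : xf f (g * U⁻¹ * U⁻¹) =
    f (ι g • (OnePoint.infty : Cu)) (ι g • ((1 : ℚ) : Cu)) := by
  rw [xf_mul_inv_U, ι_mul_smul, ι_mul_smul, U_inv_one, U_inv_zero]

theorem IsSymb.phi_S (h : IsSymb M f) (y : XX M) : phi M f (S • y) = - phi M f y := by
  induction y using QuotientGroup.induction_on with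
  | H g =>
    rw [smul_mk, h.phi_mk, h.phi_mk, _root_.mul_inv_rev, xf_mul_inv_S, xf, h.symm]

theorem IsSymb.phi_U (h : IsSymb M f) (y : XX M) :
    phi M f y + phi M f (U • y) + phi M f (U • U • y) = 0 := by
  induction y using QuotientGroup.induction_on with
  | H g =>
    rw [smul_mk, smul_mk, h.phi_mk, h.phi_mk, h.phi_mk, _root_.mul_inv_rev, _root_.mul_inv_rev, _root_.mul_inv_rev,
      xf_mul_inv_U, xf_mul_inv_UU, xf, add_assoc, add_comm (f _ _) (f (ι g⁻¹ • _) (ι g⁻¹ • ((1 : ℚ) : Cu))),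
      ← add_assoc, h.add, h.add, h.self]

theorem UU_eq_iff (y : XX M) : U • y = y ↔ U • U • y = y := by
  constructor
  · intro h; rw [h, h]
  · intro h
    have := U_smul_U y
    rw [h] at this
    exact this

theorem IsMM.null_S (h : IsMM M f) : (PS M).Null (phi M f) := by
  intro y
  change ∑ z ∈ ({y, S • y} : Finset (XX M)), _ = _
  by_cases hy : S • y = y
  · rw [hy, Finset.pair_eq_singleton, Finset.sum_singleton, h.fixS y hy]
  · rw [Finset.sum_pair (Ne.symm hy), h.phi_S, add_neg_cancel]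

theorem U_distinct {y : XX M} (hy : U • y ≠ y) : y ∉ ({U • y, U • U • y} : Finset (XX M)) ∧
    U • y ≠ U • U • y := by
  refine ⟨?_, ?_⟩
  · simp only [Finset.mem_insert, Finset.mem_singleton, not_or]
    exact ⟨Ne.symm hy, fun h ↦ hy ((UU_eq_iff y).mpr h.symm)⟩
  · intro h
    exact hy (smul_left_cancel U h).symm

theorem sum_PU {A : Type*} [AddCommMonoid A] (a : XX M → A) {y : XX M} (hy : U • y ≠ y) :
    ∑ z ∈ (PU M).orb y, a z = a y + a (U • y) + a (U • U • y) := by
  change ∑ z ∈ ({y, U • y, U • U • y} : Finset (XX M)), _ = _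
  rw [Finset.sum_insert (U_distinct hy).1, Finset.sum_pair (U_distinct hy).2, add_assoc]

theorem sum_PU_fix {A : Type*} [AddCommMonoid A] (a : XX M → A) {y : XX M} (hy : U • y = y) :
    ∑ z ∈ (PU M).orb y, a z = a y := by
  change ∑ z ∈ ({y, U • y, U • U • y} : Finset (XX M)), _ = _
  rw [hy, hy]; simp

theorem IsMM.null_U (h : IsMM M f) : (PU M).Null (phi M f) := by
  intro y
  by_cases hy : U • y = y
  · rw [sum_PU_fix _ hy, h.fixU y hy]
  · rw [sum_PU _ hy, h.phi_U]

theorem IsSymb.eq_of_phi {f' : Cu → Cu → R} (h : IsSymb M f) (h' : IsSymb M f')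
    (he : ∀ y, phi M f y = phi M f' y) : f = f' := by
  have key := eq_zero_of_edges (f := fun r s ↦ f r s - f' r s)
    (fun r s t ↦ by rw [← h.add r s t, ← h'.add r s t]; abel) (fun g ↦ by
      have h1 := he ((g⁻¹ : SL(2, ℤ)) : XX M)
      rw [h.phi_mk, h'.phi_mk, inv_inv] at h1
      exact sub_eq_zero.mpr h1)
  ext r s
  exact sub_eq_zero.mp (key r s)

theorem null_S_iff {φ : XX M → R} : (PS M).Null φ ↔
    (∀ y, S • y = y → φ y = 0) ∧ ∀ y, φ (S • y) = - φ y := by
  constructor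
  · intro h
    have h1 : ∀ y, S • y = y → φ y = 0 := fun y hy ↦ by
      have := h y
      change ∑ z ∈ ({y, S • y} : Finset (XX M)), _ = _ at this
      rwa [hy, Finset.pair_eq_singleton, Finset.sum_singleton] at this
    refine ⟨h1, fun y ↦ ?_⟩
    by_cases hy : S • y = y
    · rw [hy, h1 y hy, neg_zero]
    · have := h y
      change ∑ z ∈ ({y, S • y} : Finset (XX M)), _ = _ at this
      rw [Finset.sum_pair (Ne.symm hy)] at this
      rw [eq_neg_iff_add_eq_zero, add_comm]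
      exact this
  · rintro ⟨h1, h2⟩ y
    change ∑ z ∈ ({y, S • y} : Finset (XX M)), _ = _
    by_cases hy : S • y = y
    · rw [hy, Finset.pair_eq_singleton, Finset.sum_singleton, h1 y hy]
    · rw [Finset.sum_pair (Ne.symm hy), h2, add_neg_cancel]

theorem null_U_iff {φ : XX M → R} : (PU M).Null φ ↔
    (∀ y, U • y = y → φ y = 0) ∧ ∀ y, φ y + φ (U • y) + φ (U • U • y) = 0 := by
  constructor
  · intro h
    have h1 : ∀ y, U • y = y → φ y = 0 := fun y hy ↦ by
      have := h y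
      rwa [sum_PU_fix _ hy] at this
    refine ⟨h1, fun y ↦ ?_⟩
    by_cases hy : U • y = y
    · rw [hy, hy, h1 y hy]; simp
    · rw [← sum_PU _ hy]; exact h y
  · rintro ⟨h1, h2⟩ y
    by_cases hy : U • y = y
    · rw [sum_PU_fix _ hy, h1 y hy]
    · rw [sum_PU _ hy, h2]

/-- Existence of the symbol with given Manin function. -/
theorem exists_symb {φ : XX M → R} (h1 : (PS M).Null φ) (h2 : (PU M).Null φ) :
    ∃ f : Cu → Cu → R, IsMM M f ∧ ∀ y, phi M f y = φ y := by
  rw [null_S_iff] at h1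
  rw [null_U_iff] at h2
  have hSinv : ∀ h : SL(2, ℤ), (((S⁻¹ * h : SL(2, ℤ))) : XX M) = S • ((h : SL(2, ℤ)) : XX M) := by
    intro h
    have : S⁻¹ = -S := by rw [eq_comm, ← mul_eq_one_iff_eq_inv, neg_mul, S_mul_S, neg_neg]
    rw [← smul_mk, this, neg_smul_XX]
  have hUinv : ∀ y : XX M, U⁻¹ • y = U • U • y := by
    intro y
    rw [inv_smul_eq_iff, U_smul_U]
  obtain ⟨ρ, hρ⟩ := exists_potential (fun g ↦ φ ((g⁻¹ : SL(2, ℤ)) : XX M))
    (fun g ↦ by
      beta_reduce
      rw [_root_.mul_inv_rev, hSinv, h1.2])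
    (fun g ↦ by
      beta_reduce
      rw [_root_.mul_inv_rev, _root_.mul_inv_rev, _root_.mul_inv_rev, ← smul_mk, ← smul_mk, ← smul_mk, hUinv, hUinv,
        U_smul_U, add_right_comm]
      exact h2.2 _)
  have hsy : IsSymb M (fun r s ↦ ρ s - ρ r) := by
    refine ⟨fun r s t ↦ by abel, fun γ hγ r s ↦ ?_⟩
    have key := eq_zero_of_edges
      (f := fun r s ↦ (ρ (ι γ • s) - ρ (ι γ • r)) - (ρ s - ρ r)) (fun r s t ↦ by abel)
      (fun g ↦ by
        have e1 := hρ (γ * g)
        have e2 := hρ g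
        have e3 : (((γ * g)⁻¹ : SL(2, ℤ)) : XX M) = ((g⁻¹ : SL(2, ℤ)) : XX M) := by
          rw [QuotientGroup.eq]
          have : ((γ * g)⁻¹)⁻¹ * g⁻¹ = γ := by group
          rw [this]; exact hγ
        rw [ι_mul_smul, ι_mul_smul] at e1
        beta_reduce at e1 e2 ⊢
        rw [e1, e2, e3, sub_self])
    exact sub_eq_zero.mp (key r s)
  have hphi : ∀ y, phi M (fun r s ↦ ρ s - ρ r) y = φ y := by
    intro y
    induction y using QuotientGroup.induction_on with
    | H g =>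
      rw [hsy.phi_mk, xf, hρ, inv_inv]
  refine ⟨_, ⟨hsy, fun y hy ↦ ?_, fun y hy ↦ ?_⟩, hphi⟩
  · rw [hphi]; exact h1.1 y hy
  · rw [hphi]; exact h2.1 y hy

end Fermat.Agent.H16.LR
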