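import Mathlib
import Fermat.Agent.H16.LR.Hk
import Fermat.Agent.H16.LR.Symb

/-!
# The action of `GL₂(ℚ)` on symbols, coordinates
-/

set_option autoImplicit false

open Matrix ModularGroup CongruenceSubgroup
open scoped MatrixGroups

noncomputable section

namespace Fermat.Agent.H16.LR

/-- Every cusp is some `cv a b`. -/
theorem exists_cv (r : Cu) : ∃ a b : ℤ, 0 ≤ b ∧ IsCoprime a b ∧ r = cv a b := by
  induction r using OnePoint.rec with
  | infty => exact ⟨1, 0, le_rfl, isCoprime_one_left, by simp [cv]⟩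
  | coe c =>
    refine ⟨c.num, c.den, by positivity, ?_, ?_⟩
    · have := c.reduced
      rw [Int.isCoprime_iff_gcd_eq_one]
      simpa [Int.gcd, Nat.Coprime] using this
    · have h : ((c.den : ℤ) : ℚ) ≠ 0 := by exact_mod_cast c.den_nz
      rw [cv_of_ne h]
      congr 1
      exact_mod_cast (Rat.num_div_den c).symm

theorem ne_zero_of_coprime {a b : ℤ} (h : IsCoprime a b) : (a : ℚ) ≠ 0 ∨ (b : ℚ) ≠ 0 := by
  by_contra hc
  push Not at hc
  have h1 : a = 0 := by exact_mod_cast hc.1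
  have h2 : b = 0 := by exact_mod_cast hc.2
  rw [h1, h2] at h
  exact not_isCoprime_zero_zero h

theorem gq_smul_cv {a b c d x y : ℚ} (h : a * d - b * c ≠ 0) (hx : x ≠ 0 ∨ y ≠ 0) :
    gq a b c d • cv x y = cv (a * x + b * y) (c * x + d * y) := by
  rw [smul_cv _ hx, gq_00 h, gq_01 h, gq_10 h, gq_11 h]

theorem sc_smul {n : ℚ} (hn : n ≠ 0) (r : Cu) : gq n 0 0 n • r = r := by
  obtain ⟨a, b, -, hab, rfl⟩ := exists_cv r
  have h0 := ne_zero_of_coprime hab
  rw [gq_smul_cv (by simpa using hn) h0]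
  refine cv_eq_of (by ring) ?_ h0
  rcases h0 with h | h
  · left; rw [zero_mul, add_zero]; exact mul_ne_zero hn h
  · right; rw [zero_mul, zero_add]; exact mul_ne_zero hn h

/-- The action on symbols. -/
def pull (R : Type*) [AddCommGroup R] : RA (Cu → Cu → R) where
  act g :=
    { toFun := fun F r s ↦ F (g • r) (g • s)
      map_zero' := rfl
      map_add' := fun _ _ ↦ rfl }
  act_one x := by
    ext r s
    show x ((1 : GL (Fin 2) ℚ) • r) ((1 : GL (Fin 2) ℚ) • s) = x r s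
    rw [one_smul, one_smul]
  act_mul g h x := by
    ext r s
    show x ((g * h) • r) ((g * h) • s) = x (g • h • r) (g • h • s)
    rw [mul_smul, mul_smul]
  act_sc n hn x := by
    ext r s
    show x (gq n 0 0 n • r) (gq n 0 0 n • s) = x r s
    rw [sc_smul hn, sc_smul hn]

variable {R : Type*} [AddCommGroup R]

theorem pull_apply (g : GL (Fin 2) ℚ) (F : Cu → Cu → R) (r s : Cu) :
    (pull R).act g F r s = F (g • r) (g • s) := rfl

/-- Additivity. -/
def Add3 (F : Cu → Cu → R) : Prop := ∀ r s t, F r s + F s t = F r t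

theorem isSymb_iff {M : ℕ} {F : Cu → Cu → R} : IsSymb M F ↔ Add3 F ∧ (pull R).Inv M F := by
  constructor
  · intro h
    refine ⟨h.add, fun γ hγ ↦ ?_⟩
    ext r s
    exact h.inv γ hγ r s
  · rintro ⟨h1, h2⟩
    refine ⟨h1, fun γ hγ r s ↦ ?_⟩
    exact congrFun (congrFun (h2 γ hγ) r) s

theorem Add3.act {F : Cu → Cu → R} (h : Add3 F) (g : GL (Fin 2) ℚ) : Add3 ((pull R).act g F) :=
  fun _ _ _ ↦ h _ _ _

theorem Add3.sum {J : Type*} (s : Finset J) (F : J → Cu → Cu → R) (h : ∀ j ∈ s, Add3 (F j)) :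
    Add3 (∑ j ∈ s, F j) := by
  intro a b c
  simp only [Finset.sum_apply, ← Finset.sum_add_distrib]
  exact Finset.sum_congr rfl fun j hj ↦ h j hj a b c

theorem Add3.add {F F' : Cu → Cu → R} (h : Add3 F) (h' : Add3 F') : Add3 (F + F') := by
  intro a b c
  simp only [Pi.add_apply]
  rw [← h a b c, ← h' a b c]; abel

theorem Add3.UU {F : Cu → Cu → R} (h : Add3 F) (l : ℕ) : Add3 ((pull R).UU l F) :=
  Add3.sum _ _ fun _ _ ↦ h.act _

theorem Add3.TT {F : Cu → Cu → R} (h : Add3 F) (l : ℕ) : Add3 ((pull R).TT l F) :=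
  (h.act _).add (h.UU l)

theorem Add3.tr {F : Cu → Cu → R} (h : Add3 F) (N q : ℕ) [NeZero (N * q)] :
    Add3 ((pull R).tr N q F) := Add3.sum _ _ fun _ _ ↦ h.act _

variable {N q : ℕ}

theorem IsSymb.TT [NeZero N] (hqN : q.Coprime N) (hq : q.Prime) {F : Cu → Cu → R}
    (h : IsSymb N F) : IsSymb N ((pull R).TT q F) := by
  have : NeZero (N * q) := ⟨mul_ne_zero (NeZero.ne N) hq.ne_zero⟩
  rw [isSymb_iff] at h ⊢
  exact ⟨h.1.TT q, RA.TT_inv hqN hq h.2⟩

theorem IsSymb.tr [NeZero (N * q)] (hqN : q.Coprime N) {F : Cu → Cu → R}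
    (h : IsSymb (N * q) F) : IsSymb N ((pull R).tr N q F) := by
  rw [isSymb_iff] at h ⊢
  exact ⟨h.1.tr N q, RA.tr_inv hqN h.2⟩

theorem IsSymb.w (hq : q ≠ 0) {F : Cu → Cu → R} (h : IsSymb (N * q) F) (w : RA.WQ N q) :
    IsSymb (N * q) ((pull R).act w.mat F) := by
  rw [isSymb_iff] at h ⊢
  exact ⟨h.1.act _, h.2.inv_WQ hq w⟩

theorem IsSymb.deg (hq : q ≠ 0) (hqN : q.Coprime N) {F : Cu → Cu → R} (h : IsSymb N F) :
    IsSymb (N * q) ((pull R).act (gq q 0 0 1) F) := by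
  obtain ⟨w, -, -⟩ := RA.exists_WQ hqN 1 (Nat.coprime_one_right q)
  rw [isSymb_iff] at h ⊢
  exact ⟨h.1.act _, h.2.inv_act_w hq w⟩

theorem IsSymb.mono {M M' : ℕ} (hM : M ∣ M') {F : Cu → Cu → R} (h : IsSymb M F) : IsSymb M' F := by
  rw [isSymb_iff] at h ⊢
  exact ⟨h.1, h.2.mono hM⟩

/-- Over a torsion free group all symbols satisfy the elliptic conditions. -/
theorem IsSymb.isMM {M : ℕ} [Module.IsTorsionFree ℤ R] {F : Cu → Cu → R} (h : IsSymb M F) : IsMM M F := by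
  refine ⟨h, fun y hy ↦ ?_, fun y hy ↦ ?_⟩
  · have h1 := h.phi_S y
    rw [hy] at h1
    have h2 : (2 : ℤ) • phi M F y = 0 := by
      rw [two_smul]; nth_rw 1 [h1]; exact neg_add_cancel _
    exact (smul_eq_zero.mp h2).resolve_left (by norm_num)
  · have h1 := h.phi_U y
    rw [hy, hy] at h1
    have h2 : (3 : ℤ) • phi M F y = 0 := by
      rw [← h1]; abel
    exact (smul_eq_zero.mp h2).resolve_left (by norm_num)


/-! ### Coordinates -/

section Coord

variable (M : ℕ) [NeZero M]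

/-- The rank. -/
def rk : ℕ := (exists_basis.{0, 0} (PS M) (PU M) (conn M)).choose

/-- The basis of Manin functions. -/
def cX : Fin (rk M) → XX M → ℤ := (exists_basis.{0, 0} (PS M) (PU M) (conn M)).choose_spec.choose

/-- The dual basis. -/
def eX : Fin (rk M) → XX M → ℤ :=
  (exists_basis.{0, 0} (PS M) (PU M) (conn M)).choose_spec.choose_spec.choose

theorem cX_null (i : Fin (rk M)) : (PS M).Null (cX M i) ∧ (PU M).Null (cX M i) :=
  (exists_basis.{0, 0} (PS M) (PU M) (conn M)).choose_spec.choose_spec.choose_spec.1 i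

theorem eX_cX (i j : Fin (rk M)) : ∑ y, eX M i y * cX M j y = if i = j then 1 else 0 :=
  (exists_basis.{0, 0} (PS M) (PU M) (conn M)).choose_spec.choose_spec.choose_spec.2.1 i j

theorem null_eq {A : Type} [AddCommGroup A] {φ : XX M → A} (h : (PS M).Null φ)
    (h' : (PU M).Null φ) (y : XX M) : φ y = ∑ i, cX M i y • ∑ z, eX M i z • φ z :=
  (exists_basis.{0, 0} (PS M) (PU M) (conn M)).choose_spec.choose_spec.choose_spec.2.2 φ h h' y

/-- The basis of symbols. -/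
def cs (i : Fin (rk M)) : Cu → Cu → ℤ := (exists_symb (cX_null M i).1 (cX_null M i).2).choose

theorem cs_isMM (i : Fin (rk M)) : IsMM M (cs M i) :=
  (exists_symb (cX_null M i).1 (cX_null M i).2).choose_spec.1

theorem phi_cs (i : Fin (rk M)) (y : XX M) : phi M (cs M i) y = cX M i y :=
  (exists_symb (cX_null M i).1 (cX_null M i).2).choose_spec.2 y

variable {M}

/-- Coordinates of a symbol. -/
def co {A : Type*} [AddCommGroup A] (F : Cu → Cu → A) (i : Fin (rk M)) : A :=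
  ∑ z, eX M i z • phi M F z

variable {A : Type} [CommRing A]

/-- Linear combinations of integral functions. -/
def lc (A : Type) [CommRing A] {n : ℕ} (F : Fin n → Cu → Cu → ℤ) (u : Fin n → A) : Cu → Cu → A :=
  fun r s ↦ ∑ i, (F i r s : A) * u i

variable (M A) in
/-- The symbol with given coordinates. -/
def emb (u : Fin (rk M) → A) : Cu → Cu → A := lc A (cs M) u

theorem phi_lc {n : ℕ} (F : Fin n → Cu → Cu → ℤ) (u : Fin n → A) (y : XX M) :
    phi M (lc A F u) y = ∑ i, ((phi M (F i) y : ℤ) : A) * u i := rfl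

theorem lc_isMM {n : ℕ} {F : Fin n → Cu → Cu → ℤ} (hF : ∀ i, IsMM M (F i)) (u : Fin n → A) :
    IsMM M (lc A F u) := by
  refine ⟨⟨fun r s t ↦ ?_, fun γ hγ r s ↦ ?_⟩, fun y hy ↦ ?_, fun y hy ↦ ?_⟩
  · simp only [lc, ← Finset.sum_add_distrib]
    refine Finset.sum_congr rfl fun i _ ↦ ?_
    rw [← (hF i).add r s t]; push_cast; ring
  · simp only [lc]
    refine Finset.sum_congr rfl fun i _ ↦ ?_
    rw [(hF i).inv γ hγ]
  · rw [phi_lc]
    refine Finset.sum_eq_zero fun i _ ↦ ?_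
    rw [(hF i).fixS y hy]; simp
  · rw [phi_lc]
    refine Finset.sum_eq_zero fun i _ ↦ ?_
    rw [(hF i).fixU y hy]; simp

theorem emb_isMM (u : Fin (rk M) → A) : IsMM M (emb M A u) := lc_isMM (cs_isMM M) u

theorem emb_co {F : Cu → Cu → A} (h : IsMM M F) : emb M A (co F) = F := by
  apply (emb_isMM (co F)).toIsSymb.eq_of_phi h.toIsSymb
  intro y
  rw [null_eq M h.null_S h.null_U y, emb, phi_lc]
  refine Finset.sum_congr rfl fun i _ ↦ ?_
  rw [phi_cs, co, zsmul_eq_mul]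

theorem co_emb (u : Fin (rk M) → A) : co (emb M A u) = u := by
  ext i
  simp only [co, emb, phi_lc, phi_cs, zsmul_eq_mul, Finset.mul_sum]
  rw [Finset.sum_comm]
  have : ∀ j, ∑ z, (eX M i z : A) * ((cX M j z : A) * u j) = (if i = j then 1 else 0 : A) * u j := by
    intro j
    simp only [← mul_assoc, ← Finset.sum_mul]
    congr 1
    have := congrArg (Int.cast : ℤ → A) (eX_cX M i j)
    push_cast at this
    rw [this]
  rw [Finset.sum_congr rfl fun j _ ↦ this j]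
  simp

theorem emb_injective : Function.Injective (emb M A) := by
  intro u v h
  rw [← co_emb u, h, co_emb]

/-- Natural operators. -/
def Natl (Θ : ∀ (A : Type) [CommRing A], (Cu → Cu → A) → (Cu → Cu → A)) : Prop :=
  ∀ (A : Type) [CommRing A] (n : ℕ) (F : Fin n → Cu → Cu → ℤ) (u : Fin n → A),
    Θ A (lc A F u) = lc A (fun i ↦ Θ ℤ (F i)) u

theorem Natl.act (g : GL (Fin 2) ℚ) : Natl fun A _ ↦ (pull A).act g := fun _ _ _ _ _ ↦ rfl

theorem Natl.comp {Θ Θ' : ∀ (A : Type) [CommRing A], (Cu → Cu → A) → (Cu → Cu → A)}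
    (h : Natl Θ) (h' : Natl Θ') : Natl fun A _ F ↦ Θ A (Θ' A F) := by
  intro A _ n F u
  beta_reduce
  rw [h', h]

theorem Natl.sum {J : Type} (s : Finset J)
    {Θ : J → ∀ (A : Type) [CommRing A], (Cu → Cu → A) → (Cu → Cu → A)}
    (h : ∀ j ∈ s, Natl (Θ j)) : Natl fun A _ F ↦ ∑ j ∈ s, Θ j A F := by
  intro A _ n F u
  ext r t
  simp only [Finset.sum_apply, lc]
  have : ∀ j ∈ s, Θ j A (lc A F u) r t = ∑ i, (Θ j ℤ (F i) r t : A) * u i := fun j hj ↦ by
    rw [h j hj]; rfl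
  have e : (∑ j ∈ s, Θ j A (lc A F u) r t) =
    ∑ j ∈ s, ∑ i, (Θ j ℤ (F i) r t : A) * u i := Finset.sum_congr rfl this
  rw [e, Finset.sum_comm]
  refine Finset.sum_congr rfl fun i _ ↦ ?_
  push_cast
  rw [Finset.sum_mul]

theorem Natl.add {Θ Θ' : ∀ (A : Type) [CommRing A], (Cu → Cu → A) → (Cu → Cu → A)}
    (h : Natl Θ) (h' : Natl Θ') : Natl fun A _ F ↦ Θ A F + Θ' A F := by
  intro A _ n F u
  beta_reduce
  rw [h, h']
  ext r t
  simp only [Pi.add_apply, lc, ← Finset.sum_add_distrib]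
  refine Finset.sum_congr rfl fun i _ ↦ ?_
  push_cast; ring

theorem Natl.UU (l : ℕ) : Natl fun A _ ↦ (pull A).UU l := Natl.sum _ fun _ _ ↦ Natl.act _

theorem Natl.TT (l : ℕ) : Natl fun A _ ↦ (pull A).TT l := Natl.add (Natl.act _) (Natl.UU l)

theorem Natl.tr (N q : ℕ) [NeZero (N * q)] : Natl fun A _ ↦ (pull A).tr N q :=
  Natl.sum _ fun _ _ ↦ Natl.act _

variable {M' : ℕ} [NeZero M']

variable (M M') in
/-- The matrix of a natural operator. -/
def mt (Θ : ∀ (A : Type) [CommRing A], (Cu → Cu → A) → (Cu → Cu → A)) :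
    Matrix (Fin (rk M')) (Fin (rk M)) ℤ := fun j i ↦ co (Θ ℤ (cs M i)) j

/-- Operators preserving integral symbols. -/
def Pres (M M' : ℕ) (Θ : ∀ (A : Type) [CommRing A], (Cu → Cu → A) → (Cu → Cu → A)) : Prop :=
  ∀ F : Cu → Cu → ℤ, IsSymb M F → IsSymb M' (Θ ℤ F)

theorem mt_spec {Θ : ∀ (A : Type) [CommRing A], (Cu → Cu → A) → (Cu → Cu → A)}
    (h : Natl Θ) (hP : Pres M M' Θ) (u : Fin (rk M) → A) :
    Θ A (emb M A u) = emb M' A ((mt M M' Θ).map (Int.castRingHom A) *ᵥ u) := by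
  rw [emb, h]
  ext r s
  simp only [lc, emb, mulVec, dotProduct, map_apply, Int.coe_castRingHom]
  have : ∀ i, (Θ ℤ (cs M i) r s) = ∑ j, cs M' j r s * mt M M' Θ j i := by
    intro i
    have := emb_co (A := ℤ) (M := M') (hP _ (cs_isMM M i).toIsSymb).isMM
    conv_lhs => rw [← this]
    simp [emb, lc, mt]
  simp only [this, Finset.mul_sum]
  rw [Finset.sum_comm]
  refine Finset.sum_congr rfl fun i _ ↦ ?_
  push_cast
  rw [Finset.sum_mul]
  refine Finset.sum_congr rfl fun j _ ↦ ?_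
  ring

theorem mt_spec' {Θ : ∀ (A : Type) [CommRing A], (Cu → Cu → A) → (Cu → Cu → A)}
    (h : Natl Θ) (hP : Pres M M' Θ) {F : Cu → Cu → A} (hF : IsMM M F) :
    co (M := M') (Θ A F) = (mt M M' Θ).map (Int.castRingHom A) *ᵥ co F := by
  rw [← emb_co hF, mt_spec h hP, co_emb, co_emb]

/-- Natural operators preserve `IsMM`. -/
theorem Natl.isMM {Θ : ∀ (A : Type) [CommRing A], (Cu → Cu → A) → (Cu → Cu → A)}
    (h : Natl Θ) (hP : Pres M M' Θ) {F : Cu → Cu → A} (hF : IsMM M F) : IsMM M' (Θ A F) := by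
  rw [← emb_co hF, mt_spec h hP]
  exact emb_isMM _

theorem mt_mul {M'' : ℕ} [NeZero M''] {Θ Θ' : ∀ (A : Type) [CommRing A], (Cu → Cu → A) → (Cu → Cu → A)}
    (h : Natl Θ) (hP : Pres M' M'' Θ) (hP' : Pres M M' Θ') :
    mt M' M'' Θ * mt M M' Θ' = mt M M'' (fun A _ F ↦ Θ A (Θ' A F)) := by
  ext k i
  have h1 := mt_spec' (A := ℤ) h hP (hP' _ (cs_isMM M i).toIsSymb).isMM
  have h2 := congrFun h1 k
  rw [mt, h2]
  simp only [mul_apply, mulVec, dotProduct, map_apply]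
  rfl

theorem mt_congr {Θ Θ' : ∀ (A : Type) [CommRing A], (Cu → Cu → A) → (Cu → Cu → A)}
    (h : ∀ F : Cu → Cu → ℤ, IsSymb M F → Θ ℤ F = Θ' ℤ F) : mt M M' Θ = mt M M' Θ' := by
  ext k i
  rw [mt, mt, h _ (cs_isMM M i).toIsSymb]

end Coord

end Fermat.Agent.H16.LR
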