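import Mathlib
import Fermat.Agent.H16.LR.Pull

/-!
# The pairing on modular symbols
-/

set_option autoImplicit false

open Matrix ModularGroup CongruenceSubgroup
open scoped MatrixGroups

noncomputable section

namespace Fermat.Agent.H16.LR

variable {M : ℕ} {A : Type} [CommRing A]

/-- The local term. -/
def tri (φ ψ : XX M → A) (y : XX M) : A := φ y * ψ (U • y) - φ (U • y) * ψ y

/-- The pairing. -/
def pr (M : ℕ) [NeZero M] (F F' : Cu → Cu → A) : A :=
  ∑ y : XX M with (PU M).rep y = y, tri (phi M F) (phi M F') y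

theorem tri_U {φ ψ : XX M → A} (h : ∀ y, φ y + φ (U • y) + φ (U • U • y) = 0)
    (h' : ∀ y, ψ y + ψ (U • y) + ψ (U • U • y) = 0) (y : XX M) :
    tri φ ψ (U • y) = tri φ ψ y := by
  have h1 : φ (U • U • y) = - φ y - φ (U • y) := by linear_combination h y
  have h2 : ψ (U • U • y) = - ψ y - ψ (U • y) := by linear_combination h' y
  rw [tri, tri, h1, h2]
  ring

theorem tri_fix {φ ψ : XX M → A} {y : XX M} (hy : U • y = y) : tri φ ψ y = 0 := by
  rw [tri, hy]; ring

theorem three_pr [NeZero M] {F F' : Cu → Cu → A} (hF : IsSymb M F) (hF' : IsSymb M F') :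
    ∑ y, tri (phi M F) (phi M F') y = 3 * pr M F F' := by
  set τ := tri (phi M F) (phi M F') with hτ
  have hU : ∀ y, τ (U • y) = τ y := tri_U hF.phi_U hF'.phi_U
  rw [pr, Finset.mul_sum, ← Finset.sum_fiberwise_of_maps_to (s := Finset.univ)
    (t := Finset.univ.filter fun y : XX M ↦ (PU M).rep y = y) (g := (PU M).rep)
    (fun y _ ↦ by simp [Part.rep_rep])]
  refine Finset.sum_congr rfl fun r hr ↦ ?_
  rw [Finset.mem_filter] at hr
  have : (Finset.univ.filter fun y ↦ (PU M).rep y = r) = (PU M).orb r := by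
    ext y
    simp only [Finset.mem_filter, Finset.mem_univ, true_and]
    constructor
    · rintro h
      rw [(PU M).mem_comm, ← h]
      exact (PU M).rep_mem y
    · intro h
      rw [(PU M).rep_eq_of_mem h, hr.2]
  rw [this]
  by_cases hfix : U • r = r
  · have h0 : τ r = 0 := tri_fix hfix
    rw [sum_PU_fix _ hfix, h0]
    show 0 = 3 * τ r
    rw [h0, mul_zero]
  · rw [sum_PU _ hfix, hU (U • r), hU r]
    ring

/-- Linearity in the first argument. -/
theorem pr_lc_left [NeZero M] {n : ℕ} (F : Fin n → Cu → Cu → ℤ) (u : Fin n → A) (G : Cu → Cu → A) :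
    pr M (lc A F u) G = ∑ i, u i * pr M (fun r s ↦ (F i r s : A)) G := by
  simp only [pr, Finset.mul_sum]
  rw [Finset.sum_comm]
  refine Finset.sum_congr rfl fun y _ ↦ ?_
  simp only [tri, phi_lc, Finset.sum_mul, ← Finset.sum_sub_distrib]
  refine Finset.sum_congr rfl fun i _ ↦ ?_
  have : ∀ y, phi M (fun r s ↦ (F i r s : A)) y = ((phi M (F i) y : ℤ) : A) := fun _ ↦ rfl
  rw [this, this]
  ring

theorem tri_anti (φ ψ : XX M → A) (y : XX M) : tri φ ψ y = - tri ψ φ y := by
  simp only [tri]; ring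

theorem pr_anti [NeZero M] (F G : Cu → Cu → A) : pr M F G = - pr M G F := by
  simp only [pr, ← Finset.sum_neg_distrib]
  exact Finset.sum_congr rfl fun y _ ↦ tri_anti _ _ _

theorem pr_lc_right [NeZero M] {n : ℕ} (F : Fin n → Cu → Cu → ℤ) (u : Fin n → A) (G : Cu → Cu → A) :
    pr M G (lc A F u) = ∑ i, pr M G (fun r s ↦ (F i r s : A)) * u i := by
  rw [pr_anti, pr_lc_left, ← Finset.sum_neg_distrib]
  refine Finset.sum_congr rfl fun i _ ↦ ?_
  rw [pr_anti G]; ring

theorem pr_cast [NeZero M] (F G : Cu → Cu → ℤ) :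
    pr M (fun r s ↦ (F r s : A)) (fun r s ↦ (G r s : A)) = ((pr M F G : ℤ) : A) := by
  rw [pr, pr]
  push_cast
  refine Finset.sum_congr rfl fun y _ ↦ ?_
  simp only [tri]
  push_cast
  rfl

variable (M) in
/-- The matrix of the pairing. -/
def PM [NeZero M] : Matrix (Fin (rk M)) (Fin (rk M)) ℤ := fun i j ↦ pr M (cs M i) (cs M j)

/-- The pairing in coordinates. -/
theorem pr_emb [NeZero M] (u v : Fin (rk M) → A) :
    pr M (emb M A u) (emb M A v) = u ⬝ᵥ ((PM M).map (Int.castRingHom A) *ᵥ v) := by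
  rw [emb, emb, pr_lc_left, dotProduct]
  refine Finset.sum_congr rfl fun i _ ↦ ?_
  congr 1
  rw [pr_lc_right, mulVec, dotProduct]
  refine Finset.sum_congr rfl fun j _ ↦ ?_
  rw [pr_cast]
  rfl

/-! ### The radical -/

/-- The double annihilator. -/
theorem exists_decomp {k X : Type} [Field k] [Fintype X] [DecidableEq X] (P P' : Part X) (h : X → k)
    (hh : ∀ ψ : X → k, P.Null ψ → P'.Null ψ → ∑ z, h z * ψ z = 0) :
    ∃ a b : X → k, P.Inv a ∧ P'.Inv b ∧ h = a + b := by
  let W1 : Submodule k (X → k) :=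
    { carrier := {a | P.Inv a}
      add_mem' := by
        intro a b ha hb y z hz
        simp only [Pi.add_apply]
        rw [ha y z hz, hb y z hz]
      zero_mem' := by intro y z _; rfl
      smul_mem' := by
        intro c a ha y z hz
        simp only [Pi.smul_apply]
        rw [ha y z hz] }
  let W2 : Submodule k (X → k) :=
    { carrier := {a | P'.Inv a}
      add_mem' := by
        intro a b ha hb y z hz
        simp only [Pi.add_apply]
        rw [ha y z hz, hb y z hz]
      zero_mem' := by intro y z _; rfl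
      smul_mem' := by
        intro c a ha y z hz
        simp only [Pi.smul_apply]
        rw [ha y z hz] }
  have hmem : h ∈ W1 ⊔ W2 := by
    by_contra hne
    obtain ⟨f, hf1, hf2⟩ := Submodule.exists_le_ker_of_notMem hne
    have hval : ∀ v : X → k, f v = ∑ z, v z * f (Pi.single z 1) := by
      intro v
      conv_lhs => rw [← LinearMap.sum_single_apply (fun _ ↦ k) v]
      rw [map_sum]
      refine Finset.sum_congr rfl fun z _ ↦ ?_
      rw [← smul_eq_mul, ← map_smul]
      congr 1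
      ext w
      by_cases hw : w = z
      · subst hw; simp
      · simp [hw]
    apply hf1
    rw [hval]
    refine hh (fun z ↦ f (Pi.single z 1)) (fun y ↦ ?_) (fun y ↦ ?_)
    · have h1 : f (fun z ↦ if z ∈ P.orb y then 1 else 0) = 0 := by
        apply hf2
        apply Submodule.mem_sup_left
        intro y' z hz
        have : z ∈ P.orb y ↔ y' ∈ P.orb y := by
          rw [P.mem_comm (y := y), P.mem_comm (y := y), P.eq_of_mem y' z hz]
        simp only [this]
      rw [hval] at h1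
      simpa using h1
    · have h1 : f (fun z ↦ if z ∈ P'.orb y then 1 else 0) = 0 := by
        apply hf2
        apply Submodule.mem_sup_right
        intro y' z hz
        have : z ∈ P'.orb y ↔ y' ∈ P'.orb y := by
          rw [P'.mem_comm (y := y), P'.mem_comm (y := y), P'.eq_of_mem y' z hz]
        simp only [this]
      rw [hval] at h1
      simpa using h1
  obtain ⟨a, ha, b, hb, hab⟩ := Submodule.mem_sup.mp hmem
  exact ⟨a, b, ha, hb, hab.symm⟩


theorem UU_eq_ST : U * U = S * T⁻¹ := by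
  ext i j
  fin_cases i <;> fin_cases j <;> simp [U, S, Matrix.mul_apply, Fin.sum_univ_two]

theorem TST_eq : T⁻¹ * S * T⁻¹ = S * T * S := by
  ext i j
  fin_cases i <;> fin_cases j <;>
    simp [S, T, Matrix.mul_apply, Fin.sum_univ_two]

theorem exists_col {a b : ℤ} (h : IsCoprime a b) : ∃ g : SL(2, ℤ), g 0 0 = a ∧ g 1 0 = b := by
  obtain ⟨u, v, huv⟩ := h
  exact ⟨sl a (-v) b u (by linear_combination huv), rfl, rfl⟩

/-- `SL₂(ℤ)` acts transitively on cusps. -/
theorem exists_smul_infty (r : Cu) : ∃ g : SL(2, ℤ), ι g • (OnePoint.infty : Cu) = r := by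
  obtain ⟨a, b, -, hab, rfl⟩ := exists_cv r
  obtain ⟨g, h1, h2⟩ := exists_col hab
  exact ⟨g, by rw [ι_infty, h1, h2]⟩

/-- The stabiliser of `∞`. -/
theorem stab_infty {δ : SL(2, ℤ)} (h : ι δ • (OnePoint.infty : Cu) = OnePoint.infty) :
    ∃ n : ℤ, δ = T ^ n ∨ δ = - T ^ n := by
  rw [ι_infty] at h
  have h10 : δ 1 0 = 0 := by
    by_contra hne
    have h1 : ((δ 1 0 : ℤ) : ℚ) ≠ 0 := by exact_mod_cast hne
    rw [cv_of_ne h1] at h
    exact OnePoint.coe_ne_infty _ h
  have hd := det_eq δ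
  rw [h10, mul_zero, sub_zero] at hd
  rcases Int.eq_one_or_neg_one_of_mul_eq_one hd with h0 | h0
  · rw [h0, one_mul] at hd
    refine ⟨δ 0 1, Or.inl ?_⟩
    ext i j
    rw [coe_T_zpow]
    fin_cases i <;> fin_cases j
    · simpa using h0
    · simp
    · simpa using h10
    · simpa using hd
  · rw [h0] at hd
    refine ⟨-δ 0 1, Or.inr ?_⟩
    ext i j
    rw [SpecialLinearGroup.coe_neg, coe_T_zpow]
    fin_cases i <;> fin_cases j
    · simpa using h0
    · simp
    · simpa using h10
    · have : δ 1 1 = -1 := by linarith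
      simpa using this

theorem inv_T_zpow {B : Type*} {g : XX M → B} (h : ∀ z, g (T⁻¹ • z) = g z) (n : ℤ) (z : XX M) :
    g (T ^ n • z) = g z := by
  have h' : ∀ z, g (T • z) = g z := fun z ↦ by
    have := h (T • z)
    rw [inv_smul_smul] at this
    exact this.symm
  induction n with
  | zero => simp
  | succ n ih => rw [add_comm, _root_.zpow_add, zpow_one, mul_smul, h', ih]
  | pred n ih => rw [sub_eq_add_neg, add_comm, _root_.zpow_add, _root_.zpow_neg_one, mul_smul, h, ih]

/-- `T`-invariant functions on cosets are functions of the cusp. -/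
theorem exists_cusp_fun {B : Type*} {g : XX M → B} (h : ∀ z, g (T⁻¹ • z) = g z) :
    ∃ β : Cu → B, (∀ γ : SL(2, ℤ), β (ι γ • (OnePoint.infty : Cu)) = g ((γ⁻¹ : SL(2, ℤ)) : XX M)) ∧
      ∀ γ ∈ Gamma0 M, ∀ r, β (ι γ • r) = β r := by
  choose c hc using exists_smul_infty
  have key : ∀ γ γ' : SL(2, ℤ), ι γ • (OnePoint.infty : Cu) = ι γ' • (OnePoint.infty : Cu) →
      g ((γ⁻¹ : SL(2, ℤ)) : XX M) = g ((γ'⁻¹ : SL(2, ℤ)) : XX M) := by
    intro γ γ' hγ
    have h1 : ι (γ⁻¹ * γ') • (OnePoint.infty : Cu) = OnePoint.infty := by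
      rw [ι_mul_smul, ← hγ, ι_inv, inv_smul_smul]
    obtain ⟨n, hn⟩ := stab_infty h1
    have h2 : ((γ⁻¹ : SL(2, ℤ)) : XX M) = (γ⁻¹ * γ') • ((γ'⁻¹ : SL(2, ℤ)) : XX M) := by
      rw [smul_mk, mul_assoc, mul_inv_cancel, mul_one]
    rw [h2]
    rcases hn with hn | hn
    · rw [hn, inv_T_zpow h]
    · rw [hn, neg_smul_XX, inv_T_zpow h]
  refine ⟨fun r ↦ g (((c r)⁻¹ : SL(2, ℤ)) : XX M), fun γ ↦ key _ _ (hc _), fun γ hγ r ↦ ?_⟩
  have h3 : g (((c (ι γ • r))⁻¹ : SL(2, ℤ)) : XX M) = g (((γ * c r)⁻¹ : SL(2, ℤ)) : XX M) := by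
    apply key
    rw [hc, ι_mul_smul, hc]
  show g (((c (ι γ • r))⁻¹ : SL(2, ℤ)) : XX M) = g (((c r)⁻¹ : SL(2, ℤ)) : XX M)
  rw [h3]
  congr 1
  rw [QuotientGroup.eq]
  have : ((γ * c r)⁻¹)⁻¹ * (c r)⁻¹ = γ := by group
  rw [this]; exact hγ


/-- The radical of the pairing consists of boundary symbols. -/
theorem boundary_of_radical {k : Type} [Field k] [NeZero M] {F : Cu → Cu → k} (hF : IsMM M F)
    (hrad : ∀ G : Cu → Cu → k, IsMM M G → pr M G F = 0) :
    ∃ β : Cu → k, (∀ γ ∈ Gamma0 M, ∀ r, β (ι γ • r) = β r) ∧ ∀ r s, 2 * F r s = β s - β r := by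
  set φ := phi M F with hφ
  have hUUU : ∀ z : XX M, U • U • U • z = z := U_smul_U
  obtain ⟨a, b, ha, hb, hab⟩ := exists_decomp (PS M) (PU M)
    (fun z ↦ (if (PU M).rep z = z then φ (U • z) else 0) -
      (if (PU M).rep (U • U • z) = U • U • z then φ (U • U • z) else 0)) (fun ψ h1 h2 ↦ by
      obtain ⟨G, hG, hGψ⟩ := exists_symb h1 h2
      have h3 := hrad G hG
      have e1 : phi M G = ψ := funext hGψ
      rw [pr, e1] at h3
      simp only [tri, Finset.sum_sub_distrib] at h3
      simp only [sub_mul, Finset.sum_sub_distrib, ite_mul, zero_mul]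
      rw [← Finset.sum_filter]
      have e2 : ∑ z : XX M, (if (PU M).rep (U • U • z) = U • U • z then φ (U • U • z) * ψ z else 0) =
          ∑ y : XX M, (if (PU M).rep y = y then φ y * ψ (U • y) else 0) := by
        refine Fintype.sum_bijective (fun z ↦ U • U • z) ?_ _ _ (fun z ↦ ?_)
        · have : (fun z : XX M ↦ U • U • z) = (MulAction.toPerm (U * U) : Equiv.Perm (XX M)) := by
            ext z; simp [mul_smul]
          rw [this]
          exact (MulAction.toPerm (U * U)).bijective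
        · simp only [hUUU]
      rw [e2, ← Finset.sum_filter]
      rw [← h3]
      congr 1
      · exact Finset.sum_congr rfl fun _ _ ↦ mul_comm _ _
      · exact Finset.sum_congr rfl fun _ _ ↦ mul_comm _ _)
  have haS := inv_PS.mp ha
  have hbU := inv_PU.mp hb
  -- the basic relation
  have hrel : ∀ z, a (U • z) - a z = φ (U • U • z) := by
    intro z
    have h1 := congrFun hab z
    have h2 := congrFun hab (U • z)
    simp only [Pi.add_apply, hbU, hUUU] at h1 h2
    have h3 := hF.phi_U z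
    rw [← hφ] at h3
    have hr1 : (PU M).rep (U • z) = (PU M).rep z :=
      (PU M).rep_eq_of_mem (by simp [PU])
    have hr2 : (PU M).rep (U • U • z) = (PU M).rep z :=
      (PU M).rep_eq_of_mem (by simp [PU])
    rw [hr1] at h2
    rw [hr2] at h1
    by_cases hfix : U • z = z
    · simp only [hfix] at h1 h2 ⊢
      have := hF.fixU z hfix
      rw [← hφ] at this
      rw [this, sub_self]
    · obtain ⟨hd1, hd2⟩ := U_distinct hfix
      simp only [Finset.mem_insert, Finset.mem_singleton, not_or] at hd1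
      have hmem : (PU M).rep z ∈ (PU M).orb z := (PU M).rep_mem z
      simp only [PU, Finset.mem_insert, Finset.mem_singleton] at hmem
      change (PU M).rep z = z ∨ (PU M).rep z = U • z ∨ (PU M).rep z = U • U • z at hmem
      rcases hmem with h | h | h
      · rw [h] at h1 h2
        simp only [if_true, if_neg hd1.1, if_neg hd1.2] at h1 h2
        linear_combination h1 - h2 - h3
      · rw [h] at h1 h2
        simp only [if_true, if_neg (Ne.symm hd1.1), if_neg hd2] at h1 h2
        linear_combination h1 - h2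
      · rw [h] at h1 h2
        simp only [if_true, if_neg (Ne.symm hd1.2), if_neg (Ne.symm hd2)] at h1 h2
        linear_combination h1 - h2
  have hφa : ∀ z, φ z = a (U • U • z) - a (U • z) := fun z ↦ by rw [hrel, hUUU]
  have eUU : ∀ z, a (U • U • z) = a (T⁻¹ • z) := fun z ↦ by
    rw [← mul_smul, UU_eq_ST, mul_smul, haS]
  have eU : ∀ z, a (U • z) = a (T • S • z) := fun z ↦ by rw [U_eq, mul_smul]
  have r1 : ∀ z, φ z = a (T⁻¹ • z) - a (T • S • z) := fun z ↦ by rw [hφa, eUU, eU]
  have r2 : ∀ z, φ z = a (T • z) - a (T⁻¹ • S • z) := fun z ↦ by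
    have h1 := r1 (S • z)
    rw [S_smul_S] at h1
    have h2 := hF.phi_S z
    rw [← hφ] at h2
    rw [h2] at h1
    linear_combination -h1
  have r3 : ∀ z, φ (T⁻¹ • z) = a z - a (T • S • z) := fun z ↦ by
    rw [r2, smul_inv_smul, ← mul_smul, ← mul_smul, TST_eq, mul_assoc, mul_smul, haS,
      mul_smul]
  obtain ⟨β, hβ1, hβ2⟩ := exists_cusp_fun (g := fun z ↦ φ z + a z) (fun z ↦ by
    rw [r3 z, r1 z]; ring)
  refine ⟨β, hβ2, ?_⟩
  have key := eq_zero_of_edges (f := fun r s ↦ 2 * F r s - (β s - β r))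
    (fun r s t ↦ by rw [← hF.add r s t]; ring) (fun g ↦ by
      have e1 : ι g • ((0 : ℚ) : Cu) = ι (g * S) • (OnePoint.infty : Cu) := by
        rw [ι_mul_smul, S_infty]
      have e2 : F (ι g • ((0 : ℚ) : Cu)) (ι g • (OnePoint.infty : Cu)) = φ ((g⁻¹ : SL(2, ℤ)) : XX M) := by
        rw [hφ, hF.phi_mk, inv_inv, xf]
      rw [e2, e1, hβ1, hβ1]
      have e3 : (((g * S)⁻¹ : SL(2, ℤ)) : XX M) = S • ((g⁻¹ : SL(2, ℤ)) : XX M) := by
        have : S⁻¹ = -S := by rw [eq_comm, ← mul_eq_one_iff_eq_inv, neg_mul, S_mul_S, neg_neg]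
        rw [_root_.mul_inv_rev, ← smul_mk, this, neg_smul_XX]
      have h2 := hF.phi_S ((g⁻¹ : SL(2, ℤ)) : XX M)
      rw [← hφ] at h2
      rw [e3, h2, haS]
      ring)
  intro r s
  exact sub_eq_zero.mp (key r s)

end Fermat.Agent.H16.LR
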