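import Mathlib
import Fermat.Agent.H16.LR.Pair

/-!
# Invariance of the pairing under Atkin–Lehner and adjointness of trace and restriction
-/

set_option autoImplicit false

open Matrix ModularGroup CongruenceSubgroup
open scoped MatrixGroups

noncomputable section

namespace Fermat.Agent.H16.LR

/-! ### The orientation cocycle -/

/-- Sign. -/
def sg (x : ℚ) : ℚ := ((SignType.sign x : SignType) : ℚ)

theorem sg_mul (x y : ℚ) : sg (x * y) = sg x * sg y := by
  simp [sg, sign_mul]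

theorem sg_pos {x : ℚ} (h : 0 < x) : sg x = 1 := by simp [sg, sign_pos h]
theorem sg_neg {x : ℚ} (h : x < 0) : sg x = -1 := by simp [sg, sign_neg h]
theorem sg_zero : sg 0 = 0 := by simp [sg]

theorem sg_neg' (x : ℚ) : sg (-x) = - sg x := by
  rcases lt_trichotomy x 0 with h | h | h
  · rw [sg_neg h, sg_pos (by linarith)]; ring
  · rw [h, neg_zero, sg_zero, neg_zero]
  · rw [sg_pos h, sg_neg (by linarith)]

theorem sg_add (a b : ℚ) : sg (a * b * (a + b)) = sg a + sg b - sg (a + b) := by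
  rw [sg_mul, sg_mul]
  rcases lt_trichotomy a 0 with h | h | h <;> rcases lt_trichotomy b 0 with h' | h' | h' <;>
    rcases lt_trichotomy (a + b) 0 with h'' | h'' | h'' <;>
    first
      | (exfalso; linarith)
      | (simp [sg_pos, sg_neg, sg_zero, h, h', h'']; try norm_num)

/-- Coordinates of a cusp. -/
def v1 (r : Cu) : ℚ := r.elim 1 id
/-- Coordinates of a cusp. -/
def v2 (r : Cu) : ℚ := r.elim 0 fun _ ↦ 1

theorem v1_infty : v1 OnePoint.infty = 1 := rfl
theorem v2_infty : v2 OnePoint.infty = 0 := rfl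
theorem v1_coe (x : ℚ) : v1 (x : Cu) = x := rfl
theorem v2_coe (x : ℚ) : v2 (x : Cu) = 1 := rfl

/-- The determinant. -/
def dt (r s : Cu) : ℚ := v1 r * v2 s - v1 s * v2 r

/-- The orientation cocycle. -/
def Or (r s t : Cu) : ℚ := sg (dt r s * dt s t * dt t r)

theorem Or_symm (r s t : Cu) : Or s r t = - Or r s t := by
  rw [Or, Or, ← sg_neg']
  congr 1
  simp only [dt]; ring

theorem Or_cyc (r s t : Cu) : Or s t r = Or r s t := by
  rw [Or, Or]
  congr 1
  ring

theorem Or_aux (r s t : Cu) : Or r s t =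
    Or s t OnePoint.infty - Or r t OnePoint.infty + Or r s OnePoint.infty := by
  induction r using OnePoint.rec with
  | infty =>
    induction s using OnePoint.rec with
    | infty => simp only [Or, dt, v1_infty, v2_infty]; simp [sg_zero]
    | coe s =>
      induction t using OnePoint.rec with
      | infty => simp only [Or, dt, v1_infty, v2_infty]; simp [sg_zero]
      | coe t => simp only [Or, dt, v1_infty, v2_infty, v1_coe, v2_coe]; simp [sg_zero]
  | coe r =>
    induction s using OnePoint.rec with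
    | infty =>
      induction t using OnePoint.rec with
      | infty => simp only [Or, dt, v1_infty, v2_infty]; simp [sg_zero]
      | coe t =>
        simp only [Or, dt, v1_infty, v2_infty, v1_coe, v2_coe]
        simp [sg_zero]
        rw [← sg_neg']; congr 1; ring
    | coe s =>
      induction t using OnePoint.rec with
      | infty => simp only [Or, dt, v1_infty, v2_infty]; simp [sg_zero]
      | coe t =>
        simp only [Or, dt, v1_infty, v2_infty, v1_coe, v2_coe]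
        have := sg_add (s - r) (t - s)
        have e1 : (r * 1 - s * 1) * (s * 1 - t * 1) * (t * 1 - r * 1) =
          (s - r) * (t - s) * (s - r + (t - s)) := by ring
        rw [e1, this]
        have e2 : (s * 1 - t * 1) * (t * 0 - 1 * 1) * (1 * 1 - s * 0) = t - s := by ring
        have e3 : (r * 1 - t * 1) * (t * 0 - 1 * 1) * (1 * 1 - r * 0) = s - r + (t - s) := by ring
        have e4 : (r * 1 - s * 1) * (s * 0 - 1 * 1) * (1 * 1 - r * 0) = s - r := by ring
        rw [e2, e3, e4]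
        ring

theorem Or_coc (r s t u : Cu) : Or s t u - Or r t u + Or r s u - Or r s t = 0 := by
  rw [Or_aux s t u, Or_aux r t u, Or_aux r s u, Or_aux r s t]
  ring

theorem Or_ne : Or ((1 : ℚ) : Cu) ((0 : ℚ) : Cu) OnePoint.infty ≠ 0 := by
  simp only [Or, dt, v1_infty, v2_infty, v1_coe, v2_coe]
  rw [sg_neg (by norm_num)]
  norm_num

theorem cv_v (r : Cu) : r = cv (v1 r) (v2 r) := by
  induction r using OnePoint.rec with
  | infty => simp [v2_infty, cv]
  | coe c => simp [v1_coe, v2_coe, cv]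

theorem v_ne (r : Cu) : v1 r ≠ 0 ∨ v2 r ≠ 0 := by
  induction r using OnePoint.rec with
  | infty => left; simp [v1_infty]
  | coe c => right; simp [v2_coe]

theorem v_cv {x y : ℚ} (h : x ≠ 0 ∨ y ≠ 0) : ∃ l : ℚ, l ≠ 0 ∧ v1 (cv x y) = l * x ∧ v2 (cv x y) = l * y := by
  by_cases hy : y = 0
  · subst hy
    have hx : x ≠ 0 := by simpa using h
    exact ⟨x⁻¹, inv_ne_zero hx, by rw [cv_zero, v1_infty, inv_mul_cancel₀ hx], by
      rw [cv_zero, v2_infty, mul_zero]⟩
  · exact ⟨y⁻¹, inv_ne_zero hy, by rw [cv_of_ne hy, v1_coe, div_eq_inv_mul], by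
      rw [cv_of_ne hy, v2_coe, inv_mul_cancel₀ hy]⟩

theorem Or_inv (g : GL (Fin 2) ℚ) (hg : 0 < (g 0 0 * g 1 1 - g 0 1 * g 1 0 : ℚ)) (r s t : Cu) :
    Or (g • r) (g • s) (g • t) = Or r s t := by
  have key : ∀ r : Cu, ∃ l : ℚ, l ≠ 0 ∧ v1 (g • r) = l * (g 0 0 * v1 r + g 0 1 * v2 r) ∧
      v2 (g • r) = l * (g 1 0 * v1 r + g 1 1 * v2 r) := by
    intro r
    have h1 : g • r = cv (g 0 0 * v1 r + g 0 1 * v2 r) (g 1 0 * v1 r + g 1 1 * v2 r) := by
      conv_lhs => rw [cv_v r]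
      exact smul_cv g (v_ne r)
    rw [h1]
    apply v_cv
    by_contra hc
    push Not at hc
    have h2 : (g 0 0 * g 1 1 - g 0 1 * g 1 0 : ℚ) * v1 r = 0 := by
      linear_combination g 1 1 * hc.1 - g 0 1 * hc.2
    have h3 : (g 0 0 * g 1 1 - g 0 1 * g 1 0 : ℚ) * v2 r = 0 := by
      linear_combination g 0 0 * hc.2 - g 1 0 * hc.1
    rcases v_ne r with h | h
    · exact h ((mul_eq_zero.mp h2).resolve_left hg.ne')
    · exact h ((mul_eq_zero.mp h3).resolve_left hg.ne')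
  obtain ⟨a, ha, ha1, ha2⟩ := key r
  obtain ⟨b, hb, hb1, hb2⟩ := key s
  obtain ⟨c, hc, hc1, hc2⟩ := key t
  rw [Or, Or]
  have : dt (g • r) (g • s) * dt (g • s) (g • t) * dt (g • t) (g • r) =
      ((a * b * c) ^ 2 * (g 0 0 * g 1 1 - g 0 1 * g 1 0 : ℚ) ^ 3) * (dt r s * dt s t * dt t r) := by
    simp only [dt, ha1, ha2, hb1, hb2, hc1, hc2]
    ring
  rw [this, sg_mul, sg_pos (by positivity), one_mul]


/-! ### Cocycles -/

variable {M : ℕ}

/-- Alternating invariant cocycles. -/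
structure Coc (M : ℕ) (A : Cu → Cu → Cu → ℚ) : Prop where
  coc : ∀ r s t u, A s t u - A r t u + A r s u - A r s t = 0
  symm : ∀ r s t, A s r t = - A r s t
  cyc : ∀ r s t, A s t r = A r s t
  inv : ∀ γ ∈ Gamma0 M, ∀ r s t, A (ι γ • r) (ι γ • s) (ι γ • t) = A r s t

/-- Values on Farey triangles. -/
def tv (A : Cu → Cu → Cu → ℚ) (g : SL(2, ℤ)) : ℚ :=
  A (ι g • ((1 : ℚ) : Cu)) (ι g • ((0 : ℚ) : Cu)) (ι g • (OnePoint.infty : Cu))

/-- The function on cosets. -/
def tX (M : ℕ) (A : Cu → Cu → Cu → ℚ) (y : XX M) : ℚ := tv A y.out⁻¹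

theorem tv_mul {A : Cu → Cu → Cu → ℚ} (h : ∀ γ ∈ Gamma0 M, ∀ r s t, A (ι γ • r) (ι γ • s) (ι γ • t) = A r s t)
    {δ : SL(2, ℤ)} (hδ : δ ∈ Gamma0 M) (g : SL(2, ℤ)) : tv A (δ * g) = tv A g := by
  rw [tv, ι_mul_smul, ι_mul_smul, ι_mul_smul, h _ hδ, tv]

theorem xf_mul' {R : Type*} [AddCommGroup R] {f : Cu → Cu → R}
    (h : ∀ γ ∈ Gamma0 M, ∀ r s, f (ι γ • r) (ι γ • s) = f r s)
    {δ : SL(2, ℤ)} (hδ : δ ∈ Gamma0 M) (g : SL(2, ℤ)) : xf f (δ * g) = xf f g := by
  rw [xf, ι_mul_smul, ι_mul_smul, h _ hδ, xf]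

theorem tX_mk {A : Cu → Cu → Cu → ℚ} (h : ∀ γ ∈ Gamma0 M, ∀ r s t, A (ι γ • r) (ι γ • s) (ι γ • t) = A r s t)
    (g : SL(2, ℤ)) : tX M A (g : XX M) = tv A g⁻¹ := by
  have h1 : ((g : XX M).out)⁻¹ * g ∈ Gamma0 M := by
    rw [← QuotientGroup.eq, QuotientGroup.out_eq']
  have h2 : (g : XX M).out⁻¹ = ((g : XX M).out)⁻¹ * g * g⁻¹ := by group
  rw [tX, h2, tv_mul h h1]

theorem phi_mk' {R : Type*} [AddCommGroup R] {f : Cu → Cu → R}
    (h : ∀ γ ∈ Gamma0 M, ∀ r s, f (ι γ • r) (ι γ • s) = f r s) (g : SL(2, ℤ)) :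
    phi M f (g : XX M) = xf f g⁻¹ := by
  have h1 : ((g : XX M).out)⁻¹ * g ∈ Gamma0 M := by
    rw [← QuotientGroup.eq, QuotientGroup.out_eq']
  have h2 : (g : XX M).out⁻¹ = ((g : XX M).out)⁻¹ * g * g⁻¹ := by group
  rw [phi, h2, xf_mul' h h1]

theorem S_inv_eq : (S : SL(2, ℤ))⁻¹ = -S := by
  rw [eq_comm, ← mul_eq_one_iff_eq_inv, neg_mul, S_mul_S, neg_neg]

theorem phi_S' {f : Cu → Cu → ℚ} (h : ∀ γ ∈ Gamma0 M, ∀ r s, f (ι γ • r) (ι γ • s) = f r s)
    (hs : ∀ r s, f s r = - f r s) (y : XX M) : phi M f (S • y) = - phi M f y := by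
  induction y using QuotientGroup.induction_on with
  | H g =>
    rw [smul_mk, phi_mk' h, phi_mk' h, _root_.mul_inv_rev, xf_mul_inv_S, xf, hs]

theorem sum_U (a : XX M → ℚ) [NeZero M] : ∑ y, a (U • y) = ∑ y, a y :=
  Equiv.sum_comp (MulAction.toPerm U : Equiv.Perm (XX M)) a

theorem sum_S (a : XX M → ℚ) [NeZero M] : ∑ y, a (S • y) = ∑ y, a y :=
  Equiv.sum_comp (MulAction.toPerm S : Equiv.Perm (XX M)) a

/-- Coboundaries of invariant cochains have total sum zero. -/
theorem sum_tX_coboundary [NeZero M] {B : Cu → Cu → ℚ}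
    (h : ∀ γ ∈ Gamma0 M, ∀ r s, B (ι γ • r) (ι γ • s) = B r s) (hs : ∀ r s, B s r = - B r s) :
    ∑ y, tX M (fun r s t ↦ B s t - B r t + B r s) y = 0 := by
  have key : ∀ y : XX M, tX M (fun r s t ↦ B s t - B r t + B r s) y =
      phi M B y + phi M B (U • y) + phi M B (U • U • y) := by
    intro y
    induction y using QuotientGroup.induction_on with
    | H g =>
      rw [tX_mk (fun γ hγ r s t ↦ by rw [h γ hγ, h γ hγ, h γ hγ]), smul_mk, smul_mk, phi_mk' h, phi_mk' h,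
        phi_mk' h, _root_.mul_inv_rev, _root_.mul_inv_rev, _root_.mul_inv_rev, xf_mul_inv_U,
        xf_mul_inv_UU, xf, tv, hs (ι g⁻¹ • ((1 : ℚ) : Cu)) (ι g⁻¹ • (OnePoint.infty : Cu))]
      ring
  rw [Finset.sum_congr rfl fun y _ ↦ key y]
  rw [Finset.sum_add_distrib, Finset.sum_add_distrib, sum_U (fun y ↦ phi M B (U • y)), sum_U]
  have h1 : ∑ y, phi M B y = - ∑ y, phi M B y := by
    conv_lhs => rw [← sum_S (phi M B)]
    rw [← Finset.sum_neg_distrib]
    exact Finset.sum_congr rfl fun y _ ↦ phi_S' h hs y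
  linarith

/-- Solving the edge equation. -/
theorem exists_edge [NeZero M] (τ : XX M → ℚ) (hU : ∀ y, τ (U • y) = τ y) (h0 : ∑ y, τ y = 0) :
    ∃ b : XX M → ℚ, (∀ y, b (S • y) = - b y) ∧ ∀ y, b y + b (U • y) + b (U • U • y) = τ y := by
  classical
  let V : Submodule ℚ (XX M → ℚ) :=
    { carrier := {v | ∃ b : XX M → ℚ, (∀ y, b (S • y) = - b y) ∧
        ∀ y, b y + b (U • y) + b (U • U • y) = v y}
      add_mem' := by
        rintro v v' ⟨b, h1, h2⟩ ⟨b', h1', h2'⟩
        refine ⟨b + b', fun y ↦ ?_, fun y ↦ ?_⟩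
        · simp only [Pi.add_apply, h1, h1']; ring
        · simp only [Pi.add_apply, ← h2, ← h2']; ring
      zero_mem' := ⟨0, fun y ↦ by simp, fun y ↦ by simp⟩
      smul_mem' := by
        rintro c v ⟨b, h1, h2⟩
        refine ⟨c • b, fun y ↦ ?_, fun y ↦ ?_⟩
        · simp only [Pi.smul_apply, h1, smul_eq_mul]; ring
        · simp only [Pi.smul_apply, ← h2, smul_eq_mul]; ring }
  by_contra hcon
  have hne : τ ∉ V := hcon
  obtain ⟨f, hf1, hf2⟩ := Submodule.exists_le_ker_of_notMem hne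
  set h : XX M → ℚ := fun z ↦ f (Pi.single z 1) with hh
  have hval : ∀ v : XX M → ℚ, f v = ∑ z, v z * h z := by
    intro v
    conv_lhs => rw [← LinearMap.sum_single_apply (fun _ ↦ ℚ) v]
    rw [map_sum]
    refine Finset.sum_congr rfl fun z _ ↦ ?_
    rw [← smul_eq_mul, ← map_smul]
    congr 1
    ext w
    by_cases hw : w = z
    · subst hw; simp
    · simp [hw]
  set h' : XX M → ℚ := fun z ↦ h z + h (U • z) + h (U • U • z) with hh'
  have hUUU : ∀ z : XX M, U • U • U • z = z := U_smul_U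
  have hsum : ∀ b : XX M → ℚ, ∑ y, (b y + b (U • y) + b (U • U • y)) * h y = ∑ z, b z * h' z := by
    intro b
    simp only [hh', add_mul, mul_add, Finset.sum_add_distrib]
    have e1 : ∑ y, b (U • y) * h y = ∑ y, b y * h (U • U • y) := by
      rw [← sum_U (fun y ↦ b y * h (U • U • y))]
      exact Finset.sum_congr rfl fun y _ ↦ by rw [hUUU]
    have e2 : ∑ y, b (U • U • y) * h y = ∑ y, b y * h (U • y) := by
      rw [← sum_U (fun y ↦ b y * h (U • y)), ← sum_U (fun y ↦ b (U • y) * h (U • U • y))]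
      exact Finset.sum_congr rfl fun y _ ↦ by rw [hUUU]
    rw [e1, e2]; ring
  have hS : ∀ z, h' (S • z) = h' z := by
    intro z
    have h1 : f (fun y ↦ (Pi.single z 1 - Pi.single (S • z) 1 : XX M → ℚ) y +
        (Pi.single z 1 - Pi.single (S • z) 1 : XX M → ℚ) (U • y) +
        (Pi.single z 1 - Pi.single (S • z) 1 : XX M → ℚ) (U • U • y)) = 0 := by
      apply hf2
      refine ⟨Pi.single z 1 - Pi.single (S • z) 1, fun y ↦ ?_, fun y ↦ rfl⟩
      simp only [Pi.sub_apply, Pi.single_apply]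
      have e1 : (S • y = z) ↔ (y = S • z) := by
        constructor
        · rintro rfl; rw [S_smul_S]
        · rintro rfl; rw [S_smul_S]
      have e2 : (S • y = S • z) ↔ (y = z) := by
        constructor
        · intro h; exact smul_left_cancel S h
        · rintro rfl; rfl
      simp only [e1, e2]
      ring
    rw [hval, hsum] at h1
    simp only [Pi.sub_apply, sub_mul, Finset.sum_sub_distrib, Pi.single_apply, ite_mul, one_mul,
      zero_mul, Finset.sum_ite_eq', Finset.mem_univ, if_true] at h1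
    linarith
  have hU' : ∀ z, h' (U • z) = h' z := by
    intro z
    simp only [hh', hUUU]; ring
  have hconst := constant_of_inv hS hU'
  have y0 : XX M := ((1 : SL(2, ℤ)) : XX M)
  have h3 : 3 * f τ = 0 := by
    have e1 : ∑ z, τ z * h' z = 3 * f τ := by
      rw [← hsum τ, hval, Finset.mul_sum]
      refine Finset.sum_congr rfl fun y _ ↦ ?_
      rw [hU (U • y), hU y]; ring
    rw [← e1, Finset.sum_congr rfl fun z _ ↦ by rw [hconst z y0], ← Finset.sum_mul, h0, zero_mul]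
  exact hf1 (by linarith)

/-- `H²` is one dimensional. -/
theorem exists_cochain [NeZero M] {A : Cu → Cu → Cu → ℚ} (hA : Coc M A) (h0 : ∑ y, tX M A y = 0) :
    ∃ B : Cu → Cu → ℚ, (∀ γ ∈ Gamma0 M, ∀ r s, B (ι γ • r) (ι γ • s) = B r s) ∧
      (∀ r s, B s r = - B r s) ∧ ∀ r s t, A r s t = B s t - B r t + B r s := by
  obtain ⟨b, hb1, hb2⟩ := exists_edge (tX M A) (fun y ↦ by
    induction y using QuotientGroup.induction_on with
    | H g =>
      rw [smul_mk, tX_mk hA.inv, tX_mk hA.inv, _root_.mul_inv_rev, tv, tv, ι_mul_smul, ι_mul_smul,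
        ι_mul_smul, U_inv_one, U_inv_zero, U_inv_infty, ← hA.cyc]) h0
  have hUinv : ∀ y : XX M, U⁻¹ • y = U • U • y := by
    intro y
    rw [inv_smul_eq_iff, U_smul_U]
  obtain ⟨ρ, hρ⟩ := exists_potential (fun g ↦ b ((g⁻¹ : SL(2, ℤ)) : XX M) -
      A (ι g • ((0 : ℚ) : Cu)) (ι g • (OnePoint.infty : Cu)) OnePoint.infty)
    (fun g ↦ by
      beta_reduce
      rw [_root_.mul_inv_rev, ← smul_mk, S_inv_eq, neg_smul_XX, hb1, ι_mul_smul, ι_mul_smul, S_zero,
        S_infty, hA.symm]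
      ring)
    (fun g ↦ by
      beta_reduce
      rw [_root_.mul_inv_rev, _root_.mul_inv_rev, _root_.mul_inv_rev, ← smul_mk, ← smul_mk, ← smul_mk, hUinv, hUinv,
        U_smul_U]
      simp only [ι_mul_smul, U_zero, U_infty, U_one]
      have h1 := hb2 ((g⁻¹ : SL(2, ℤ)) : XX M)
      rw [tX_mk hA.inv, inv_inv, tv] at h1
      have h2 := hA.coc (ι g • ((1 : ℚ) : Cu)) (ι g • ((0 : ℚ) : Cu)) (ι g • (OnePoint.infty : Cu))
        OnePoint.infty
      have h3 := hA.symm (ι g • ((1 : ℚ) : Cu)) (ι g • (OnePoint.infty : Cu)) OnePoint.infty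
      linarith)
  refine ⟨fun r s ↦ A r s OnePoint.infty + (ρ s - ρ r), ?_, fun r s ↦ ?_, fun r s t ↦ ?_⟩
  · intro γ hγ r s
    have key := eq_zero_of_edges
      (f := fun r s ↦ (A (ι γ • r) (ι γ • s) OnePoint.infty + (ρ (ι γ • s) - ρ (ι γ • r))) -
        (A r s OnePoint.infty + (ρ s - ρ r)))
      (fun r s t ↦ by
        have h1 := hA.coc (ι γ • r) (ι γ • s) (ι γ • t) OnePoint.infty
        have h2 := hA.coc r s t OnePoint.infty
        have h3 := hA.inv γ hγ r s t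
        linarith)
      (fun g ↦ by
        have e1 := hρ (γ * g)
        have e2 := hρ g
        have e3 : (((γ * g)⁻¹ : SL(2, ℤ)) : XX M) = ((g⁻¹ : SL(2, ℤ)) : XX M) := by
          rw [QuotientGroup.eq]
          have : ((γ * g)⁻¹)⁻¹ * g⁻¹ = γ := by group
          rw [this]; exact hγ
        rw [ι_mul_smul, ι_mul_smul] at e1
        beta_reduce at e1 e2 ⊢
        rw [e3] at e1
        linarith)
    exact sub_eq_zero.mp (key r s)
  · beta_reduce
    rw [hA.symm]; ring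
  · have h1 := hA.coc r s t OnePoint.infty
    linarith


theorem Coc.or (M : ℕ) : Coc M Or where
  coc := Or_coc
  symm := Or_symm
  cyc := Or_cyc
  inv γ _ r s t := by
    apply Or_inv
    have h := det_eq γ
    simp only [ι_apply]
    have h2 : ((γ 0 0 : ℤ) : ℚ) * ((γ 1 1 : ℤ) : ℚ) - ((γ 0 1 : ℤ) : ℚ) * ((γ 1 0 : ℤ) : ℚ) = 1 := by
      exact_mod_cast h
    rw [h2]; exact one_pos

theorem tX_or (M : ℕ) (y : XX M) : tX M Or y = Or ((1 : ℚ) : Cu) ((0 : ℚ) : Cu) OnePoint.infty := by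
  rw [tX, tv, Or_inv]
  have h := det_eq y.out⁻¹
  simp only [ι_apply]
  have h2 : (((y.out⁻¹ : SL(2, ℤ)) 0 0 : ℤ) : ℚ) * (((y.out⁻¹ : SL(2, ℤ)) 1 1 : ℤ) : ℚ) -
      (((y.out⁻¹ : SL(2, ℤ)) 0 1 : ℤ) : ℚ) * (((y.out⁻¹ : SL(2, ℤ)) 1 0 : ℤ) : ℚ) = 1 := by
    exact_mod_cast h
  rw [h2]; exact one_pos

/-- Atkin–Lehner invariance of the fundamental class. -/
theorem sum_tX_w {N q : ℕ} [NeZero (N * q)] (hq : q ≠ 0) {A : Cu → Cu → Cu → ℚ}
    (hA : Coc (N * q) A) (w : RA.WQ N q) :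
    ∑ y, tX (N * q) (fun r s t ↦ A (w.mat • r) (w.mat • s) (w.mat • t)) y =
      ∑ y, tX (N * q) A y := by
  set o := Or ((1 : ℚ) : Cu) ((0 : ℚ) : Cu) OnePoint.infty with ho
  have ho0 : o ≠ 0 := Or_ne
  have hcard : (Fintype.card (XX (N * q)) : ℚ) ≠ 0 := by
    have : Nonempty (XX (N * q)) := ⟨((1 : SL(2, ℤ)) : XX (N * q))⟩
    exact_mod_cast Fintype.card_ne_zero
  set c : ℚ := (∑ y, tX (N * q) A y) / (Fintype.card (XX (N * q)) * o) with hc
  have hOr := Coc.or (N * q)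
  have hA' : Coc (N * q) (fun r s t ↦ A r s t - c * Or r s t) :=
    { coc := fun r s t u ↦ by linear_combination hA.coc r s t u - c * hOr.coc r s t u
      symm := fun r s t ↦ by linear_combination hA.symm r s t - c * hOr.symm r s t
      cyc := fun r s t ↦ by linear_combination hA.cyc r s t - c * hOr.cyc r s t
      inv := fun γ hγ r s t ↦ by
        rw [hA.inv γ hγ, hOr.inv γ hγ] }
  have htX : ∀ (A A' : Cu → Cu → Cu → ℚ) (c : ℚ) (y : XX (N * q)),
      tX (N * q) (fun r s t ↦ A r s t - c * A' r s t) y = tX (N * q) A y - c * tX (N * q) A' y :=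
    fun _ _ _ _ ↦ rfl
  have htX' : ∀ (A A' : Cu → Cu → Cu → ℚ) (c : ℚ) (y : XX (N * q)),
      tX (N * q) (fun r s t ↦ c * A' r s t + A r s t) y = c * tX (N * q) A' y + tX (N * q) A y :=
    fun _ _ _ _ ↦ rfl
  obtain ⟨B, hB1, hB2, hB3⟩ := exists_cochain hA' (by
    rw [Finset.sum_congr rfl fun y _ ↦ htX A Or c y, Finset.sum_sub_distrib, ← Finset.mul_sum,
      Finset.sum_congr rfl fun y _ ↦ tX_or (N * q) y, Finset.sum_const, Finset.card_univ, nsmul_eq_mul,
      ← ho, hc]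
    field_simp
    ring)
  have hAeq : ∀ r s t, A r s t = c * Or r s t + (B s t - B r t + B r s) := fun r s t ↦ by
    rw [← hB3]; ring
  have hw : ∀ r s t, Or (w.mat • r) (w.mat • s) (w.mat • t) = Or r s t := by
    intro r s t
    apply Or_inv
    have h0 := w.det_ne hq
    rw [RA.WQ.mat, gq_00 h0, gq_01 h0, gq_10 h0, gq_11 h0]
    have h1 := w.detq
    have : (q * w.x : ℚ) * (q * w.t) - w.y * (N * q * w.z) = q * (q * w.x * w.t - N * w.y * w.z) := by
      ring
    rw [this, h1, mul_one]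
    exact_mod_cast Nat.pos_of_ne_zero hq
  have e1 : (fun r s t ↦ A (w.mat • r) (w.mat • s) (w.mat • t)) =
      fun r s t ↦ c * Or r s t + ((fun r s ↦ B (w.mat • r) (w.mat • s)) s t -
        (fun r s ↦ B (w.mat • r) (w.mat • s)) r t + (fun r s ↦ B (w.mat • r) (w.mat • s)) r s) := by
    ext r s t
    rw [hAeq, hw]
  have e2 : A = fun r s t ↦ c * Or r s t + (B s t - B r t + B r s) := by
    ext r s t; exact hAeq r s t
  rw [e1, Finset.sum_congr rfl fun y _ ↦ htX' _ Or c y, Finset.sum_add_distrib, sum_tX_coboundary]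
  · conv_rhs => rw [e2]
    rw [Finset.sum_congr rfl fun y _ ↦ htX' (fun r s t ↦ (B s t - B r t + B r s)) Or c y,
      Finset.sum_add_distrib, sum_tX_coboundary hB1 hB2]
  · intro γ hγ r s
    have h1 : (pull ℚ).Inv (N * q) B := fun γ hγ ↦ by
      ext r s; exact hB1 γ hγ r s
    have h2 := h1.inv_WQ hq w γ hγ
    exact congrFun (congrFun h2 r) s
  · intro r s
    exact hB2 _ _

/-- The cup product cocycle. -/
theorem Coc.cup {F F' : Cu → Cu → ℚ} (h : IsSymb M F) (h' : IsSymb M F') :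
    Coc M fun r s t ↦ F s t * F' r s - F r s * F' s t where
  coc r s t u := by
    have h1 := h.add r s t
    have h2 := h.add s t u
    have h3 := h'.add r s t
    have h4 := h'.add s t u
    rw [← h1, ← h2, ← h3, ← h4]
    ring
  symm r s t := by
    have h1 := h.add r s t
    have h3 := h'.add r s t
    rw [← h1, ← h3, h.symm r s, h'.symm r s]
    ring
  cyc r s t := by
    have h1 := h.add r s t
    have h3 := h'.add r s t
    rw [h.symm r t, h'.symm r t, ← h1, ← h3]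
    ring
  inv γ hγ r s t := by
    rw [h.inv γ hγ, h.inv γ hγ, h'.inv γ hγ, h'.inv γ hγ]

theorem tX_cup {F F' : Cu → Cu → ℚ} (h : IsSymb M F) (h' : IsSymb M F') (y : XX M) :
    tX M (fun r s t ↦ F s t * F' r s - F r s * F' s t) y = tri (phi M F) (phi M F') y := by
  induction y using QuotientGroup.induction_on with
  | H g =>
    rw [tX_mk (Coc.cup h h').inv, tri, smul_mk, h.phi_mk, h'.phi_mk, h.phi_mk, h'.phi_mk,
      _root_.mul_inv_rev, xf_mul_inv_U, xf_mul_inv_U, tv, xf, xf]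

/-- The Atkin–Lehner involution is an isometry. -/
theorem pr_w {N q : ℕ} [NeZero (N * q)] (hq : q ≠ 0) (w : RA.WQ N q) {F F' : Cu → Cu → ℤ}
    (h : IsSymb (N * q) F) (h' : IsSymb (N * q) F') :
    pr (N * q) ((pull ℤ).act w.mat F) ((pull ℤ).act w.mat F') = pr (N * q) F F' := by
  have key : ∀ {G G' : Cu → Cu → ℤ}, IsSymb (N * q) G → IsSymb (N * q) G' →
      3 * ((pr (N * q) G G' : ℤ) : ℚ) = ∑ y, tX (N * q) (fun r s t ↦ (G s t : ℚ) * G' r s - (G r s : ℚ) * G' s t) y := by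
    intro G G' hG hG'
    have h1 : IsSymb (N * q) fun r s ↦ (G r s : ℚ) :=
      ⟨fun r s t ↦ by rw [← hG.add r s t]; push_cast; ring, fun γ hγ r s ↦ by rw [hG.inv γ hγ]⟩
    have h2 : IsSymb (N * q) fun r s ↦ (G' r s : ℚ) :=
      ⟨fun r s t ↦ by rw [← hG'.add r s t]; push_cast; ring, fun γ hγ r s ↦ by rw [hG'.inv γ hγ]⟩
    rw [Finset.sum_congr rfl fun y _ ↦ tX_cup h1 h2 y]
    have h3 := three_pr hG hG'
    have h4 := congrArg (Int.cast : ℤ → ℚ) h3
    push_cast at h4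
    rw [← h4]
    refine Finset.sum_congr rfl fun y _ ↦ ?_
    simp only [tri]
    push_cast
    rfl
  have h1 := key h h'
  have h2 := key (h.w hq w) (h'.w hq w)
  have hs : ∀ {G : Cu → Cu → ℤ}, IsSymb (N * q) G → IsSymb (N * q) fun r s ↦ (G r s : ℚ) := by
    intro G hG
    exact ⟨fun r s t ↦ by rw [← hG.add r s t]; push_cast; ring, fun γ hγ r s ↦ by rw [hG.inv γ hγ]⟩
  have h3 := sum_tX_w hq (Coc.cup (hs h) (hs h')) w
  have h4 : 3 * ((pr (N * q) ((pull ℤ).act w.mat F) ((pull ℤ).act w.mat F') : ℤ) : ℚ) =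
      3 * ((pr (N * q) F F' : ℤ) : ℚ) := by
    rw [h1, h2]
    exact h3
  have h5 : ((pr (N * q) ((pull ℤ).act w.mat F) ((pull ℤ).act w.mat F') : ℤ) : ℚ) =
      ((pr (N * q) F F' : ℤ) : ℚ) := by linarith
  exact_mod_cast h5

/-! ### Adjointness of trace and restriction -/

theorem tri_tr {N q : ℕ} [NeZero (N * q)] [NeZero N] (hqN : q.Coprime N) {A : Type} [CommRing A]
    {F f : Cu → Cu → A} (hF : IsSymb (N * q) F) (hf : IsSymb N f) :
    ∑ y, tri (phi N ((pull A).tr N q F)) (phi N f) y =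
      ∑ y, tri (phi (N * q) F) (phi (N * q) f) y := by
  have hle : Gamma0 (N * q) ≤ Gamma0 N := by
    intro γ hγ
    rw [mem_Gamma0_iff] at hγ ⊢
    exact (Int.natCast_dvd_natCast.mpr (dvd_mul_right N q)).trans hγ
  have hf' := hf.mono (dvd_mul_right N q)
  let E : XX (N * q) ≃ XX N × RA.Qt N q := Subgroup.quotientEquivProdOfLE hle
  have hE : ∀ (y : XX N) (z : RA.Qt N q), E.symm (y, z) =
      ((y.out * (z.out : Gamma0 N) : SL(2, ℤ)) : XX (N * q)) := by
    intro y z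
    conv_lhs => rw [← QuotientGroup.out_eq' z]
    rfl
  rw [← Equiv.sum_comp E.symm, Fintype.sum_prod_type]
  refine Finset.sum_congr rfl fun y _ ↦ ?_
  have htr := hF.tr hqN
  have hsum : ∀ g : SL(2, ℤ), xf ((pull A).tr N q F) g⁻¹ = ∑ z : RA.Qt N q,
      xf F (((z.out : Gamma0 N) : SL(2, ℤ))⁻¹ * g⁻¹) := by
    intro g
    simp only [xf, RA.tr, Finset.sum_apply, pull_apply, ι_mul_smul]
  have e1 : phi N ((pull A).tr N q F) y = ∑ z : RA.Qt N q, phi (N * q) F (E.symm (y, z)) := by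
    conv_lhs => rw [← QuotientGroup.out_eq' y]
    rw [htr.phi_mk, hsum]
    refine Finset.sum_congr rfl fun z _ ↦ ?_
    rw [hE, hF.phi_mk, _root_.mul_inv_rev]
  have e2 : phi N ((pull A).tr N q F) (U • y) = ∑ z : RA.Qt N q, phi (N * q) F (U • E.symm (y, z)) := by
    conv_lhs => rw [← QuotientGroup.out_eq' y]
    rw [smul_mk, htr.phi_mk, hsum]
    refine Finset.sum_congr rfl fun z _ ↦ ?_
    rw [hE, smul_mk, hF.phi_mk, ← _root_.mul_inv_rev, mul_assoc]
  have e3 : ∀ z : RA.Qt N q, phi N f y = phi (N * q) f (E.symm (y, z)) := by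
    intro z
    conv_lhs => rw [← QuotientGroup.out_eq' y]
    rw [hf.phi_mk, hE, hf'.phi_mk, _root_.mul_inv_rev, hf.xf_mul (inv_mem z.out.2)]
  have e4 : ∀ z : RA.Qt N q, phi N f (U • y) = phi (N * q) f (U • E.symm (y, z)) := by
    intro z
    conv_lhs => rw [← QuotientGroup.out_eq' y]
    rw [smul_mk, hf.phi_mk, hE, smul_mk, hf'.phi_mk, ← mul_assoc, _root_.mul_inv_rev (U * y.out),
      hf.xf_mul (inv_mem z.out.2)]
  rw [tri, e1, e2, Finset.sum_mul, Finset.sum_mul, ← Finset.sum_sub_distrib]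
  refine Finset.sum_congr rfl fun z _ ↦ ?_
  rw [tri, ← e3, ← e4]

/-- The trace is adjoint to restriction. -/
theorem pr_tr {N q : ℕ} [NeZero (N * q)] [NeZero N] (hqN : q.Coprime N)
    {F f : Cu → Cu → ℤ} (hF : IsSymb (N * q) F) (hf : IsSymb N f) :
    pr N ((pull ℤ).tr N q F) f = pr (N * q) F f := by
  have h1 := tri_tr hqN hF hf
  rw [three_pr (hF.tr hqN) hf, three_pr hF (hf.mono (dvd_mul_right N q))] at h1
  linarith

end Fermat.Agent.H16.LR
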