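import Mathlib

/-!
# Linear algebra over a valuation ring of an algebraically closed field
-/

set_option autoImplicit false

open Polynomial

noncomputable section

namespace Fermat.Agent.H16.LR.LA

variable {K : Type*} [Field K] (𝒱 : ValuationSubring K)

/-- The residue field. -/
abbrev kk := IsLocalRing.ResidueField 𝒱

/-- The residue map. -/
abbrev res : 𝒱 →+* kk 𝒱 := IsLocalRing.residue 𝒱

theorem mem_of_isIntegral {x : K} (h : IsIntegral 𝒱 x) : x ∈ 𝒱 := by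
  obtain ⟨y, hy⟩ := (IsIntegrallyClosed.isIntegral_iff (R := 𝒱) (K := K)).mp h
  rw [← hy]; exact y.2

instance isAlgClosed_kk [IsAlgClosed K] : IsAlgClosed (kk 𝒱) := by
  apply IsAlgClosed.of_exists_root
  intro p hp hirr
  have hl : p ∈ lifts (res 𝒱) := by
    rw [lifts_iff_coeff_lifts]
    intro n
    obtain ⟨x, hx⟩ := IsLocalRing.residue_surjective (p.coeff n)
    exact ⟨x, hx⟩
  obtain ⟨q, hq1, hq2, hq3⟩ := lifts_and_natDegree_eq_and_monic hl hp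
  have hdeg : q.degree ≠ 0 := by
    intro h
    have h1 : q.natDegree = 0 := natDegree_eq_of_degree_eq_some h
    rw [h1] at hq2
    have := hirr.natDegree_pos
    omega
  have hdeg' : (q.map (algebraMap 𝒱 K)).degree ≠ 0 := by
    rw [hq3.degree_map]; exact hdeg
  obtain ⟨x, hx⟩ := IsAlgClosed.exists_root _ hdeg'
  have hx' : eval₂ (algebraMap 𝒱 K) x q = 0 := by rwa [IsRoot, eval_map] at hx
  have hint : IsIntegral 𝒱 x := ⟨q, hq3, hx'⟩
  have hmem := mem_of_isIntegral 𝒱 hint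
  refine ⟨res 𝒱 ⟨x, hmem⟩, ?_⟩
  rw [← hq1, eval_map]
  have h0 : q.eval (⟨x, hmem⟩ : 𝒱) = 0 := by
    apply IsFractionRing.injective 𝒱 K
    rw [map_zero, ← eval₂_at_apply]
    exact hx'
  rw [eval₂_at_apply, h0, map_zero]

/-- Primitive scaling. -/
theorem exists_primitive {n : Type*} [Finite n] (x : n → K) (hx : x ≠ 0) :
    ∃ (c : K) (y : n → 𝒱), c ≠ 0 ∧ (∀ i, (y i : K) = c * x i) ∧ (fun i ↦ res 𝒱 (y i)) ≠ 0 := by
  cases nonempty_fintype n
  have hne : ∃ i, x i ≠ 0 := Function.ne_iff.mp hx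
  obtain ⟨i0, -, hi0⟩ := Finset.exists_max_image Finset.univ (fun i ↦ 𝒱.valuation (x i))
    ⟨hne.choose, Finset.mem_univ _⟩
  have hx0 : x i0 ≠ 0 := by
    intro h
    obtain ⟨i, hi⟩ := hne
    have := hi0 i (Finset.mem_univ _)
    rw [h, map_zero, le_zero_iff] at this
    exact hi ((map_eq_zero _).mp this)
  have hmem : ∀ i, (x i0)⁻¹ * x i ∈ 𝒱 := by
    intro i
    apply 𝒱.mem_of_valuation_le_one
    rw [map_mul, map_inv₀]
    have h1 := hi0 i (Finset.mem_univ _)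
    have h2 : 𝒱.valuation (x i0) ≠ 0 := (Valuation.ne_zero_iff _).mpr hx0
    calc (𝒱.valuation (x i0))⁻¹ * 𝒱.valuation (x i)
        ≤ (𝒱.valuation (x i0))⁻¹ * 𝒱.valuation (x i0) := by gcongr
      _ = 1 := inv_mul_cancel₀ h2
  refine ⟨(x i0)⁻¹, fun i ↦ ⟨_, hmem i⟩, inv_ne_zero hx0, fun i ↦ rfl, fun h ↦ ?_⟩
  have h1 := congrFun h i0
  have h2 : (⟨(x i0)⁻¹ * x i0, hmem i0⟩ : 𝒱) = 1 := Subtype.ext (inv_mul_cancel₀ hx0)
  rw [Pi.zero_apply] at h1
  simp only [h2, map_one] at h1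
  exact one_ne_zero h1

open Matrix

/-- Reduction of a matrix. -/
abbrev redM {m n : Type*} (M : Matrix m n 𝒱) : Matrix m n (kk 𝒱) := M.map (res 𝒱)
/-- Generic fibre of a matrix. -/
abbrev genM {m n : Type*} (M : Matrix m n 𝒱) : Matrix m n K := M.map (algebraMap 𝒱 K)

theorem genM_mulVec {m n : Type*} [Fintype n] (M : Matrix m n 𝒱) (y : n → 𝒱) :
    genM 𝒱 M *ᵥ (fun i ↦ (y i : K)) = fun i ↦ ((M *ᵥ y) i : K) := by
  ext i
  simp only [mulVec, dotProduct, map_apply]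
  rw [← 𝒱.subtype_apply, map_sum]
  simp [ValuationSubring.algebraMap_apply]

theorem redM_mulVec {m n : Type*} [Fintype n] (M : Matrix m n 𝒱) (y : n → 𝒱) :
    redM 𝒱 M *ᵥ (fun i ↦ res 𝒱 (y i)) = fun i ↦ res 𝒱 ((M *ᵥ y) i) := by
  ext i
  simp only [mulVec, dotProduct, map_apply]
  rw [map_sum]
  simp

/-- Semicontinuity of the rank. -/
theorem rank_le {m n : Type*} [Fintype m] [Fintype n] [DecidableEq n] (M : Matrix m n 𝒱) :
    (redM 𝒱 M).rank ≤ (genM 𝒱 M).rank := by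
  obtain ⟨κ, a, ha, hspan, hli⟩ := exists_linearIndependent' (kk 𝒱) (redM 𝒱 M).col
  have : Finite κ := Finite.of_injective a ha
  cases nonempty_fintype κ
  have h1 : (redM 𝒱 M).rank = Fintype.card κ := by
    rw [rank_eq_finrank_span_cols, ← hspan, finrank_span_eq_card hli]
  have hli' : LinearIndependent K ((genM 𝒱 M).col ∘ a) := by
    rw [Fintype.linearIndependent_iff]
    intro g hg
    by_contra hne
    have hg0 : g ≠ 0 := by
      intro h; exact hne (fun i ↦ by rw [h]; rfl)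
    obtain ⟨c, y, hc, hy, hres⟩ := exists_primitive 𝒱 g hg0
    apply hres
    rw [Fintype.linearIndependent_iff] at hli
    ext i
    refine hli (fun i ↦ res 𝒱 (y i)) ?_ i
    ext j
    have h2 := congrFun hg j
    simp only [Finset.sum_apply, Pi.smul_apply, Function.comp_apply, col_apply, map_apply,
      smul_eq_mul, Pi.zero_apply] at h2 ⊢
    rw [← map_zero (res 𝒱)]
    simp only [← map_mul, ← map_sum]
    congr 1
    apply IsFractionRing.injective 𝒱 K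
    rw [map_sum, map_zero]
    simp only [map_mul, ValuationSubring.algebraMap_apply, hy]
    calc ∑ x, c * g x * (M j (a x) : K) = c * ∑ x, g x * (M j (a x) : K) := by
          rw [Finset.mul_sum]; exact Finset.sum_congr rfl fun x _ ↦ by ring
      _ = 0 := by
          have h3 : ∑ x, g x * (M j (a x) : K) = 0 := h2
          rw [h3, mul_zero]
  rw [h1, rank_eq_finrank_span_cols, ← finrank_span_eq_card hli']
  apply Submodule.finrank_mono
  apply Submodule.span_mono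
  rintro _ ⟨i, rfl⟩
  exact ⟨a i, rfl⟩

/-- Idempotent matrices have constant rank. -/
theorem rank_idem {n : Type*} [Fintype n] [DecidableEq n] (M : Matrix n n 𝒱) (h : M * M = M) :
    (redM 𝒱 M).rank = (genM 𝒱 M).rank := by
  have key : ∀ {F : Type _} [Field F] (P : Matrix n n F), P * P = P →
      P.rank + (1 - P).rank = Fintype.card n := by
    intro F _ P hP
    have h1 := (P.mulVecLin).finrank_range_add_finrank_ker
    have h2 : LinearMap.ker P.mulVecLin = LinearMap.range (1 - P).mulVecLin := by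
      ext v
      rw [LinearMap.mem_ker, LinearMap.mem_range]
      simp only [mulVecLin_apply]
      constructor
      · intro hv
        exact ⟨v, by rw [sub_mulVec, one_mulVec, hv, sub_zero]⟩
      · rintro ⟨y, rfl⟩
        rw [mulVec_mulVec, mul_sub, mul_one, hP, sub_self, zero_mulVec]
    rw [h2] at h1
    rw [rank, rank, h1]
    simp
  have h1 := key (redM 𝒱 M) (by
    rw [← Matrix.map_mul, h])
  have h2 := key (genM 𝒱 M) (by
    rw [← Matrix.map_mul, h])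
  have h3 := rank_le 𝒱 M
  have h4 := rank_le 𝒱 (1 - M)
  have e1 : redM 𝒱 (1 - M) = 1 - redM 𝒱 M := by
    rw [redM, Matrix.map_sub _ (fun a b ↦ map_sub _ a b), Matrix.map_one _ (map_zero _) (map_one _)]
  have e2 : genM 𝒱 (1 - M) = 1 - genM 𝒱 M := by
    rw [genM, Matrix.map_sub _ (fun a b ↦ map_sub _ a b), Matrix.map_one _ (map_zero _) (map_one _)]
  rw [e1, e2] at h4
  omega


theorem isUnit_sub {a b : 𝒱} (ha : res 𝒱 a = 0) (hb : res 𝒱 b ≠ 0) : IsUnit (a - b) := by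
  rw [← IsLocalRing.residue_ne_zero_iff_isUnit, map_sub]
  change res 𝒱 a - res 𝒱 b ≠ 0
  rw [ha, zero_sub]
  exact neg_ne_zero.mpr hb

theorem isUnit_sub' {a b : 𝒱} (ha : res 𝒱 a = 0) (hb : res 𝒱 b ≠ 0) : IsUnit (b - a) := by
  have := (isUnit_sub 𝒱 ha hb).neg
  rwa [neg_sub] at this

theorem factor_aux (R : Multiset 𝒱) : ∃ (m : ℕ) (P Q : 𝒱[X]),
    (R.map fun r ↦ X - C r).prod ∣ P * Q ∧ P.map (res 𝒱) = X ^ (m + 1) ∧
    (∀ r, res 𝒱 r = 0 → IsCoprime Q (X - C r)) ∧ (∀ r, res 𝒱 r ≠ 0 → IsCoprime P (X - C r)) ∧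
    IsCoprime P Q := by
  induction R using Multiset.induction_on with
  | empty =>
    refine ⟨0, X, 1, by simp, by simp, fun r _ ↦ isCoprime_one_left, fun r hr ↦ ?_, isCoprime_one_right⟩
    have := isCoprime_X_sub_C_of_isUnit_sub (isUnit_sub 𝒱 (map_zero _) hr)
    simpa using this
  | cons a R ih =>
    obtain ⟨m, P, Q, h1, h2, h3, h4, h5⟩ := ih
    rw [Multiset.map_cons, Multiset.prod_cons]
    by_cases ha : res 𝒱 a = 0
    · refine ⟨m + 1, (X - C a) * P, Q, ?_, ?_, h3, fun r hr ↦ ?_, ?_⟩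
      · rw [mul_assoc]; exact mul_dvd_mul_left _ h1
      · rw [Polynomial.map_mul, h2, Polynomial.map_sub, map_X, map_C, ha, map_zero, sub_zero]
        ring
      · exact IsCoprime.mul_left (isCoprime_X_sub_C_of_isUnit_sub (isUnit_sub 𝒱 ha hr)) (h4 r hr)
      · exact IsCoprime.mul_left (h3 a ha).symm h5
    · refine ⟨m, P, (X - C a) * Q, ?_, h2, fun r hr ↦ ?_, h4, ?_⟩
      · rw [mul_left_comm]; exact mul_dvd_mul_left _ h1
      · exact IsCoprime.mul_left (isCoprime_X_sub_C_of_isUnit_sub (isUnit_sub' 𝒱 hr ha)) (h3 r hr)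
      · exact IsCoprime.mul_right (h4 a ha) h5

theorem exists_factor [IsAlgClosed K] (χ : 𝒱[X]) (hχ : χ.Monic) : ∃ (m : ℕ) (P Q u v : 𝒱[X]),
    χ ∣ P * Q ∧ P.map (res 𝒱) = X ^ (m + 1) ∧ u * P + v * Q = 1 := by
  have hs := (IsAlgClosed.splits (χ.map (algebraMap 𝒱 K))).eq_prod_roots_of_monic (hχ.map _)
  set Rt := (χ.map (algebraMap 𝒱 K)).roots
  have hmem : ∀ r ∈ Rt, r ∈ 𝒱 := by
    intro r hr
    apply mem_of_isIntegral 𝒱
    refine ⟨χ, hχ, ?_⟩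
    have := isRoot_of_mem_roots hr
    rwa [IsRoot, eval_map] at this
  obtain ⟨R, hR⟩ : ∃ R : Multiset 𝒱, R.map (algebraMap 𝒱 K) = Rt := by
    refine ⟨Rt.pmap (fun r hr ↦ (⟨r, hr⟩ : 𝒱)) hmem, ?_⟩
    rw [Multiset.map_pmap]
    conv_rhs => rw [← Multiset.map_id Rt]
    exact Multiset.pmap_eq_map _ _ _ _
  have hχ' : χ = (R.map fun r ↦ X - C r).prod := by
    apply Polynomial.map_injective _ (IsFractionRing.injective 𝒱 K)
    rw [hs, ← hR, Polynomial.map_multiset_prod, Multiset.map_map, Multiset.map_map]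
    congr 1
    apply Multiset.map_congr rfl
    intro r _
    simp
  obtain ⟨m, P, Q, h1, h2, -, -, u, v, h5⟩ := factor_aux 𝒱 R
  exact ⟨m, P, Q, u, v, hχ' ▸ h1, h2, h5⟩

/-- Common eigenvectors of commuting families of matrices. -/
theorem exists_common {F : Type*} [Field F] [IsAlgClosed F] {n L : Type*} [Fintype n]
    [DecidableEq n] (T : L → Matrix n n F) (hT : ∀ l l', T l * T l' = T l' * T l) :
    ∀ (d : ℕ) (W : Submodule F (n → F)), Module.finrank F W = d → W ≠ ⊥ →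
      (∀ l, ∀ w ∈ W, T l *ᵥ w ∈ W) → ∃ v ∈ W, v ≠ 0 ∧ ∃ c : L → F, ∀ l, T l *ᵥ v = c l • v := by
  intro d
  induction d using Nat.strong_induction_on with
  | _ d ih =>
    intro W hd hW hst
    by_cases hsc : ∀ l, ∃ c : F, ∀ w ∈ W, T l *ᵥ w = c • w
    · obtain ⟨v, hv, hv0⟩ := Submodule.exists_mem_ne_zero_of_ne_bot hW
      choose c hc using hsc
      exact ⟨v, hv, hv0, c, fun l ↦ hc l v hv⟩
    · push Not at hsc
      obtain ⟨l, hl⟩ := hsc
      have hnt : Nontrivial W := Submodule.nontrivial_iff_ne_bot.mpr hW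
      let f : Module.End F W := (T l).mulVecLin.restrict (hst l)
      obtain ⟨c, hc⟩ := Module.End.exists_eigenvalue f
      obtain ⟨w0, hw0⟩ := hc.exists_hasEigenvector
      let W' : Submodule F (n → F) := W ⊓ LinearMap.ker ((T l).mulVecLin - c • LinearMap.id)
      have hmem : ∀ w, w ∈ W' ↔ w ∈ W ∧ T l *ᵥ w = c • w := by
        intro w
        rw [Submodule.mem_inf, LinearMap.mem_ker, LinearMap.sub_apply, mulVecLin_apply,
          LinearMap.smul_apply, LinearMap.id_apply, sub_eq_zero]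
      have hlt : W' < W := by
        refine lt_of_le_of_ne inf_le_left ?_
        intro h
        obtain ⟨w, hw, hw'⟩ := hl c
        rw [← h] at hw
        exact hw' ((hmem w).mp hw).2
      have hne : W' ≠ ⊥ := by
        intro h
        have h1 : (w0 : n → F) ∈ W' := (hmem _).mpr ⟨w0.2, by
          have := congrArg Subtype.val hw0.apply_eq_smul
          exact this⟩
        rw [h, Submodule.mem_bot] at h1
        exact hw0.2 (Subtype.ext h1)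
      obtain ⟨v, hv, hv0, hv1⟩ := ih _ (by rw [← hd]; exact Submodule.finrank_lt_finrank_of_lt hlt)
        W' rfl hne (fun l' w hw ↦ by
          rw [hmem] at hw ⊢
          refine ⟨hst l' w hw.1, ?_⟩
          rw [mulVec_mulVec, hT, ← mulVec_mulVec, hw.2, mulVec_smul])
      exact ⟨v, ((hmem v).mp hv).1, hv0, hv1⟩


section Idem

variable {n L : Type*} [Fintype n] [DecidableEq n]

/-- The representation of the free algebra. -/
def rho (T : L → Matrix n n 𝒱) : FreeAlgebra 𝒱 L →ₐ[𝒱] Matrix n n 𝒱 := FreeAlgebra.lift 𝒱 T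

/-- The character. -/
def chi (a : L → 𝒱) : FreeAlgebra 𝒱 L →ₐ[𝒱] 𝒱 := FreeAlgebra.lift 𝒱 a

variable {𝒱} {T : L → Matrix n n 𝒱} {a : L → 𝒱}

theorem rho_ι (l : L) : rho 𝒱 T (FreeAlgebra.ι 𝒱 l) = T l := by simp [rho]
theorem chi_ι (l : L) : chi 𝒱 a (FreeAlgebra.ι 𝒱 l) = a l := by simp [chi]

theorem rho_comm (hT : ∀ l l', T l * T l' = T l' * T l) (x y : FreeAlgebra 𝒱 L) :
    rho 𝒱 T x * rho 𝒱 T y = rho 𝒱 T y * rho 𝒱 T x := by
  have h1 : ∀ l, ∀ y, T l * rho 𝒱 T y = rho 𝒱 T y * T l := by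
    intro l y
    induction y using FreeAlgebra.induction with
    | grade0 r => rw [AlgHom.commutes]; exact (Algebra.commutes r _).symm
    | grade1 l' => rw [rho_ι, hT]
    | mul x y hx hy => rw [map_mul, ← mul_assoc, hx, mul_assoc, hy, mul_assoc]
    | add x y hx hy => rw [map_add, mul_add, hx, hy, add_mul]
  induction x using FreeAlgebra.induction with
  | grade0 r => rw [AlgHom.commutes]; exact Algebra.commutes r _
  | grade1 l' => rw [rho_ι, h1]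
  | mul x x' hx hy => rw [map_mul, mul_assoc, hy, ← mul_assoc, hx, mul_assoc]
  | add x x' hx hy => rw [map_add, add_mul, hx, hy, mul_add]

theorem redM_mul {m n o : Type*} [Fintype n] (A : Matrix m n 𝒱) (B : Matrix n o 𝒱) :
    redM 𝒱 (A * B) = redM 𝒱 A * redM 𝒱 B := Matrix.map_mul

theorem genM_mul {m n o : Type*} [Fintype n] (A : Matrix m n 𝒱) (B : Matrix n o 𝒱) :
    genM 𝒱 (A * B) = genM 𝒱 A * genM 𝒱 B := Matrix.map_mul

theorem redM_one : redM 𝒱 (1 : Matrix n n 𝒱) = 1 := Matrix.map_one _ (map_zero _) (map_one _)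

theorem redM_sub {m n : Type*} (A B : Matrix m n 𝒱) : redM 𝒱 (A - B) = redM 𝒱 A - redM 𝒱 B :=
  Matrix.map_sub _ (fun a b ↦ map_sub _ a b) _ _

/-- The action on eigenvectors. -/
theorem rho_eigen {v : n → kk 𝒱} (hv : ∀ l, redM 𝒱 (T l) *ᵥ v = res 𝒱 (a l) • v)
    (x : FreeAlgebra 𝒱 L) : redM 𝒱 (rho 𝒱 T x) *ᵥ v = res 𝒱 (chi 𝒱 a x) • v := by
  induction x using FreeAlgebra.induction with
  | grade0 r =>
    rw [AlgHom.commutes, AlgHom.commutes]
    ext i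
    simp [mulVec, dotProduct, Matrix.algebraMap_matrix_apply, apply_ite, ite_mul]
  | grade1 l => rw [rho_ι, chi_ι, hv]
  | mul x y hx hy =>
    rw [map_mul, redM_mul, ← mulVec_mulVec, hy, mulVec_smul, hx, smul_smul, map_mul, map_mul, mul_comm]
  | add x y hx hy =>
    rw [map_add, map_add, map_add, add_smul, ← hx, ← hy, ← add_mulVec]
    congr 1

theorem redM_pow (A : Matrix n n 𝒱) (m : ℕ) : redM 𝒱 (A ^ m) = redM 𝒱 A ^ m := by
  exact map_pow (RingHom.mapMatrix (res 𝒱)) A m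

theorem redM_aeval (A : Matrix n n 𝒱) (P : 𝒱[X]) :
    redM 𝒱 (aeval A P) = aeval (redM 𝒱 A) (P.map (res 𝒱)) := by
  induction P using Polynomial.induction_on' with
  | add p q hp hq =>
    rw [map_add, Polynomial.map_add, map_add, ← hp, ← hq]
    exact Matrix.map_add _ (fun a b ↦ map_add _ a b) _ _
  | monomial k r =>
    rw [aeval_monomial, map_monomial, aeval_monomial, redM_mul, redM_pow]
    congr 1
    rw [redM, Matrix.algebraMap_eq_diagonal, Matrix.algebraMap_eq_diagonal, Matrix.diagonal_map (map_zero _)]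
    rfl

theorem exists_idem [IsAlgClosed K] (hT : ∀ l l', T l * T l' = T l' * T l) (a : L → 𝒱) :
    ∃ e : FreeAlgebra 𝒱 L, rho 𝒱 T e * rho 𝒱 T e = rho 𝒱 T e ∧
      (∀ w, redM 𝒱 (rho 𝒱 T e) *ᵥ w = w → ∀ y, res 𝒱 (chi 𝒱 a y) ≠ 0 →
        redM 𝒱 (rho 𝒱 T y) *ᵥ w = 0 → w = 0) ∧
      (∀ v, (∀ l, redM 𝒱 (T l) *ᵥ v = res 𝒱 (a l) • v) → redM 𝒱 (rho 𝒱 T e) *ᵥ v = v) := by
  classical
  -- minimal element
  have hex : ∃ r : ℕ, ∃ s : FreeAlgebra 𝒱 L, res 𝒱 (chi 𝒱 a s) ≠ 0 ∧ (redM 𝒱 (rho 𝒱 T s)).rank = r :=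
    ⟨_, 1, by rw [map_one, map_one]; exact one_ne_zero, rfl⟩
  obtain ⟨s, hs, hr⟩ := Nat.find_spec hex
  have hmin : ∀ y, res 𝒱 (chi 𝒱 a y) ≠ 0 → (redM 𝒱 (rho 𝒱 T s)).rank ≤ (redM 𝒱 (rho 𝒱 T y)).rank := by
    intro y hy
    rw [hr]
    exact Nat.find_min' hex ⟨y, hy, rfl⟩
  -- injectivity on the range of `s`
  have hinj : ∀ y, res 𝒱 (chi 𝒱 a y) ≠ 0 → ∀ v, redM 𝒱 (rho 𝒱 T y) *ᵥ (redM 𝒱 (rho 𝒱 T s) *ᵥ v) = 0 →
      redM 𝒱 (rho 𝒱 T s) *ᵥ v = 0 := by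
    intro y hy v hv
    have h1 := hmin (y * s) (by rw [map_mul, map_mul]; exact mul_ne_zero hy hs)
    have h2 : LinearMap.ker (redM 𝒱 (rho 𝒱 T s)).mulVecLin ≤
        LinearMap.ker (redM 𝒱 (rho 𝒱 T (y * s))).mulVecLin := by
      intro w hw
      rw [LinearMap.mem_ker, mulVecLin_apply] at hw ⊢
      rw [map_mul, redM_mul, ← mulVec_mulVec, hw, mulVec_zero]
    have h3 := (redM 𝒱 (rho 𝒱 T s)).mulVecLin.finrank_range_add_finrank_ker
    have h4 := (redM 𝒱 (rho 𝒱 T (y * s))).mulVecLin.finrank_range_add_finrank_ker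
    have h5 : LinearMap.ker (redM 𝒱 (rho 𝒱 T s)).mulVecLin =
        LinearMap.ker (redM 𝒱 (rho 𝒱 T (y * s))).mulVecLin := by
      apply Submodule.eq_of_le_of_finrank_le h2
      rw [rank, rank] at h1
      omega
    have h6 : v ∈ LinearMap.ker (redM 𝒱 (rho 𝒱 T (y * s))).mulVecLin := by
      rw [LinearMap.mem_ker, mulVecLin_apply, map_mul, redM_mul, ← mulVec_mulVec]
      exact hv
    rw [← h5, LinearMap.mem_ker, mulVecLin_apply] at h6
    exact h6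
  obtain ⟨m, P, Q, u, v, h1, h2, h3⟩ := exists_factor 𝒱 (rho 𝒱 T s).charpoly
    (rho 𝒱 T s).charpoly_monic
  have hPQ : aeval (rho 𝒱 T s) (P * Q) = 0 := by
    obtain ⟨c, hc⟩ := h1
    rw [hc, map_mul, Matrix.aeval_self_charpoly, zero_mul]
  set e : FreeAlgebra 𝒱 L := aeval s (u * P) with he
  have hrho : ∀ p : 𝒱[X], rho 𝒱 T (aeval s p) = aeval (rho 𝒱 T s) p := fun p ↦
    (aeval_algHom_apply _ _ _).symm
  have hePm : redM 𝒱 (rho 𝒱 T (aeval s P)) = redM 𝒱 (rho 𝒱 T s) ^ (m + 1) := by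
    rw [hrho, redM_aeval, h2, aeval_X_pow]
  have hsm : ∀ k : ℕ, ∀ w, redM 𝒱 (rho 𝒱 T s) ^ (k + 1) *ᵥ (redM 𝒱 (rho 𝒱 T s) *ᵥ w) = 0 →
      redM 𝒱 (rho 𝒱 T s) *ᵥ w = 0 := by
    intro k
    induction k with
    | zero =>
      intro w hw
      rw [zero_add, pow_one] at hw
      exact hinj s hs w hw
    | succ k ih =>
      intro w hw
      rw [pow_succ, ← mulVec_mulVec] at hw
      exact hinj s hs _ (ih _ hw)
  have hG : ∀ w, redM 𝒱 (rho 𝒱 T e) *ᵥ (redM 𝒱 (rho 𝒱 T s) *ᵥ w) = redM 𝒱 (rho 𝒱 T s) *ᵥ w := by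
    intro w
    have e1 : redM 𝒱 (rho 𝒱 T (aeval s Q)) *ᵥ (redM 𝒱 (rho 𝒱 T s) *ᵥ w) = 0 := by
      have e2 : redM 𝒱 (rho 𝒱 T (aeval s Q)) *ᵥ (redM 𝒱 (rho 𝒱 T s) *ᵥ w) =
          redM 𝒱 (rho 𝒱 T s) *ᵥ (redM 𝒱 (rho 𝒱 T (aeval s Q)) *ᵥ w) := by
        rw [mulVec_mulVec, mulVec_mulVec, ← redM_mul, ← redM_mul, rho_comm hT]
      rw [e2]
      apply hsm m
      rw [← e2, ← hePm, mulVec_mulVec, ← redM_mul, ← map_mul, ← map_mul, hrho, hPQ]
      simp [redM, Matrix.map_zero]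
    have e3 : rho 𝒱 T e = 1 - rho 𝒱 T (aeval s v) * rho 𝒱 T (aeval s Q) := by
      rw [← map_mul, ← map_mul, he, hrho, hrho, eq_sub_iff_add_eq, ← map_add, h3, map_one]
    rw [e3, redM_sub, redM_one, redM_mul, sub_mulVec, one_mulVec, ← mulVec_mulVec, e1, mulVec_zero,
      sub_zero]
  have hrange : ∀ w, redM 𝒱 (rho 𝒱 T e) *ᵥ w = w → ∃ w', w = redM 𝒱 (rho 𝒱 T s) *ᵥ w' := by
    intro w hw
    refine ⟨(redM 𝒱 (rho 𝒱 T (aeval s u)) * redM 𝒱 (rho 𝒱 T s) ^ m) *ᵥ w, ?_⟩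
    conv_lhs => rw [← hw]
    have e1 : redM 𝒱 (rho 𝒱 T e) = redM 𝒱 (rho 𝒱 T (aeval s u)) * redM 𝒱 (rho 𝒱 T s) ^ (m + 1) := by
      rw [he, map_mul, map_mul, redM_mul, hePm]
    have e2 : redM 𝒱 (rho 𝒱 T (aeval s u)) * redM 𝒱 (rho 𝒱 T s) =
        redM 𝒱 (rho 𝒱 T s) * redM 𝒱 (rho 𝒱 T (aeval s u)) := by
      rw [← redM_mul, ← redM_mul, rho_comm hT]
    rw [e1, pow_succ', ← mul_assoc, e2, mulVec_mulVec, mul_assoc]
  refine ⟨e, ?_, ?_, ?_⟩
  · have e1 : (u * P) * (u * P) = u * P - (P * Q) * (u * v) := by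
      linear_combination (u * P) * h3
    rw [he, hrho, ← map_mul, e1, map_sub, map_mul _ (P * Q), hPQ, zero_mul, sub_zero]
  · intro w hw y hy hyw
    obtain ⟨w', rfl⟩ := hrange w hw
    exact hinj y hy w' hyw
  · intro v hv
    have e1 := rho_eigen hv s
    have e2 : v = redM 𝒱 (rho 𝒱 T s) *ᵥ ((res 𝒱 (chi 𝒱 a s))⁻¹ • v) := by
      rw [mulVec_smul, e1, smul_smul, inv_mul_cancel₀ hs, one_smul]
    rw [e2, hG]

end Idem


section Main

/-- Base change of integral matrices. -/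
abbrev cst (R : Type*) [CommRing R] {m n : Type*} (M : Matrix m n ℤ) : Matrix m n R :=
  M.map (Int.castRingHom R)

variable {α β L : Type*} [Fintype α] [DecidableEq α] [Fintype β] [DecidableEq β]

theorem redM_cst {m n : Type*} (M : Matrix m n ℤ) : redM 𝒱 (cst 𝒱 M) = cst (kk 𝒱) M := by
  ext i j; simp

theorem genM_cst {m n : Type*} (M : Matrix m n ℤ) : genM 𝒱 (cst 𝒱 M) = cst K M := by
  ext i j; simp

theorem cst_mul {R : Type*} [CommRing R] {m n o : Type*} [Fintype n] (A : Matrix m n ℤ)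
    (B : Matrix n o ℤ) : cst R (A * B) = cst R A * cst R B := Matrix.map_mul

variable {𝒱}

theorem rho_blocks (TA : L → Matrix α α 𝒱) (TB : L → Matrix β β 𝒱) (x : FreeAlgebra 𝒱 L) :
    rho 𝒱 (fun l ↦ fromBlocks (TA l) 0 0 (TB l)) x = fromBlocks (rho 𝒱 TA x) 0 0 (rho 𝒱 TB x) := by
  induction x using FreeAlgebra.induction with
  | grade0 r =>
    rw [AlgHom.commutes, AlgHom.commutes, AlgHom.commutes, Matrix.algebraMap_eq_diagonal,
      Matrix.algebraMap_eq_diagonal, Matrix.algebraMap_eq_diagonal, Matrix.fromBlocks_diagonal]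
    congr 1
    ext i; cases i <;> rfl
  | grade1 l => rw [rho_ι, rho_ι, rho_ι]
  | mul x y hx hy =>
    rw [map_mul, map_mul, map_mul, hx, hy, fromBlocks_multiply]
    simp
  | add x y hx hy =>
    rw [map_add, map_add, map_add, hx, hy, fromBlocks_add]
    simp

theorem rho_intertwine (TA : L → Matrix α α 𝒱) (TB : L → Matrix β β 𝒱) (I : Matrix β α 𝒱)
    (hI : ∀ l, I * TA l = TB l * I) (x : FreeAlgebra 𝒱 L) : I * rho 𝒱 TA x = rho 𝒱 TB x * I := by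
  induction x using FreeAlgebra.induction with
  | grade0 r =>
    rw [AlgHom.commutes, AlgHom.commutes, Matrix.algebraMap_eq_diagonal,
      Matrix.algebraMap_eq_diagonal]
    ext i j
    rw [Matrix.mul_diagonal, Matrix.diagonal_mul]
    exact mul_comm _ _
  | grade1 l => rw [rho_ι, rho_ι, hI]
  | mul x y hx hy => rw [map_mul, map_mul, ← Matrix.mul_assoc, hx, Matrix.mul_assoc, hy, Matrix.mul_assoc]
  | add x y hx hy => rw [map_add, map_add, Matrix.mul_add, hx, hy, Matrix.add_mul]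

theorem rho_self (TB : L → Matrix β β 𝒱) (hT : ∀ l l', TB l * TB l' = TB l' * TB l)
    (D : Matrix β β 𝒱) (hD : ∀ l, (TB l)ᵀ * D = D * TB l) (x : FreeAlgebra 𝒱 L) :
    (rho 𝒱 TB x)ᵀ * D = D * rho 𝒱 TB x := by
  induction x using FreeAlgebra.induction with
  | grade0 r =>
    rw [AlgHom.commutes, Matrix.algebraMap_eq_diagonal, Matrix.diagonal_transpose]
    ext i j
    rw [Matrix.mul_diagonal, Matrix.diagonal_mul]
    exact mul_comm _ _
  | grade1 l => rw [rho_ι, hD]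
  | mul x y hx hy =>
    rw [map_mul, Matrix.transpose_mul, Matrix.mul_assoc, hx, ← Matrix.mul_assoc, hy,
      Matrix.mul_assoc, rho_comm hT y x]
  | add x y hx hy => rw [map_add, Matrix.transpose_add, Matrix.add_mul, hx, hy, Matrix.mul_add]


theorem eigen_in {n : Type*} [Fintype n] [DecidableEq n] {T : L → Matrix n n 𝒱}
    {a : L → 𝒱} {e : FreeAlgebra 𝒱 L}
    (hE : ∀ w, redM 𝒱 (rho 𝒱 T e) *ᵥ w = w → ∀ y, res 𝒱 (chi 𝒱 a y) ≠ 0 →
        redM 𝒱 (rho 𝒱 T y) *ᵥ w = 0 → w = 0)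
    {v : n → kk 𝒱} (hv : redM 𝒱 (rho 𝒱 T e) *ᵥ v = v) (hv0 : v ≠ 0) {l : L} {c : kk 𝒱}
    (hc : redM 𝒱 (T l) *ᵥ v = c • v) : c = res 𝒱 (a l) := by
  by_contra hne
  obtain ⟨b, hb⟩ := IsLocalRing.residue_surjective c
  apply hv0
  refine hE v hv (FreeAlgebra.ι 𝒱 l - algebraMap 𝒱 _ b) ?_ ?_
  · rw [map_sub, chi_ι, AlgHom.commutes, map_sub]
    change res 𝒱 (a l) - res 𝒱 b ≠ 0
    rw [show res 𝒱 b = c from hb]
    exact sub_ne_zero.mpr (Ne.symm hne)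
  · rw [map_sub, rho_ι, AlgHom.commutes, redM_sub, sub_mulVec, hc, ← hb, Matrix.algebraMap_eq_diagonal,
      redM, Matrix.diagonal_map (map_zero _)]
    ext i
    simp only [Pi.sub_apply, Pi.smul_apply, smul_eq_mul, mulVec_diagonal, Pi.zero_apply]
    exact sub_self _

theorem common_in {n : Type*} [Fintype n] [DecidableEq n] [IsAlgClosed K] {T : L → Matrix n n 𝒱}
    (hT : ∀ l l', T l * T l' = T l' * T l) {a : L → 𝒱} {e : FreeAlgebra 𝒱 L}
    (hE : ∀ w, redM 𝒱 (rho 𝒱 T e) *ᵥ w = w → ∀ y, res 𝒱 (chi 𝒱 a y) ≠ 0 →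
        redM 𝒱 (rho 𝒱 T y) *ᵥ w = 0 → w = 0)
    (Z : Submodule (kk 𝒱) (n → kk 𝒱)) (hZ : ∀ w ∈ Z, redM 𝒱 (rho 𝒱 T e) *ᵥ w = w) (hne : Z ≠ ⊥)
    (hst : ∀ l, ∀ w ∈ Z, redM 𝒱 (T l) *ᵥ w ∈ Z) :
    ∃ v ∈ Z, v ≠ 0 ∧ ∀ l, redM 𝒱 (T l) *ᵥ v = res 𝒱 (a l) • v := by
  obtain ⟨v, hv, hv0, c, hc⟩ := exists_common (fun l ↦ redM 𝒱 (T l)) (fun l l' ↦ by
    rw [← redM_mul, ← redM_mul, hT]) _ Z rfl hne hst
  refine ⟨v, hv, hv0, fun l ↦ ?_⟩
  rw [hc l, eigen_in hE (hZ v hv) hv0 (hc l)]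

theorem aeval_mulVec {n F : Type*} [Fintype n] [DecidableEq n] [Field F] {M : Matrix n n F}
    {x : n → F} {c : F} (h : M *ᵥ x = c • x) (p : F[X]) : aeval M p *ᵥ x = p.eval c • x := by
  induction p using Polynomial.induction_on' with
  | add p q hp hq => rw [map_add, add_mulVec, hp, hq, eval_add, add_smul]
  | monomial k r =>
    rw [aeval_monomial, eval_monomial, Matrix.algebraMap_eq_diagonal]
    have : ∀ k : ℕ, (M ^ k) *ᵥ x = c ^ k • x := by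
      intro k
      induction k with
      | zero => simp
      | succ k ih => rw [pow_succ, ← mulVec_mulVec, h, mulVec_smul, ih, smul_smul, pow_succ, mul_comm]
    rw [← mulVec_mulVec, this]
    ext i
    simp [mulVec_diagonal, mul_assoc]

theorem eigen_integral {n : Type*} [Fintype n] [DecidableEq n] {M : Matrix n n 𝒱} {x : n → K}
    (hx : x ≠ 0) {c : K} (h : genM 𝒱 M *ᵥ x = c • x) : c ∈ 𝒱 := by
  apply mem_of_isIntegral
  refine ⟨M.charpoly, M.charpoly_monic, ?_⟩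
  have h1 := aeval_mulVec h (M.charpoly.map (algebraMap 𝒱 K))
  have h2 : M.charpoly.map (algebraMap 𝒱 K) = (genM 𝒱 M).charpoly := (Matrix.charpoly_map _ _).symm
  rw [h2, Matrix.aeval_self_charpoly, zero_mulVec] at h1
  have h3 := (smul_eq_zero.mp h1.symm).resolve_right hx
  rw [← h2, eval_map] at h3
  exact h3

theorem main [IsAlgClosed K] (TA : L → Matrix α α ℤ) (TB : L → Matrix β β ℤ) (I : Matrix β α ℤ)
    (J : Matrix α β ℤ) (DA : Matrix α α ℤ) (DB : Matrix β β ℤ)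
    (hcA : ∀ l l', TA l * TA l' = TA l' * TA l) (hcB : ∀ l l', TB l * TB l' = TB l' * TB l)
    (hI : ∀ l, I * TA l = TB l * I) (hJ : ∀ l, J * TB l = TA l * J)
    (hadj : Iᵀ * DB = DA * J) (hself : ∀ l, (TB l)ᵀ * DB = DB * TB l) (a : L → 𝒱)
    (h1 : ∀ v : α → kk 𝒱, (∀ l, cst (kk 𝒱) (TA l) *ᵥ v = res 𝒱 (a l) • v) →
      cst (kk 𝒱) I *ᵥ v = 0 → v = 0)
    (h2 : ∃ v : α → kk 𝒱, v ≠ 0 ∧ (∀ l, cst (kk 𝒱) (TA l) *ᵥ v = res 𝒱 (a l) • v) ∧
      cst (kk 𝒱) J *ᵥ (cst (kk 𝒱) I *ᵥ v) = 0)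
    (h4 : ∀ b : β → kk 𝒱, (∀ l, cst (kk 𝒱) (TB l) *ᵥ b = res 𝒱 (a l) • b) →
      cst (kk 𝒱) DB *ᵥ b = 0 → b = 0) :
    ∃ (x : β → K) (c : L → 𝒱), x ≠ 0 ∧ cst K J *ᵥ x = 0 ∧
      ∀ l, cst K (TB l) *ᵥ x = (c l : K) • x ∧ res 𝒱 (c l) = res 𝒱 (a l) := by
  classical
  set TA' : L → Matrix α α 𝒱 := fun l ↦ cst 𝒱 (TA l) with hTA'
  set TB' : L → Matrix β β 𝒱 := fun l ↦ cst 𝒱 (TB l) with hTB'
  have hcA' : ∀ l l', TA' l * TA' l' = TA' l' * TA' l := fun l l' ↦ by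
    rw [hTA']; simp only [← cst_mul, hcA l l']
  have hcB' : ∀ l l', TB' l * TB' l' = TB' l' * TB' l := fun l l' ↦ by
    rw [hTB']; simp only [← cst_mul, hcB l l']
  have hI' : ∀ l, cst 𝒱 I * TA' l = TB' l * cst 𝒱 I := fun l ↦ by
    rw [hTA', hTB']; simp only [← cst_mul, hI l]
  have hJ' : ∀ l, cst 𝒱 J * TB' l = TA' l * cst 𝒱 J := fun l ↦ by
    rw [hTA', hTB']; simp only [← cst_mul, hJ l]
  have hself' : ∀ l, (TB' l)ᵀ * cst 𝒱 DB = cst 𝒱 DB * TB' l := fun l ↦ by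
    rw [hTB']; simp only
    rw [← Matrix.transpose_map, ← cst_mul, ← cst_mul, hself l]
  obtain ⟨e, he1, he2, he3⟩ := exists_idem (T := fun l ↦ fromBlocks (TA' l) 0 0 (TB' l))
    (fun l l' ↦ by rw [fromBlocks_multiply, fromBlocks_multiply]; simp [hcA', hcB']) a
  rw [rho_blocks, fromBlocks_multiply] at he1
  simp only [add_zero, zero_add, Matrix.zero_mul, Matrix.mul_zero] at he1
  set EA := rho 𝒱 TA' e with hEA
  set EB := rho 𝒱 TB' e with hEB
  have hEA1 : EA * EA = EA := by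
    have := congrArg Matrix.toBlocks₁₁ he1
    simpa using this
  have hEB1 : EB * EB = EB := by
    have := congrArg Matrix.toBlocks₂₂ he1
    simpa using this
  have hblk : ∀ (A : Matrix α α 𝒱) (B : Matrix β β 𝒱), redM 𝒱 (fromBlocks A 0 0 B) =
      fromBlocks (redM 𝒱 A) 0 0 (redM 𝒱 B) := by
    intro A B
    rw [redM, fromBlocks_map, Matrix.map_zero _ (map_zero _), Matrix.map_zero _ (map_zero _)]
  have hE2A : ∀ w, redM 𝒱 EA *ᵥ w = w → ∀ y, res 𝒱 (chi 𝒱 a y) ≠ 0 →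
      redM 𝒱 (rho 𝒱 TA' y) *ᵥ w = 0 → w = 0 := by
    intro w hw y hy hyw
    have := he2 (Sum.elim w 0) (by
      rw [rho_blocks, hblk, fromBlocks_mulVec]
      simp only [Sum.elim_comp_inl, Sum.elim_comp_inr, Matrix.zero_mulVec, mulVec_zero, add_zero]
      rw [← hEA, hw]) y hy (by
      rw [rho_blocks, hblk, fromBlocks_mulVec]
      simp only [Sum.elim_comp_inl, Sum.elim_comp_inr, Matrix.zero_mulVec, mulVec_zero, add_zero, hyw]
      ext i; cases i <;> rfl)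
    ext i
    exact congrFun this (Sum.inl i)
  have hE2B : ∀ w, redM 𝒱 EB *ᵥ w = w → ∀ y, res 𝒱 (chi 𝒱 a y) ≠ 0 →
      redM 𝒱 (rho 𝒱 TB' y) *ᵥ w = 0 → w = 0 := by
    intro w hw y hy hyw
    have := he2 (Sum.elim 0 w) (by
      rw [rho_blocks, hblk, fromBlocks_mulVec]
      simp only [Sum.elim_comp_inl, Sum.elim_comp_inr, Matrix.zero_mulVec, mulVec_zero, zero_add]
      rw [← hEB, hw]) y hy (by
      rw [rho_blocks, hblk, fromBlocks_mulVec]
      simp only [Sum.elim_comp_inl, Sum.elim_comp_inr, Matrix.zero_mulVec, mulVec_zero, zero_add, hyw]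
      ext i; cases i <;> rfl)
    ext i
    exact congrFun this (Sum.inr i)
  have hE3A : ∀ v, (∀ l, redM 𝒱 (TA' l) *ᵥ v = res 𝒱 (a l) • v) → redM 𝒱 EA *ᵥ v = v := by
    intro v hv
    have := he3 (Sum.elim v 0) (fun l ↦ by
      rw [hblk, fromBlocks_mulVec]
      simp only [Sum.elim_comp_inl, Sum.elim_comp_inr, Matrix.zero_mulVec, mulVec_zero, add_zero, hv l]
      ext i; cases i <;> simp)
    rw [rho_blocks, hblk, fromBlocks_mulVec] at this
    simp only [Sum.elim_comp_inl, Sum.elim_comp_inr, Matrix.zero_mulVec, mulVec_zero, add_zero] at this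
    ext i
    exact congrFun this (Sum.inl i)
  -- intertwining
  have hIE : cst 𝒱 I * EA = EB * cst 𝒱 I := rho_intertwine _ _ _ hI' e
  have hJE : cst 𝒱 J * EB = EA * cst 𝒱 J := rho_intertwine _ _ _ hJ' e
  have hDE : EBᵀ * cst 𝒱 DB = cst 𝒱 DB * EB := rho_self _ hcB' _ hself' e
  -- stability
  have hstA : ∀ l w, redM 𝒱 EA *ᵥ w = w → redM 𝒱 EA *ᵥ (redM 𝒱 (TA' l) *ᵥ w) = redM 𝒱 (TA' l) *ᵥ w := by
    intro l w hw
    rw [mulVec_mulVec, ← redM_mul, hEA, ← rho_ι (T := TA') l, rho_comm hcA', redM_mul, ← mulVec_mulVec,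
      ← hEA, hw]
  have hstB : ∀ l w, redM 𝒱 EB *ᵥ w = w → redM 𝒱 EB *ᵥ (redM 𝒱 (TB' l) *ᵥ w) = redM 𝒱 (TB' l) *ᵥ w := by
    intro l w hw
    rw [mulVec_mulVec, ← redM_mul, hEB, ← rho_ι (T := TB') l, rho_comm hcB', redM_mul, ← mulVec_mulVec,
      ← hEB, hw]
  have hstBK : ∀ l w, genM 𝒱 EB *ᵥ w = w → genM 𝒱 EB *ᵥ (genM 𝒱 (TB' l) *ᵥ w) = genM 𝒱 (TB' l) *ᵥ w := by
    intro l w hw
    rw [mulVec_mulVec, ← genM_mul, hEB, ← rho_ι (T := TB') l, rho_comm hcB', genM_mul, ← mulVec_mulVec,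
      ← hEB, hw]
  have hrTA : ∀ l, redM 𝒱 (TA' l) = cst (kk 𝒱) (TA l) := fun l ↦ redM_cst 𝒱 _
  have hrTB : ∀ l, redM 𝒱 (TB' l) = cst (kk 𝒱) (TB l) := fun l ↦ redM_cst 𝒱 _
  have hgTB : ∀ l, genM 𝒱 (TB' l) = cst K (TB l) := fun l ↦ genM_cst 𝒱 _
  -- the submodules
  set GA : Submodule (kk 𝒱) (α → kk 𝒱) := LinearMap.range (redM 𝒱 EA).mulVecLin with hGA
  set GB : Submodule (kk 𝒱) (β → kk 𝒱) := LinearMap.range (redM 𝒱 EB).mulVecLin with hGB
  set WA : Submodule K (α → K) := LinearMap.range (genM 𝒱 EA).mulVecLin with hWA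
  set WB : Submodule K (β → K) := LinearMap.range (genM 𝒱 EB).mulVecLin with hWB
  have memGA : ∀ w, w ∈ GA ↔ redM 𝒱 EA *ᵥ w = w := by
    intro w
    rw [hGA, LinearMap.mem_range]
    constructor
    · rintro ⟨y, rfl⟩
      rw [mulVecLin_apply, mulVec_mulVec, ← redM_mul, hEA1]
    · intro h; exact ⟨w, h⟩
  have memGB : ∀ w, w ∈ GB ↔ redM 𝒱 EB *ᵥ w = w := by
    intro w
    rw [hGB, LinearMap.mem_range]
    constructor
    · rintro ⟨y, rfl⟩
      rw [mulVecLin_apply, mulVec_mulVec, ← redM_mul, hEB1]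
    · intro h; exact ⟨w, h⟩
  have memWA : ∀ w, w ∈ WA ↔ genM 𝒱 EA *ᵥ w = w := by
    intro w
    rw [hWA, LinearMap.mem_range]
    constructor
    · rintro ⟨y, rfl⟩
      rw [mulVecLin_apply, mulVec_mulVec, ← genM_mul, hEA1]
    · intro h; exact ⟨w, h⟩
  have memWB : ∀ w, w ∈ WB ↔ genM 𝒱 EB *ᵥ w = w := by
    intro w
    rw [hWB, LinearMap.mem_range]
    constructor
    · rintro ⟨y, rfl⟩
      rw [mulVecLin_apply, mulVec_mulVec, ← genM_mul, hEB1]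
    · intro h; exact ⟨w, h⟩
  have hdimA : Module.finrank (kk 𝒱) GA = Module.finrank K WA := rank_idem 𝒱 EA hEA1
  have hdimB : Module.finrank (kk 𝒱) GB = Module.finrank K WB := rank_idem 𝒱 EB hEB1
  -- step 1
  have hIGA : ∀ w ∈ GA, redM 𝒱 (cst 𝒱 I) *ᵥ w ∈ GB := by
    intro w hw
    rw [memGA] at hw
    rw [memGB, mulVec_mulVec, ← redM_mul, ← hIE, redM_mul, ← mulVec_mulVec, hw]
  have hJGB : ∀ w ∈ GB, redM 𝒱 (cst 𝒱 J) *ᵥ w ∈ GA := by
    intro w hw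
    rw [memGB] at hw
    rw [memGA, mulVec_mulVec, ← redM_mul, ← hJE, redM_mul, ← mulVec_mulVec, hw]
  have hJWB : ∀ w ∈ WB, genM 𝒱 (cst 𝒱 J) *ᵥ w ∈ WA := by
    intro w hw
    rw [memWB] at hw
    rw [memWA, mulVec_mulVec, ← genM_mul, ← hJE, genM_mul, ← mulVec_mulVec, hw]
  have step1 : ∀ w ∈ GA, redM 𝒱 (cst 𝒱 I) *ᵥ w = 0 → w = 0 := by
    by_contra hcon
    push Not at hcon
    obtain ⟨w0, hw0, hw1, hw2⟩ := hcon
    obtain ⟨v, hv, hv0, hv1⟩ := common_in hcA' hE2A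
      (GA ⊓ LinearMap.ker (redM 𝒱 (cst 𝒱 I)).mulVecLin) (fun w hw ↦ (memGA w).mp hw.1)
      (fun h ↦ hw2 (by
        have : w0 ∈ GA ⊓ LinearMap.ker (redM 𝒱 (cst 𝒱 I)).mulVecLin := ⟨hw0, hw1⟩
        rw [h] at this
        exact this)) (fun l w hw ↦ by
        refine ⟨(memGA _).mpr (hstA l w ((memGA w).mp hw.1)), ?_⟩
        have h' : redM 𝒱 (cst 𝒱 I) *ᵥ w = 0 := hw.2
        show redM 𝒱 (cst 𝒱 I) *ᵥ _ = 0
        rw [mulVec_mulVec, ← redM_mul, hI', redM_mul, ← mulVec_mulVec, h', mulVec_zero])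
    apply hv0
    have h' : redM 𝒱 (cst 𝒱 I) *ᵥ v = 0 := hv.2
    refine h1 v (fun l ↦ ?_) ?_
    · rw [← hrTA]; exact hv1 l
    · rw [← redM_cst]; exact h'
  by_contra hcon
  -- step 2
  have step2 : ∀ w ∈ WB, genM 𝒱 (cst 𝒱 J) *ᵥ w = 0 → w = 0 := by
    intro w0 hw0 hw1
    by_contra hw2
    obtain ⟨x, hx, hx0, c, hc⟩ := exists_common (fun l ↦ genM 𝒱 (TB' l)) (fun l l' ↦ by
      rw [← genM_mul, ← genM_mul, hcB']) _ (WB ⊓ LinearMap.ker (genM 𝒱 (cst 𝒱 J)).mulVecLin) rfl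
      (fun h ↦ hw2 (by
        have : w0 ∈ WB ⊓ LinearMap.ker (genM 𝒱 (cst 𝒱 J)).mulVecLin := ⟨hw0, hw1⟩
        rw [h] at this
        exact this)) (fun l w hw ↦ by
        refine ⟨(memWB _).mpr (hstBK l w ((memWB w).mp hw.1)), ?_⟩
        have h' : genM 𝒱 (cst 𝒱 J) *ᵥ w = 0 := hw.2
        show genM 𝒱 (cst 𝒱 J) *ᵥ _ = 0
        rw [mulVec_mulVec, ← genM_mul, hJ', genM_mul, ← mulVec_mulVec, h', mulVec_zero])
    have hc' : ∀ l, c l ∈ 𝒱 := fun l ↦ eigen_integral hx0 (hc l)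
    obtain ⟨c0, y, hc0, hy, hyres⟩ := exists_primitive 𝒱 x hx0
    have hyx : (fun i ↦ (y i : K)) = c0 • x := by ext i; exact hy i
    have hinjK : Function.Injective (fun (z : β → 𝒱) ↦ fun i ↦ (z i : K)) := by
      intro z z' hzz
      ext i
      exact congrFun hzz i
    have hEy : redM 𝒱 EB *ᵥ (fun i ↦ res 𝒱 (y i)) = fun i ↦ res 𝒱 (y i) := by
      rw [redM_mulVec]
      have h5 : EB *ᵥ y = y := by
        apply hinjK
        show (fun i ↦ ((EB *ᵥ y) i : K)) = _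
        rw [← genM_mulVec, hyx, mulVec_smul, (memWB x).mp hx.1]
        exact hyx.symm
      rw [h5]
    have hTy : ∀ l, redM 𝒱 (TB' l) *ᵥ (fun i ↦ res 𝒱 (y i)) = res 𝒱 ⟨c l, hc' l⟩ • fun i ↦ res 𝒱 (y i) := by
      intro l
      rw [redM_mulVec]
      have h5 : TB' l *ᵥ y = (⟨c l, hc' l⟩ : 𝒱) • y := by
        apply hinjK
        show (fun i ↦ ((TB' l *ᵥ y) i : K)) = _
        rw [← genM_mulVec, hyx, mulVec_smul, hc l]
        ext i
        simp only [Pi.smul_apply, smul_eq_mul]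
        show c0 * (c l * x i) = c l * (y i : K)
        rw [hy]; ring
      rw [h5]
      ext i
      simp
    apply hcon
    refine ⟨x, fun l ↦ ⟨c l, hc' l⟩, hx0, ?_, fun l ↦ ⟨?_, ?_⟩⟩
    · rw [← genM_cst]; exact hx.2
    · rw [← hgTB]; exact hc l
    · exact eigen_in hE2B hEy hyres (hTy l)
  -- step 3
  have step3 : Module.finrank K WB ≤ Module.finrank K WA := by
    refine LinearMap.finrank_le_finrank_of_injective
      (f := (genM 𝒱 (cst 𝒱 J)).mulVecLin.restrict hJWB) ?_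
    rw [injective_iff_map_eq_zero]
    intro w hw
    have := congrArg Subtype.val hw
    exact Subtype.ext (step2 w w.2 this)
  -- step 4
  let fI : GA →ₗ[kk 𝒱] GB := (redM 𝒱 (cst 𝒱 I)).mulVecLin.restrict hIGA
  have hfI : Function.Injective fI := by
    rw [injective_iff_map_eq_zero]
    intro w hw
    have := congrArg Subtype.val hw
    exact Subtype.ext (step1 w w.2 this)
  have hdim : Module.finrank (kk 𝒱) GA = Module.finrank (kk 𝒱) GB := by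
    apply le_antisymm
    · exact LinearMap.finrank_le_finrank_of_injective hfI
    · rw [hdimA, hdimB]; exact step3
  have hfI' : Function.Surjective fI :=
    (LinearMap.injective_iff_surjective_of_finrank_eq_finrank hdim).mp hfI
  -- step 5
  have hadj' : (redM 𝒱 (cst 𝒱 I))ᵀ * redM 𝒱 (cst 𝒱 DB) = redM 𝒱 (cst 𝒱 DA) * redM 𝒱 (cst 𝒱 J) := by
    rw [redM_cst, redM_cst, redM_cst, redM_cst, ← Matrix.transpose_map, ← cst_mul, ← cst_mul, hadj]
  have step5 : ∀ b ∈ GB, redM 𝒱 (cst 𝒱 J) *ᵥ b = 0 → redM 𝒱 (cst 𝒱 DB) *ᵥ b = 0 := by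
    intro b hb hJb
    have key : ∀ b' : β → kk 𝒱, b' ⬝ᵥ (redM 𝒱 (cst 𝒱 DB) *ᵥ b) = 0 := by
      intro b'
      obtain ⟨a', ha'⟩ := hfI' ⟨redM 𝒱 EB *ᵥ b', (memGB _).mpr (by
        rw [mulVec_mulVec, ← redM_mul, hEB1])⟩
      have ha2 : redM 𝒱 (cst 𝒱 I) *ᵥ (a' : α → kk 𝒱) = redM 𝒱 EB *ᵥ b' := congrArg Subtype.val ha'
      have e1 : redM 𝒱 (cst 𝒱 DB) *ᵥ b = (redM 𝒱 EB)ᵀ *ᵥ (redM 𝒱 (cst 𝒱 DB) *ᵥ b) := by
        conv_lhs => rw [← (memGB b).mp hb]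
        rw [mulVec_mulVec, mulVec_mulVec, ← redM_mul, ← hDE, redM_mul, redM, Matrix.transpose_map]
      have e2 : (redM 𝒱 (cst 𝒱 I))ᵀ *ᵥ (redM 𝒱 (cst 𝒱 DB) *ᵥ b) = 0 := by
        rw [mulVec_mulVec, hadj', ← mulVec_mulVec, hJb, mulVec_zero]
      rw [e1, dotProduct_mulVec, vecMul_transpose, ← ha2, ← vecMul_transpose, ← dotProduct_mulVec, e2,
        dotProduct_zero]
    ext i
    have := key (Pi.single i 1)
    simpa using this
  -- step 6
  have step6 : ∀ b ∈ GB, redM 𝒱 (cst 𝒱 J) *ᵥ b = 0 → b = 0 := by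
    by_contra hcon'
    push Not at hcon'
    obtain ⟨w0, hw0, hw1, hw2⟩ := hcon'
    obtain ⟨v, hv, hv0, hv1⟩ := common_in hcB' hE2B
      (GB ⊓ LinearMap.ker (redM 𝒱 (cst 𝒱 J)).mulVecLin) (fun w hw ↦ (memGB w).mp hw.1)
      (fun h ↦ hw2 (by
        have : w0 ∈ GB ⊓ LinearMap.ker (redM 𝒱 (cst 𝒱 J)).mulVecLin := ⟨hw0, hw1⟩
        rw [h] at this
        exact this)) (fun l w hw ↦ by
        refine ⟨(memGB _).mpr (hstB l w ((memGB w).mp hw.1)), ?_⟩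
        have h' : redM 𝒱 (cst 𝒱 J) *ᵥ w = 0 := hw.2
        show redM 𝒱 (cst 𝒱 J) *ᵥ _ = 0
        rw [mulVec_mulVec, ← redM_mul, hJ', redM_mul, ← mulVec_mulVec, h', mulVec_zero])
    apply hv0
    refine h4 v (fun l ↦ ?_) ?_
    · rw [← hrTB]; exact hv1 l
    · rw [← redM_cst]; exact step5 v hv.1 hv.2
  obtain ⟨v, hv0, hv1, hv2⟩ := h2
  have hvG : v ∈ GA := (memGA v).mpr (hE3A v (fun l ↦ by rw [hrTA]; exact hv1 l))
  apply hv0
  apply step1 v hvG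
  apply step6 _ (hIGA v hvG)
  rw [redM_cst, redM_cst]
  exact hv2

end Main

end Fermat.Agent.H16.LR.LA
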