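import Mathlib
import Fermat.Agent.H16.LR.Isom
import Fermat.Agent.H16.LR.LinAlg

/-!
# The counting argument for modular symbols
-/

set_option autoImplicit false

open Matrix ModularGroup CongruenceSubgroup
open scoped MatrixGroups

noncomputable section

namespace Fermat.Agent.H16.LR

section PrEmb

variable {M : ℕ} [NeZero M]

theorem pr_eq_matrix (F G : Cu → Cu → ℤ) (hF : IsSymb M F) (hG : IsSymb M G) :
    pr M F G = co F ⬝ᵥ (PM M *ᵥ co G) := by
  have h := pr_emb (M := M) (A := ℤ) (co F) (co G)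
  rw [emb_co hF.isMM, emb_co hG.isMM] at h
  rw [h]
  congr 2

theorem co_cs (i : Fin (rk M)) : co (cs M i) = Pi.single i (1 : ℤ) := by
  ext j
  rw [co]
  simp only [phi_cs, smul_eq_mul]
  rw [eX_cX]
  rw [Pi.single_apply]

end PrEmb

section

variable {N q : ℕ} [NeZero N] [NeZero (N * q)]

omit [NeZero N] [NeZero (N * q)] in
theorem Pres.TT {M l : ℕ} [NeZero M] (h : l.Coprime M) (hl : l.Prime) :
    Pres M M fun A _ ↦ (pull A).TT l := fun _ hF ↦ hF.TT h hl

omit [NeZero N] [NeZero (N * q)] in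
theorem Pres.res : Pres N (N * q) fun _ _ F ↦ F := fun _ hF ↦ hF.mono (dvd_mul_right N q)

omit [NeZero N] [NeZero (N * q)] in
theorem Pres.deg (hq : q ≠ 0) (hqN : q.Coprime N) :
    Pres N (N * q) fun A _ ↦ (pull A).act (gq q 0 0 1) := fun _ hF ↦ hF.deg hq hqN

omit [NeZero N] in
theorem Pres.tr (hqN : q.Coprime N) : Pres (N * q) N fun A _ ↦ (pull A).tr N q :=
  fun _ hF ↦ hF.tr hqN

omit [NeZero N] [NeZero (N * q)] in
theorem Pres.w (hq : q ≠ 0) (w : RA.WQ N q) :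
    Pres (N * q) (N * q) fun A _ ↦ (pull A).act w.mat := fun _ hF ↦ hF.w hq w

omit [NeZero N] in
theorem Pres.trw (hq : q ≠ 0) (hqN : q.Coprime N) (w : RA.WQ N q) :
    Pres (N * q) N fun A _ F ↦ (pull A).tr N q ((pull A).act w.mat F) :=
  fun _ hF ↦ (hF.w hq w).tr hqN

theorem Natl.id : Natl fun _ _ F ↦ F := fun _ _ _ _ _ ↦ rfl

variable (N q)

/-- Hecke matrix at level `M`. -/
def matT (M : ℕ) [NeZero M] (l : ℕ) : Matrix (Fin (rk M)) (Fin (rk M)) ℤ :=
  mt M M fun A _ ↦ (pull A).TT l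

/-- Restriction. -/
def matI1 : Matrix (Fin (rk (N * q))) (Fin (rk N)) ℤ := mt N (N * q) fun _ _ F ↦ F
/-- Degeneracy. -/
def matI2 : Matrix (Fin (rk (N * q))) (Fin (rk N)) ℤ := mt N (N * q) fun A _ ↦ (pull A).act (gq q 0 0 1)
/-- Trace. -/
def matJ1 : Matrix (Fin (rk N)) (Fin (rk (N * q))) ℤ := mt (N * q) N fun A _ ↦ (pull A).tr N q
/-- Trace after Atkin–Lehner. -/
def matJ2 (w : RA.WQ N q) : Matrix (Fin (rk N)) (Fin (rk (N * q))) ℤ :=
  mt (N * q) N fun A _ F ↦ (pull A).tr N q ((pull A).act w.mat F)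

variable {N q}

theorem matT_comm {M : ℕ} [NeZero M] {l l' : ℕ} (hl : l.Prime) (hl' : l'.Prime)
    (hlM : l.Coprime M) (hlM' : l'.Coprime M) : matT M l * matT M l' = matT M l' * matT M l := by
  by_cases h : l = l'
  · rw [h]
  have hll : l.Coprime l' := (Nat.coprime_primes hl hl').mpr h
  rw [matT, matT, mt_mul (Natl.TT l) (Pres.TT hlM hl) (Pres.TT hlM' hl'),
    mt_mul (Natl.TT l') (Pres.TT hlM' hl') (Pres.TT hlM hl)]
  apply mt_congr
  intro F hF
  exact RA.TT_comm hl' hl hlM' hlM hll (isSymb_iff.mp hF).2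

theorem I1_T {l : ℕ} (hl : l.Prime) (hlN : l.Coprime (N * q)) :
    matI1 N q * matT N l = matT (N * q) l * matI1 N q := by
  rw [matI1, matT, matT, mt_mul Natl.id Pres.res (Pres.TT (Nat.Coprime.coprime_mul_right_right hlN) hl),
    mt_mul (Natl.TT l) (Pres.TT hlN hl) Pres.res]

theorem I2_T (hq : q.Prime) (hqN : q.Coprime N) {l : ℕ} (hl : l.Prime) (hlN : l.Coprime (N * q)) :
    matI2 N q * matT N l = matT (N * q) l * matI2 N q := by
  have hlN' := Nat.Coprime.coprime_mul_right_right hlN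
  have hlq := Nat.Coprime.coprime_mul_left_right hlN
  rw [matI2, matT, matT, mt_mul (Natl.act _) (Pres.deg hq.ne_zero hqN) (Pres.TT hlN' hl),
    mt_mul (Natl.TT l) (Pres.TT hlN hl) (Pres.deg hq.ne_zero hqN)]
  apply mt_congr
  intro F hF
  exact (RA.TT_deg hq.ne_zero hl.ne_zero hlq (isSymb_iff.mp hF).2).symm

theorem J1_T (hq : q.Prime) (hqN : q.Coprime N) {l : ℕ} (hl : l.Prime) (hlN : l.Coprime (N * q)) :
    matJ1 N q * matT (N * q) l = matT N l * matJ1 N q := by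
  have hlN' := Nat.Coprime.coprime_mul_right_right hlN
  have hlq := Nat.Coprime.coprime_mul_left_right hlN
  rw [matJ1, matT, matT, mt_mul (Natl.tr N q) (Pres.tr hqN) (Pres.TT hlN hl),
    mt_mul (Natl.TT l) (Pres.TT hlN' hl) (Pres.tr hqN)]
  apply mt_congr
  intro F hF
  exact RA.tr_TT hqN hq hl.ne_zero hlq (isSymb_iff.mp hF).2 (isSymb_iff.mp (hF.TT hlN hl)).2

theorem J2_T (hq : q.Prime) (hqN : q.Coprime N) (w : RA.WQ N q) {l : ℕ} (hl : l.Prime)
    (hlN : l.Coprime (N * q)) :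
    matJ2 N q w * matT (N * q) l = matT N l * matJ2 N q w := by
  have hlN' := Nat.Coprime.coprime_mul_right_right hlN
  have hlq := Nat.Coprime.coprime_mul_left_right hlN
  rw [matJ2, matT, matT, mt_mul ((Natl.tr N q).comp (Natl.act _)) (Pres.trw hq.ne_zero hqN w) (Pres.TT hlN hl),
    mt_mul (Natl.TT l) (Pres.TT hlN' hl) (Pres.trw hq.ne_zero hqN w)]
  apply mt_congr
  intro F hF
  have h1 := (isSymb_iff.mp hF).2
  have h2 := (isSymb_iff.mp (hF.TT hlN hl)).2
  have h3 := RA.TT_w hq.ne_zero hl.ne_zero hqN hlq h1 h2 w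
  show (pull ℤ).tr N q ((pull ℤ).act w.mat ((pull ℤ).TT l F)) = (pull ℤ).TT l ((pull ℤ).tr N q ((pull ℤ).act w.mat F))
  rw [← h3]
  exact RA.tr_TT hqN hq hl.ne_zero hlq (h1.inv_WQ hq.ne_zero w) (by rw [h3]; exact h2.inv_WQ hq.ne_zero w)

theorem mt_mulVec_co {M M' : ℕ} [NeZero M] [NeZero M']
    {Θ : ∀ (A : Type) [CommRing A], (Cu → Cu → A) → (Cu → Cu → A)}
    (h : Natl Θ) (hP : Pres M M' Θ) {F : Cu → Cu → ℤ} (hF : IsSymb M F) :
    mt M M' Θ *ᵥ co F = co (Θ ℤ F) := by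
  rw [mt_spec' h hP hF.isMM]
  congr 1

/-- A matrix identity from an adjunction. -/
theorem adj_of {M M' : ℕ} [NeZero M] [NeZero M']
    {Θ Θ' : ∀ (A : Type) [CommRing A], (Cu → Cu → A) → (Cu → Cu → A)}
    (h : Natl Θ) (hP : Pres M M' Θ) (h' : Natl Θ') (hP' : Pres M' M Θ')
    (hadj : ∀ F G : Cu → Cu → ℤ, IsSymb M F → IsSymb M' G → pr M' (Θ ℤ F) G = pr M F (Θ' ℤ G)) :
    (mt M M' Θ)ᵀ * PM M' = PM M * mt M' M Θ' := by
  ext i j
  have h1 := hadj (cs M i) (cs M' j) (cs_isMM M i).toIsSymb (cs_isMM M' j).toIsSymb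
  rw [pr_eq_matrix _ _ (hP _ (cs_isMM M i).toIsSymb) (cs_isMM M' j).toIsSymb,
    pr_eq_matrix _ _ (cs_isMM M i).toIsSymb (hP' _ (cs_isMM M' j).toIsSymb),
    ← mt_mulVec_co h hP (cs_isMM M i).toIsSymb, ← mt_mulVec_co h' hP' (cs_isMM M' j).toIsSymb,
    co_cs, co_cs] at h1
  have e1 : ∀ {m n : ℕ} (X : Matrix (Fin m) (Fin n) ℤ) (j : Fin n),
      X *ᵥ Pi.single j 1 = fun i ↦ X i j := by
    intro m n X j; ext i; simp
  rw [mulVec_mulVec, single_dotProduct, one_mul, e1, e1, e1] at h1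
  refine Eq.trans ?_ h1
  rw [mul_apply, dotProduct]
  rfl

theorem adj_I1 (hqN : q.Coprime N) : (matI1 N q)ᵀ * PM (N * q) = PM N * matJ1 N q := by
  refine adj_of Natl.id Pres.res (Natl.tr N q) (Pres.tr hqN) fun F G hF hG ↦ ?_
  rw [pr_anti, pr_anti (F := F), pr_tr hqN hG hF]

theorem adj_I2 (hq : q.Prime) (hqN : q.Coprime N) (w : RA.WQ N q) :
    (matI2 N q)ᵀ * PM (N * q) = PM N * matJ2 N q w := by
  refine adj_of (Natl.act _) (Pres.deg hq.ne_zero hqN) ((Natl.tr N q).comp (Natl.act _))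
    (Pres.trw hq.ne_zero hqN w) fun F G hF hG ↦ ?_
  have h1 : (pull ℤ).act (gq q 0 0 1) F = (pull ℤ).act w.mat F :=
    ((isSymb_iff.mp hF).2.act_w hq.ne_zero w).symm
  have hF' := hF.mono (dvd_mul_right N q)
  have h2 := pr_w hq.ne_zero w (hF'.w hq.ne_zero w) hG
  rw [(isSymb_iff.mp hF').2.WQ_WQ hq.ne_zero] at h2
  show pr (N * q) ((pull ℤ).act (gq q 0 0 1) F) G = pr N F ((pull ℤ).tr N q ((pull ℤ).act w.mat G))
  rw [h1, ← h2, pr_anti, pr_anti (F := F) (G := (pull ℤ).tr N q ((pull ℤ).act w.mat G)),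
    pr_tr hqN (hG.w hq.ne_zero w) hF]

theorem self_T {M l : ℕ} [NeZero M] (hl : l.Prime) (hlM : l.Coprime M) :
    (matT M l)ᵀ * PM M = PM M * matT M l := by
  have : NeZero (M * l) := ⟨mul_ne_zero (NeZero.ne M) hl.ne_zero⟩
  refine adj_of (Natl.TT l) (Pres.TT hlM hl) (Natl.TT l) (Pres.TT hlM hl) fun F G hF hG ↦ ?_
  obtain ⟨w, -, -⟩ := RA.exists_WQ hlM 1 (Nat.coprime_one_right l)
  have hF1 := (isSymb_iff.mp hF).2
  have hG1 := (isSymb_iff.mp hG).2
  have hF' := hF.mono (dvd_mul_right M l)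
  have hG' := hG.mono (dvd_mul_right M l)
  show pr M ((pull ℤ).TT l F) G = pr M F ((pull ℤ).TT l G)
  rw [RA.TT_eq_tr hlM hl hF1, RA.TT_eq_tr hlM hl hG1, ← hF1.act_w hl.ne_zero w,
    ← hG1.act_w hl.ne_zero w, pr_tr hlM (hF'.w hl.ne_zero w) hG,
    pr_anti (F := F) (G := (pull ℤ).tr M l ((pull ℤ).act w.mat G)),
    pr_tr hlM (hG'.w hl.ne_zero w) hF, ← pr_anti]
  have h2 := pr_w hl.ne_zero w (hF'.w hl.ne_zero w) hG'
  rw [(isSymb_iff.mp hF').2.WQ_WQ hl.ne_zero] at h2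
  exact h2.symm


theorem emb_smul {M : ℕ} [NeZero M] {A : Type} [CommRing A] (c : A) (u : Fin (rk M) → A) :
    emb M A (c • u) = fun r s ↦ c * emb M A u r s := by
  ext r s
  simp only [emb, lc, Pi.smul_apply, smul_eq_mul, Finset.mul_sum]
  exact Finset.sum_congr rfl fun i _ ↦ by ring

theorem emb_add {M : ℕ} [NeZero M] {A : Type} [CommRing A] (u v : Fin (rk M) → A) :
    emb M A (u + v) = emb M A u + emb M A v := by
  ext r s
  simp only [emb, lc, Pi.add_apply, mul_add, Finset.sum_add_distrib]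

theorem emb_zero {M : ℕ} [NeZero M] {A : Type} [CommRing A] :
    emb M A (0 : Fin (rk M) → A) = 0 := by
  ext r s
  simp [emb, lc]

/-- The index type of good primes. -/
abbrev LL (N q : ℕ) := {l : ℕ // l.Prime ∧ l.Coprime (N * q)}

open LA in
/-- The counting argument. -/
theorem count (hq : q.Prime) (hqN : q.Coprime N) (w : RA.WQ N q) (𝒱 : ValuationSubring ℂ)
    (a : LL N q → 𝒱)
    (hIH : ∀ f1 f2 : Cu → Cu → kk 𝒱, IsMM N f1 → IsMM N f2 →
      (∀ l : LL N q, (pull (kk 𝒱)).TT l f1 = fun r s ↦ res 𝒱 (a l) * f1 r s) →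
      (∀ l : LL N q, (pull (kk 𝒱)).TT l f2 = fun r s ↦ res 𝒱 (a l) * f2 r s) →
      f1 + (pull (kk 𝒱)).act (gq q 0 0 1) f2 = 0 → f1 = 0 ∧ f2 = 0)
    (hEV : ∃ f : Cu → Cu → kk 𝒱, f ≠ 0 ∧ IsMM N f ∧
      (∀ l : LL N q, (pull (kk 𝒱)).TT l f = fun r s ↦ res 𝒱 (a l) * f r s) ∧
      ∃ ε : kk 𝒱, ε ^ 2 = 1 ∧ (pull (kk 𝒱)).TT q f = fun r s ↦ ε * (q + 1) * f r s)
    (hBD : ∀ F : Cu → Cu → kk 𝒱, IsMM (N * q) F →
      (∀ l : LL N q, (pull (kk 𝒱)).TT l F = fun r s ↦ res 𝒱 (a l) * F r s) →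
      (∃ β : Cu → kk 𝒱, (∀ γ ∈ Gamma0 (N * q), ∀ r, β (ι γ • r) = β r) ∧
        ∀ r s, 2 * F r s = β s - β r) → F = 0) :
    ∃ (G : Cu → Cu → ℂ) (c : LL N q → 𝒱), G ≠ 0 ∧ IsSymb (N * q) G ∧
      (pull ℂ).tr N q G = 0 ∧ (pull ℂ).tr N q ((pull ℂ).act w.mat G) = 0 ∧
      ∀ l : LL N q, (pull ℂ).TT l G = (fun r s ↦ (c l : ℂ) * G r s) ∧ res 𝒱 (c l) = res 𝒱 (a l) := by
  have hsplit : ∀ {R : Type} (v : Fin (rk N) ⊕ Fin (rk N) → R),
      v = Sum.elim (v ∘ Sum.inl) (v ∘ Sum.inr) := by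
    intro R v; ext i; cases i <;> rfl
  have hTA : ∀ (R : Type) [CommRing R] (l : LL N q),
      cst R (fromBlocks (matT N l) 0 0 (matT N (l : ℕ))) =
        fromBlocks (cst R (matT N l)) 0 0 (cst R (matT N l)) := by
    intro R _ l
    rw [cst, fromBlocks_map, Matrix.map_zero _ (map_zero _)]
  have hI : ∀ (R : Type) [CommRing R],
      cst R (fromCols (matI1 N q) (matI2 N q)) = fromCols (cst R (matI1 N q)) (cst R (matI2 N q)) := by
    intro R _
    rw [cst, fromCols_map]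
  have hJ : ∀ (R : Type) [CommRing R],
      cst R (fromRows (matJ1 N q) (matJ2 N q w)) = fromRows (cst R (matJ1 N q)) (cst R (matJ2 N q w)) := by
    intro R _
    rw [cst, fromRows_map]
  have hembI : ∀ (R : Type) [CommRing R] (u1 u2 : Fin (rk N) → R),
      emb (N * q) R (cst R (fromCols (matI1 N q) (matI2 N q)) *ᵥ Sum.elim u1 u2) =
        emb N R u1 + (pull R).act (gq q 0 0 1) (emb N R u2) := by
    intro R _ u1 u2
    rw [hI, fromCols_mulVec_sumElim, emb_add]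
    congr 1
    · exact (mt_spec Natl.id Pres.res u1).symm
    · exact (mt_spec (Natl.act _) (Pres.deg hq.ne_zero hqN) u2).symm
  have hembT : ∀ (R : Type) [CommRing R] {M : ℕ} [NeZero M] {l : ℕ} (hl : l.Prime)
      (hlM : l.Coprime M) (u : Fin (rk M) → R),
      (pull R).TT l (emb M R u) = emb M R (cst R (matT M l) *ᵥ u) := by
    intro R _ M _ l hl hlM u
    exact mt_spec (Natl.TT l) (Pres.TT hlM hl) u
  have hLN : ∀ l : LL N q, (l : ℕ).Coprime N := fun l ↦ Nat.Coprime.coprime_mul_right_right l.2.2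
  have key := main (K := ℂ) (𝒱 := 𝒱) (L := LL N q)
    (fun l ↦ fromBlocks (matT N l) 0 0 (matT N l)) (fun l ↦ matT (N * q) l)
    (fromCols (matI1 N q) (matI2 N q)) (fromRows (matJ1 N q) (matJ2 N q w))
    (fromBlocks (PM N) 0 0 (PM N)) (PM (N * q))
    (fun l l' ↦ by
      rw [fromBlocks_multiply, fromBlocks_multiply]
      simp only [Matrix.mul_zero, Matrix.zero_mul, add_zero, zero_add,
        matT_comm l.2.1 l'.2.1 (hLN l) (hLN l')])
    (fun l l' ↦ matT_comm l.2.1 l'.2.1 l.2.2 l'.2.2)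
    (fun l ↦ by
      rw [fromCols_mul_fromBlocks, mul_fromCols]
      simp only [Matrix.mul_zero, add_zero, zero_add, I1_T l.2.1 l.2.2, I2_T hq hqN l.2.1 l.2.2])
    (fun l ↦ by
      rw [fromBlocks_mul_fromRows, fromRows_mul]
      simp only [Matrix.zero_mul, add_zero, zero_add, J1_T hq hqN l.2.1 l.2.2, J2_T hq hqN w l.2.1 l.2.2])
    (by
      rw [transpose_fromCols, fromRows_mul, fromBlocks_mul_fromRows]
      simp only [Matrix.zero_mul, add_zero, zero_add, adj_I1 hqN, adj_I2 hq hqN w])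
    (fun l ↦ self_T l.2.1 l.2.2) a ?_ ?_ ?_
  · obtain ⟨x, c, hx0, hxJ, hxT⟩ := key
    rw [hJ, fromRows_mulVec] at hxJ
    have hJ1 : cst ℂ (matJ1 N q) *ᵥ x = 0 := by
      ext i; exact congrFun hxJ (Sum.inl i)
    have hJ2 : cst ℂ (matJ2 N q w) *ᵥ x = 0 := by
      ext i; exact congrFun hxJ (Sum.inr i)
    refine ⟨emb (N * q) ℂ x, c, ?_, (emb_isMM x).toIsSymb, ?_, ?_, fun l ↦ ⟨?_, (hxT l).2⟩⟩
    · intro h
      apply hx0
      apply emb_injective
      rw [h, emb_zero]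
    · have h1 := mt_spec (Natl.tr N q) (Pres.tr hqN) x
      have h2 : emb N ℂ (cst ℂ (matJ1 N q) *ᵥ x) = 0 := by rw [hJ1, emb_zero]
      exact h1.trans h2
    · have h1 := mt_spec ((Natl.tr N q).comp (Natl.act w.mat)) (Pres.trw hq.ne_zero hqN w) x
      have h2 : emb N ℂ (cst ℂ (matJ2 N q w) *ᵥ x) = 0 := by rw [hJ2, emb_zero]
      exact h1.trans h2
    · rw [hembT ℂ l.2.1 l.2.2, (hxT l).1, emb_smul]
  · intro v hv hIv
    set u1 := v ∘ Sum.inl with hu1
    set u2 := v ∘ Sum.inr with hu2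
    have hv' : v = Sum.elim u1 u2 := hsplit v
    have hT : ∀ l : LL N q, cst (kk 𝒱) (matT N l) *ᵥ u1 = res 𝒱 (a l) • u1 ∧
        cst (kk 𝒱) (matT N l) *ᵥ u2 = res 𝒱 (a l) • u2 := by
      intro l
      have h1 := hv l
      rw [hTA, fromBlocks_mulVec] at h1
      constructor
      · ext i
        have := congrFun h1 (Sum.inl i)
        simp at this
        exact this
      · ext i
        have := congrFun h1 (Sum.inr i)
        simp at this
        exact this
    obtain ⟨h1, h2⟩ := hIH (emb N _ u1) (emb N _ u2) (emb_isMM u1) (emb_isMM u2)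
      (fun l ↦ by rw [hembT _ l.2.1 (hLN l), (hT l).1, emb_smul])
      (fun l ↦ by rw [hembT _ l.2.1 (hLN l), (hT l).2, emb_smul])
      (by rw [← hembI, ← hv', hIv, emb_zero])
    have h3 : u1 = 0 := by apply emb_injective; rw [h1, emb_zero]
    have h4 : u2 = 0 := by apply emb_injective; rw [h2, emb_zero]
    rw [hv', h3, h4]
    ext i; cases i <;> rfl
  · obtain ⟨f, hf0, hf, hfT, ε, hε, hfq⟩ := hEV
    have hco : emb N (kk 𝒱) (co f) = f := emb_co hf
    have hT : ∀ l : LL N q, cst (kk 𝒱) (matT N l) *ᵥ co f = res 𝒱 (a l) • co f := by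
      intro l
      apply emb_injective
      rw [← hembT _ l.2.1 (hLN l), hco, hfT, emb_smul, hco]
    refine ⟨Sum.elim (co f) (-(ε • co f)), ?_, fun l ↦ ?_, ?_⟩
    · intro h
      apply hf0
      rw [← hco]
      have : co (M := N) f = 0 := by ext i; exact congrFun h (Sum.inl i)
      rw [this, emb_zero]
    · rw [hTA, fromBlocks_mulVec]
      simp only [Sum.elim_comp_inl, Sum.elim_comp_inr, Matrix.zero_mulVec, zero_add, hT l,
        mulVec_neg, mulVec_smul]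
      ext i
      cases i with
      | inl i => simp
      | inr i => simp; ring
    · set W := cst (kk 𝒱) (fromCols (matI1 N q) (matI2 N q)) *ᵥ Sum.elim (co f) (-(ε • co f)) with hW
      have hfi := (isSymb_iff.mp hf.toIsSymb).2
      have hemb : emb (N * q) (kk 𝒱) W = f - fun r s ↦ ε * (pull (kk 𝒱)).act w.mat f r s := by
        rw [hW, hembI, hco]
        have e1 : emb N (kk 𝒱) (-(ε • co f)) = fun r s ↦ - (ε * f r s) := by
          have : (-(ε • co f) : Fin (rk N) → kk 𝒱) = (-ε) • co f := by rw [neg_smul]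
          rw [this, emb_smul, hco]
          ext r s; ring
        rw [e1, hfi.act_w hq.ne_zero w]
        ext r s
        simp only [Pi.add_apply, Pi.sub_apply, pull_apply]
        ring
      have hsc : ∀ (g : GL (Fin 2) ℚ) (F : Cu → Cu → kk 𝒱),
          (pull (kk 𝒱)).act g (fun r s ↦ ε * F r s) = fun r s ↦ ε * (pull (kk 𝒱)).act g F r s :=
        fun _ _ ↦ rfl
      have htrsc : ∀ (F : Cu → Cu → kk 𝒱),
          (pull (kk 𝒱)).tr N q (fun r s ↦ ε * F r s) = fun r s ↦ ε * (pull (kk 𝒱)).tr N q F r s := by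
        intro F
        ext r s
        simp only [RA.tr, Finset.sum_apply, pull_apply, Finset.mul_sum]
      have htrsub : ∀ (F G : Cu → Cu → kk 𝒱),
          (pull (kk 𝒱)).tr N q (F - G) = (pull (kk 𝒱)).tr N q F - (pull (kk 𝒱)).tr N q G := by
        intro F G
        simp [RA.tr, Finset.sum_sub_distrib]
      have hself : (pull (kk 𝒱)).tr N q f = fun r s ↦ ((q : kk 𝒱) + 1) * f r s := by
        rw [RA.tr_self hqN hq hfi]
        ext r s
        simp [nsmul_eq_mul]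
      have htrw : (pull (kk 𝒱)).tr N q ((pull (kk 𝒱)).act w.mat f) = fun r s ↦ ε * (q + 1) * f r s := by
        rw [hfi.act_w hq.ne_zero w, ← RA.TT_eq_tr hqN hq hfi, hfq]
      have hww : (pull (kk 𝒱)).act w.mat ((pull (kk 𝒱)).act w.mat f) = f :=
        (hfi.mono (dvd_mul_right N q)).WQ_WQ hq.ne_zero w
      rw [hJ, fromRows_mulVec]
      have hJ1 : cst (kk 𝒱) (matJ1 N q) *ᵥ W = 0 := by
        apply emb_injective
        have h1 := mt_spec (Natl.tr N q) (Pres.tr hqN) W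
        rw [emb_zero]
        refine h1.symm.trans ?_
        rw [hemb, htrsub, htrsc, hself, htrw]
        ext r s
        simp only [Pi.sub_apply, Pi.zero_apply]
        linear_combination -((q + 1) * f r s) * hε
      have hJ2 : cst (kk 𝒱) (matJ2 N q w) *ᵥ W = 0 := by
        apply emb_injective
        have h1 := mt_spec ((Natl.tr N q).comp (Natl.act w.mat)) (Pres.trw hq.ne_zero hqN w) W
        rw [emb_zero]
        refine h1.symm.trans ?_
        rw [hemb, map_sub, hsc, hww, htrsub, htrsc, hself, htrw]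
        ext r s
        simp only [Pi.sub_apply, Pi.zero_apply]
        ring
      rw [hJ1, hJ2]
      ext i; cases i <;> rfl
  · intro b hb hDb
    have hF := emb_isMM (M := N * q) b
    have h := hBD (emb (N * q) _ b) hF
      (fun l ↦ by rw [hembT _ l.2.1 l.2.2, hb l, emb_smul])
      (boundary_of_radical hF fun G hG ↦ by
        rw [← emb_co hG, pr_emb]
        have : (PM (N * q)).map (Int.castRingHom (kk 𝒱)) *ᵥ b = 0 := hDb
        rw [this, dotProduct_zero])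
    apply emb_injective
    rw [h, emb_zero]

end

end Fermat.Agent.H16.LR
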