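import Mathlib
import Fermat.Agent.H16.LR.Pair

/-!
# Boundary symbols are Eisenstein
-/

set_option autoImplicit false

open Matrix ModularGroup CongruenceSubgroup
open scoped MatrixGroups

noncomputable section

namespace Fermat.Agent.H16.LR

variable {M : ℕ} {B : Type*}

theorem cusp_congr {β : Cu → B} (hβ : ∀ γ ∈ Gamma0 M, ∀ r, β (ι γ • r) = β r) {u v u' v' : ℤ}
    (h : IsCoprime u v) (h' : IsCoprime u' v') (hu : (M : ℤ) ∣ u' - u) (hv : (M : ℤ) ∣ v' - v) :
    β (cv u v) = β (cv u' v') := by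
  obtain ⟨s, r, hsr⟩ := h
  obtain ⟨s', r', hsr'⟩ := h'
  set δ : SL(2, ℤ) := sl u (-r) v s (by linear_combination hsr) with hδ
  set δ0 : SL(2, ℤ) := sl u' (-r') v' s' (by linear_combination hsr') with hδ0
  set n : ℤ := s * r' - s' * r with hn
  have e1 : ι δ • (OnePoint.infty : Cu) = cv u v := by rw [ι_infty]; rfl
  have e2 : ι δ0 • (OnePoint.infty : Cu) = cv u' v' := by rw [ι_infty]; rfl
  have e3 : ι (T ^ n) • (OnePoint.infty : Cu) = OnePoint.infty := by
    rw [ι_infty, coe_T_zpow]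
    simp [cv]
  have hmem : δ0 * T ^ n * δ⁻¹ ∈ Gamma0 M := by
    rw [mem_Gamma0_iff]
    have h10 : (δ0 * T ^ n * δ⁻¹) 1 0 = (s + s') * (v' - v) + s * s' * ((u' - u) * v - u * (v' - v)) := by
      have hT : (T ^ n : SL(2, ℤ)) = sl 1 n 0 1 (by ring) := by
        ext i j
        rw [coe_T_zpow]
        rfl
      have h1 : (δ0 * T ^ n * δ⁻¹) 1 0 = v' * s - (s' + n * v') * v := by
        rw [hT, SpecialLinearGroup.SL2_inv_expl]
        simp [Matrix.mul_apply, Fin.sum_univ_two, hδ, hδ0, sl]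
        ring
      rw [h1, hn]
      linear_combination (-s * v) * hsr' + (s' * v') * hsr
    rw [h10]
    exact dvd_add (dvd_mul_of_dvd_right hv _) (dvd_mul_of_dvd_right
      (dvd_sub (dvd_mul_of_dvd_left hu _) (dvd_mul_of_dvd_right hv _)) _)
  rw [← e1, ← e2, ← hβ _ hmem, ι_mul_smul, ι_mul_smul, ι_inv, inv_smul_smul, e3]

theorem cv_mul_mul {l : ℤ} (hl : l ≠ 0) {u v : ℤ} (h : IsCoprime u v) :
    cv ((l * u : ℤ) : ℚ) ((l * v : ℤ) : ℚ) = cv u v := by
  have h0 := ne_zero_of_coprime h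
  have hl' : (l : ℚ) ≠ 0 := by exact_mod_cast hl
  refine cv_eq_of (by push_cast; ring) ?_ h0
  rcases h0 with h0 | h0
  · left; push_cast; exact mul_ne_zero hl' h0
  · right; push_cast; exact mul_ne_zero hl' h0

theorem cusp_mul_left {β : Cu → B} (hβ : ∀ γ ∈ Gamma0 M, ∀ r, β (ι γ • r) = β r) {u v l : ℤ}
    (h : IsCoprime u v) (hl : Prime l) (hM : (M : ℤ) ∣ l - 1) :
    β (cv ((l * u : ℤ) : ℚ) v) = β (cv u v) := by
  by_cases hd : l ∣ v
  · obtain ⟨v', rfl⟩ := hd
    have h1 : IsCoprime u v' := IsCoprime.of_mul_right_right h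
    rw [cv_mul_mul hl.ne_zero h1]
    refine cusp_congr hβ h1 h (by simp) ?_
    have : l * v' - v' = (l - 1) * v' := by ring
    rw [this]
    exact dvd_mul_of_dvd_left hM _
  · have h2 : IsCoprime l v := (Prime.coprime_iff_not_dvd hl).mpr hd
    refine cusp_congr hβ (h2.mul_left h) h ?_ (by simp)
    have : u - l * u = -((l - 1) * u) := by ring
    rw [this]
    exact (dvd_neg).mpr (dvd_mul_of_dvd_left hM _)

theorem cusp_mul_right {β : Cu → B} (hβ : ∀ γ ∈ Gamma0 M, ∀ r, β (ι γ • r) = β r) {u v l : ℤ}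
    (h : IsCoprime u v) (hl : Prime l) (hM : (M : ℤ) ∣ l - 1) :
    β (cv u ((l * v : ℤ) : ℚ)) = β (cv u v) := by
  by_cases hd : l ∣ u
  · obtain ⟨u', rfl⟩ := hd
    have h1 : IsCoprime u' v := IsCoprime.of_mul_left_right h
    rw [cv_mul_mul hl.ne_zero h1]
    refine cusp_congr hβ h1 h ?_ (by simp)
    have : l * u' - u' = (l - 1) * u' := by ring
    rw [this]
    exact dvd_mul_of_dvd_left hM _
  · have h2 : IsCoprime u l := ((Prime.coprime_iff_not_dvd hl).mpr hd).symm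
    refine cusp_congr hβ (h2.mul_right h) h (by simp) ?_
    have : v - l * v = -((l - 1) * v) := by ring
    rw [this]
    exact (dvd_neg).mpr (dvd_mul_of_dvd_left hM _)

/-- Boundary symbols are Eisenstein. -/
theorem TT_boundary {k : Type} [Field k] (h2 : (2 : k) ≠ 0) {F : Cu → Cu → k} {β : Cu → k}
    (hβ : ∀ γ ∈ Gamma0 M, ∀ r, β (ι γ • r) = β r) (hF : ∀ r s, 2 * F r s = β s - β r) {l : ℕ}
    (hl : l.Prime) (hM : (M : ℤ) ∣ l - 1) :
    (pull k).TT l F = fun r s ↦ ((l : k) + 1) * F r s := by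
  have hp : Prime (l : ℤ) := Nat.prime_iff_prime_int.mp hl
  have hl0 : (l : ℚ) ≠ 0 := by exact_mod_cast hl.ne_zero
  have h1 : ∀ r : Cu, β (gq l 0 0 1 • r) = β r := by
    intro r
    obtain ⟨u, v, -, huv, rfl⟩ := exists_cv r
    rw [gq_smul_cv (by simpa using hl0) (ne_zero_of_coprime huv)]
    have := cusp_mul_left hβ huv hp hM
    push_cast at this
    rw [← this]
    congr 2 <;> ring
  have h3 : ∀ (b : ℕ) (r : Cu), β (gq 1 b 0 l • r) = β r := by
    intro b r
    obtain ⟨u, v, -, huv, rfl⟩ := exists_cv r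
    rw [gq_smul_cv (by simpa using hl0) (ne_zero_of_coprime huv)]
    have huv' : IsCoprime (u + b * v) v := by
      obtain ⟨s, t, hst⟩ := huv
      exact ⟨s, t - s * b, by linear_combination hst⟩
    have h4 := cusp_mul_right hβ huv' hp hM
    have h5 : β (cv ((u + b * v : ℤ) : ℚ) v) = β (cv u v) := by
      have hmem : sl 1 b 0 1 (by ring) ∈ Gamma0 M := sl_mem (by ring) (dvd_zero _)
      rw [← hβ _ hmem (cv u v), ι_sl, gq_smul_cv (by norm_num) (ne_zero_of_coprime huv)]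
      congr 2 <;> (push_cast; ring)
    rw [← h5, ← h4]
    congr 2 <;> (push_cast; ring)
  ext r s
  apply mul_left_cancel₀ h2
  have e1 : 2 * (pull k).TT l F r s = 2 * F (gq l 0 0 1 • r) (gq l 0 0 1 • s) +
      ∑ b ∈ Finset.range l, 2 * F (gq 1 b 0 l • r) (gq 1 b 0 l • s) := by
    rw [← Finset.mul_sum, ← mul_add]
    congr 1
    simp only [RA.TT, RA.UU, Pi.add_apply, Finset.sum_apply, pull_apply]
  rw [e1, hF, h1, h1]
  simp only [hF, h3]
  rw [Finset.sum_const, Finset.card_range, nsmul_eq_mul, ← hF r s]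
  ring

end Fermat.Agent.H16.LR
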