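import Mathlib
import Fermat.Agent.H16.LR.Pair
import Fermat.Agent.H16.Weight2

/-!
# Modular symbols of cusp forms
-/

set_option autoImplicit false

open UpperHalfPlane hiding I
open Matrix ModularGroup CongruenceSubgroup
open scoped MatrixGroups ModularForm

noncomputable section

namespace Fermat.Agent.H16.LR

/-- Base change of matrices to `ℝ`. -/
def mq (g : GL (Fin 2) ℚ) : GL (Fin 2) ℝ := Matrix.GeneralLinearGroup.map (algebraMap ℚ ℝ) g

theorem mq_mul (g h : GL (Fin 2) ℚ) : mq (g * h) = mq g * mq h := map_mul _ _ _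
theorem mq_one : mq 1 = 1 := map_one _

theorem mq_apply (g : GL (Fin 2) ℚ) (i j : Fin 2) : (mq g) i j = ((g i j : ℚ) : ℝ) := rfl

theorem mq_ι (γ : SL(2, ℤ)) : mq (ι γ) = Matrix.SpecialLinearGroup.mapGL ℝ γ := by
  ext i j
  rw [mq_apply, ι_apply]
  simp

theorem val_mq_gq {a b c d : ℚ} (h : a * d - b * c ≠ 0) :
    (mq (gq a b c d)).val = !![(a : ℝ), (b : ℝ); (c : ℝ), (d : ℝ)] := by
  ext i j
  have e : (mq (gq a b c d)).val i j = (((gq a b c d) i j : ℚ) : ℝ) := rfl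
  rw [e]
  fin_cases i <;> fin_cases j
  · simpa using gq_00 h
  · simpa using gq_01 h
  · simpa using gq_10 h
  · simpa using gq_11 h

theorem mq_gq_mem {a b c d : ℤ} (h : 0 < a * d - b * c) : mq (gq a b c d) ∈ intMat := by
  have h0 : (a : ℚ) * d - b * c ≠ 0 := by
    have : (0 : ℚ) < (a : ℚ) * d - b * c := by exact_mod_cast h
    exact this.ne'
  refine ⟨?_, !![a, b; c, d], ?_⟩
  · rw [Matrix.GeneralLinearGroup.val_det_apply, val_mq_gq h0, Matrix.det_fin_two_of]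
    exact_mod_cast h
  · rw [val_mq_gq h0]
    ext i j
    fin_cases i <;> fin_cases j <;> simp

/-- The weight two action. -/
def sla : RA (ℍ → ℂ) where
  act g :=
    { toFun := fun F ↦ F ∣[(2 : ℤ)] mq g
      map_zero' := SlashAction.zero_slash _ _
      map_add' := fun _ _ ↦ SlashAction.add_slash _ _ _ _ }
  act_one x := by
    show x ∣[(2 : ℤ)] mq 1 = x
    rw [mq_one, SlashAction.slash_one]
  act_mul g h x := by
    show x ∣[(2 : ℤ)] mq (g * h) = (x ∣[(2 : ℤ)] mq g) ∣[(2 : ℤ)] mq h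
    rw [mq_mul, SlashAction.slash_mul]
  act_sc n hn x := by
    show x ∣[(2 : ℤ)] mq (gq n 0 0 n) = x
    have h0 : n * n - 0 * 0 ≠ 0 := by simpa using hn
    have hv := val_mq_gq h0
    have hn' : (n : ℝ) ≠ 0 := by exact_mod_cast hn
    have hdet : (mq (gq n 0 0 n)).det.val = (n : ℝ) ^ 2 := by
      rw [Matrix.GeneralLinearGroup.val_det_apply, hv, Matrix.det_fin_two_of]
      push_cast; ring
    have hpos : 0 < (mq (gq n 0 0 n)).det.val := by rw [hdet]; positivity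
    ext τ
    have hden : denom (mq (gq n 0 0 n)) τ = n := by
      rw [UpperHalfPlane.denom]
      have e1 : (mq (gq n 0 0 n)) 1 0 = 0 := by
        rw [mq_apply, gq_10 h0]; simp
      have e2 : (mq (gq n 0 0 n)) 1 1 = n := by
        rw [mq_apply, gq_11 h0]
      rw [e1, e2]; simp
    have hsm : mq (gq n 0 0 n) • τ = τ := by
      ext
      rw [UpperHalfPlane.coe_smul_of_det_pos hpos, hden, UpperHalfPlane.num]
      have e1 : (mq (gq n 0 0 n)) 0 0 = n := by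
        rw [mq_apply, gq_00 h0]
      have e2 : (mq (gq n 0 0 n)) 0 1 = 0 := by
        rw [mq_apply, gq_01 h0]; simp
      rw [e1, e2]
      have hn'' : ((n : ℝ) : ℂ) ≠ 0 := by exact_mod_cast hn
      push_cast at hn'' ⊢
      field_simp
      ring
    rw [ModularForm.slash_apply, hsm, hden, hdet]
    have hσ : UpperHalfPlane.σ (mq (gq n 0 0 n)) (x τ) = x τ := by
      rw [UpperHalfPlane.σ, if_pos hpos]; rfl
    rw [hσ]
    have hn'' : ((n : ℚ) : ℂ) ≠ 0 := by exact_mod_cast hn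
    rw [abs_of_pos (by positivity)]
    norm_num
    field_simp

theorem sla_apply (g : GL (Fin 2) ℚ) (F : ℍ → ℂ) : sla.act g F = F ∣[(2 : ℤ)] mq g := rfl

/-- The potential of an admissible function. -/
def rhoF (g : ℍ → ℂ) (r : Cu) : ℂ :=
  - per g (Matrix.SpecialLinearGroup.mapGL ℝ (exists_smul_infty r).choose)


theorem rhoF_eq {g : ℍ → ℂ} (hg : Adm g) {α : GL (Fin 2) ℚ} (hα : mq α ∈ intMat) :
    rhoF g (α • (OnePoint.infty : Cu)) = - per g (mq α) := by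
  set γ := (exists_smul_infty (α • (OnePoint.infty : Cu))).choose with hγ
  have hγ1 : ι γ • (OnePoint.infty : Cu) = α • (OnePoint.infty : Cu) :=
    (exists_smul_infty (α • (OnePoint.infty : Cu))).choose_spec
  have h1 : (ι γ⁻¹ * α) • (OnePoint.infty : Cu) = OnePoint.infty := by
    rw [mul_smul, ← hγ1, ι_inv, inv_smul_smul]
  have h2 : (ι γ⁻¹ * α) 1 0 = 0 := OnePoint.smul_infty_eq_self_iff.mp h1
  have h3 : mq (ι γ⁻¹ * α) ∈ intMat := by
    rw [mq_mul, mq_ι]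
    exact mul_mem (mapGL_mem _) hα
  have h4 : mq α = Matrix.SpecialLinearGroup.mapGL ℝ γ * mq (ι γ⁻¹ * α) := by
    rw [← mq_ι, ← mq_mul, ← mul_assoc, ← ι_mul, mul_inv_cancel, ι_one, one_mul]
  rw [rhoF, ← hγ, h4, per_mul hg (mapGL_mem γ) h3,
    per_upper (hg.slash (mapGL_mem γ)) h3 (by rw [mq_apply, h2]; simp), add_zero]

theorem rhoF_smul {g : ℍ → ℂ} (hg : Adm g) {α : GL (Fin 2) ℚ} (hα : mq α ∈ intMat) (r : Cu) :
    rhoF g (α • r) = - per g (mq α) + rhoF (sla.act α g) r := by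
  obtain ⟨γ, rfl⟩ := exists_smul_infty r
  have h1 : mq (α * ι γ) ∈ intMat := by
    rw [mq_mul, mq_ι]
    exact mul_mem hα (mapGL_mem _)
  have h2 : mq (ι γ) ∈ intMat := by rw [mq_ι]; exact mapGL_mem _
  rw [← mul_smul, rhoF_eq hg h1, sla_apply, rhoF_eq (hg.slash hα) h2, mq_mul, per_mul hg hα h2]
  ring

/-- The modular symbol of an admissible function. -/
def lam (g : ℍ → ℂ) : Cu → Cu → ℂ := fun r s ↦ rhoF g s - rhoF g r

theorem lam_add3 (g : ℍ → ℂ) : Add3 (lam g) := fun r s t ↦ by simp only [lam]; ring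

theorem lam_act {g : ℍ → ℂ} (hg : Adm g) {α : GL (Fin 2) ℚ} (hα : mq α ∈ intMat) :
    (pull ℂ).act α (lam g) = lam (sla.act α g) := by
  ext r s
  rw [pull_apply, lam, rhoF_smul hg hα, rhoF_smul hg hα, lam]
  ring

theorem adm_act {g : ℍ → ℂ} (hg : Adm g) {α : GL (Fin 2) ℚ} (hα : mq α ∈ intMat) :
    Adm (sla.act α g) := hg.slash hα

theorem rhoF_add {g g' : ℍ → ℂ} (h : Adm g) (h' : Adm g') (r : Cu) :
    rhoF (g + g') r = rhoF g r + rhoF g' r := by
  rw [rhoF, rhoF, rhoF, per_add h h' (mapGL_mem _)]; ring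

theorem rhoF_smul' {g : ℍ → ℂ} (c : ℂ) (h : Adm g) (r : Cu) : rhoF (c • g) r = c * rhoF g r := by
  rw [rhoF, rhoF, per_smul c h (mapGL_mem _)]; ring

theorem rhoF_sum {J : Type*} (s : Finset J) {g : J → ℍ → ℂ} (h : ∀ j ∈ s, Adm (g j)) (r : Cu) :
    rhoF (∑ j ∈ s, g j) r = ∑ j ∈ s, rhoF (g j) r := by
  rw [rhoF, per_sum s h (mapGL_mem _), ← Finset.sum_neg_distrib]
  rfl

theorem lam_add {g g' : ℍ → ℂ} (h : Adm g) (h' : Adm g') : lam (g + g') = lam g + lam g' := by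
  ext r s
  simp only [lam, Pi.add_apply, rhoF_add h h']; ring

theorem lam_smul {g : ℍ → ℂ} (c : ℂ) (h : Adm g) : lam (c • g) = fun r s ↦ c * lam g r s := by
  ext r s
  simp only [lam, rhoF_smul' c h]; ring

theorem lam_sum {J : Type*} (s : Finset J) {g : J → ℍ → ℂ} (h : ∀ j ∈ s, Adm (g j)) :
    lam (∑ j ∈ s, g j) = ∑ j ∈ s, lam (g j) := by
  ext r t
  simp only [lam, Finset.sum_apply, rhoF_sum s h, Finset.sum_sub_distrib]

theorem mq_diag_mem {l : ℕ} (hl : l ≠ 0) : mq (gq l 0 0 1) ∈ intMat := by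
  have := mq_gq_mem (a := l) (b := 0) (c := 0) (d := 1) (by
    have := Nat.pos_of_ne_zero hl; simpa using this)
  simpa using this

theorem mq_upper_mem {l : ℕ} (hl : l ≠ 0) (b : ℕ) : mq (gq 1 b 0 l) ∈ intMat := by
  have := mq_gq_mem (a := 1) (b := b) (c := 0) (d := l) (by
    have := Nat.pos_of_ne_zero hl; simpa using this)
  simpa using this

theorem mq_w_mem {N q : ℕ} (hq : q ≠ 0) (w : RA.WQ N q) : mq w.mat ∈ intMat := by
  have h1 : 0 < (q * w.x) * (q * w.t) - w.y * (N * q * w.z) := by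
    have h2 := w.det
    have : (q * w.x) * (q * w.t) - w.y * (N * q * w.z) = q * (q * w.x * w.t - N * w.y * w.z) := by ring
    rw [this, h2, mul_one]
    exact_mod_cast Nat.pos_of_ne_zero hq
  have := mq_gq_mem h1
  push_cast at this
  exact this

theorem adm_UU {g : ℍ → ℂ} (hg : Adm g) {l : ℕ} (hl : l ≠ 0) : Adm (sla.UU l g) :=
  Adm.sum _ fun b _ ↦ adm_act hg (mq_upper_mem hl b)

theorem adm_TT {g : ℍ → ℂ} (hg : Adm g) {l : ℕ} (hl : l ≠ 0) : Adm (sla.TT l g) :=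
  (adm_act hg (mq_diag_mem hl)).add (adm_UU hg hl)

theorem lam_TT {g : ℍ → ℂ} (hg : Adm g) {l : ℕ} (hl : l ≠ 0) :
    (pull ℂ).TT l (lam g) = lam (sla.TT l g) := by
  rw [RA.TT, RA.TT, lam_add (adm_act hg (mq_diag_mem hl)) (adm_UU hg hl), lam_act hg (mq_diag_mem hl),
    RA.UU, RA.UU, lam_sum _ fun b _ ↦ adm_act hg (mq_upper_mem hl b)]
  congr 1
  exact Finset.sum_congr rfl fun b _ ↦ lam_act hg (mq_upper_mem hl b)

theorem mq_ι_mem (γ : SL(2, ℤ)) : mq (ι γ) ∈ intMat := by rw [mq_ι]; exact mapGL_mem _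

theorem lam_tr {g : ℍ → ℂ} (hg : Adm g) {N q : ℕ} [NeZero (N * q)] :
    (pull ℂ).tr N q (lam g) = lam (sla.tr N q g) := by
  rw [RA.tr, RA.tr, lam_sum _ fun z _ ↦ adm_act hg (mq_ι_mem _)]
  exact Finset.sum_congr rfl fun z _ ↦ lam_act hg (mq_ι_mem _)

variable {N : ℕ} [NeZero N]

omit [NeZero N] in
theorem inv_coe (f : CuspForm (Gamma0 N) 2) : sla.Inv N ⇑f := by
  intro γ hγ
  rw [sla_apply, mq_ι]
  exact slash_eq_of_mem f hγ

omit [NeZero N] in
theorem lam_isSymb {g : ℍ → ℂ} (hg : Adm g) (hinv : sla.Inv N g) : IsSymb N (lam g) := by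
  rw [isSymb_iff]
  refine ⟨lam_add3 g, fun γ hγ ↦ ?_⟩
  rw [lam_act hg (mq_ι_mem γ), hinv γ hγ]

theorem lam_eq_zero (f : CuspForm (Gamma0 N) 2) (h : lam ⇑f = 0) : f = 0 := by
  refine eq_zero_of_per_Gamma0 f fun γ hγ ↦ ?_
  have h1 := congrFun (congrFun h OnePoint.infty) (ι γ • (OnePoint.infty : Cu))
  have h2 : rhoF ⇑f (OnePoint.infty : Cu) = 0 := by
    have := rhoF_eq (adm_coe f) (α := 1) (by rw [mq_one]; exact one_mem _)
    rw [one_smul, mq_one, per_one (adm_coe f), neg_zero] at this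
    exact this
  rw [lam, h2, rhoF_eq (adm_coe f) (mq_ι_mem γ), mq_ι] at h1
  simpa using h1

theorem sla_UU_eq {l : ℕ} (hl : l ≠ 0) (g : ℍ → ℂ) : sla.UU l g = ModularForm.heckeU 2 l g := by
  rw [RA.UU, ModularForm.heckeU_def]
  refine Finset.sum_congr rfl fun b _ ↦ ?_
  rw [sla_apply]
  congr 1
  apply Units.ext
  rw [val_mq_gq (by simpa using hl), ModularForm.val_heckeMatrix hl]
  simp

theorem sla_TT_eq {l : ℕ} (hl : l ≠ 0) (g : ℍ → ℂ) : sla.TT l g = ModularForm.heckeT 2 l g := by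
  rw [RA.TT, ModularForm.heckeT_eq_heckeU_add, ← sla_UU_eq hl, add_comm]
  congr 1
  rw [sla_apply]
  congr 1
  apply Units.ext
  rw [val_mq_gq (by simpa using hl), ModularForm.val_heckeDiagMatrix hl]
  simp

end Fermat.Agent.H16.LR
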