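import Mathlib
import Fermat.Agent.H16.LR.Hk
import Fermat.Agent.H16.LR.Pull
import Fermat.Prelude.Def_ModularCurve_PeriodHomPair

/-!
# The involution given by `diag(-1, 1)`
-/

set_option autoImplicit false

open Matrix ModularGroup CongruenceSubgroup
open scoped MatrixGroups

noncomputable section

namespace Fermat.Agent.H16.LR

open ModularCurve.Period (jConjSL jConjMat)

/-- The matrix `diag(-1, 1)`. -/
def Jm : GL (Fin 2) ℚ := gq (-1) 0 0 1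

theorem Jm_mul_Jm : Jm * Jm = 1 := by
  rw [Jm, gq_mul' (by norm_num) (by norm_num) (e := 1) (f := 0) (g := 0) (k := 1)
    (by ring) (by ring) (by ring) (by ring), gq_one]

theorem jc_00 (γ : SL(2, ℤ)) : jConjSL γ 0 0 = γ 0 0 := by
  show jConjMat (γ : Matrix (Fin 2) (Fin 2) ℤ) 0 0 = _
  simp
theorem jc_01 (γ : SL(2, ℤ)) : jConjSL γ 0 1 = - γ 0 1 := by
  show jConjMat (γ : Matrix (Fin 2) (Fin 2) ℤ) 0 1 = _
  simp
theorem jc_10 (γ : SL(2, ℤ)) : jConjSL γ 1 0 = - γ 1 0 := by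
  show jConjMat (γ : Matrix (Fin 2) (Fin 2) ℤ) 1 0 = _
  simp
theorem jc_11 (γ : SL(2, ℤ)) : jConjSL γ 1 1 = γ 1 1 := by
  show jConjMat (γ : Matrix (Fin 2) (Fin 2) ℤ) 1 1 = _
  simp

theorem det_ne_ι (γ : SL(2, ℤ)) :
    ((γ 0 0 : ℤ) : ℚ) * ((γ 1 1 : ℤ) : ℚ) - ((γ 0 1 : ℤ) : ℚ) * ((γ 1 0 : ℤ) : ℚ) ≠ 0 := by
  have := det_eq γ
  have h2 : ((γ 0 0 : ℤ) : ℚ) * ((γ 1 1 : ℤ) : ℚ) - ((γ 0 1 : ℤ) : ℚ) * ((γ 1 0 : ℤ) : ℚ) = 1 := by
    exact_mod_cast this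
  rw [h2]; exact one_ne_zero

theorem Jm_ι (γ : SL(2, ℤ)) : Jm * ι γ = ι (jConjSL γ) * Jm := by
  have h1 := det_ne_ι γ
  rw [ι_eq, ι_eq, jc_00, jc_01, jc_10, jc_11, Jm, gq_mul (by norm_num) h1,
    gq_mul (by push_cast; intro h; apply h1; linear_combination h) (by norm_num)]
  congr 1 <;> push_cast <;> ring

theorem Jm_smul_infty : Jm • (OnePoint.infty : Cu) = OnePoint.infty := by
  rw [OnePoint.smul_infty_eq_self_iff, Jm, gq_10 (by norm_num)]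

namespace RA

variable {𝒳 : Type*} [AddCommGroup 𝒳] {A : RA 𝒳}

theorem act_Jm_Jm (F : 𝒳) : A.act Jm (A.act Jm F) = F := by
  rw [← A.act_mul, Jm_mul_Jm, A.act_one]

theorem Inv.J {M : ℕ} {F : 𝒳} (hF : A.Inv M F) : A.Inv M (A.act Jm F) := by
  intro γ hγ
  rw [← A.act_mul, Jm_ι, A.act_mul, hF _ (ModularCurve.Period.jConjSL_mem_Gamma0 hγ)]

theorem UU_J {M l : ℕ} (hl : l ≠ 0) {F : 𝒳} (hF : A.Inv M F) :
    A.UU l (A.act Jm F) = A.act Jm (A.UU l F) := by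
  have hl0 : (l : ℚ) ≠ 0 := by exact_mod_cast hl
  have key := sum_range_periodic (Nat.pos_of_ne_zero hl)
    (fun b : ℤ ↦ A.act Jm (A.act (gq 1 b 0 l) F)) ?_ (q := -1) (by
      exact isCoprime_one_left.neg_left)
  · rw [UU, UU, map_sum]
    refine Eq.trans (Finset.sum_congr rfl fun b _ ↦ ?_) (key.trans (Finset.sum_congr rfl fun b _ ↦ ?_))
    · rw [Jm, act_act (by norm_num) (by simpa using hl0) rfl rfl rfl rfl,
        act_act (by simpa using hl0) (by norm_num) rfl rfl rfl rfl]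
      congr 2
      congr 1 <;> push_cast <;> ring
    · simp
  · rintro b b' ⟨m, hm⟩
    congr 1
    refine hF.act_left (a := 1) (b := m) (c := 0) (d := 1) (by ring) (dvd_zero _)
      (by simpa using hl) ?_ ?_ ?_ ?_
    · push_cast; ring
    · have : (b : ℚ) - b' = l * m := by exact_mod_cast hm
      push_cast; linear_combination -this
    · push_cast; ring
    · push_cast; ring

theorem TT_J {M l : ℕ} (hl : l ≠ 0) {F : 𝒳} (hF : A.Inv M F) :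
    A.TT l (A.act Jm F) = A.act Jm (A.TT l F) := by
  have hl0 : (l : ℚ) ≠ 0 := by exact_mod_cast hl
  rw [TT, TT, UU_J hl hF, map_add]
  congr 1
  rw [Jm, act_act (by norm_num) (by simpa using hl0) rfl rfl rfl rfl,
    act_act (by simpa using hl0) (by norm_num) rfl rfl rfl rfl]
  congr 2
  congr 1 <;> push_cast <;> ring

theorem w_J {N q : ℕ} (hq : q ≠ 0) {F : 𝒳} (hF : A.Inv (N * q) F) (w : WQ N q) :
    A.act w.mat (A.act Jm F) = A.act Jm (A.act w.mat F) := by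
  let w' : WQ N q := ⟨w.x, -w.y, -w.z, w.t, by linear_combination w.det⟩
  have h1 := w.det_ne hq
  have hy : (w'.y : ℚ) = -w.y := by
    show ((-w.y : ℤ) : ℚ) = _
    push_cast; ring
  have hz : (w'.z : ℚ) = -w.z := by
    show ((-w.z : ℤ) : ℚ) = _
    push_cast; ring
  have hx : (w'.x : ℚ) = w.x := rfl
  have ht : (w'.t : ℚ) = w.t := rfl
  rw [hF.act_WQ hq w w']
  have h2 := w'.det_ne hq
  rw [Jm, WQ.mat, WQ.mat, act_act (by norm_num) h1 rfl rfl rfl rfl,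
    act_act h2 (by norm_num) rfl rfl rfl rfl, hx, hy, hz, ht]
  congr 2
  congr 1 <;> ring

theorem tr_J {N q : ℕ} [NeZero (N * q)] (hqN : q.Coprime N) {F : 𝒳} (hF : A.Inv (N * q) F) :
    A.tr N q (A.act Jm F) = A.act Jm (A.tr N q F) := by
  have h1 := tr_eq_sum hqN hF (J := Qt N q)
    (fun z ↦ ⟨jConjSL ((z.out : Gamma0 N) : SL(2, ℤ))⁻¹,
      ModularCurve.Period.jConjSL_mem_Gamma0 (inv_mem z.out.2)⟩) (by
    rw [Finite.injective_iff_bijective.symm]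
    intro z z' h
    have h2 := (Qt_eq_iff hqN _ _).mp h
    have h3 : (q : ℤ) ∣ ((z.out⁻¹ : Gamma0 N) : SL(2, ℤ)) 1 0 * ((z'.out⁻¹ : Gamma0 N) : SL(2, ℤ)) 1 1 -
        ((z.out⁻¹ : Gamma0 N) : SL(2, ℤ)) 1 1 * ((z'.out⁻¹ : Gamma0 N) : SL(2, ℤ)) 1 0 := by
      have h4 : (q : ℤ) ∣ jConjSL ((z.out⁻¹ : Gamma0 N) : SL(2, ℤ)) 1 0 *
          jConjSL ((z'.out⁻¹ : Gamma0 N) : SL(2, ℤ)) 1 1 -
          jConjSL ((z.out⁻¹ : Gamma0 N) : SL(2, ℤ)) 1 1 *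
          jConjSL ((z'.out⁻¹ : Gamma0 N) : SL(2, ℤ)) 1 0 := h2
      rw [jc_10, jc_11, jc_10, jc_11] at h4
      obtain ⟨m, hm⟩ := h4
      exact ⟨-m, by linear_combination -hm⟩
    rw [← Qt_eq_iff hqN, inv_inv, inv_inv, QuotientGroup.out_eq', QuotientGroup.out_eq'] at h3
    exact h3)
  rw [h1, tr, map_sum]
  refine Finset.sum_congr rfl fun z _ ↦ ?_
  rw [← A.act_mul, Jm_ι, A.act_mul]

end RA

theorem IsSymb.J {R : Type*} [AddCommGroup R] {M : ℕ} {F : Cu → Cu → R} (h : IsSymb M F) :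
    IsSymb M ((pull R).act Jm F) := by
  rw [isSymb_iff] at h ⊢
  exact ⟨h.1.act _, h.2.J⟩

end Fermat.Agent.H16.LR
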