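import Mathlib
import Fermat.Agent.H16.LR.Forms
import Fermat.Agent.H16.LR.JJ
import Fermat.Agent.H16.LR.Bound
import Fermat.Agent.ES.Final

/-!
# Characters of modular symbols and Eichler–Shimura
-/

set_option autoImplicit false

open UpperHalfPlane hiding I
open Matrix ModularGroup CongruenceSubgroup
open scoped MatrixGroups ModularForm

noncomputable section

namespace Fermat.Agent.H16.LR

open ModularCurve.Period (charInvolution parabolicHoms)

theorem exists_fix {γ : SL(2, ℤ)} (h : (γ : Matrix (Fin 2) (Fin 2) ℤ).trace ^ 2 = 4) :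
    ∃ r : Cu, ι γ • r = r := by
  have hdet := det_eq γ
  set a := γ 0 0 with ha
  set b := γ 0 1 with hb
  set c := γ 1 0 with hc
  set d := γ 1 1 with hd
  have htr : (a + d) ^ 2 = 4 := by rwa [Matrix.trace_fin_two] at h
  have e00 : (ι γ) 0 0 = ((a : ℤ) : ℚ) := by rw [ι_apply]
  have e01 : (ι γ) 0 1 = ((b : ℤ) : ℚ) := by rw [ι_apply]
  have e10 : (ι γ) 1 0 = ((c : ℤ) : ℚ) := by rw [ι_apply]
  have e11 : (ι γ) 1 1 = ((d : ℤ) : ℚ) := by rw [ι_apply]
  by_cases hc0 : c = 0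
  · refine ⟨OnePoint.infty, ?_⟩
    rw [OnePoint.smul_infty_eq_self_iff, e10, hc0]
    simp
  · have hc0' : (c : ℚ) ≠ 0 := by exact_mod_cast hc0
    have hden : (2 * c : ℚ) ≠ 0 := mul_ne_zero two_ne_zero hc0'
    have htr' : ((a : ℚ) + d) ^ 2 = 4 := by exact_mod_cast htr
    have hdet' : (a : ℚ) * d - b * c = 1 := by exact_mod_cast hdet
    have hs : (a : ℚ) + d ≠ 0 := by
      intro h0; rw [h0] at htr'; norm_num at htr'
    refine ⟨cv (a - d) (2 * c), ?_⟩
    rw [smul_cv _ (Or.inr hden), e00, e01, e10, e11]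
    refine cv_eq_of ?_ (Or.inr ?_) (Or.inr hden)
    · linear_combination (c : ℚ) * htr' - 4 * (c : ℚ) * hdet'
    · have : (c : ℚ) * (a - d) + d * (2 * c) = c * (a + d) := by ring
      rw [this]
      exact mul_ne_zero hc0' hs

section Psi

variable {M : ℕ}

/-- The character of a modular symbol. -/
def psi (H : Cu → Cu → ℂ) (h : IsSymb M H) : Additive (Gamma0 M) →+ ℂ :=
  AddMonoidHom.mk' (fun γ ↦ H OnePoint.infty
    (ι ((Additive.toMul γ : Gamma0 M) : SL(2, ℤ)) • (OnePoint.infty : Cu))) fun γ δ ↦ by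
      have h1 := h.add OnePoint.infty (ι ((Additive.toMul γ : Gamma0 M) : SL(2, ℤ)) • (OnePoint.infty : Cu))
        (ι ((Additive.toMul (γ + δ) : Gamma0 M) : SL(2, ℤ)) • (OnePoint.infty : Cu))
      have h2 : ι ((Additive.toMul (γ + δ) : Gamma0 M) : SL(2, ℤ)) • (OnePoint.infty : Cu) =
        ι ((Additive.toMul γ : Gamma0 M) : SL(2, ℤ)) •
          ι ((Additive.toMul δ : Gamma0 M) : SL(2, ℤ)) • (OnePoint.infty : Cu) := by
        rw [toMul_add, Subgroup.coe_mul, ι_mul, mul_smul]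
      rw [h2, h.inv _ (Additive.toMul γ : Gamma0 M).2] at h1
      rw [h2]
      exact h1.symm

theorem psi_apply (H : Cu → Cu → ℂ) (h : IsSymb M H) (γ : Additive (Gamma0 M)) :
    psi H h γ = H OnePoint.infty
      (ι ((Additive.toMul γ : Gamma0 M) : SL(2, ℤ)) • (OnePoint.infty : Cu)) := rfl

theorem psi_mem (H : Cu → Cu → ℂ) (h : IsSymb M H) :
    psi H h ∈ parabolicHoms ℂ (Gamma0 M) ℂ := by
  rw [ModularCurve.Period.mem_parabolicHoms_iff]
  intro γ hγ
  obtain ⟨r, hr⟩ := exists_fix hγ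
  rw [psi_apply, toMul_ofMul]
  have h1 := h.add OnePoint.infty r (ι (γ : SL(2, ℤ)) • (OnePoint.infty : Cu))
  have h2 := h.inv _ γ.2 r OnePoint.infty
  rw [hr] at h2
  rw [← h1, h2, h.symm, add_comm, add_neg_cancel]

variable [NeZero M]

theorem isSymb_lam (f : CuspForm (Gamma0 M) 2) : IsSymb M (lam ⇑f) :=
  lam_isSymb (adm_coe f) (inv_coe f)

theorem rhoF_infty {g : ℍ → ℂ} (hg : Adm g) : rhoF g (OnePoint.infty : Cu) = 0 := by
  have := rhoF_eq hg (α := 1) (by rw [mq_one]; exact one_mem _)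
  rw [one_smul, mq_one, per_one hg, neg_zero] at this
  exact this

theorem psi_lam (f : CuspForm (Gamma0 M) 2) :
    psi (lam ⇑f) (isSymb_lam f) = - ModularCurve.periodMap M f := by
  refine AddMonoidHom.ext fun γ ↦ ?_
  rw [psi_apply, AddMonoidHom.neg_apply]
  have h1 := periodMap_apply f (Additive.toMul γ)
  rw [ofMul_toMul] at h1
  rw [h1, lam, rhoF_infty (adm_coe f), rhoF_eq (adm_coe f) (mq_ι_mem _), mq_ι, sub_zero]

omit [NeZero M] in
theorem psi_J (H : Cu → Cu → ℂ) (h : IsSymb M H) :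
    psi ((pull ℂ).act Jm H) h.J = charInvolution M ℂ ℂ (psi H h) := by
  refine AddMonoidHom.ext fun γ ↦ ?_
  rw [ModularCurve.Period.charInvolution_apply, psi_apply, psi_apply, pull_apply, Jm_smul_infty,
    ← mul_smul, Jm_ι, mul_smul, Jm_smul_infty]
  rfl

/-- The symbol attached to a pair of functions. -/
def KK (g1 g2 : ℍ → ℂ) : Cu → Cu → ℂ :=
  (lam g1 + (pull ℂ).act Jm (lam g1)) + (lam g2 - (pull ℂ).act Jm (lam g2))

theorem periodHomPair_apply (f1 f2 : CuspForm (Gamma0 M) 2) :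
    ModularCurve.periodHomPair M (f1, f2) =
      (ModularCurve.periodMap M f1 + charInvolution M ℂ ℂ (ModularCurve.periodMap M f1)) +
      (ModularCurve.periodMap M f2 - charInvolution M ℂ ℂ (ModularCurve.periodMap M f2)) := by
  obtain ⟨pml, hpml, he⟩ := ModularCurve.periodHomPair_def M existsPeriodMapLinear
  rw [he]
  simp only [LinearMap.coprod_apply, LinearMap.comp_apply, LinearMap.add_apply,
    LinearMap.sub_apply, LinearMap.id_apply, hpml]

theorem KK_periods (f1 f2 : CuspForm (Gamma0 M) 2) (γ : Gamma0 M) :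
    KK ⇑f1 ⇑f2 OnePoint.infty (ι (γ : SL(2, ℤ)) • (OnePoint.infty : Cu)) =
      - ModularCurve.periodHomPair M (f1, f2) (Additive.ofMul γ) := by
  have h1 := fun f : CuspForm (Gamma0 M) 2 ↦ DFunLike.congr_fun (psi_lam f) (Additive.ofMul γ)
  have h2 := fun f : CuspForm (Gamma0 M) 2 ↦
    DFunLike.congr_fun (psi_J _ (isSymb_lam f)) (Additive.ofMul γ)
  have h3 : ∀ f : CuspForm (Gamma0 M) 2, (charInvolution M ℂ ℂ (psi (lam ⇑f) (isSymb_lam f))) =
      - (charInvolution M ℂ ℂ (ModularCurve.periodMap M f)) := by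
    intro f
    rw [psi_lam, map_neg]
  rw [periodHomPair_apply]
  simp only [psi_apply, toMul_ofMul, h3, AddMonoidHom.neg_apply] at h1 h2
  simp only [KK, Pi.add_apply, Pi.sub_apply, h1, h2, AddMonoidHom.add_apply, AddMonoidHom.sub_apply]
  ring

theorem KK_inj (f1 f2 : CuspForm (Gamma0 M) 2)
    (h : ∀ γ ∈ Gamma0 M, KK ⇑f1 ⇑f2 OnePoint.infty (ι γ • (OnePoint.infty : Cu)) = 0) :
    f1 = 0 ∧ f2 = 0 := by
  have h1 : ModularCurve.periodHomPair M (f1, f2) = 0 := by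
    refine AddMonoidHom.ext fun γ ↦ ?_
    have h2 := KK_periods f1 f2 (Additive.toMul γ)
    rw [h _ (Additive.toMul γ).2, ofMul_toMul] at h2
    rw [AddMonoidHom.zero_apply]
    exact neg_eq_zero.mp h2.symm
  have h3 := (Fermat.Agent.ES.eichlerShimura M).1 (h1.trans (map_zero _).symm)
  exact ⟨congrArg Prod.fst h3, congrArg Prod.snd h3⟩

theorem KK_surj {H : Cu → Cu → ℂ} (h : IsSymb M H) : ∃ f1 f2 : CuspForm (Gamma0 M) 2,
    ∀ γ ∈ Gamma0 M, H OnePoint.infty (ι γ • (OnePoint.infty : Cu)) =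
      KK ⇑f1 ⇑f2 OnePoint.infty (ι γ • (OnePoint.infty : Cu)) := by
  have h1 := psi_mem H h
  rw [← (Fermat.Agent.ES.eichlerShimura M).2] at h1
  obtain ⟨⟨f1, f2⟩, h2⟩ := h1
  refine ⟨-f1, -f2, fun γ hγ ↦ ?_⟩
  have h3 := KK_periods (-f1) (-f2) ⟨γ, hγ⟩
  have h4 : (-f1, -f2) = -(f1, f2) := rfl
  rw [h4, map_neg, h2, AddMonoidHom.neg_apply, neg_neg] at h3
  rw [h3, psi_apply]
  rfl

end Psi

end Fermat.Agent.H16.LR
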