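import Mathlib
import Fermat.Agent.H16.LR.Psi
import Fermat.Agent.H16.LR.Mats

/-!
# Cusp forms from modular symbols
-/

set_option autoImplicit false

open UpperHalfPlane hiding I
open Matrix ModularGroup CongruenceSubgroup Filter Function
open scoped MatrixGroups ModularForm Manifold

noncomputable section

namespace Fermat.Agent.H16.LR

/-! ### Intertwiners -/

namespace RA

variable {𝒳 𝒴 : Type*} [AddCommGroup 𝒳] [AddCommGroup 𝒴] {A : RA 𝒳} {B : RA 𝒴}

theorem map_UU (Φ : 𝒳 →+ 𝒴) (h : ∀ g x, Φ (A.act g x) = B.act g (Φ x)) (l : ℕ) (x : 𝒳) :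
    Φ (A.UU l x) = B.UU l (Φ x) := by
  simp only [UU, map_sum, h]

theorem map_TT (Φ : 𝒳 →+ 𝒴) (h : ∀ g x, Φ (A.act g x) = B.act g (Φ x)) (l : ℕ) (x : 𝒳) :
    Φ (A.TT l x) = B.TT l (Φ x) := by
  rw [TT, TT, map_add, h, map_UU Φ h]

theorem map_tr (Φ : 𝒳 →+ 𝒴) (h : ∀ g x, Φ (A.act g x) = B.act g (Φ x)) (N q : ℕ) [NeZero (N * q)]
    (x : 𝒳) : Φ (A.tr N q x) = B.tr N q (Φ x) := by
  simp only [tr, map_sum, h]

theorem UU_add (l : ℕ) (x y : 𝒳) : A.UU l (x + y) = A.UU l x + A.UU l y := by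
  simp [UU, Finset.sum_add_distrib]

theorem TT_add (l : ℕ) (x y : 𝒳) : A.TT l (x + y) = A.TT l x + A.TT l y := by
  rw [TT, TT, TT, UU_add, map_add]; abel

theorem UU_sub (l : ℕ) (x y : 𝒳) : A.UU l (x - y) = A.UU l x - A.UU l y := by
  simp [UU, Finset.sum_sub_distrib]

theorem TT_sub (l : ℕ) (x y : 𝒳) : A.TT l (x - y) = A.TT l x - A.TT l y := by
  rw [TT, TT, TT, UU_sub, map_sub]; abel

theorem tr_sub {N q : ℕ} [NeZero (N * q)] (x y : 𝒳) :
    A.tr N q (x - y) = A.tr N q x - A.tr N q y := by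
  simp [tr, Finset.sum_sub_distrib]

end RA

/-! ### Boundary symbols -/

/-- The action on functions on the cusps. -/
def pull1 : RA (Cu → ℂ) where
  act g :=
    { toFun := fun β r ↦ β (g • r)
      map_zero' := rfl
      map_add' := fun _ _ ↦ rfl }
  act_one β := by
    ext r
    show β ((1 : GL (Fin 2) ℚ) • r) = β r
    rw [one_smul]
  act_mul g h β := by
    ext r
    show β ((g * h) • r) = β (g • h • r)
    rw [mul_smul]
  act_sc n hn β := by
    ext r
    show β (gq n 0 0 n • r) = β r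
    rw [sc_smul hn]

theorem pull1_apply (g : GL (Fin 2) ℚ) (β : Cu → ℂ) (r : Cu) : pull1.act g β r = β (g • r) := rfl

/-- The boundary map. -/
def bd : (Cu → ℂ) →+ (Cu → Cu → ℂ) where
  toFun β := fun r s ↦ β s - β r
  map_zero' := by ext r s; simp
  map_add' β β' := by
    ext r s
    simp only [Pi.add_apply]
    ring

theorem bd_apply (β : Cu → ℂ) (r s : Cu) : bd β r s = β s - β r := rfl

theorem bd_act (g : GL (Fin 2) ℚ) (β : Cu → ℂ) : bd (pull1.act g β) = (pull ℂ).act g (bd β) := rfl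

theorem bd_smul (c : ℂ) (β : Cu → ℂ) : bd (c • β) = fun r s ↦ c * bd β r s := by
  ext r s
  simp only [bd_apply, Pi.smul_apply, smul_eq_mul]
  ring

theorem bd_period {M : ℕ} {β : Cu → ℂ} (h : pull1.Inv M β) {γ : SL(2, ℤ)} (hγ : γ ∈ Gamma0 M) :
    bd β OnePoint.infty (ι γ • (OnePoint.infty : Cu)) = 0 := by
  have := congrFun (h γ hγ) OnePoint.infty
  rw [pull1_apply] at this
  rw [bd_apply, this, sub_self]

theorem exists_bd {M : ℕ} {B : Cu → Cu → ℂ} (h : IsSymb M B)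
    (h0 : ∀ γ ∈ Gamma0 M, B OnePoint.infty (ι γ • (OnePoint.infty : Cu)) = 0) :
    ∃ β, pull1.Inv M β ∧ B = bd β := by
  refine ⟨fun r ↦ B OnePoint.infty r, fun γ hγ ↦ ?_, ?_⟩
  · ext r
    rw [pull1_apply, ← h.add OnePoint.infty (ι γ • (OnePoint.infty : Cu)) (ι γ • r), h0 γ hγ,
      h.inv γ hγ, zero_add]
  · ext r s
    rw [bd_apply, ← h.add OnePoint.infty r s]
    ring

/-! ### Cuspidal functions -/

theorem cuspidal_add {f g : ℍ → ℂ} (hf : Cuspidal f) (hg : Cuspidal g) : Cuspidal (f + g) where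
  holo := hf.holo.add hg.holo
  per := by
    obtain ⟨n, hn, hn'⟩ := hf.per
    obtain ⟨m, hm, hm'⟩ := hg.per
    refine ⟨n * m, Nat.mul_pos hn hm, ?_⟩
    have h1 : Periodic (f ∘ ofComplex) (((n * m : ℕ) : ℝ)) := by
      have h3 := hn'.nat_mul m
      have h4 : (((n * m : ℕ) : ℝ) : ℂ) = (m : ℂ) * ((n : ℝ) : ℂ) := by push_cast; ring
      rw [h4]
      exact h3
    have h2 : Periodic (g ∘ ofComplex) (((n * m : ℕ) : ℝ)) := by
      have h3 := hm'.nat_mul n
      have h4 : (((n * m : ℕ) : ℝ) : ℂ) = (n : ℂ) * ((m : ℝ) : ℂ) := by push_cast; ring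
      rw [h4]
      exact h3
    exact h1.add h2
  zero := by
    have h1 : IsZeroAtImInfty f := hf.zero
    have h2 : IsZeroAtImInfty g := hg.zero
    exact h1.add h2

theorem cuspidal_zero : Cuspidal 0 where
  holo := mdifferentiable_const
  per := ⟨1, one_pos, fun _ ↦ rfl⟩
  zero := Filter.zero_zeroAtFilter _

/-- Functions with cuspidal translates. -/
def Cus (g : ℍ → ℂ) : Prop := ∀ γ ∈ intMat, Cuspidal (g ∣[(2 : ℤ)] γ)

theorem Cus.adm {g : ℍ → ℂ} (h : Cus g) : Adm g := fun γ hγ ↦ (h γ hγ).hasPrim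

theorem cus_coe {M : ℕ} [NeZero M] (f : CuspForm (Gamma0 M) 2) : Cus ⇑f :=
  fun _ hγ ↦ cuspidal_slash f hγ

theorem Cus.act {g : ℍ → ℂ} (h : Cus g) {α : GL (Fin 2) ℚ} (hα : mq α ∈ intMat) :
    Cus (sla.act α g) := fun γ hγ ↦ by
  rw [sla_apply, ← SlashAction.slash_mul]
  exact h _ (mul_mem hα hγ)

theorem Cus.add {f g : ℍ → ℂ} (h : Cus f) (h' : Cus g) : Cus (f + g) := fun γ hγ ↦ by
  rw [SlashAction.add_slash]
  exact cuspidal_add (h γ hγ) (h' γ hγ)

theorem Cus.zero : Cus 0 := fun γ _ ↦ by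
  rw [SlashAction.zero_slash]; exact cuspidal_zero

theorem Cus.sum {J : Type*} (s : Finset J) {g : J → ℍ → ℂ} (h : ∀ j ∈ s, Cus (g j)) :
    Cus (∑ j ∈ s, g j) := by
  classical
  induction s using Finset.induction_on with
  | empty => simpa using Cus.zero
  | insert a s ha ih =>
    rw [Finset.sum_insert ha]
    exact (h a (Finset.mem_insert_self a s)).add (ih fun j hj ↦ h j (Finset.mem_insert_of_mem hj))

theorem Cus.tr {g : ℍ → ℂ} (h : Cus g) (N q : ℕ) [NeZero (N * q)] : Cus (sla.tr N q g) :=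
  Cus.sum _ fun _ _ ↦ h.act (mq_ι_mem _)

/-- Bundling. -/
theorem Cus.bundle {M : ℕ} [NeZero M] {g : ℍ → ℂ} (h : Cus g) (hinv : sla.Inv M g) :
    ∃ f : CuspForm (Gamma0 M) 2, ⇑f = g := by
  have h1 := h 1 (one_mem _)
  rw [SlashAction.slash_one] at h1
  refine ⟨{ toFun := g
            slash_action_eq' := ?_
            holo' := h1.holo
            zero_at_cusps' := ?_ }, rfl⟩
  · rintro _ ⟨γ, hγ, rfl⟩
    have h2 := hinv γ hγ
    rw [sla_apply, mq_ι] at h2
    exact h2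
  · intro c hc
    rw [Subgroup.IsArithmetic.isCusp_iff_isCusp_SL2Z] at hc
    rw [OnePoint.isZeroAt_iff_forall_SL2Z hc]
    intro γ _
    exact (h _ (mapGL_mem γ)).zero

end Fermat.Agent.H16.LR
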