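import Mathlib
import Fermat.Agent.H16.LR.CF

/-!
# Eigenforms from modular symbols
-/

set_option autoImplicit false

open UpperHalfPlane hiding I
open Matrix ModularGroup CongruenceSubgroup Filter Function
open scoped MatrixGroups ModularForm Manifold

noncomputable section

namespace Fermat.Agent.H16.LR

theorem lam_sub {g g' : ℍ → ℂ} (h : Adm g) (h' : Adm g') : lam (g - g') = lam g - lam g' := by
  have h1 := lam_add (h) (h'.smul (-1))
  rw [lam_smul _ h'] at h1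
  have h2 : g + (-1 : ℂ) • g' = g - g' := by rw [neg_one_smul, sub_eq_add_neg]
  rw [h2] at h1
  rw [h1]
  ext r s
  simp only [Pi.add_apply, Pi.sub_apply]
  ring

theorem KK_sub_smul {g1 g2 g1' g2' : ℍ → ℂ} (c : ℂ) (h1 : Adm g1) (h2 : Adm g2) (h1' : Adm g1')
    (h2' : Adm g2') : KK (g1 - c • g1') (g2 - c • g2') = fun r s ↦ KK g1 g2 r s - c * KK g1' g2' r s := by
  rw [KK, lam_sub h1 (h1'.smul c), lam_sub h2 (h2'.smul c), lam_smul c h1', lam_smul c h2']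
  ext r s
  simp only [KK, Pi.add_apply, Pi.sub_apply, pull_apply]
  ring

theorem KK_zero : KK 0 0 = 0 := by
  have h1 := lam_smul (g := 0) 0 Adm.zero
  rw [zero_smul] at h1
  rw [KK, h1]
  ext r s
  simp only [Pi.add_apply, Pi.sub_apply, pull_apply, Pi.zero_apply]
  ring

theorem KK_TT {M : ℕ} {g1 g2 : ℍ → ℂ} (h1 : Adm g1) (h2 : Adm g2) (i1 : sla.Inv M g1)
    (i2 : sla.Inv M g2) {l : ℕ} (hl : l ≠ 0) :
    (pull ℂ).TT l (KK g1 g2) = KK (sla.TT l g1) (sla.TT l g2) := by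
  have j1 := (isSymb_iff.mp (lam_isSymb h1 i1)).2
  have j2 := (isSymb_iff.mp (lam_isSymb h2 i2)).2
  rw [KK, KK, RA.TT_add, RA.TT_add, RA.TT_sub, RA.TT_J hl j1, RA.TT_J hl j2, lam_TT h1 hl,
    lam_TT h2 hl]

theorem KK_tr {N q : ℕ} [NeZero (N * q)] (hqN : q.Coprime N) {g1 g2 : ℍ → ℂ} (h1 : Adm g1)
    (h2 : Adm g2) (i1 : sla.Inv (N * q) g1) (i2 : sla.Inv (N * q) g2) :
    (pull ℂ).tr N q (KK g1 g2) = KK (sla.tr N q g1) (sla.tr N q g2) := by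
  have j1 := (isSymb_iff.mp (lam_isSymb h1 i1)).2
  have j2 := (isSymb_iff.mp (lam_isSymb h2 i2)).2
  rw [KK, KK, RA.tr_add, RA.tr_add, RA.tr_sub, RA.tr_J hqN j1, RA.tr_J hqN j2, lam_tr h1,
    lam_tr h2]

theorem KK_w {N q : ℕ} (hq : q ≠ 0) {g1 g2 : ℍ → ℂ} (h1 : Adm g1)
    (h2 : Adm g2) (i1 : sla.Inv (N * q) g1) (i2 : sla.Inv (N * q) g2) (w : RA.WQ N q) :
    (pull ℂ).act w.mat (KK g1 g2) = KK (sla.act w.mat g1) (sla.act w.mat g2) := by
  have j1 := (isSymb_iff.mp (lam_isSymb h1 i1)).2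
  have j2 := (isSymb_iff.mp (lam_isSymb h2 i2)).2
  rw [KK, KK, map_add, map_add, map_sub, RA.w_J hq j1, RA.w_J hq j2, lam_act h1 (mq_w_mem hq w),
    lam_act h2 (mq_w_mem hq w)]

theorem KK_isSymb {M : ℕ} {g1 g2 : ℍ → ℂ} (h1 : Adm g1) (h2 : Adm g2) (i1 : sla.Inv M g1)
    (i2 : sla.Inv M g2) : IsSymb M (KK g1 g2) := by
  have k1 := lam_isSymb h1 i1
  have k2 := lam_isSymb h2 i2
  have k3 := k1.J
  have k4 := k2.J
  refine ⟨fun r s t ↦ ?_, fun γ hγ r s ↦ ?_⟩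
  · simp only [KK, Pi.add_apply, Pi.sub_apply]
    rw [← k1.add r s t, ← k2.add r s t, ← k3.add r s t, ← k4.add r s t]
    ring
  · simp only [KK, Pi.add_apply, Pi.sub_apply]
    rw [k1.inv γ hγ, k2.inv γ hγ, k3.inv γ hγ, k4.inv γ hγ]

/-- Cusp forms from symbols. -/
theorem exists_forms {N q : ℕ} [NeZero N] [NeZero (N * q)] (hq : q.Prime) (hqN : q.Coprime N)
    (w : RA.WQ N q) {G : Cu → Cu → ℂ} (hG : IsSymb (N * q) G) (h0 : G ≠ 0)
    (htr : (pull ℂ).tr N q G = 0) (htrw : (pull ℂ).tr N q ((pull ℂ).act w.mat G) = 0)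
    (c : LL N q → ℂ) (hT : ∀ l : LL N q, (pull ℂ).TT l G = fun r s ↦ c l * G r s)
    (hne : ∃ l : LL N q, ((N * q : ℕ) : ℤ) ∣ (l : ℕ) - 1 ∧ c l ≠ (l : ℕ) + 1) :
    ∃ g : CuspForm (Gamma0 (N * q)) 2, g ≠ 0 ∧ (∀ l : LL N q, sla.TT l ⇑g = c l • ⇑g) ∧
      sla.Ker N q w ⇑g := by
  obtain ⟨f1, f2, hf⟩ := KK_surj hG
  have c1 := cus_coe f1
  have c2 := cus_coe f2
  have i1 := inv_coe f1
  have i2 := inv_coe f2
  set K := KK ⇑f1 ⇑f2 with hK
  have hKs : IsSymb (N * q) K := KK_isSymb c1.adm c2.adm i1 i2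
  have hBs : IsSymb (N * q) (G - K) := by
    refine ⟨fun r s t ↦ ?_, fun γ hγ r s ↦ ?_⟩
    · simp only [Pi.sub_apply]
      rw [← hG.add r s t, ← hKs.add r s t]; ring
    · simp only [Pi.sub_apply]
      rw [hG.inv γ hγ, hKs.inv γ hγ]
  obtain ⟨β, hβ, hB⟩ := exists_bd hBs fun γ hγ ↦ by
    simp only [Pi.sub_apply]
    rw [hf γ hγ, sub_self]
  have hKG : K = G - bd β := by rw [← hB]; abel
  -- Hecke operators
  have hTf : ∀ l : LL N q, sla.TT l ⇑f1 = c l • ⇑f1 ∧ sla.TT l ⇑f2 = c l • ⇑f2 := by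
    intro l
    have hl0 := l.2.1.ne_zero
    have hlN : ¬ (l : ℕ) ∣ N * q := (Nat.Prime.coprime_iff_not_dvd l.2.1).mp l.2.2
    have e : ∀ f : CuspForm (Gamma0 (N * q)) 2,
        ⇑(CuspForm.heckeTLin 2 l.2.1 hlN f - c l • f) = sla.TT l ⇑f - c l • ⇑f := by
      intro f
      rw [sla_TT_eq hl0, ← CuspForm.coe_heckeTLin_apply 2 l.2.1 hlN]
      rfl
    have h1 := KK_inj (CuspForm.heckeTLin 2 l.2.1 hlN f1 - c l • f1)
      (CuspForm.heckeTLin 2 l.2.1 hlN f2 - c l • f2) fun γ hγ ↦ by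
        rw [e, e, KK_sub_smul (c l) (adm_TT c1.adm hl0) (adm_TT c2.adm hl0) c1.adm c2.adm,
          ← KK_TT c1.adm c2.adm i1 i2 hl0, ← hK, hKG, RA.TT_sub, hT l,
          ← RA.map_TT (A := pull1) bd bd_act]
        have : NeZero (N * q * (l : ℕ)) := ⟨mul_ne_zero (NeZero.ne _) hl0⟩
        have h2 := bd_period (RA.TT_inv (l.2.2) l.2.1 hβ) hγ
        have h3 := bd_period hβ hγ
        simp only [Pi.sub_apply, h2, h3]
        ring
    constructor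
    · have h2 := congrArg (fun f : CuspForm (Gamma0 (N * q)) 2 ↦ (⇑f : ℍ → ℂ)) h1.1
      beta_reduce at h2
      rw [e] at h2
      exact sub_eq_zero.mp h2
    · have h2 := congrArg (fun f : CuspForm (Gamma0 (N * q)) 2 ↦ (⇑f : ℍ → ℂ)) h1.2
      beta_reduce at h2
      rw [e] at h2
      exact sub_eq_zero.mp h2
  -- traces
  have htrace : ∀ (g1 g2 : ℍ → ℂ) (G' : Cu → Cu → ℂ) (β' : Cu → ℂ), Cus g1 → Cus g2 →
      sla.Inv (N * q) g1 → sla.Inv (N * q) g2 → pull1.Inv (N * q) β' → (pull ℂ).tr N q G' = 0 →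
      KK g1 g2 = G' - bd β' → sla.tr N q g1 = 0 ∧ sla.tr N q g2 = 0 := by
    intro g1 g2 G' β' a1 a2 b1 b2 hβ' hG' hKK
    obtain ⟨t1, ht1⟩ := (a1.tr N q).bundle (RA.tr_inv hqN b1)
    obtain ⟨t2, ht2⟩ := (a2.tr N q).bundle (RA.tr_inv hqN b2)
    have h1 := KK_inj t1 t2 fun γ hγ ↦ by
      rw [ht1, ht2, ← KK_tr hqN a1.adm a2.adm b1 b2, hKK, RA.tr_sub, hG',
        ← RA.map_tr (A := pull1) bd bd_act]
      have h2 := bd_period (RA.tr_inv hqN hβ') hγ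
      simp only [Pi.sub_apply, h2, Pi.zero_apply, sub_zero]
    rw [← ht1, ← ht2, h1.1, h1.2]
    exact ⟨rfl, rfl⟩
  obtain ⟨u1, u2⟩ := htrace ⇑f1 ⇑f2 G β c1 c2 i1 i2 hβ htr hKG
  obtain ⟨v1, v2⟩ := htrace (sla.act w.mat ⇑f1) (sla.act w.mat ⇑f2) ((pull ℂ).act w.mat G)
    (pull1.act w.mat β) (c1.act (mq_w_mem hq.ne_zero w)) (c2.act (mq_w_mem hq.ne_zero w))
    (i1.inv_WQ hq.ne_zero w) (i2.inv_WQ hq.ne_zero w) (hβ.inv_WQ hq.ne_zero w) htrw (by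
      rw [← KK_w hq.ne_zero c1.adm c2.adm i1 i2 w, ← hK, hKG, map_sub, bd_act])
  by_cases hf1 : f1 = 0
  · by_cases hf2 : f2 = 0
    · exfalso
      have hG2 : G = bd β := by
        rw [← hB, hK, hf1, hf2]
        have : KK ⇑(0 : CuspForm (Gamma0 (N * q)) 2) ⇑(0 : CuspForm (Gamma0 (N * q)) 2) = 0 := KK_zero
        rw [this, sub_zero]
      obtain ⟨l, hl, hcl⟩ := hne
      have h1 := TT_boundary (k := ℂ) two_ne_zero (β := fun r ↦ 2 * β r) (F := G) (M := N * q)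
        (fun γ hγ r ↦ by
          have := congrFun (hβ γ hγ) r
          rw [pull1_apply] at this
          beta_reduce
          rw [this]) (fun r s ↦ by rw [hG2, bd_apply]; ring) l.2.1 hl
      rw [hT l] at h1
      apply h0
      ext r s
      have h2 := congrFun (congrFun h1 r) s
      have h3 : (c l - ((l : ℕ) + 1)) * G r s = 0 := by linear_combination h2
      exact (mul_eq_zero.mp h3).resolve_left (sub_ne_zero.mpr hcl)
    · exact ⟨f2, hf2, fun l ↦ (hTf l).2, i2, u2, v2⟩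
  · exact ⟨f1, hf1, fun l ↦ (hTf l).1, i1, u1, v1⟩

end Fermat.Agent.H16.LR
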