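import Mathlib
import Fermat.Agent.H16.LR.CF2
import Fermat.Agent.H22.ES
import Fermat.Agent.H22.Eigen

/-!
# Eigenforms which are new at `q`
-/

set_option autoImplicit false

open UpperHalfPlane hiding I
open Matrix ModularGroup CongruenceSubgroup Filter Function ModularFormClass
open scoped MatrixGroups ModularForm Manifold

noncomputable section

namespace Fermat.Agent.H16.LR

/-- Common eigenvectors. -/
theorem exists_common_vec {F : Type*} [Field F] [IsAlgClosed F] {V L : Type*} [AddCommGroup V]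
    [Module F V] [FiniteDimensional F V] (T : L → Module.End F V)
    (hT : ∀ l l', T l * T l' = T l' * T l) :
    ∀ (d : ℕ) (W : Submodule F V), Module.finrank F W = d → W ≠ ⊥ →
      (∀ l, ∀ w ∈ W, T l w ∈ W) → ∃ v ∈ W, v ≠ 0 ∧ ∃ c : L → F, ∀ l, T l v = c l • v := by
  intro d
  induction d using Nat.strong_induction_on with
  | _ d ih =>
    intro W hd hW hst
    by_cases hsc : ∀ l, ∃ c : F, ∀ w ∈ W, T l w = c • w
    · obtain ⟨v, hv, hv0⟩ := Submodule.exists_mem_ne_zero_of_ne_bot hW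
      choose c hc using hsc
      exact ⟨v, hv, hv0, c, fun l ↦ hc l v hv⟩
    · push Not at hsc
      obtain ⟨l, hl⟩ := hsc
      have hnt : Nontrivial W := Submodule.nontrivial_iff_ne_bot.mpr hW
      let f : Module.End F W := (T l).restrict (hst l)
      obtain ⟨c, hc⟩ := Module.End.exists_eigenvalue f
      obtain ⟨w0, hw0⟩ := hc.exists_hasEigenvector
      let W' : Submodule F V := W ⊓ LinearMap.ker (T l - c • LinearMap.id)
      have hmem : ∀ w, w ∈ W' ↔ w ∈ W ∧ T l w = c • w := by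
        intro w
        rw [Submodule.mem_inf, LinearMap.mem_ker, LinearMap.sub_apply,
          LinearMap.smul_apply, LinearMap.id_apply, sub_eq_zero]
      have hlt : W' < W := by
        refine lt_of_le_of_ne inf_le_left ?_
        intro h
        obtain ⟨w, hw, hw'⟩ := hl c
        rw [← h] at hw
        exact hw' ((hmem w).mp hw).2
      have hne : W' ≠ ⊥ := by
        intro h
        have h1 : (w0 : V) ∈ W' := (hmem _).mpr ⟨w0.2, by
          have := congrArg Subtype.val hw0.apply_eq_smul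
          exact this⟩
        rw [h, Submodule.mem_bot] at h1
        exact hw0.2 (Subtype.ext h1)
      obtain ⟨v, hv, hv0, hv1⟩ := ih _ (by rw [← hd]; exact Submodule.finrank_lt_finrank_of_lt hlt)
        W' rfl hne (fun l' w hw ↦ by
          rw [hmem] at hw ⊢
          refine ⟨hst l' w hw.1, ?_⟩
          have h1 := LinearMap.congr_fun (hT l l') w
          rw [Module.End.mul_apply, Module.End.mul_apply] at h1
          rw [h1, hw.2, map_smul])
      exact ⟨v, ((hmem v).mp hv).1, hv0, hv1⟩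

theorem sla_smul {α : GL (Fin 2) ℚ} (hα : mq α ∈ intMat) (c : ℂ) (g : ℍ → ℂ) :
    sla.act α (c • g) = c • sla.act α g := by
  have hσ : UpperHalfPlane.σ (mq α) c = c := by
    rw [UpperHalfPlane.σ, if_pos (det_pos_of_mem hα)]; rfl
  rw [sla_apply, sla_apply, ModularForm.smul_slash, hσ]

theorem tr_smul {N q : ℕ} [NeZero (N * q)] (c : ℂ) (g : ℍ → ℂ) :
    sla.tr N q (c • g) = c • sla.tr N q g := by
  rw [RA.tr, RA.tr, Finset.smul_sum]
  exact Finset.sum_congr rfl fun z _ ↦ sla_smul (mq_ι_mem _) c g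

theorem tr_zero {N q : ℕ} [NeZero (N * q)] : sla.tr N q 0 = 0 := by
  simp [RA.tr]

section

variable {N q : ℕ} [NeZero N] [NeZero (N * q)]

/-- Hecke operators. -/
abbrev op (M : ℕ) [NeZero M] (l : Nat.Primes) : Module.End ℂ (CuspForm (Gamma0 M) 2) :=
  (CuspForm.heckeFormsGen M 2 l : Module.End ℂ (CuspForm (Gamma0 M) 2))

theorem op_comm {M : ℕ} [NeZero M] (l l' : Nat.Primes) : op M l * op M l' = op M l' * op M l := by
  have := congrArg (Subtype.val) (mul_comm (CuspForm.heckeFormsGen M 2 l)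
    (CuspForm.heckeFormsGen M 2 l'))
  exact this

theorem coe_op_T {M : ℕ} [NeZero M] {l : Nat.Primes} (h : ¬ (l : ℕ) ∣ M)
    (f : CuspForm (Gamma0 M) 2) : ⇑(op M l f) = sla.TT l ⇑f := by
  rw [H22.coe_heckeFormsGen_apply, if_neg h, sla_TT_eq l.2.ne_zero]

theorem coe_op_U {M : ℕ} [NeZero M] {l : Nat.Primes} (h : (l : ℕ) ∣ M)
    (f : CuspForm (Gamma0 M) 2) : ⇑(op M l f) = sla.UU l ⇑f := by
  rw [H22.coe_heckeFormsGen_apply, if_pos h, sla_UU_eq l.2.ne_zero]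

/-- The prime of an index. -/
def LL.pr (l : LL N q) : Nat.Primes := ⟨l.1, l.2.1⟩

theorem LL.not_dvd (l : LL N q) : ¬ (l.1 : ℕ) ∣ N * q :=
  (Nat.Prime.coprime_iff_not_dvd l.2.1).mp l.2.2

variable (N q) in
/-- The relevant space of forms. -/
def VV (w : RA.WQ N q) (c : LL N q → ℂ) : Submodule ℂ (CuspForm (Gamma0 (N * q)) 2) where
  carrier := {g | (∀ l : LL N q, op (N * q) l.pr g = c l • g) ∧ sla.tr N q ⇑g = 0 ∧
    sla.tr N q (sla.act w.mat ⇑g) = 0}
  zero_mem' := by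
    refine ⟨fun l ↦ by rw [map_zero, smul_zero], tr_zero, ?_⟩
    show sla.tr N q (sla.act w.mat (0 : ℍ → ℂ)) = 0
    rw [map_zero, tr_zero]
  add_mem' := by
    rintro f g ⟨h1, h2, h3⟩ ⟨h1', h2', h3'⟩
    refine ⟨fun l ↦ by rw [map_add, h1, h1', smul_add], ?_, ?_⟩
    · show sla.tr N q (⇑f + ⇑g) = 0
      rw [RA.tr_add, h2, h2', add_zero]
    · show sla.tr N q (sla.act w.mat (⇑f + ⇑g)) = 0
      rw [map_add, RA.tr_add, h3, h3', add_zero]
  smul_mem' := by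
    rintro a g ⟨h1, h2, h3⟩
    refine ⟨fun l ↦ by rw [map_smul, h1, smul_comm], ?_, ?_⟩
    · show sla.tr N q (a • ⇑g) = 0
      rw [tr_smul, h2, smul_zero]
    · show sla.tr N q (sla.act w.mat (a • ⇑g)) = 0
      have hq : q ≠ 0 := right_ne_zero_of_mul (NeZero.ne (N * q))
      rw [sla_smul (mq_w_mem hq w), tr_smul, h3, smul_zero]

theorem mem_VV {w : RA.WQ N q} {c : LL N q → ℂ} {g : CuspForm (Gamma0 (N * q)) 2} :
    g ∈ VV N q w c ↔ (∀ l : LL N q, op (N * q) l.pr g = c l • g) ∧ sla.Ker N q w ⇑g :=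
  ⟨fun h ↦ ⟨h.1, inv_coe g, h.2.1, h.2.2⟩, fun h ↦ ⟨h.1, h.2.tr0, h.2.tr1⟩⟩

theorem op_mem_VV (hq : q.Prime) (hqN : q.Coprime N) {w : RA.WQ N q} {c : LL N q → ℂ}
    {g : CuspForm (Gamma0 (N * q)) 2} (hg : g ∈ VV N q w c) (l : Nat.Primes) :
    op (N * q) l g ∈ VV N q w c := by
  by_cases hl : (l : ℕ) ∣ N * q
  · rw [mem_VV] at hg ⊢
    refine ⟨fun l' ↦ ?_, ?_⟩
    · have h1 := LinearMap.congr_fun (op_comm (M := N * q) l'.pr l) g
      rw [Module.End.mul_apply, Module.End.mul_apply] at h1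
      rw [h1, hg.1, map_smul]
    · have hinv := inv_coe (op (N * q) l g)
      rw [coe_op_U hl] at hinv ⊢
      rcases (Nat.Prime.dvd_mul l.2).mp hl with h | h
      · have hlq : (l : ℕ).Coprime q := by
          rw [Nat.coprime_primes l.2 hq]
          intro he
          rw [he] at h
          exact (Nat.Prime.coprime_iff_not_dvd hq).mp hqN h
        exact hg.2.UU_ne hqN hq l.2.ne_zero hlq hinv
      · have he : (l : ℕ) = q := (Nat.prime_dvd_prime_iff_eq l.2 hq).mp h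
        rw [he]
        exact hg.2.UU_self hqN hq
  · have h1 := hg.1 ⟨l, l.2, (Nat.Prime.coprime_iff_not_dvd l.2).mpr hl⟩
    have h2 : op (N * q) l g = c ⟨l, l.2, (Nat.Prime.coprime_iff_not_dvd l.2).mpr hl⟩ • g := h1
    rw [h2]
    exact Submodule.smul_mem _ _ hg

/-- Existence of the new eigenform. -/
theorem exists_newform (hq : q.Prime) (hqN : q.Coprime N) {w : RA.WQ N q} {c : LL N q → ℂ}
    {g : CuspForm (Gamma0 (N * q)) 2} (hg0 : g ≠ 0) (hT : ∀ l : LL N q, sla.TT l ⇑g = c l • ⇑g)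
    (hK : sla.Ker N q w ⇑g) :
    ∃ h : CuspForm (Gamma0 (N * q)) 2, h.IsNormalizedEigenform ∧
      (∀ l : LL N q, qCoeff ⇑h l = c l) ∧ qCoeff ⇑h q ^ 2 = 1 := by
  have := H22.finiteDimensional_cuspForm (N * q) 2
  have hmem : g ∈ VV N q w c := by
    rw [mem_VV]
    refine ⟨fun l ↦ ?_, hK⟩
    apply DFunLike.coe_injective
    rw [coe_op_T (l := l.pr) l.not_dvd]
    exact hT l
  have hne : VV N q w c ≠ ⊥ := fun h ↦ hg0 (by rwa [h, Submodule.mem_bot] at hmem)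
  obtain ⟨v, hv, hv0, lam', hlam⟩ := exists_common_vec (op (N * q)) op_comm _ (VV N q w c) rfl hne
    (fun l g hg ↦ op_mem_VV hq hqN hg l)
  set lam : ℕ → ℂ := fun ℓ ↦ if hℓ : ℓ.Prime then lam' ⟨ℓ, hℓ⟩ else 0 with hlam'
  have hT : ∀ (ℓ : ℕ) (hℓ : ℓ.Prime) (hℓN : ¬ ℓ ∣ N * q),
      CuspForm.heckeTLin 2 hℓ hℓN v = lam ℓ • v := fun ℓ hℓ hℓN ↦ by
    have := hlam ⟨ℓ, hℓ⟩
    rw [op, CuspForm.heckeFormsGen_of_not_dvd (ℓ := ⟨ℓ, hℓ⟩) hℓN] at this
    rw [hlam']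
    dsimp only
    rw [dif_pos hℓ]
    exact this
  have hU : ∀ (ℓ : ℕ) (_ : ℓ.Prime) (hℓN : ℓ ∣ N * q),
      CuspForm.heckeULin 2 hℓN v = lam ℓ • v := fun ℓ hℓ hℓN ↦ by
    have := hlam ⟨ℓ, hℓ⟩
    rw [op, CuspForm.heckeFormsGen_of_dvd (q := ⟨ℓ, hℓ⟩) hℓN] at this
    rw [hlam']
    dsimp only
    rw [dif_pos hℓ]
    exact this
  have h1 : qCoeff ⇑v 1 ≠ 0 := H22.eigen_qCoeff_one_ne_zero hv0 hT hU
  set f : CuspForm (Gamma0 (N * q)) 2 := (qCoeff ⇑v 1)⁻¹ • v with hf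
  have hf1 : qCoeff ⇑f 1 = 1 := by
    rw [hf, H22.cusp_qCoeff_smul, inv_mul_cancel₀ h1]
  have hT' : ∀ (ℓ : ℕ) (hℓ : ℓ.Prime) (hℓN : ¬ ℓ ∣ N * q),
      CuspForm.heckeTLin 2 hℓ hℓN f = lam ℓ • f := fun ℓ hℓ hℓN => by
    rw [hf, map_smul, hT ℓ hℓ hℓN, smul_comm]
  have hU' : ∀ (ℓ : ℕ) (_ : ℓ.Prime) (hℓN : ℓ ∣ N * q),
      CuspForm.heckeULin 2 hℓN f = lam ℓ • f := fun ℓ hℓ hℓN => by
    rw [hf, map_smul, hU ℓ hℓ hℓN, smul_comm]
  obtain ⟨hnorm, hl⟩ := H22.isNormalizedEigenform_of_eigen hf1 hT' hU'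
  have hfV : f ∈ VV N q w c := Submodule.smul_mem _ _ hv
  have hf0 : f ≠ 0 := by
    intro h
    rw [h] at hf1
    have : qCoeff ⇑(0 : CuspForm (Gamma0 (N * q)) 2) 1 = 0 := map_zero (H22.qCoeffLin (N * q) 2 1)
    rw [this] at hf1
    exact zero_ne_one hf1
  refine ⟨f, hnorm, fun l ↦ ?_, ?_⟩
  · have h2 := H22.heckeFormsGen_eigenform hnorm l.pr
    have h3 := hfV.1 l
    rw [op, h2] at h3
    have h4 : (qCoeff ⇑f (l.pr : ℕ) - c l) • f = 0 := by rw [sub_smul, h3, sub_self]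
    have h5 := (smul_eq_zero.mp h4).resolve_right hf0
    exact sub_eq_zero.mp h5
  · have h2 := H22.heckeFormsGen_eigenform hnorm ⟨q, hq⟩
    have hqd : ((⟨q, hq⟩ : Nat.Primes) : ℕ) ∣ N * q := dvd_mul_left q N
    have h3 : sla.UU q ⇑f = qCoeff ⇑f q • ⇑f := by
      have := coe_op_U hqd f
      rw [← this, op, h2]
      rfl
    have hK2 := (mem_VV.mp hfV).2
    have h4 := hK2.UU_UU hqN hq
    have h5 : sla.UU q (qCoeff ⇑f q • ⇑f) = qCoeff ⇑f q • sla.UU q ⇑f := by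
      rw [RA.UU, RA.UU, Finset.smul_sum]
      exact Finset.sum_congr rfl fun b _ ↦ sla_smul (mq_upper_mem hq.ne_zero b) _ _
    rw [h3, h5, h3, smul_smul, ← sq] at h4
    have h6 : (qCoeff ⇑f q ^ 2 - 1) • f = 0 := by
      apply DFunLike.coe_injective
      show (qCoeff ⇑f q ^ 2 - 1) • ⇑f = 0
      rw [sub_smul, h4, one_smul, sub_self]
    exact sub_eq_zero.mp ((smul_eq_zero.mp h6).resolve_right hf0)

end

end Fermat.Agent.H16.LR
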