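import Mathlib
import Fermat.Agent.H16.LR.Mats
import Fermat.Agent.H16.LR.Forms

/-!
# Reduction of eigen-symbols
-/

set_option autoImplicit false

open Matrix ModularGroup CongruenceSubgroup
open scoped MatrixGroups

noncomputable section

namespace Fermat.Agent.H16.LR

open LA

theorem TT_emb {R : Type} [CommRing R] {M : ℕ} [NeZero M] {l : ℕ} (hl : l.Prime)
    (hlM : l.Coprime M) (u : Fin (rk M) → R) :
    (pull R).TT l (emb M R u) = emb M R (cst R (matT M l) *ᵥ u) :=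
  mt_spec (Natl.TT l) (Pres.TT hlM hl) u

/-- Reduction of an eigen-symbol. -/
theorem exists_reduction (𝒱 : ValuationSubring ℂ) {M : ℕ} [NeZero M] {F : Cu → Cu → ℂ}
    (hF : IsSymb M F) (h0 : F ≠ 0) {L : Type} (l : L → ℕ) (hl : ∀ i, (l i).Prime)
    (hlM : ∀ i, (l i).Coprime M) (a : L → 𝒱)
    (hT : ∀ i, (pull ℂ).TT (l i) F = fun r s ↦ (a i : ℂ) * F r s) :
    ∃ f : Cu → Cu → kk 𝒱, f ≠ 0 ∧ IsMM M f ∧
      ∀ i, (pull (kk 𝒱)).TT (l i) f = fun r s ↦ res 𝒱 (a i) * f r s := by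
  have hco : emb M ℂ (co F) = F := emb_co hF.isMM
  have hx0 : co (M := M) F ≠ 0 := by
    intro h
    apply h0
    rw [← hco, h, emb_zero]
  have hTx : ∀ i, cst ℂ (matT M (l i)) *ᵥ co F = (a i : ℂ) • co F := by
    intro i
    apply emb_injective
    rw [← TT_emb (hl i) (hlM i), hco, hT, emb_smul, hco]
  obtain ⟨c, y, hc, hy, hy0⟩ := exists_primitive 𝒱 (co (M := M) F) hx0
  have hyc : (fun i ↦ (y i : ℂ)) = c • co F := by
    ext i; exact hy i
  have hTy : ∀ i, cst 𝒱 (matT M (l i)) *ᵥ y = a i • y := by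
    intro i
    have h1 := genM_mulVec 𝒱 (cst 𝒱 (matT M (l i))) y
    rw [hyc, mulVec_smul] at h1
    have h2 : genM 𝒱 (cst 𝒱 (matT M (l i))) = cst ℂ (matT M (l i)) := genM_cst _ _
    rw [h2, hTx, smul_comm, ← hyc] at h1
    ext j
    have h3 := congrFun h1 j
    exact h3.symm
  refine ⟨emb M (kk 𝒱) (fun i ↦ res 𝒱 (y i)), ?_, emb_isMM _, fun i ↦ ?_⟩
  · intro h
    apply hy0
    apply emb_injective (M := M)
    rw [h, emb_zero]
  · rw [TT_emb (hl i) (hlM i)]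
    have h2 : cst (kk 𝒱) (matT M (l i)) = redM 𝒱 (cst 𝒱 (matT M (l i))) := (redM_cst 𝒱 _).symm
    rw [h2, redM_mulVec, hTy, ← emb_smul]
    congr 1

end Fermat.Agent.H16.LR
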