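import Mathlib
import Fermat.Agent.H16.LR.NF
import Fermat.Agent.H16.LR.EV

/-!
# Eigenvalues and modular symbols
-/

set_option autoImplicit false

open UpperHalfPlane hiding I
open Matrix ModularGroup CongruenceSubgroup Filter Function ModularFormClass
open scoped MatrixGroups ModularForm Manifold

noncomputable section

namespace Fermat.Agent.H16.LR

variable {M : ℕ} [NeZero M]

theorem TT_lam {f : CuspForm (Gamma0 M) 2} (hf : f.IsNormalizedEigenform) {l : ℕ} (hl : l.Prime)
    (hlM : l.Coprime M) :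
    (pull ℂ).TT l (lam ⇑f) = fun r s ↦ qCoeff ⇑f l * lam ⇑f r s := by
  have h : ¬ ((⟨l, hl⟩ : Nat.Primes) : ℕ) ∣ M := (Nat.Prime.coprime_iff_not_dvd hl).mp hlM
  have h1 := coe_op_T h f
  rw [op, H22.heckeFormsGen_eigenform hf] at h1
  rw [lam_TT (adm_coe f) hl.ne_zero, ← h1]
  exact lam_smul _ (adm_coe f)

theorem lam_ne_zero {f : CuspForm (Gamma0 M) 2} (hf : f.IsNormalizedEigenform) : lam ⇑f ≠ 0 := by
  intro h
  have h1 := lam_eq_zero f h
  have h2 := hf.qCoeff_one
  rw [h1] at h2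
  have : qCoeff ⇑(0 : CuspForm (Gamma0 M) 2) 1 = 0 := map_zero (H22.qCoeffLin M 2 1)
  rw [this] at h2
  exact zero_ne_one h2

theorem eigen_integral_int {n : Type*} [Fintype n] [DecidableEq n] {A : Matrix n n ℤ} {x : n → ℂ}
    (hx : x ≠ 0) {c : ℂ} (h : LA.cst ℂ A *ᵥ x = c • x) : IsIntegral ℤ c := by
  refine ⟨A.charpoly, A.charpoly_monic, ?_⟩
  have h1 := LA.aeval_mulVec h (A.charpoly.map (Int.castRingHom ℂ))
  have h2 : A.charpoly.map (Int.castRingHom ℂ) = (LA.cst ℂ A).charpoly :=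
    (Matrix.charpoly_map _ _).symm
  rw [h2, Matrix.aeval_self_charpoly, zero_mulVec] at h1
  have h3 := (smul_eq_zero.mp h1.symm).resolve_right hx
  rw [← h2, Polynomial.eval_map] at h3
  exact h3

/-- Hecke eigenvalues are algebraic integers. -/
theorem qCoeff_integral {f : CuspForm (Gamma0 M) 2} (hf : f.IsNormalizedEigenform) {l : ℕ}
    (hl : l.Prime) (hlM : l.Coprime M) : IsIntegral ℤ (qCoeff ⇑f l) := by
  have hF := isSymb_lam f
  have hco : emb M ℂ (co (lam ⇑f)) = lam ⇑f := emb_co hF.isMM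
  refine eigen_integral_int (A := matT M l) (x := co (lam ⇑f)) ?_ ?_
  · intro h
    apply lam_ne_zero hf
    rw [← hco, h, emb_zero]
  · apply emb_injective
    rw [← TT_emb hl hlM, hco, TT_lam hf hl hlM, emb_smul, hco]

end Fermat.Agent.H16.LR
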