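import Mathlib
import Fermat.Agent.H16.LR.Bound

/-!
# Ihara's lemma for modular symbols
-/

set_option autoImplicit false

open Matrix ModularGroup CongruenceSubgroup
open scoped MatrixGroups

noncomputable section

namespace Fermat.Agent.H16.LR

/-! ### Periodic sums -/

theorem periodic_gcd {B : Type*} {φ : ℕ → B} {n k : ℕ} (hn : ∀ j, φ (j + n) = φ j)
    (hk : ∀ j, φ (j + k) = φ j) (j : ℕ) : φ (j + Nat.gcd n k) = φ j := by
  have hn' : ∀ t j, φ (j + t * n) = φ j := by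
    intro t
    induction t with
    | zero => intro j; simp
    | succ t ih => intro j; rw [add_mul, one_mul, ← add_assoc, hn, ih]
  have hk' : ∀ t j, φ (j + t * k) = φ j := by
    intro t
    induction t with
    | zero => intro j; simp
    | succ t ih => intro j; rw [add_mul, one_mul, ← add_assoc, hk, ih]
  rcases Nat.eq_zero_or_pos k with h0 | h0
  · rw [h0, Nat.gcd_zero_right, hn]
  rcases Nat.eq_zero_or_pos n with h1 | h1
  · rw [h1, Nat.gcd_zero_left, hk]
  -- `gcd n k + b k = a n`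
  obtain ⟨a, b, hab⟩ : ∃ a b : ℕ, Nat.gcd n k + b * k = a * n := by
    have h := Nat.gcd_eq_gcd_ab n k
    set x := Nat.gcdA n k
    set y := Nat.gcdB n k
    set t : ℕ := x.natAbs + y.natAbs with ht
    have hk1 : (1 : ℤ) ≤ k := by exact_mod_cast h0
    have hn1 : (1 : ℤ) ≤ n := by exact_mod_cast h1
    have hx1 : -(t : ℤ) ≤ x := by omega
    have hy1 : y ≤ (t : ℤ) := by omega
    have hx : 0 ≤ x + t * k := by nlinarith
    have hy : 0 ≤ t * n - y := by nlinarith
    refine ⟨(x + t * k).toNat, (t * n - y).toNat, ?_⟩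
    have e : ((Nat.gcd n k + (t * n - y).toNat * k : ℕ) : ℤ) = (((x + t * k).toNat * n : ℕ) : ℤ) := by
      push_cast
      rw [Int.toNat_of_nonneg hx, Int.toNat_of_nonneg hy, h]
      ring
    exact_mod_cast e
  rw [← hk' b, add_assoc, hab, hn']

theorem sum_periodic {k : Type*} [CommRing k] {φ : ℕ → k} {g : ℕ} (hg : ∀ j, φ (j + g) = φ j) (t : ℕ) :
    ∑ j ∈ Finset.range (t * g), φ j = t * ∑ j ∈ Finset.range g, φ j := by
  induction t with
  | zero => simp
  | succ t ih =>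
    rw [add_mul, one_mul, Finset.sum_range_add, ih]
    have hg' : ∀ s j, φ (s * g + j) = φ j := by
      intro s
      induction s with
      | zero => intro j; simp
      | succ s ih => intro j; rw [add_mul, one_mul, add_right_comm, hg, ih]
    simp only [hg']
    push_cast; ring

theorem sum_zero_of_periodic {k : Type*} [CommRing k] {p : ℕ} (hp : p.Prime) [CharP k p] {φ : ℕ → k} {n e m : ℕ}
    (hn : ∀ j, φ (j + n) = φ j) (he : ∀ j, φ (j + e) = φ j) (h1 : p ^ m ∣ n)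
    (h2 : ¬ p ^ m ∣ e) : ∑ j ∈ Finset.range n, φ j = 0 := by
  obtain ⟨t, ht⟩ := Nat.gcd_dvd_left n e
  have hg := periodic_gcd hn he
  have hpt : p ∣ t := by
    by_contra hne
    apply h2
    have hc : (p ^ m).Coprime t := Nat.Coprime.pow_left m ((Nat.Prime.coprime_iff_not_dvd hp).mpr hne)
    rw [ht] at h1
    exact (hc.dvd_of_dvd_mul_right h1).trans (Nat.gcd_dvd_right n e)
  rw [ht, mul_comm, sum_periodic hg]
  obtain ⟨s, rfl⟩ := hpt
  simp


/-! ### Invariance under `ℤ[1/q]` -/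

variable {k : Type} [Field k] {N q : ℕ}

theorem inv_D (hq : q.Prime) (hqN : q.Coprime N) {f1 f2 : Cu → Cu → k} (h1 : IsSymb N f1)
    (h2 : IsSymb N f2) (hsum : f1 + (pull k).act (gq q 0 0 1) f2 = 0) :
    (pull k).act (gq q 0 0 (1 / q)) f1 = f1 := by
  have hq0 : (q : ℚ) ≠ 0 := by exact_mod_cast hq.ne_zero
  have h1' := (isSymb_iff.mp h1).2
  have h2' := (isSymb_iff.mp h2).2
  have hf1 : f1 = - (pull k).act (gq q 0 0 1) f2 := eq_neg_of_add_eq_zero_left hsum
  obtain ⟨u, v, huv⟩ := Nat.isCoprime_iff_coprime.mpr hqN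
  -- `q * 1 * u - N * (-v) * 1 = 1`
  have hd : (q : ℤ) * 1 * u - N * (-v) * 1 = 1 := by linear_combination huv
  have hdq : (q : ℚ) * u + N * v = 1 := by exact_mod_cast (by linear_combination huv : (q : ℤ) * u + N * v = 1)
  -- `γ₁ = (q u, v; -N, 1)`, `γ₂ = (q, -v/q; N q, u)`
  have e1 : gq q 0 0 (1 / q) = gq ((q * u : ℤ) : ℚ) ((v : ℤ) : ℚ) ((-N : ℤ) : ℚ) ((1 : ℤ) : ℚ) *
      gq q (-v / q) (N * q) u := by
    symm
    apply gq_mul'
    · push_cast; rw [show (q : ℚ) * u * 1 - v * -N = q * u + N * v by ring, hdq]; exact one_ne_zero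
    · have : (q : ℚ) * u - -v / q * (N * q) = q * u + N * v := by field_simp; ring
      rw [this, hdq]; exact one_ne_zero
    · push_cast; linear_combination (q : ℚ) * hdq
    · push_cast; field_simp; ring
    · push_cast; ring
    · push_cast; field_simp; linear_combination hdq
  rw [e1, (pull k).act_mul]
  have e2 : (pull k).act (gq ((q * u : ℤ) : ℚ) ((v : ℤ) : ℚ) ((-N : ℤ) : ℚ) ((1 : ℤ) : ℚ)) f1 = f1 :=
    h1'.act_sl (by linear_combination huv) (by simp)
  rw [e2]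
  conv_lhs => rw [hf1]
  rw [map_neg, ← (pull k).act_mul]
  have e3 : gq q 0 0 1 * gq q (-v / q) (N * q) u =
      gq ((q : ℤ) : ℚ) ((-v : ℤ) : ℚ) ((N : ℤ) : ℚ) ((u : ℤ) : ℚ) * gq q 0 0 1 := by
    rw [gq_mul' (e := q * q) (f := -v) (g := N * q) (k := u), gq_mul']
    · push_cast; rw [show (q : ℚ) * u - -v * N = q * u + N * v by ring, hdq]; exact one_ne_zero
    · simpa using hq0
    · push_cast; ring
    · push_cast; ring
    · push_cast; ring
    · push_cast; ring
    · simpa using hq0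
    · have : (q : ℚ) * u - -v / q * (N * q) = q * u + N * v := by field_simp; ring
      rw [this, hdq]; exact one_ne_zero
    · ring
    · field_simp; ring
    · ring
    · ring
  rw [e3, (pull k).act_mul, h2'.act_sl (by linear_combination huv) (by simp), ← hf1]

theorem inv_T (hq : q.Prime) (hqN : q.Coprime N) {f1 f2 : Cu → Cu → k} (h1 : IsSymb N f1)
    (h2 : IsSymb N f2) (hsum : f1 + (pull k).act (gq q 0 0 1) f2 = 0) (j : ℕ) (n : ℤ) :
    (pull k).act (gq 1 (n / q ^ (2 * j)) 0 1) f1 = f1 := by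
  have hq0 : (q : ℚ) ≠ 0 := by exact_mod_cast hq.ne_zero
  have h1' := (isSymb_iff.mp h1).2
  induction j with
  | zero =>
    have := h1'.act_sl (a := 1) (b := n) (c := 0) (d := 1) (by ring) (dvd_zero _)
    simpa using this
  | succ j ih =>
    have hD := inv_D hq hqN h1 h2 hsum
    have hdet : (q : ℚ) * (1 / q) - 0 * 0 ≠ 0 := by field_simp; norm_num
    have e : gq 1 (n / q ^ (2 * j)) 0 1 * gq q 0 0 (1 / q) =
        gq q 0 0 (1 / q) * gq 1 (n / q ^ (2 * (j + 1))) 0 1 := by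
      rw [gq_mul' (by norm_num) hdet rfl rfl rfl rfl]
      symm
      apply gq_mul' hdet (by norm_num)
      · ring
      · field_simp; ring
      · ring
      · ring
    have h3 : (pull k).act (gq 1 (n / q ^ (2 * j)) 0 1 * gq q 0 0 (1 / q)) f1 = f1 := by
      rw [(pull k).act_mul, ih, hD]
    rw [e, (pull k).act_mul, hD] at h3
    exact h3

/-- Invariance of the values. -/
theorem h_inv (hq : q.Prime) (hqN : q.Coprime N) {f1 f2 : Cu → Cu → k} (h1 : IsSymb N f1)
    (h2 : IsSymb N f2) (hsum : f1 + (pull k).act (gq q 0 0 1) f2 = 0) (j : ℕ) (n : ℤ) (y : ℚ) :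
    f1 OnePoint.infty ((y + n / q ^ j : ℚ) : Cu) = f1 OnePoint.infty (y : Cu) := by
  have hq0 : (q : ℚ) ≠ 0 := by exact_mod_cast hq.ne_zero
  have h3 := inv_T hq hqN h1 h2 hsum j (n * q ^ j)
  have h4 := congrFun (congrFun h3 OnePoint.infty) (y : Cu)
  rw [pull_apply] at h4
  have e0 : ((n * q ^ j : ℤ) : ℚ) / q ^ (2 * j) = n / q ^ j := by
    push_cast; field_simp; ring
  rw [e0] at h4
  have e1 : gq 1 (n / q ^ j : ℚ) 0 1 • (OnePoint.infty : Cu) = OnePoint.infty := by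
    rw [infty_eq, gq_smul_cv (by norm_num) (Or.inl one_ne_zero)]
    simp [cv]
  have e2 : gq 1 (n / q ^ j : ℚ) 0 1 • (y : Cu) = ((y + n / q ^ j : ℚ) : Cu) := by
    rw [← cv_one y, gq_smul_cv (by norm_num) (Or.inr one_ne_zero), ← cv_one]
    congr 1 <;> ring
  rw [e1, e2] at h4
  exact h4


/-! ### Sums over cosets -/

theorem sum_cosets {G : Type*} [CommGroup G] [Fintype G] (u : G) (Φ : G → k)
    (h : ∀ β : G, ∑ j ∈ Finset.range (orderOf u), Φ (β * u ^ j) = 0) : ∑ g, Φ g = 0 := by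
  classical
  let H := Subgroup.zpowers u
  have hu : IsOfFinOrder u := isOfFinOrder_of_finite u
  have hbij : Function.Bijective fun x : (G ⧸ H) × Fin (orderOf u) ↦ x.1.out * u ^ (x.2 : ℕ) := by
    constructor
    · rintro ⟨z, i⟩ ⟨z', i'⟩ hzz
      simp only at hzz
      have h1 : z = z' := by
        have e1 : ((z.out * u ^ (i : ℕ) : G) : G ⧸ H) = z := by
          conv_rhs => rw [← QuotientGroup.out_eq' z]
          rw [QuotientGroup.mk_mul_of_mem _ (Subgroup.npow_mem_zpowers u i)]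
        have e2 : ((z'.out * u ^ (i' : ℕ) : G) : G ⧸ H) = z' := by
          conv_rhs => rw [← QuotientGroup.out_eq' z']
          rw [QuotientGroup.mk_mul_of_mem _ (Subgroup.npow_mem_zpowers u i')]
        rw [← e1, hzz, e2]
      subst h1
      have h2 := mul_left_cancel hzz
      have h3 := (pow_inj_mod (n := i) (m := i') (x := u)).mp h2
      rw [Nat.mod_eq_of_lt i.2, Nat.mod_eq_of_lt i'.2] at h3
      exact Prod.ext rfl (Fin.ext h3)
    · intro g
      have h1 : (((g : G ⧸ H)).out)⁻¹ * g ∈ H := by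
        rw [← QuotientGroup.eq, QuotientGroup.out_eq']
      obtain ⟨j, hj, hj'⟩ := (hu.mem_zpowers_iff_mem_range_orderOf.mp h1) |> Finset.mem_image.mp
      refine ⟨((g : G ⧸ H), ⟨j, Finset.mem_range.mp hj⟩), ?_⟩
      simp only [hj']
      rw [mul_inv_cancel_left]
  rw [← Fintype.sum_bijective _ hbij (fun x ↦ Φ (x.1.out * u ^ (x.2 : ℕ))) Φ (fun _ ↦ rfl),
    Fintype.sum_prod_type]
  refine Finset.sum_eq_zero fun z _ ↦ ?_
  rw [← h z.out, Finset.sum_range]

theorem sum_zmod_units {l : ℕ} [Fact l.Prime] (f : ZMod l → k) :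
    ∑ z, f z = f 0 + ∑ u : (ZMod l)ˣ, f u := by
  classical
  rw [Fintype.sum_eq_add_sum_compl 0]
  congr 1
  have h1 : ∑ u : (ZMod l)ˣ, f u = ∑ z : {a : ZMod l // a ≠ 0}, f z :=
    Fintype.sum_equiv unitsEquivNeZero _ _ (fun u ↦ rfl)
  rw [h1]
  exact Finset.sum_subtype _ (fun x ↦ by simp) _


/-! ### The key computation -/

theorem h_moebius {f1 : Cu → Cu → k} (h1 : IsSymb N f1) {γ : SL(2, ℤ)} (hγ : γ ∈ Gamma0 N)
    (hc : γ 1 0 ≠ 0) {z : ℚ} (hz : z ≠ 0) :
    f1 OnePoint.infty (((γ 0 0 : ℤ) / (γ 1 0 : ℤ) - 1 / ((γ 1 0 : ℤ) ^ 2 * z) : ℚ) : Cu) =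
      f1 OnePoint.infty (((γ 0 0 : ℤ) / (γ 1 0 : ℤ) : ℚ) : Cu) +
      f1 OnePoint.infty ((z - (γ 1 1 : ℤ) / (γ 1 0 : ℤ) : ℚ) : Cu) := by
  have hd := det_eq γ
  set a := γ 0 0
  set b := γ 0 1
  set c := γ 1 0
  set d := γ 1 1
  have hc' : (c : ℚ) ≠ 0 := by exact_mod_cast hc
  have hdq : (a : ℚ) * d - b * c = 1 := by exact_mod_cast hd
  have e1 : ι γ • (OnePoint.infty : Cu) = ((a / c : ℚ) : Cu) := by
    rw [ι_infty, cv_of_ne hc']
  have e2 : ι γ • ((z - d / c : ℚ) : Cu) = ((a / c - 1 / (c ^ 2 * z) : ℚ) : Cu) := by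
    rw [← cv_one (z - d / c), smul_cv _ (Or.inr one_ne_zero)]
    simp only [ι_apply]
    have e3 : (c : ℚ) * (z - d / c) + d * 1 = c * z := by field_simp; ring
    have e4 : (c : ℚ) * z ≠ 0 := mul_ne_zero hc' hz
    show cv ((a : ℚ) * (z - d / c) + b * 1) ((c : ℚ) * (z - d / c) + d * 1) = _
    rw [e3, cv_of_ne e4]
    congr 1
    field_simp
    linear_combination -hdq
  rw [← e1, ← e2, ← h1.add _ (ι γ • (OnePoint.infty : Cu)) _, h1.inv γ hγ]

theorem key_sum {p : ℕ} (hp : p.Prime) (hp2 : p ≠ 2) [CharP k p] (hq : q.Prime) (hqp : q ≠ p)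
    (hqN : q.Coprime N) {f1 f2 : Cu → Cu → k} (h1 : IsSymb N f1) (h2 : IsSymb N f2)
    (hsum : f1 + (pull k).act (gq q 0 0 1) f2 = 0) {γ : SL(2, ℤ)} (hγ : γ ∈ Gamma0 N)
    (hc : γ 1 0 ≠ 0) {c' e0 m : ℕ} (hc' : ((γ 1 0) ^ 2).natAbs = q ^ e0 * c') (hqc : ¬ q ∣ c')
    (hm : ¬ p ^ m ∣ c'.totient) {l : ℕ} (hl : l.Prime) (hlp : l ≠ p) (hlq : l ≠ q)
    (hlc : (γ 1 0) ∣ (l : ℤ) - 1) (hlm : p ^ m ∣ l - 1) (hm0 : m ≠ 0)
    (hlq' : (q : ZMod l) ^ ((l - 1) / p) ≠ 1) :
    (pull k).TT l f1 OnePoint.infty (ι γ • (OnePoint.infty : Cu)) =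
      ((l : k) + 1) * f1 OnePoint.infty (ι γ • (OnePoint.infty : Cu)) := by
  classical
  have : Fact l.Prime := ⟨hl⟩
  have hcQ : ((γ 1 0 : ℤ) : ℚ) ≠ 0 := by exact_mod_cast hc
  have hl0 : (l : ℚ) ≠ 0 := by exact_mod_cast hl.ne_zero
  have hq0 : (q : ℚ) ≠ 0 := by exact_mod_cast hq.ne_zero
  set a := γ 0 0 with ha
  set c := γ 1 0 with hcdef
  set d := γ 1 1 with hdd
  set x : ℚ := (a : ℚ) / c with hx
  set h : ℚ → k := fun y ↦ f1 OnePoint.infty (y : Cu) with hh
  have hper : ∀ (j : ℕ) (n : ℤ) (y : ℚ), h (y + n / q ^ j) = h y := fun j n y ↦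
    h_inv hq hqN h1 h2 hsum j n y
  have hper1 : ∀ (n : ℤ) (y : ℚ), h (y + n) = h y := fun n y ↦ by
    have := hper 0 n y
    simpa using this
  have hmoeb : ∀ z : ℚ, z ≠ 0 → h (x - 1 / ((c : ℚ) ^ 2 * z)) = h x + h (z - d / c) :=
    fun z hz ↦ h_moebius h1 hγ hc hz
  have einf : ι γ • (OnePoint.infty : Cu) = (x : Cu) := by
    rw [ι_infty, cv_of_ne hcQ]
  -- the function `F₀`
  set F0 : ℤ → k := fun n ↦ h (x - n / l) with hF0
  have hF0per : ∀ n n' : ℤ, (l : ℤ) ∣ n - n' → F0 n = F0 n' := by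
    rintro n n' ⟨t, ht⟩
    have e : (x - n / l : ℚ) = (x - n' / l) + ((-t : ℤ) : ℚ) := by
      have : (n : ℚ) - n' = l * t := by exact_mod_cast ht
      push_cast; field_simp; linear_combination -this
    simp only [hF0]
    rw [e, hper1]
  have hF00 : F0 0 = h x := by simp [hF0]
  have hF0ne : ∀ n : ℤ, n ≠ 0 → F0 n = h x + h (l / ((c : ℚ) ^ 2 * n) - d / c) := by
    intro n hn
    have hn' : (n : ℚ) ≠ 0 := by exact_mod_cast hn
    rw [← hmoeb _ (by positivity)]
    simp only [hF0]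
    congr 1
    field_simp
  -- the Hecke operator
  obtain ⟨t, ht⟩ := hlc
  have htq : (l : ℚ) - 1 = c * t := by exact_mod_cast ht
  have eT : (pull k).TT l f1 OnePoint.infty (x : Cu) = h x + ∑ b ∈ Finset.range l, F0 (a * t - b) := by
    simp only [RA.TT, RA.UU, Pi.add_apply, Finset.sum_apply, pull_apply]
    have e1 : gq (l : ℚ) 0 0 1 • (OnePoint.infty : Cu) = OnePoint.infty := by
      rw [infty_eq, gq_smul_cv (by simpa using hl0) (Or.inl one_ne_zero)]
      simp [cv]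
    have e2 : gq (l : ℚ) 0 0 1 • (x : Cu) = ((l * x : ℚ) : Cu) := by
      rw [← cv_one x, gq_smul_cv (by simpa using hl0) (Or.inr one_ne_zero), ← cv_one]
      congr 1 <;> ring
    have e3 : ∀ b : ℕ, gq (1 : ℚ) b 0 l • (OnePoint.infty : Cu) = OnePoint.infty := by
      intro b
      rw [infty_eq, gq_smul_cv (by simpa using hl0) (Or.inl one_ne_zero)]
      simp [cv]
    have e4 : ∀ b : ℕ, gq (1 : ℚ) b 0 l • (x : Cu) = (((x + b) / l : ℚ) : Cu) := by
      intro b
      rw [← cv_one x, gq_smul_cv (by simpa using hl0) (Or.inr one_ne_zero), ← cv_of_ne hl0]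
      congr 1 <;> ring
    rw [e1, e2]
    simp only [e3, e4]
    congr 1
    · show h (l * x) = h x
      have : (l * x : ℚ) = x + ((a * t : ℤ) : ℚ) := by
        rw [hx]; push_cast; field_simp; linear_combination (a : ℚ) * htq
      rw [this, hper1]
    · refine Finset.sum_congr rfl fun b _ ↦ ?_
      show h ((x + b) / l) = h (x - ((a * t - b : ℤ) : ℚ) / l)
      congr 1
      rw [hx]; push_cast; field_simp; linear_combination (-a : ℚ) * htq
  set Fb : ZMod l → k := fun z ↦ F0 (z.val : ℤ) with hFb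
  have hFb' : ∀ n : ℤ, F0 n = Fb (n : ZMod l) := by
    intro n
    apply hF0per
    rw [← ZMod.intCast_zmod_eq_zero_iff_dvd]
    push_cast
    rw [ZMod.natCast_zmod_val, sub_self]
  have eS : ∑ b ∈ Finset.range l, F0 (a * t - b) = ∑ z : ZMod l, Fb z := by
    rw [← Equiv.sum_comp (Equiv.subLeft (((a * t : ℤ) : ZMod l))), Finset.sum_range]
    refine Fintype.sum_equiv (ZMod.finEquiv l).toEquiv _ _ fun i ↦ ?_
    rw [hFb']
    congr 1
    rw [Equiv.subLeft_apply]
    have h5 : ((ZMod.finEquiv l).toEquiv i) = ((i : ℕ) : ZMod l) := by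
      obtain ⟨n, hn⟩ := Nat.exists_eq_succ_of_ne_zero hl.ne_zero
      subst hn
      exact (Fin.cast_val_eq_self i).symm
    rw [h5]
    push_cast
    ring
  have hqunit : IsUnit (q : ZMod l) := by
    rw [ZMod.isUnit_iff_coprime]
    exact ((Nat.coprime_primes hl hq).mpr hlq).symm
  obtain ⟨qU, hqU⟩ := hqunit
  have hcosets : ∑ u : (ZMod l)ˣ, (Fb u - h x) = 0 := by
    apply sum_cosets qU
    intro β
    -- choose a prime `b₀`
    have hcop : l.Coprime p := (Nat.coprime_primes hl hp).mpr hlp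
    obtain ⟨y, hy1, hy2⟩ := Nat.chineseRemainder hcop (β : ZMod l).val (p - 1)
    have : NeZero (l * p) := ⟨mul_ne_zero hl.ne_zero hp.ne_zero⟩
    have hyl : (y : ZMod l) = β := by
      have := (ZMod.natCast_eq_natCast_iff _ _ _).mpr hy1
      rwa [ZMod.natCast_zmod_val] at this
    have hyp : (y : ZMod p) = -1 := by
      have h6 := (ZMod.natCast_eq_natCast_iff _ _ _).mpr hy2
      rw [h6, Nat.cast_sub hp.one_le]
      simp
    have hyu : IsUnit (y : ZMod (l * p)) := by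
      rw [ZMod.isUnit_iff_coprime]
      apply Nat.Coprime.mul_right
      · rw [← ZMod.isUnit_iff_coprime, hyl]
        exact β.isUnit
      · rw [← ZMod.isUnit_iff_coprime, hyp]
        exact isUnit_one.neg
    obtain ⟨b0, hb0, hb0p, hb0e⟩ := Nat.forall_exists_prime_gt_and_eq_mod hyu (max q (max c' 1))
    have hb0' : (b0 : ZMod l) = β ∧ (b0 : ZMod p) = -1 := by
      have h6 := (ZMod.natCast_eq_natCast_iff _ _ _).mp hb0e
      constructor
      · rw [← hyl]
        exact (ZMod.natCast_eq_natCast_iff _ _ _).mpr (Nat.ModEq.of_mul_right p h6)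
      · rw [← hyp]
        exact (ZMod.natCast_eq_natCast_iff _ _ _).mpr (Nat.ModEq.of_mul_left l h6)
    have hb0q : q < b0 := lt_of_le_of_lt (le_max_left _ _) hb0
    have hb0c : c' < b0 := lt_of_le_of_lt ((le_max_left _ _).trans (le_max_right _ _)) hb0
    have hc'0 : 0 < c' := by
      apply Nat.pos_of_ne_zero
      rintro rfl
      exact hqc (dvd_zero q)
    have hb00 : (b0 : ℚ) ≠ 0 := by exact_mod_cast hb0p.ne_zero
    set e := c'.totient * (b0 - 1) with he
    have hdvd1 : c' ∣ q ^ e - 1 := by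
      have h6 : q ^ c'.totient ≡ 1 [MOD c'] := Nat.ModEq.pow_totient ((Nat.Prime.coprime_iff_not_dvd hq).mpr hqc)
      have h7 := h6.pow (b0 - 1)
      rw [← pow_mul, one_pow] at h7
      exact (Nat.modEq_iff_dvd' (Nat.one_le_pow _ _ hq.pos)).mp h7.symm
    have hdvd2 : b0 ∣ q ^ e - 1 := by
      have h6 : q ^ b0.totient ≡ 1 [MOD b0] := Nat.ModEq.pow_totient
        ((Nat.coprime_primes hq hb0p).mpr hb0q.ne)
      rw [Nat.totient_prime hb0p] at h6
      have h7 := h6.pow c'.totient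
      rw [← pow_mul, one_pow, mul_comm] at h7
      exact (Nat.modEq_iff_dvd' (Nat.one_le_pow _ _ hq.pos)).mp h7.symm
    have hcop' : c'.Coprime b0 := ((Nat.Prime.coprime_iff_not_dvd hb0p).mpr
      (fun hd ↦ absurd (Nat.le_of_dvd hc'0 hd) (not_le.mpr hb0c))).symm
    obtain ⟨s, hs⟩ := hcop'.mul_dvd_of_dvd_of_dvd hdvd1 hdvd2
    have hs' : (q : ℚ) ^ e - 1 = c' * b0 * s := by
      have h8 : q ^ e = c' * b0 * s + 1 := by
        have := Nat.one_le_pow e q hq.pos
        omega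
      have h9 : (q : ℚ) ^ e = c' * b0 * s + 1 := by exact_mod_cast h8
      rw [h9]; ring
    have hcsq : (c : ℚ) ^ 2 = q ^ e0 * c' := by
      have h6 : ((c ^ 2).natAbs : ℤ) = c ^ 2 := Int.natAbs_of_nonneg (sq_nonneg c)
      rw [hc'] at h6
      have h7 : (c ^ 2 : ℤ) = q ^ e0 * c' := by rw [← h6]; push_cast; ring
      exact_mod_cast h7
    have hval : ∀ j : ℕ, Fb ((β * qU ^ j : (ZMod l)ˣ) : ZMod l) - h x =
        h (l / ((c : ℚ) ^ 2 * (b0 * q ^ j)) - d / c) := by
      intro j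
      have h6 : ((β * qU ^ j : (ZMod l)ˣ) : ZMod l) = (((b0 * q ^ j : ℕ) : ℤ) : ZMod l) := by
        push_cast
        rw [hb0'.1, hqU]
      rw [h6, ← hFb', hF0ne _ (by
        have := Nat.mul_ne_zero hb0p.ne_zero (pow_ne_zero j hq.ne_zero)
        exact_mod_cast this)]
      push_cast
      ring
    apply sum_zero_of_periodic hp (m := m) (e := e) (φ := fun j ↦ Fb ((β * qU ^ j : (ZMod l)ˣ) : ZMod l) - h x)
    · intro j
      rw [pow_add, pow_orderOf_eq_one, mul_one]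
    · intro j
      rw [hval, hval, ← hper (e0 + j + e) (l * s) (l / ((c : ℚ) ^ 2 * (b0 * q ^ (j + e))) - d / c)]
      congr 1
      have hc'q : (c' : ℚ) ≠ 0 := by exact_mod_cast hc'0.ne'
      rw [hcsq]
      push_cast
      have hqe : (q : ℚ) ^ e = c' * b0 * s + 1 := by linear_combination hs'
      have e5 : (q : ℚ) ^ (j + e) = q ^ j * q ^ e := pow_add _ _ _
      have e6 : (q : ℚ) ^ (e0 + j + e) = q ^ e0 * q ^ j * q ^ e := by rw [pow_add, pow_add]
      rw [e5, e6]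
      have hqe0 : (q : ℚ) ^ e ≠ 0 := pow_ne_zero _ hq0
      field_simp
      linear_combination (-(l : ℚ) * c) * hqe
    · -- `p ^ m ∣ orderOf qU`
      have h6 : orderOf qU ∣ l - 1 := by
        have := orderOf_dvd_card (x := qU)
        rwa [ZMod.card_units_eq_totient, Nat.totient_prime hl] at this
      obtain ⟨t', ht'⟩ := h6
      have hpt : ¬ p ∣ t' := by
        rintro ⟨t'', rfl⟩
        apply hlq'
        have h7 : (l - 1) / p = orderOf qU * t'' := by
          rw [ht', mul_left_comm]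
          exact Nat.mul_div_cancel_left _ hp.pos
        rw [h7, ← hqU, ← Units.val_pow_eq_pow_val, pow_mul, pow_orderOf_eq_one, one_pow, Units.val_one]
      rw [ht'] at hlm
      exact (Nat.Coprime.pow_left m ((Nat.Prime.coprime_iff_not_dvd hp).mpr hpt)).dvd_of_dvd_mul_right hlm
    · intro hdm
      apply hm
      have hpb : ¬ p ∣ b0 - 1 := by
        intro hd
        have h6 : ((b0 - 1 : ℕ) : ZMod p) = 0 := (ZMod.natCast_eq_zero_iff _ _).mpr hd
        rw [Nat.cast_sub hb0p.one_le, hb0'.2] at h6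
        have : Fact p.Prime := ⟨hp⟩
        have h7 : ((2 : ℕ) : ZMod p) = 0 := by
          push_cast at h6 ⊢
          linear_combination -h6
        rw [ZMod.natCast_eq_zero_iff] at h7
        exact hp2 ((Nat.prime_dvd_prime_iff_eq hp Nat.prime_two).mp h7)
      exact (Nat.Coprime.pow_left m ((Nat.Prime.coprime_iff_not_dvd hp).mpr hpb)).dvd_of_dvd_mul_right hdm
  rw [einf, eT, eS, sum_zmod_units]
  rw [Finset.sum_sub_distrib, Finset.sum_const, Finset.card_univ, ZMod.card_units_eq_totient,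
    Nat.totient_prime hl, nsmul_eq_mul, Nat.cast_sub hl.one_le, Nat.cast_one] at hcosets
  have h0 : Fb 0 = h x := by
    have := hFb' 0
    rw [hF00] at this
    rw [this]; simp
  rw [h0]
  show h x + (h x + _) = ((l : k) + 1) * h x
  linear_combination hcosets


/-- Ihara's lemma. -/
theorem ihara {p : ℕ} (hp : p.Prime) (hp2 : p ≠ 2) [CharP k p] (hq : q.Prime) (hqp : q ≠ p)
    (hN : 0 < N) (hqN : q.Coprime N) {f1 f2 : Cu → Cu → k} (h1 : IsSymb N f1) (h2 : IsSymb N f2)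
    (hsum : f1 + (pull k).act (gq q 0 0 1) f2 = 0)
    (hE : ∀ M : ℕ, 0 < M → ∃ l : ℕ, l.Prime ∧ l ≠ p ∧ l ≠ q ∧ l ≡ 1 [MOD M * p] ∧
      (q : ZMod l) ^ ((l - 1) / p) ≠ 1 ∧
      ∃ a : k, a ≠ (l : k) + 1 ∧ (pull k).TT l f1 = fun r s ↦ a * f1 r s) : f1 = 0 := by
  have hk2 : (2 : k) ≠ 0 := by
    intro h
    have h3 : ((2 : ℕ) : k) = 0 := by exact_mod_cast h
    rw [CharP.cast_eq_zero_iff k p] at h3
    exact hp2 ((Nat.prime_dvd_prime_iff_eq hp Nat.prime_two).mp h3)
  have hγ0 : ∀ γ ∈ Gamma0 N, f1 OnePoint.infty (ι γ • (OnePoint.infty : Cu)) = 0 := by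
    intro γ hγ
    by_cases hc : γ 1 0 = 0
    · have : ι γ • (OnePoint.infty : Cu) = OnePoint.infty := by
        rw [ι_infty, hc]; simp [cv]
      rw [this, h1.self]
    · have hc2 : ((γ 1 0) ^ 2).natAbs ≠ 0 := by
        rw [Int.natAbs_ne_zero]; exact pow_ne_zero 2 hc
      obtain ⟨e0, c', hqc, hc'⟩ := Nat.exists_eq_pow_mul_and_not_dvd hc2 q hq.ne_one
      have hc'0 : 0 < c' := by
        apply Nat.pos_of_ne_zero
        rintro rfl
        exact hqc (dvd_zero q)
      set m := c'.totient with hm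
      have hm0 : 0 < m := Nat.totient_pos.mpr hc'0
      have hmm : ¬ p ^ m ∣ c'.totient := by
        intro hd
        have h3 := Nat.le_of_dvd hm0 hd
        exact absurd h3 (not_le.mpr (Nat.lt_pow_self hp.one_lt))
      obtain ⟨l, hl, hlp, hlq, hl1, hlq', a, ha, haT⟩ := hE ((γ 1 0).natAbs * p ^ m)
        (Nat.mul_pos (Int.natAbs_pos.mpr hc) (pow_pos hp.pos m))
      have hdl : (γ 1 0).natAbs * p ^ m * p ∣ l - 1 := (Nat.modEq_iff_dvd' hl.one_le).mp hl1.symm
      have hlc : (γ 1 0) ∣ (l : ℤ) - 1 := by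
        have h3 : (γ 1 0).natAbs ∣ l - 1 := (dvd_mul_right _ _).trans ((dvd_mul_right _ _).trans hdl)
        have h4 : ((γ 1 0).natAbs : ℤ) ∣ ((l - 1 : ℕ) : ℤ) := Int.natCast_dvd_natCast.mpr h3
        rw [Nat.cast_sub hl.one_le, Nat.cast_one] at h4
        exact Int.natAbs_dvd.mp h4
      have hlm : p ^ m ∣ l - 1 := (dvd_mul_left _ _).trans ((dvd_mul_right _ _).trans hdl)
      have h3 := key_sum hp hp2 hq hqp hqN h1 h2 hsum hγ hc hc' hqc hmm hl hlp hlq hlc hlm hm0.ne' hlq'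
      rw [haT] at h3
      have h4 : (a - ((l : k) + 1)) * f1 OnePoint.infty (ι γ • (OnePoint.infty : Cu)) = 0 := by
        linear_combination h3
      exact (mul_eq_zero.mp h4).resolve_left (sub_ne_zero.mpr ha)
  -- `f₁` is a boundary
  obtain ⟨l, hl, hlp, hlq, hl1, hlq', a, ha, haT⟩ := hE N hN
  have hdl : N * p ∣ l - 1 := (Nat.modEq_iff_dvd' hl.one_le).mp hl1.symm
  have hlN : (N : ℤ) ∣ (l : ℤ) - 1 := by
    have h4 : (N : ℤ) ∣ ((l - 1 : ℕ) : ℤ) := Int.natCast_dvd_natCast.mpr ((dvd_mul_right _ _).trans hdl)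
    rwa [Nat.cast_sub hl.one_le, Nat.cast_one] at h4
  have hT := TT_boundary (M := N) hk2 (F := f1) (β := fun s ↦ 2 * f1 OnePoint.infty s)
    (fun γ hγ r ↦ by
      beta_reduce
      rw [← h1.add OnePoint.infty (ι γ • (OnePoint.infty : Cu)) (ι γ • r), hγ0 γ hγ, h1.inv γ hγ,
        zero_add]) (fun r s ↦ by
      rw [← h1.add OnePoint.infty r s]; ring) hl hlN
  ext r s
  have h5 := congrFun (congrFun (haT.symm.trans hT) r) s
  have h4 : (a - ((l : k) + 1)) * f1 r s = 0 := by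
    linear_combination h5
  exact (mul_eq_zero.mp h4).resolve_left (sub_ne_zero.mpr ha)

/-- Ihara's lemma, the second component. -/
theorem eq_zero_of_deg (hq : q ≠ 0) {f : Cu → Cu → k} (h : (pull k).act (gq q 0 0 1) f = 0) : f = 0 := by
  have hq0 : (q : ℚ) ≠ 0 := by exact_mod_cast hq
  have h1 : f = (pull k).act (gq (1 / q) 0 0 1) ((pull k).act (gq q 0 0 1) f) := by
    rw [RA.act_act (e := 1) (f := 0) (g := 0) (k := 1) (by simpa using hq) (by simpa using hq)
      (by field_simp; ring) (by ring) (by ring) (by ring), gq_one, (pull k).act_one]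
  rw [h1, h, map_zero]

end Fermat.Agent.H16.LR
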