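import Mathlib
import Fermat.Agent.H16.LR.Integral
import Fermat.Agent.H16.LR.Ihara
import Fermat.Agent.EGal.Gal
import Fermat.Prelude.Def_FreyPackage_LevelRaising

/-!
# Level raising
-/

set_option autoImplicit false

open UpperHalfPlane hiding I
open Matrix ModularGroup CongruenceSubgroup Filter Function ModularFormClass
open scoped MatrixGroups ModularForm Manifold

noncomputable section

namespace Fermat.Agent.H16.LR

open LA

/-- A dominating valuation ring. -/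
theorem exists_valuation (𝔪 : Ideal (integralClosure ℤ ℂ)) (hmax : 𝔪.IsMaximal) :
    ∃ (𝒱 : ValuationSubring ℂ) (e : integralClosure ℤ ℂ →+* 𝒱),
      (∀ x, ((e x : 𝒱) : ℂ) = (x : ℂ)) ∧ ∀ x, res 𝒱 (e x) = 0 ↔ x ∈ 𝔪 := by
  let A : Subring ℂ := (integralClosure ℤ ℂ).toSubring
  let I : Ideal A := 𝔪
  have hI : I ≠ ⊤ := hmax.ne_top
  obtain ⟨𝒱, h1, h2⟩ := Ideal.image_subset_nonunits_valuationSubring I hI
  let e : integralClosure ℤ ℂ →+* 𝒱 := (Subring.inclusion h1 : A →+* 𝒱.toSubring)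
  have he : ∀ x, ((e x : 𝒱) : ℂ) = (x : ℂ) := fun _ ↦ rfl
  refine ⟨𝒱, e, he, fun x ↦ ?_⟩
  have h3 : 𝔪 ≤ RingHom.ker ((res 𝒱).comp e) := by
    intro y hy
    rw [RingHom.mem_ker, RingHom.comp_apply, IsLocalRing.residue_eq_zero_iff]
    have h4 : ((e y : 𝒱) : ℂ) ∈ 𝒱.nonunits := h2 ⟨y, hy, rfl⟩
    rw [ValuationSubring.mem_nonunits_iff_exists_mem_maximalIdeal] at h4
    obtain ⟨_, h5⟩ := h4
    exact h5
  have h4 : RingHom.ker ((res 𝒱).comp e) ≠ ⊤ := RingHom.ker_ne_top _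
  have h5 := hmax.eq_of_le h4 h3
  constructor
  · intro h
    rw [h5]; exact h
  · intro h
    exact h3 h

open WeierstrassCurve WeierstrassCurve.Affine WeierstrassCurve.Affine.Point in
/-- Level raising. -/
theorem level_raising
    (E : WeierstrassCurve ℚ) [E.IsElliptic] {W : WeierstrassCurve ℤ} (hW : W.IsIntegralModelOf E)
    {p N q : ℕ} (hp : p.Prime) (hp2 : p ≠ 2) (hN : 0 < N) (hq : q.Prime) (hqN' : ¬ q ∣ N)
    (hqp : q ≠ p) (hirr : GaloisRepIsIrreducible (K := AlgebraicClosure ℚ) ℚ E p)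
    (f : CuspForm (CongruenceSubgroup.Gamma0 N) 2) (𝔪 : Ideal (integralClosure ℤ ℂ))
    (hf : f.IsNormalizedEigenform) (hmax : 𝔪.IsMaximal) (hpm : (p : integralClosure ℤ ℂ) ∈ 𝔪)
    (hcong : ∀ ℓ : ℕ, ℓ.Prime → W.IsGoodPrimeFor ℓ → ¬ ℓ ∣ N → ℓ ≠ p →
      ∃ a : integralClosure ℤ ℂ, (a : ℂ) = ModularFormClass.qCoeff f ℓ ∧
        a - ((W.apOfModel ℓ : ℤ) : integralClosure ℤ ℂ) ∈ 𝔪)
    (hLR : ∃ a : integralClosure ℤ ℂ, (a : ℂ) = ModularFormClass.qCoeff f q ∧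
      a ^ 2 - ((q : integralClosure ℤ ℂ) + 1) ^ 2 ∈ 𝔪) :
    ∃ g : CuspForm (CongruenceSubgroup.Gamma0 (N * q)) 2, g.IsNormalizedEigenform ∧
      (∀ ℓ : ℕ, ℓ.Prime → W.IsGoodPrimeFor ℓ → ¬ ℓ ∣ N * q → ℓ ≠ p →
        ∃ a : integralClosure ℤ ℂ, (a : ℂ) = ModularFormClass.qCoeff g ℓ ∧
          a - ((W.apOfModel ℓ : ℤ) : integralClosure ℤ ℂ) ∈ 𝔪) ∧
      ModularFormClass.qCoeff g q ^ 2 = 1 := by
  have : NeZero N := ⟨hN.ne'⟩
  have : NeZero (N * q) := ⟨mul_ne_zero hN.ne' hq.ne_zero⟩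
  have hqN : q.Coprime N := (Nat.Prime.coprime_iff_not_dvd hq).mpr hqN'
  obtain ⟨w, -, -⟩ := RA.exists_WQ hqN 1 (Nat.coprime_one_right q)
  obtain ⟨𝒱, e, he, hker⟩ := exists_valuation 𝔪 hmax
  -- the characteristic
  have hchar : CharP (kk 𝒱) p := by
    have h0 : ((p : ℕ) : kk 𝒱) = 0 := by
      have := (hker _).mpr hpm
      rwa [map_natCast, map_natCast] at this
    obtain ⟨r, hr⟩ := CharP.exists (kk 𝒱)
    have h1 : r ∣ p := (CharP.cast_eq_zero_iff (kk 𝒱) r p).mp h0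
    rcases (Nat.dvd_prime hp).mp h1 with h | h
    · exfalso
      subst h
      exact CharP.char_ne_one (kk 𝒱) 1 rfl
    · rwa [h] at hr
  have hk2 : (2 : kk 𝒱) ≠ 0 := by
    intro h
    have h3 : ((2 : ℕ) : kk 𝒱) = 0 := by exact_mod_cast h
    rw [CharP.cast_eq_zero_iff (kk 𝒱) p] at h3
    exact hp2 ((Nat.prime_dvd_prime_iff_eq hp Nat.prime_two).mp h3)
  -- eigenvalues
  let L' := {l : ℕ // l.Prime ∧ l.Coprime N}
  let A' : L' → integralClosure ℤ ℂ := fun l ↦ ⟨qCoeff ⇑f l, qCoeff_integral hf l.2.1 l.2.2⟩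
  have hLN : ∀ l : LL N q, (l : ℕ).Coprime N := fun l ↦ Nat.Coprime.coprime_mul_right_right l.2.2
  let ii : LL N q → L' := fun l ↦ ⟨l.1, l.2.1, hLN l⟩
  let a : LL N q → 𝒱 := fun l ↦ e (A' (ii l))
  have hap : ∀ l : LL N q, W.IsGoodPrimeFor l → (l : ℕ) ≠ p →
      res 𝒱 (a l) = ((W.apOfModel l : ℤ) : kk 𝒱) := by
    intro l hl hlp
    obtain ⟨b, hb, hb'⟩ := hcong l l.2.1 hl ((Nat.Prime.coprime_iff_not_dvd l.2.1).mp (hLN l)) hlp
    have h1 : b = A' (ii l) := Subtype.ext hb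
    rw [h1] at hb'
    have h2 := (hker _).mpr hb'
    rw [map_sub, map_sub, map_intCast, map_intCast, sub_eq_zero] at h2
    exact h2
  -- good auxiliary primes
  have hGAL : ∀ M : ℕ, 0 < M → ∃ l : LL N q, (l : ℕ) ≠ p ∧ (l : ℕ) ≠ q ∧
      (l : ℕ) ≡ 1 [MOD M * p] ∧ (q : ZMod l) ^ ((l - 1) / p) ≠ 1 ∧
      res 𝒱 (a l) ≠ 2 ∧ ((l : ℕ) : kk 𝒱) = 1 := by
    intro M hM
    obtain ⟨l, hl, hlT, hlg, hlp, hlq, hl1, hlpow, hla⟩ :=
      Fermat.Agent.EGal.GAL E hW hp hp2 hq hqp hirr M hM (N * q).primeFactors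
    have hlN : l.Coprime (N * q) := by
      rw [Nat.Prime.coprime_iff_not_dvd hl]
      intro h
      exact hlT (Nat.mem_primeFactors.mpr ⟨hl, h, NeZero.ne _⟩)
    refine ⟨⟨l, hl, hlN⟩, hlp, hlq, hl1, hlpow, ?_, ?_⟩
    · rw [hap ⟨l, hl, hlN⟩ hlg hlp]
      intro h
      apply hla
      have h1 : ((W.apOfModel l - 2 : ℤ) : kk 𝒱) = 0 := by
        push_cast
        have h2 : ((W.apOfModel l : ℤ) : kk 𝒱) = 2 := h
        rw [h2, sub_self]
      exact (CharP.intCast_eq_zero_iff (kk 𝒱) p _).mp h1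
    · have h1 : l ≡ 1 [MOD p] := Nat.ModEq.of_mul_left M hl1
      have h2 := (CharP.cast_eq_iff_mod_eq (kk 𝒱) p).mpr h1
      rw [Nat.cast_one] at h2
      exact h2
  -- counting
  have key := count hq hqN w 𝒱 a ?_ ?_ ?_
  · obtain ⟨G, c, hG0, hG, htr, htrw, hT⟩ := key
    obtain ⟨g, hg0, hgT, hgK⟩ := exists_forms hq hqN w hG hG0 htr htrw (fun l ↦ (c l : ℂ))
      (fun l ↦ (hT l).1) (by
        obtain ⟨l, -, -, hl1, -, hl2, hl3⟩ := hGAL (N * q) (Nat.pos_of_ne_zero (NeZero.ne _))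
        refine ⟨l, ?_, fun h ↦ ?_⟩
        · have h1 : (l : ℕ) ≡ 1 [MOD N * q] := Nat.ModEq.of_mul_right p hl1
          have h2 := (Nat.modEq_iff_dvd.mp h1.symm)
          exact_mod_cast h2
        · have h1 : c l = ((l : ℕ) : 𝒱) + 1 := by
            apply Subtype.ext
            rw [h]
            simp
          have h2 := (hT l).2
          rw [h1, map_add, map_one, map_natCast, hl3] at h2
          apply hl2
          rw [← h2]
          norm_num)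
    obtain ⟨h, hh, hhT, hhq⟩ := exists_newform hq hqN hg0 hgT hgK
    refine ⟨h, hh, fun ℓ hℓ hℓg hℓN hℓp ↦ ?_, hhq⟩
    have hℓc : ℓ.Coprime (N * q) := (Nat.Prime.coprime_iff_not_dvd hℓ).mpr hℓN
    let l : LL N q := ⟨ℓ, hℓ, hℓc⟩
    refine ⟨⟨qCoeff ⇑h ℓ, qCoeff_integral hh hℓ hℓc⟩, rfl, ?_⟩
    rw [← hker, map_sub, map_sub, map_intCast, map_intCast, sub_eq_zero]
    have h1 : e ⟨qCoeff ⇑h ℓ, qCoeff_integral hh hℓ hℓc⟩ = c l := by
      apply Subtype.ext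
      rw [he]
      exact hhT l
    rw [h1, (hT l).2]
    exact hap l hℓg hℓp
  · -- Ihara
    intro f1 f2 h1 h2 hT1 _ hsum
    have hf1 : f1 = 0 := by
      refine ihara hp hp2 hq hqp hN hqN h1.toIsSymb h2.toIsSymb hsum fun M hM ↦ ?_
      obtain ⟨l, hlp, hlq, hl1, hlpow, hl2, hl3⟩ := hGAL M hM
      refine ⟨l, l.2.1, hlp, hlq, hl1, hlpow, res 𝒱 (a l), ?_, hT1 l⟩
      rw [hl3]
      intro h
      apply hl2
      rw [h]
      norm_num
    refine ⟨hf1, ?_⟩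
    rw [hf1, zero_add] at hsum
    exact eq_zero_of_deg hq.ne_zero hsum
  · -- reduction
    obtain ⟨F, hF0, hF, hFT⟩ := exists_reduction 𝒱 (isSymb_lam f) (lam_ne_zero hf)
      (L := L') (fun l ↦ (l : ℕ)) (fun l ↦ l.2.1) (fun l ↦ l.2.2) (fun l ↦ e (A' l)) (fun l ↦ by
        rw [TT_lam hf l.2.1 l.2.2, he])
    refine ⟨F, hF0, hF, fun l ↦ hFT (ii l), ?_⟩
    obtain ⟨b, hb, hb'⟩ := hLR
    have h1 : b = A' ⟨q, hq, hqN⟩ := Subtype.ext hb
    rw [h1] at hb'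
    have h2 := (hker _).mpr hb'
    set x := res 𝒱 (e (A' ⟨q, hq, hqN⟩)) with hx
    have h3 : x ^ 2 - ((q : kk 𝒱) + 1) ^ 2 = 0 := by
      rw [map_sub, map_sub, map_pow, map_pow, map_pow, map_pow, map_add, map_add, map_natCast,
        map_natCast, map_one, map_one] at h2
      exact h2
    have h4 : (x - (q + 1)) * (x + (q + 1)) = 0 := by linear_combination h3
    have h5 := hFT ⟨q, hq, hqN⟩
    rcases mul_eq_zero.mp h4 with h | h
    · refine ⟨1, by ring, ?_⟩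
      rw [h5, ← hx, sub_eq_zero.mp h]
      ext r s
      ring
    · refine ⟨-1, by ring, ?_⟩
      rw [h5, ← hx, eq_neg_of_add_eq_zero_left h]
      ext r s
      ring
  · -- boundary
    rintro F hF hT ⟨β, hβ, hFβ⟩
    obtain ⟨l, -, -, hl1, -, hl2, hl3⟩ := hGAL (N * q) (Nat.pos_of_ne_zero (NeZero.ne _))
    have h1 : (l : ℕ) ≡ 1 [MOD N * q] := Nat.ModEq.of_mul_right p hl1
    have h2 := (Nat.modEq_iff_dvd.mp h1.symm)
    have h3 := TT_boundary hk2 hβ hFβ l.2.1 (by exact_mod_cast h2)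
    rw [hT l] at h3
    ext r s
    have h4 := congrFun (congrFun h3 r) s
    have h5 : (res 𝒱 (a l) - 2) * F r s = 0 := by
      beta_reduce at h4
      rw [hl3] at h4
      linear_combination h4
    exact (mul_eq_zero.mp h5).resolve_left (sub_ne_zero.mpr hl2)

end Fermat.Agent.H16.LR
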