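import Mathlib
import Fermat.Agent.H16.LR.Mats
import Fermat.Agent.H16.LR.Psi
import Fermat.Agent.H22.Ihara7
import Fermat.Agent.H22.GamHRes
import Fermat.Agent.TC.Rank2

/-!
# Characters of modular symbols with general coefficients
-/

set_option autoImplicit false

open Matrix ModularGroup CongruenceSubgroup Function
open scoped MatrixGroups

noncomputable section

namespace Fermat.Agent.H16.LR

open H22

variable {M : ℕ} {A : Type} [AddCommGroup A]

/-- `φ` is the character of the symbol `F`. -/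
def Rel (φ : Additive (Gamma0 M) →+ A) (F : Cu → Cu → A) : Prop :=
  ∀ γ : Gamma0 M, φ (Additive.ofMul γ) = F OnePoint.infty (ι (γ : SL(2, ℤ)) • (OnePoint.infty : Cu))

theorem Rel.ext {φ φ' : Additive (Gamma0 M) →+ A} {F : Cu → Cu → A} (h : Rel φ F) (h' : Rel φ' F) :
    φ = φ' :=
  AddMonoidHom.ext fun γ ↦ (h (Additive.toMul γ)).trans (h' (Additive.toMul γ)).symm

theorem exists_rel {F : Cu → Cu → A} (h : IsSymb M F) : ∃ φ : Additive (Gamma0 M) →+ A, Rel φ F := by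
  refine ⟨AddMonoidHom.mk' (fun γ ↦ F OnePoint.infty
    (ι ((Additive.toMul γ : Gamma0 M) : SL(2, ℤ)) • (OnePoint.infty : Cu))) fun γ δ ↦ ?_, fun _ ↦ rfl⟩
  have h1 := h.add OnePoint.infty (ι ((Additive.toMul γ : Gamma0 M) : SL(2, ℤ)) • (OnePoint.infty : Cu))
    (ι ((Additive.toMul (γ + δ) : Gamma0 M) : SL(2, ℤ)) • (OnePoint.infty : Cu))
  have h2 : ι ((Additive.toMul (γ + δ) : Gamma0 M) : SL(2, ℤ)) • (OnePoint.infty : Cu) =
    ι ((Additive.toMul γ : Gamma0 M) : SL(2, ℤ)) •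
      ι ((Additive.toMul δ : Gamma0 M) : SL(2, ℤ)) • (OnePoint.infty : Cu) := by
    rw [toMul_add, Subgroup.coe_mul, ι_mul, mul_smul]
  rw [h2, h.inv _ (Additive.toMul γ : Gamma0 M).2] at h1
  rw [h2]
  exact h1.symm

theorem Rel.parabolic {φ : Additive (Gamma0 M) →+ A} {F : Cu → Cu → A} (h : Rel φ F)
    (hF : IsSymb M F) {γ : Gamma0 M}
    (hγ : ((γ : SL(2, ℤ)) : Matrix (Fin 2) (Fin 2) ℤ).trace ^ 2 = 4) :
    φ (Additive.ofMul γ) = 0 := by
  obtain ⟨r, hr⟩ := exists_fix hγ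
  rw [h]
  have h1 := hF.add OnePoint.infty r (ι (γ : SL(2, ℤ)) • (OnePoint.infty : Cu))
  have h2 := hF.inv _ γ.2 r OnePoint.infty
  rw [hr] at h2
  rw [← h1, h2, hF.symm, add_comm, add_neg_cancel]

/-- Parabolic homomorphisms come from symbols. -/
theorem exists_symb_of_parabolic {φ : Additive (Gamma0 M) →+ A}
    (h : ∀ γ : Gamma0 M, ((γ : SL(2, ℤ)) : Matrix (Fin 2) (Fin 2) ℤ).trace ^ 2 = 4 →
      φ (Additive.ofMul γ) = 0) : ∃ F : Cu → Cu → A, IsSymb M F ∧ Rel φ F := by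
  classical
  -- orbits
  let s : Setoid Cu := { r := fun r s ↦ ∃ γ : Gamma0 M, ι (γ : SL(2, ℤ)) • r = s
                         iseqv := ⟨fun r ↦ ⟨1, by simp [ι_one]⟩, fun {r s} ⟨γ, h⟩ ↦ ⟨γ⁻¹, by
                            rw [← h, Subgroup.coe_inv, ι_inv, inv_smul_smul]⟩,
                            fun {r s t} ⟨γ, h⟩ ⟨δ, h'⟩ ↦ ⟨δ * γ, by
                              rw [Subgroup.coe_mul, ι_mul, mul_smul, h, h']⟩⟩ }
  let c : Cu → Cu := fun r ↦ (Quotient.mk s r).out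
  have hc : ∀ r, ∃ γ : Gamma0 M, ι (γ : SL(2, ℤ)) • c r = r := fun r ↦
    Quotient.exact (Quotient.out_eq (Quotient.mk s r))
  have hcc : ∀ (γ : Gamma0 M) r, c (ι (γ : SL(2, ℤ)) • r) = c r := by
    intro γ r
    have : Quotient.mk s (ι (γ : SL(2, ℤ)) • r) = Quotient.mk s r := Quotient.sound ⟨γ⁻¹, by
      rw [Subgroup.coe_inv, ι_inv, inv_smul_smul]⟩
    show (Quotient.mk s (ι (γ : SL(2, ℤ)) • r)).out = (Quotient.mk s r).out
    rw [this]
  choose g hg using hc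
  -- the stabiliser
  have hstab : ∀ (γ δ : Gamma0 M) (r : Cu), ι (γ : SL(2, ℤ)) • r = ι (δ : SL(2, ℤ)) • r →
      φ (Additive.ofMul γ) = φ (Additive.ofMul δ) := by
    intro γ δ r hr
    have h1 : ι ((δ⁻¹ * γ : Gamma0 M) : SL(2, ℤ)) • r = r := by
      rw [Subgroup.coe_mul, ι_mul, mul_smul, hr, Subgroup.coe_inv, ι_inv, inv_smul_smul]
    have h2 : φ (Additive.ofMul (δ⁻¹ * γ)) = 0 := by
      apply h
      obtain ⟨x, hx⟩ := exists_smul_infty r
      have h3 : ι (x⁻¹ * ((δ⁻¹ * γ : Gamma0 M) : SL(2, ℤ)) * x) • (OnePoint.infty : Cu) =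
          OnePoint.infty := by
        rw [ι_mul, ι_mul, mul_smul, mul_smul, hx, h1, ← hx, ι_inv, inv_smul_smul]
      obtain ⟨n, hn⟩ := stab_infty h3
      have h4 : (((δ⁻¹ * γ : Gamma0 M) : SL(2, ℤ)) : Matrix (Fin 2) (Fin 2) ℤ).trace =
          ((x⁻¹ * ((δ⁻¹ * γ : Gamma0 M) : SL(2, ℤ)) * x : SL(2, ℤ)) : Matrix (Fin 2) (Fin 2) ℤ).trace := by
        rw [mul_assoc, Matrix.SpecialLinearGroup.coe_mul x⁻¹, Matrix.trace_mul_comm,
          ← Matrix.SpecialLinearGroup.coe_mul, mul_assoc, mul_inv_cancel, mul_one]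
      rw [h4]
      rcases hn with hn | hn
      · rw [hn, coe_T_zpow, Matrix.trace_fin_two_of]; norm_num
      · rw [hn, Matrix.SpecialLinearGroup.coe_neg, Matrix.trace_neg, coe_T_zpow, Matrix.trace_fin_two_of]
        norm_num
    rw [ofMul_mul, map_add, ofMul_inv, map_neg, add_comm, ← sub_eq_add_neg, sub_eq_zero] at h2
    exact h2
  let P : Cu → A := fun r ↦ φ (Additive.ofMul (g r))
  have hP : ∀ (γ : Gamma0 M) r, P (ι (γ : SL(2, ℤ)) • r) = P r + φ (Additive.ofMul γ) := by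
    intro γ r
    have h1 : ι ((g (ι (γ : SL(2, ℤ)) • r) : Gamma0 M) : SL(2, ℤ)) • c r =
        ι ((γ * g r : Gamma0 M) : SL(2, ℤ)) • c r := by
      have h2 := hg (ι (γ : SL(2, ℤ)) • r)
      rw [hcc] at h2
      rw [h2, Subgroup.coe_mul, ι_mul, mul_smul, hg]
    have h3 := hstab _ _ _ h1
    show φ (Additive.ofMul (g (ι (γ : SL(2, ℤ)) • r))) = _
    rw [h3, ofMul_mul, map_add, add_comm]
  refine ⟨fun r s ↦ P s - P r, ⟨fun r s t ↦ by abel, fun γ hγ r s ↦ ?_⟩, fun γ ↦ ?_⟩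
  · beta_reduce
    rw [hP ⟨γ, hγ⟩, hP ⟨γ, hγ⟩]
    abel
  · beta_reduce
    rw [hP]
    abel

theorem Rel.add {φ φ' : Additive (Gamma0 M) →+ A} {F F' : Cu → Cu → A} (h : Rel φ F)
    (h' : Rel φ' F') : Rel (φ + φ') (F + F') := fun γ ↦ by
  rw [AddMonoidHom.add_apply, h, h']; rfl

theorem Rel.sub {φ φ' : Additive (Gamma0 M) →+ A} {F F' : Cu → Cu → A} (h : Rel φ F)
    (h' : Rel φ' F') : Rel (φ - φ') (F - F') := fun γ ↦ by
  rw [AddMonoidHom.sub_apply, h, h']; rfl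

theorem Rel.smul {R : Type*} [CommRing R] [Module R A] {φ : Additive (Gamma0 M) →+ A}
    {F : Cu → Cu → A} (c : R) (h : Rel φ F) : Rel (c • φ) (fun r s ↦ c • F r s) := fun γ ↦ by
  rw [AddMonoidHom.smul_apply, h]

theorem Rel.zsmul {φ : Additive (Gamma0 M) →+ A}
    {F : Cu → Cu → A} (c : ℤ) (h : Rel φ F) : Rel (c • φ) (c • F) := fun γ ↦ by
  rw [AddMonoidHom.smul_apply, h]; rfl

/-! ### Hecke operators -/

theorem multiplicative_sum {A : Type*} [AddCommGroup A] {J : Type*} [Fintype J] (f : J → A) :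
    ∏ i, Multiplicative.ofAdd (f i) = Multiplicative.ofAdd (∑ i, f i) := (ofAdd_sum _ _).symm

theorem Rel.hecke {R : Type*} [CommRing R] [Module R A] [NeZero M] {l : ℕ} [NeZero l]
    (hl : l.Prime) (hlM : l.Coprime M) {φ : Additive (Gamma0 M) →+ A} {F : Cu → Cu → A}
    (h : Rel φ F) (hF : IsSymb M F) : Rel (heckeLin R M A l φ) ((pull A).TT l F) := by
  have : NeZero (M * l) := ⟨mul_ne_zero (NeZero.ne _) hl.ne_zero⟩
  intro γ
  have hFi := (isSymb_iff.mp hF).2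
  rw [RA.TT_eq_tr hlM hl hFi]
  have hl0 : (l : ℚ) ≠ 0 := by exact_mod_cast hl.ne_zero
  have hB : ∀ δ : Gamma0 (M * l), gq l 0 0 1 * ι (δ : SL(2, ℤ)) =
      ι ((degConj M l δ : Gamma0 M) : SL(2, ℤ)) * gq l 0 0 1 := by
    intro δ
    obtain ⟨c, hc⟩ := H22.dvd_of_mem (N := M) (ℓ := l) δ.2
    have h1 := det_ne_ι (δ : SL(2, ℤ))
    have h2 := det_ne_ι ((degConj M l δ : Gamma0 M) : SL(2, ℤ))
    rw [ι_eq, ι_eq, gq_mul (by simpa using hl0) h1, gq_mul h2 (by simpa using hl0)]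
    have e00 : ((degConj M l δ : Gamma0 M) : SL(2, ℤ)) 0 0 = (δ : SL(2, ℤ)) 0 0 := rfl
    have e01 : ((degConj M l δ : Gamma0 M) : SL(2, ℤ)) 0 1 = l * (δ : SL(2, ℤ)) 0 1 := rfl
    have e10 : ((degConj M l δ : Gamma0 M) : SL(2, ℤ)) 1 0 = c := by
      change (δ : SL(2, ℤ)) 1 0 / (l : ℤ) = c
      rw [hc, Int.mul_ediv_cancel_left _ (by exact_mod_cast hl.ne_zero)]
    have e11 : ((degConj M l δ : Gamma0 M) : SL(2, ℤ)) 1 1 = (δ : SL(2, ℤ)) 1 1 := rfl
    rw [e00, e01, e10, e11, hc]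
    congr 1 <;> push_cast <;> ring
  have key := heckeChar_automorphy M l (A := Multiplicative A) (MonoidHom.id _)
    φ.toMultiplicativeRight (X := Gamma0 M) (Y := Multiplicative A)
    (fun x ↦ Multiplicative.ofAdd (F OnePoint.infty
      (gq l 0 0 1 • ι (x : SL(2, ℤ)) • (OnePoint.infty : Cu)))) (fun δ x ↦ by
      have h1 : φ.toMultiplicativeRight (subDegConj M l δ) =
          Multiplicative.ofAdd (F OnePoint.infty (ι ((subDegConj M l δ : Gamma0 M) : SL(2, ℤ)) •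
            (OnePoint.infty : Cu))) := by
        rw [← h]; rfl
      rw [MonoidHom.id_apply, h1, ← ofAdd_add]
      congr 1
      have h2 := hB ⟨((δ : Gamma0 M) : SL(2, ℤ)), δ.2⟩
      have h3 : gq l 0 0 1 • ι (((δ : Gamma0 M) • x : Gamma0 M) : SL(2, ℤ)) • (OnePoint.infty : Cu) =
          ι ((subDegConj M l δ : Gamma0 M) : SL(2, ℤ)) • gq l 0 0 1 • ι (x : SL(2, ℤ)) •
            (OnePoint.infty : Cu) := by
        rw [smul_eq_mul, Subgroup.coe_mul, ι_mul, mul_smul, ← mul_smul (gq l 0 0 1), h2, mul_smul]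
        rfl
      rw [h3, ← hF.add OnePoint.infty (ι ((subDegConj M l δ : Gamma0 M) : SL(2, ℤ)) •
            (OnePoint.infty : Cu)), hF.inv _ (subDegConj M l δ : Gamma0 M).2]) γ 1
  simp only [MonoidHom.id_apply, multiplicative_sum] at key
  have h4 : heckeChar M l φ.toMultiplicativeRight γ =
      Multiplicative.ofAdd (heckeLin R M A l φ (Additive.ofMul γ)) := rfl
  rw [h4, ← ofAdd_add] at key
  have h5 := Multiplicative.ofAdd.injective key
  rw [← sub_eq_iff_eq_add, ← Finset.sum_sub_distrib] at h5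
  rw [← h5, RA.tr]
  simp only [Finset.sum_apply, pull_apply]
  refine Finset.sum_congr rfl fun z _ ↦ ?_
  rw [sub_eq_iff_eq_add, add_comm, smul_eq_mul, smul_eq_mul, smul_eq_mul, mul_one, mul_one]
  have h6 := hF.add OnePoint.infty
    (gq l 0 0 1 • ι (((z.out)⁻¹ : Gamma0 M) : SL(2, ℤ)) • (OnePoint.infty : Cu))
    (gq l 0 0 1 • ι (((z.out)⁻¹ * γ : Gamma0 M) : SL(2, ℤ)) • (OnePoint.infty : Cu))
  rw [← h6, Subgroup.coe_mul, ι_mul, mul_smul]
  rfl

end Fermat.Agent.H16.LR
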