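import Mathlib
import Fermat.Agent.H16.LR.PsiK

/-!
# Transfers of characters of modular symbols
-/

set_option autoImplicit false

open Matrix ModularGroup CongruenceSubgroup Function
open scoped MatrixGroups

noncomputable section

namespace Fermat.Agent.H16.LR

open H22

variable {N q : ℕ} {A : Type} [AddCommGroup A]

theorem degConj_injective [NeZero q] : Injective (degConj N q) := by
  have hq : (q : ℤ) ≠ 0 := by exact_mod_cast NeZero.ne q
  intro γ δ h
  have h1 := congrArg (fun x : Gamma0 N ↦ ((x : SL(2, ℤ)) : Matrix (Fin 2) (Fin 2) ℤ)) h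
  simp only [coe_degConj] at h1
  obtain ⟨c, hc⟩ := H22.dvd_of_mem (N := N) (ℓ := q) γ.2
  obtain ⟨c', hc'⟩ := H22.dvd_of_mem (N := N) (ℓ := q) δ.2
  have e00 := congrFun (congrFun h1 0) 0
  have e01 := congrFun (congrFun h1 0) 1
  have e10 := congrFun (congrFun h1 1) 0
  have e11 := congrFun (congrFun h1 1) 1
  simp only [degMat, Matrix.of_apply, Matrix.cons_val', Matrix.cons_val_zero, Matrix.cons_val_one,
    Matrix.cons_val_fin_one] at e00 e01 e10 e11
  apply Subtype.ext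
  ext i j
  fin_cases i <;> fin_cases j
  · exact e00
  · exact mul_left_cancel₀ hq e01
  · show (γ : SL(2, ℤ)) 1 0 = (δ : SL(2, ℤ)) 1 0
    rw [hc, hc', Int.mul_ediv_cancel_left _ hq, Int.mul_ediv_cancel_left _ hq] at e10
    rw [hc, hc', e10]
  · exact e11

theorem degConj_range_finiteIndex [NeZero N] [NeZero q] : (degConj N q).range.FiniteIndex := by
  have hq : (q : ℤ) ≠ 0 := by exact_mod_cast NeZero.ne q
  have : NeZero (N * q) := ⟨mul_ne_zero (NeZero.ne _) (NeZero.ne _)⟩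
  have h1 : (Gamma (N * q)).subgroupOf (Gamma0 N) ≤ (degConj N q).range := by
    rintro γ hγ
    rw [Subgroup.mem_subgroupOf, Gamma_mem] at hγ
    obtain ⟨-, h01, h10, -⟩ := hγ
    rw [ZMod.intCast_zmod_eq_zero_iff_dvd] at h01 h10
    obtain ⟨b, hb⟩ := (dvd_mul_left (q : ℤ) (N : ℤ)).trans (by exact_mod_cast h01)
    obtain ⟨c, hc⟩ := (dvd_mul_right (N : ℤ) (q : ℤ)).trans (by exact_mod_cast h10)
    have hd := det_eq (γ : SL(2, ℤ))
    let δ : SL(2, ℤ) := sl ((γ : SL(2, ℤ)) 0 0) b (q * (γ : SL(2, ℤ)) 1 0) ((γ : SL(2, ℤ)) 1 1) (by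
      rw [hb] at hd; linear_combination hd)
    have hδ : δ ∈ Gamma0 (N * q) := by
      apply sl_mem
      rw [hc]
      exact ⟨c, by push_cast; ring⟩
    refine ⟨⟨δ, hδ⟩, ?_⟩
    apply Subtype.ext
    apply Subtype.ext
    rw [coe_degConj]
    ext i j
    fin_cases i <;> fin_cases j
    · rfl
    · show (q : ℤ) * b = _
      exact hb.symm
    · show ((q : ℤ) * (γ : SL(2, ℤ)) 1 0) / q = _
      rw [Int.mul_ediv_cancel_left _ hq]
      rfl
    · rfl
  have h2 : ((Gamma (N * q)).subgroupOf (Gamma0 N)).FiniteIndex := inferInstance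
  exact Subgroup.finiteIndex_of_le h1

variable (N q A) in
/-- The transfer along the inclusion. -/
def jj1 [(Subgroup.inclusion (Gamma0_mul_le N q)).range.FiniteIndex]
    (φ : Additive (Gamma0 (N * q)) →+ A) : Additive (Gamma0 N) →+ A :=
  (H22.tr (Subgroup.inclusion (Gamma0_mul_le N q)) (Subgroup.inclusion_injective _)
    φ.toMultiplicativeRight).toAdditiveLeft

variable (N q A) in
/-- The transfer along `degConj`. -/
def jj2 [NeZero q] (hι : Injective (degConj N q)) [(degConj N q).range.FiniteIndex]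
    (φ : Additive (Gamma0 (N * q)) →+ A) : Additive (Gamma0 N) →+ A :=
  (H22.tr (degConj N q) hι φ.toMultiplicativeRight).toAdditiveLeft

theorem ι_degConj [NeZero q] (δ : Gamma0 (N * q)) : gq q 0 0 1 * ι (δ : SL(2, ℤ)) =
    ι ((degConj N q δ : Gamma0 N) : SL(2, ℤ)) * gq q 0 0 1 := by
  have hq : (q : ℤ) ≠ 0 := by exact_mod_cast NeZero.ne q
  have hq0 : (q : ℚ) ≠ 0 := by exact_mod_cast NeZero.ne q
  obtain ⟨c, hc⟩ := H22.dvd_of_mem (N := N) (ℓ := q) δ.2
  have h1 := det_ne_ι (δ : SL(2, ℤ))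
  have h2 := det_ne_ι ((degConj N q δ : Gamma0 N) : SL(2, ℤ))
  rw [ι_eq, ι_eq, gq_mul (by simpa using hq0) h1, gq_mul h2 (by simpa using hq0)]
  have e00 : ((degConj N q δ : Gamma0 N) : SL(2, ℤ)) 0 0 = (δ : SL(2, ℤ)) 0 0 := rfl
  have e01 : ((degConj N q δ : Gamma0 N) : SL(2, ℤ)) 0 1 = q * (δ : SL(2, ℤ)) 0 1 := rfl
  have e10 : ((degConj N q δ : Gamma0 N) : SL(2, ℤ)) 1 0 = c := by
    change (δ : SL(2, ℤ)) 1 0 / (q : ℤ) = c
    rw [hc, Int.mul_ediv_cancel_left _ hq]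
  have e11 : ((degConj N q δ : Gamma0 N) : SL(2, ℤ)) 1 1 = (δ : SL(2, ℤ)) 1 1 := rfl
  rw [e00, e01, e10, e11, hc]
  congr 1 <;> push_cast <;> ring

/-- General form. -/
theorem rel_tr {K : Type} [Group K] {G : Type} [Group G] (e : G → SL(2, ℤ)) (he : ∀ x y, e (x * y) = e x * e y)
    (i : K →* G) (hi : Injective i) [i.range.FiniteIndex] {J : Type} [Fintype J] (r : J → G)
    (hr : Bijective fun j ↦ (r j : G ⧸ i.range)) (ψ : K →* Multiplicative A) {F : Cu → Cu → A}
    (hadd : Add3 F) (B : GL (Fin 2) ℚ)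
    (hu : ∀ (k : K) (x : G), F OnePoint.infty (B • ι (e (i k * x)) • (OnePoint.infty : Cu)) =
      Multiplicative.toAdd (ψ k) + F OnePoint.infty (B • ι (e x) • (OnePoint.infty : Cu))) (g : G) :
    Multiplicative.toAdd (H22.tr i hi ψ g) = ∑ j, F (B • ι (e (r j)⁻¹) • (OnePoint.infty : Cu))
      (B • ι (e (r j)⁻¹) • ι (e g) • (OnePoint.infty : Cu)) := by
  have key := tr_automorphy i hi ψ r hr (MonoidHom.id _) (X := G) (Y := Multiplicative A)
    (fun x ↦ Multiplicative.ofAdd (F OnePoint.infty (B • ι (e x) • (OnePoint.infty : Cu))))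
    (fun k x ↦ by
      rw [smul_eq_mul, hu, ofAdd_add]
      rfl) g 1
  simp only [MonoidHom.id_apply, multiplicative_sum] at key
  have h5 : (∑ j, F OnePoint.infty (B • ι (e ((r j)⁻¹ • g • 1)) • (OnePoint.infty : Cu))) =
      Multiplicative.toAdd (H22.tr i hi ψ g) +
      ∑ j, F OnePoint.infty (B • ι (e ((r j)⁻¹ • 1)) • (OnePoint.infty : Cu)) :=
    Multiplicative.ofAdd.injective key
  rw [← sub_eq_iff_eq_add, ← Finset.sum_sub_distrib] at h5
  rw [← h5]
  refine Finset.sum_congr rfl fun z _ ↦ ?_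
  rw [sub_eq_iff_eq_add, add_comm, smul_eq_mul, smul_eq_mul, smul_eq_mul, mul_one, mul_one,
    ← hadd OnePoint.infty (B • ι (e (r z)⁻¹) • (OnePoint.infty : Cu)), he, ι_mul,
    mul_smul (ι (e (r z)⁻¹))]

theorem Rel.tr1 [NeZero N] [NeZero (N * q)] [(Subgroup.inclusion (Gamma0_mul_le N q)).range.FiniteIndex]
    {φ : Additive (Gamma0 (N * q)) →+ A} {F : Cu → Cu → A} (h : Rel φ F) (hF : IsSymb (N * q) F) :
    Rel (jj1 N q A φ) ((pull A).tr N q F) := by
  intro γ
  have hrange : (Subgroup.inclusion (Gamma0_mul_le N q)).range =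
      (Gamma0 (N * q)).subgroupOf (Gamma0 N) := Subgroup.inclusion_range _
  have key := rel_tr (A := A) (fun x : Gamma0 N ↦ (x : SL(2, ℤ))) (fun _ _ ↦ rfl)
    (Subgroup.inclusion (Gamma0_mul_le N q)) (Subgroup.inclusion_injective _) (J := RA.Qt N q)
    (fun z ↦ z.out) (by
      constructor
      · intro z z' hz
        have h1 := QuotientGroup.eq.mp hz
        rw [hrange] at h1
        rw [← QuotientGroup.out_eq' z, ← QuotientGroup.out_eq' z']
        exact QuotientGroup.eq.mpr h1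
      · intro x
        obtain ⟨x, rfl⟩ := QuotientGroup.mk_surjective x
        refine ⟨((x : Gamma0 N) : RA.Qt N q), ?_⟩
        have h1 := QuotientGroup.out_eq' ((x : Gamma0 N) : RA.Qt N q)
        refine QuotientGroup.eq.mpr ?_
        rw [hrange]
        exact QuotientGroup.eq.mp h1)
    φ.toMultiplicativeRight (F := F) hF.add 1 (fun k x ↦ by
      have h1 : Multiplicative.toAdd (φ.toMultiplicativeRight k) =
          F OnePoint.infty (ι (k : SL(2, ℤ)) • (OnePoint.infty : Cu)) := by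
        rw [← h]; rfl
      rw [h1, one_smul, one_smul, ← hF.add OnePoint.infty (ι (k : SL(2, ℤ)) • (OnePoint.infty : Cu))
        (ι ((Subgroup.inclusion (Gamma0_mul_le N q) k * x : Gamma0 N) : SL(2, ℤ)) •
          (OnePoint.infty : Cu)), Subgroup.coe_mul, ι_mul, mul_smul]
      congr 1
      exact hF.inv _ k.2 _ _) γ
  refine key.trans ?_
  rw [RA.tr]
  simp only [Finset.sum_apply, pull_apply, one_smul]
  rfl

theorem Rel.tr2 [NeZero N] [NeZero q] [NeZero (N * q)] (hi : Injective (degConj N q))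
    [(degConj N q).range.FiniteIndex] (w : RA.WQ N q)
    {φ : Additive (Gamma0 (N * q)) →+ A} {F : Cu → Cu → A} (h : Rel φ F) (hF : IsSymb (N * q) F) :
    Rel (jj2 N q A hi φ) ((pull A).tr N q ((pull A).act w.mat F)) := by
  intro γ
  have hq : q ≠ 0 := NeZero.ne q
  have hq0 : (q : ℚ) ≠ 0 := by exact_mod_cast hq
  -- the element `γ₀`
  set γ0 : SL(2, ℤ) := sl (q * w.x) w.y (N * w.z) w.t (by linear_combination w.det) with hγ0
  have hγ0m : γ0 ∈ Gamma0 N := sl_mem _ (dvd_mul_right _ _)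
  set g0 : Gamma0 N := ⟨γ0, hγ0m⟩ with hg0
  have hdetg : (q * w.x : ℚ) * w.t - w.y * (N * w.z) ≠ 0 := by
    have : (q * w.x : ℚ) * w.t - w.y * (N * w.z) = 1 := by linear_combination w.detq
    rw [this]; exact one_ne_zero
  have hιg : ι γ0 = gq (q * w.x) w.y (N * w.z) w.t := by
    rw [hγ0, ι_sl]; push_cast; rfl
  have hw : w.mat = gq 1 0 0 q * ι γ0 := by
    rw [hιg, gq_mul (by simpa using hq0) hdetg, RA.WQ.mat]
    congr 1 <;> ring
  -- the inverse of `diag(q,1)` up to scalars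
  have hBB : gq q 0 0 1 * gq 1 0 0 q = gq q 0 0 q := by
    rw [gq_mul (by simpa using hq0) (by simpa using hq0)]
    congr 1 <;> ring
  have hsm : ∀ r : Cu, gq q 0 0 1 • gq 1 0 0 q • r = r := by
    intro r; rw [← mul_smul, hBB, sc_smul hq0]
  have hBB' : gq 1 0 0 q * gq q 0 0 1 = gq q 0 0 q := by
    rw [gq_mul (by simpa using hq0) (by simpa using hq0)]
    congr 1 <;> ring
  have hsm' : ∀ r : Cu, gq 1 0 0 q • gq q 0 0 1 • r = r := by
    intro r; rw [← mul_smul, hBB', sc_smul hq0]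
  have hconj : ∀ (k : Gamma0 (N * q)) (r : Cu), gq 1 0 0 q • ι ((degConj N q k : Gamma0 N) : SL(2, ℤ)) • r =
      ι (k : SL(2, ℤ)) • gq 1 0 0 q • r := by
    intro k r
    have h1 := congrArg (fun x : GL (Fin 2) ℚ ↦ gq 1 0 0 q • x • gq 1 0 0 q • r) (ι_degConj k)
    beta_reduce at h1
    rw [mul_smul, hsm', mul_smul, hsm] at h1
    exact h1.symm
  -- range of `degConj`
  have hrange : ∀ x : Gamma0 N, g0 * x * g0⁻¹ ∈ (degConj N q).range ↔
      x ∈ (Gamma0 (N * q)).subgroupOf (Gamma0 N) := by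
    intro x
    have hinvB : ∀ y : Gamma0 N, y ∈ (degConj N q).range ↔ (q : ℤ) ∣ (y : SL(2, ℤ)) 0 1 := by
      intro y
      constructor
      · rintro ⟨k, rfl⟩
        exact dvd_mul_right _ _
      · rintro ⟨b, hb⟩
        obtain ⟨c, hc⟩ := mem_Gamma0_iff.mp y.2
        have hd := det_eq (y : SL(2, ℤ))
        have hq' : (q : ℤ) ≠ 0 := by exact_mod_cast hq
        let δ : SL(2, ℤ) := sl ((y : SL(2, ℤ)) 0 0) b (q * (y : SL(2, ℤ)) 1 0) ((y : SL(2, ℤ)) 1 1) (by
          rw [hb] at hd; linear_combination hd)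
        have hδ : δ ∈ Gamma0 (N * q) := by
          apply sl_mem
          rw [hc]
          exact ⟨c, by push_cast; ring⟩
        refine ⟨⟨δ, hδ⟩, ?_⟩
        apply Subtype.ext
        apply Subtype.ext
        rw [coe_degConj]
        ext i j
        fin_cases i <;> fin_cases j
        · rfl
        · show (q : ℤ) * b = _
          exact hb.symm
        · show ((q : ℤ) * (y : SL(2, ℤ)) 1 0) / q = _
          rw [Int.mul_ediv_cancel_left _ hq']
          rfl
        · rfl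
    rw [hinvB, Subgroup.mem_subgroupOf, mem_Gamma0_iff]
    obtain ⟨c, hc⟩ := mem_Gamma0_iff.mp x.2
    have hdx := det_eq (x : SL(2, ℤ))
    have e01 : ((g0 * x * g0⁻¹ : Gamma0 N) : SL(2, ℤ)) 0 1 =
        -(q * w.x) * w.y * (x : SL(2, ℤ)) 0 0 - w.y * w.y * (x : SL(2, ℤ)) 1 0 +
        (q * w.x) * (q * w.x) * (x : SL(2, ℤ)) 0 1 + w.y * (q * w.x) * (x : SL(2, ℤ)) 1 1 := by
      have hm : ∀ (a b : SL(2, ℤ)) (i j : Fin 2), (a * b) i j = a i 0 * b 0 j + a i 1 * b 1 j := by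
        intro a b i j
        simp [Matrix.SpecialLinearGroup.coe_mul, Matrix.mul_apply, Fin.sum_univ_two]
      have i01 : ((g0⁻¹ : Gamma0 N) : SL(2, ℤ)) 0 1 = -w.y := by
        rw [Subgroup.coe_inv, Matrix.SpecialLinearGroup.SL2_inv_expl]; rfl
      have i11 : ((g0⁻¹ : Gamma0 N) : SL(2, ℤ)) 1 1 = q * w.x := by
        rw [Subgroup.coe_inv, Matrix.SpecialLinearGroup.SL2_inv_expl]; rfl
      have g00 : (g0 : SL(2, ℤ)) 0 0 = q * w.x := rfl
      have g01 : (g0 : SL(2, ℤ)) 0 1 = w.y := rfl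
      rw [Subgroup.coe_mul, hm, Subgroup.coe_mul, hm, hm, i01, i11, g00, g01]
      ring
    rw [e01]
    constructor
    · rintro ⟨m, hm⟩
      -- `q ∣ y² · x₁₀`
      have h1 : (q : ℤ) ∣ w.y * w.y * (x : SL(2, ℤ)) 1 0 :=
        ⟨-m - w.x * w.y * (x : SL(2, ℤ)) 0 0 + w.x * (q * w.x) * (x : SL(2, ℤ)) 0 1 +
          w.y * w.x * (x : SL(2, ℤ)) 1 1, by linear_combination -hm⟩
      have hcop : IsCoprime (q : ℤ) w.y := ⟨w.x * w.t, -(N * w.z), by linear_combination w.det⟩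
      have h2 : (q : ℤ) ∣ (x : SL(2, ℤ)) 1 0 := (hcop.mul_right hcop).dvd_of_dvd_mul_left h1
      have hcopN : IsCoprime (N : ℤ) (q : ℤ) := ⟨-(w.y * w.z), w.x * w.t, by linear_combination w.det⟩
      push_cast
      exact hcopN.mul_dvd ⟨c, hc⟩ h2
    · rintro ⟨m, hm⟩
      push_cast at hm
      refine ⟨-w.x * w.y * (x : SL(2, ℤ)) 0 0 - w.y * w.y * (N * m) +
        w.x * (q * w.x) * (x : SL(2, ℤ)) 0 1 + w.y * w.x * (x : SL(2, ℤ)) 1 1, ?_⟩
      rw [hm]; ring
  have key := rel_tr (A := A) (fun x : Gamma0 N ↦ (x : SL(2, ℤ))) (fun _ _ ↦ rfl)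
    (degConj N q) hi (J := RA.Qt N q)
    (fun z ↦ z.out * g0⁻¹) (by
      constructor
      · intro z z' hz
        have h1 := QuotientGroup.eq.mp hz
        have e1 : (z.out * g0⁻¹)⁻¹ * (z'.out * g0⁻¹) = g0 * (z.out⁻¹ * z'.out) * g0⁻¹ := by group
        rw [e1, hrange] at h1
        rw [← QuotientGroup.out_eq' z, ← QuotientGroup.out_eq' z']
        exact QuotientGroup.eq.mpr h1
      · intro x
        obtain ⟨x, rfl⟩ := QuotientGroup.mk_surjective x
        refine ⟨((x * g0 : Gamma0 N) : RA.Qt N q), ?_⟩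
        have h1 := QuotientGroup.eq.mp (QuotientGroup.out_eq' ((x * g0 : Gamma0 N) : RA.Qt N q))
        refine QuotientGroup.eq.mpr ?_
        have e1 : (((x * g0 : Gamma0 N) : RA.Qt N q).out * g0⁻¹)⁻¹ * x =
            g0 * ((((x * g0 : Gamma0 N) : RA.Qt N q).out)⁻¹ * (x * g0)) * g0⁻¹ := by group
        rw [e1, hrange]
        exact h1)
    φ.toMultiplicativeRight (F := F) hF.add (gq 1 0 0 q) (fun k x ↦ by
      have h1 : Multiplicative.toAdd (φ.toMultiplicativeRight k) =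
          F OnePoint.infty (ι (k : SL(2, ℤ)) • (OnePoint.infty : Cu)) := by
        rw [← h]; rfl
      rw [h1, ← hF.add OnePoint.infty (ι (k : SL(2, ℤ)) • (OnePoint.infty : Cu))
        (gq 1 0 0 q • ι ((degConj N q k * x : Gamma0 N) : SL(2, ℤ)) • (OnePoint.infty : Cu)),
        Subgroup.coe_mul, ι_mul, mul_smul, hconj]
      congr 1
      exact hF.inv _ k.2 _ _) γ
  refine key.trans ?_
  rw [RA.tr]
  simp only [Finset.sum_apply, pull_apply]
  refine Finset.sum_congr rfl fun z _ ↦ ?_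
  have e1 : (((z.out * g0⁻¹)⁻¹ : Gamma0 N) : SL(2, ℤ)) = γ0 * ((z.out : Gamma0 N) : SL(2, ℤ))⁻¹ := by
    rw [_root_.mul_inv_rev, inv_inv]
    rfl
  rw [e1, hw, ι_mul]
  simp only [mul_smul]

end Fermat.Agent.H16.LR
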