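import Mathlib
import Fermat.Agent.H16.LR.PsiT
import Fermat.Agent.TC.Free

/-!
# The dual of Ihara's lemma
-/

set_option autoImplicit false

open Matrix ModularGroup CongruenceSubgroup Function
open scoped MatrixGroups

noncomputable section

namespace Fermat.Agent.H16.LR

open H22 LA

section Basics

variable {k : Type} [Field k]

/-- No elliptic elements of order three, or `3` is invertible. -/
def Ell3 (k : Type) [Field k] (M : ℕ) : Prop := (3 : k) ≠ 0 ∨ ∀ y : XX M, U • y ≠ y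

theorem isMM_of (h2 : (2 : k) ≠ 0) {M : ℕ} (hell : Ell3 k M) {F : Cu → Cu → k} (h : IsSymb M F) :
    IsMM M F where
  toIsSymb := h
  fixS y hy := by
    have h1 := h.phi_S y
    rw [hy] at h1
    have h3 : (2 : k) * phi M F y = 0 := by linear_combination h1
    exact (mul_eq_zero.mp h3).resolve_left h2
  fixU y hy := by
    rcases hell with h3 | h3
    · have h1 := h.phi_U y
      rw [hy, hy] at h1
      have h4 : (3 : k) * phi M F y = 0 := by linear_combination h1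
      exact (mul_eq_zero.mp h4).resolve_left h3
    · exact absurd hy (h3 y)

theorem Ell3.mono {M M' : ℕ} (h : Ell3 k M) (hM : M ∣ M') : Ell3 k M' := by
  rcases h with h | h
  · exact Or.inl h
  · right
    intro y hy
    induction y using QuotientGroup.induction_on with
    | H g =>
      rw [smul_mk, QuotientGroup.eq, mem_Gamma0_iff] at hy
      apply h ((g : SL(2, ℤ)) : XX M)
      rw [smul_mk, QuotientGroup.eq, mem_Gamma0_iff]
      exact (Int.natCast_dvd_natCast.mpr hM).trans hy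

/-- The radical in coordinates. -/
theorem radical_eis (h2 : (2 : k) ≠ 0) {M : ℕ} [NeZero M] {u : Fin (rk M) → k}
    (hu : cst k (PM M) *ᵥ u = 0) {l : ℕ} (hl : l.Prime) (hlM : (M : ℤ) ∣ l - 1) :
    (pull k).TT l (emb M k u) = fun r s ↦ ((l : k) + 1) * emb M k u r s := by
  obtain ⟨β, hβ, hF⟩ := boundary_of_radical (emb_isMM (M := M) u) fun G hG ↦ by
    rw [← emb_co hG, pr_emb]
    have : (PM M).map (Int.castRingHom k) *ᵥ u = 0 := hu
    rw [this, dotProduct_zero]
  exact TT_boundary h2 hβ hF hl hlM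

/-- The operator `T_l - (l + 1)` in coordinates. -/
def Em (k : Type) [Field k] (M : ℕ) [NeZero M] (l : ℕ) (c : k) : Matrix (Fin (rk M)) (Fin (rk M)) k :=
  cst k (matT M l) - c • (1 : Matrix _ _ k)

theorem emb_sub {M : ℕ} [NeZero M] (u v : Fin (rk M) → k) :
    emb M k (u - v) = emb M k u - emb M k v := by
  have h1 : u - v = u + (-1 : k) • v := by rw [neg_one_smul, sub_eq_add_neg]
  rw [h1, emb_add, emb_smul]
  ext r s
  simp only [Pi.add_apply, Pi.sub_apply]
  ring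

theorem emb_Em {M : ℕ} [NeZero M] {l : ℕ} (hl : l.Prime) (hlM : l.Coprime M) (c : k)
    (u : Fin (rk M) → k) :
    emb M k (Em k M l c *ᵥ u) = fun r s ↦ (pull k).TT l (emb M k u) r s - c * emb M k u r s := by
  have h := mt_spec (A := k) (Natl.TT l) (Pres.TT hlM hl) u
  rw [Em, sub_mulVec, smul_mulVec, one_mulVec, emb_sub, emb_smul]
  have h' : (pull k).TT l (emb M k u) = emb M k (cst k (matT M l) *ᵥ u) := h
  rw [h']
  rfl

theorem Em_radical (h2 : (2 : k) ≠ 0) {M : ℕ} [NeZero M] {u : Fin (rk M) → k}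
    (hu : cst k (PM M) *ᵥ u = 0) {l : ℕ} (hl : l.Prime) (hlM : (M : ℤ) ∣ l - 1)
    (hlM' : l.Coprime M) : Em k M l ((l : k) + 1) *ᵥ u = 0 := by
  apply emb_injective
  rw [emb_Em hl hlM', radical_eis h2 hu hl hlM, emb_zero]
  ext r s
  simp

/-- Symbols with trivial character are Eisenstein. -/
theorem Em_boundary (h2 : (2 : k) ≠ 0) {M : ℕ} [NeZero M] {u : Fin (rk M) → k}
    (hu : Rel (0 : Additive (Gamma0 M) →+ k) (emb M k u)) {l : ℕ} (hl : l.Prime)
    (hlM : (M : ℤ) ∣ l - 1) (hlM' : l.Coprime M) : Em k M l ((l : k) + 1) *ᵥ u = 0 := by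
  have hs := (emb_isMM (M := M) u).toIsSymb
  apply emb_injective
  have h1 := TT_boundary (k := k) h2 (M := M) (F := emb M k u)
    (β := fun r ↦ 2 * emb M k u OnePoint.infty r) (fun γ hγ r ↦ by
      have h3 := hu ⟨γ, hγ⟩
      rw [← hs.add OnePoint.infty (ι γ • (OnePoint.infty : Cu)) (ι γ • r), hs.inv γ hγ]
      have h4 : emb M k u OnePoint.infty (ι γ • (OnePoint.infty : Cu)) = 0 := h3.symm
      rw [h4, zero_add]) (fun r s ↦ by
      rw [← hs.add OnePoint.infty r s]; ring) hl hlM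
  rw [emb_Em hl hlM', h1, emb_zero]
  ext r s
  simp

end Basics

/-! ### The linear algebra -/

theorem range_le_of {k : Type} [Field k] {α β : Type} [Fintype α] [Fintype β]
    (DA : Matrix α α k) (DB : Matrix β β k) (I : Matrix β α k) (J : Matrix α β k)
    (h : Iᵀ * DB = DA * J) (hB : DBᵀ = -DB) (P : Matrix α α k) (hP : Pᵀ * DA = DA * P)
    (hker : ∀ u, DB *ᵥ (I *ᵥ u) = 0 → P *ᵥ u = 0) (u : α → k) :
    ∃ v, DA *ᵥ (P *ᵥ u - J *ᵥ v) = 0 := by
  by_contra hcon
  push Not at hcon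
  have hmem : DA *ᵥ (P *ᵥ u) ∉ LinearMap.range (DA * J).mulVecLin := by
    rintro ⟨v, hv⟩
    apply hcon v
    rw [mulVec_sub, sub_eq_zero, ← hv, mulVecLin_apply, mulVec_mulVec]
  obtain ⟨f, hf1, hf2⟩ := Submodule.exists_le_ker_of_notMem hmem
  classical
  set c : α → k := fun i ↦ f (Pi.single i 1) with hc
  have hval : ∀ v : α → k, f v = c ⬝ᵥ v := by
    intro v
    conv_lhs => rw [← LinearMap.sum_single_apply (fun _ ↦ k) v]
    rw [map_sum, dotProduct]
    refine Finset.sum_congr rfl fun i _ ↦ ?_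
    have : (LinearMap.single k (fun _ ↦ k) i) (v i) = v i • (Pi.single i 1 : α → k) := by
      ext j
      by_cases hj : j = i
      · subst hj; simp
      · simp [hj]
    have h3 : (Pi.single i (v i) : α → k) = v i • (Pi.single i 1 : α → k) := this
    rw [h3, map_smul, smul_eq_mul, mul_comm]
  have h1 : c ᵥ* (DA * J) = 0 := by
    ext j
    have h2 : (DA * J) *ᵥ Pi.single j 1 ∈ LinearMap.range (DA * J).mulVecLin := ⟨_, rfl⟩
    have h3 := hf2 h2
    rw [LinearMap.mem_ker, hval, dotProduct_mulVec, dotProduct_single, mul_one] at h3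
    exact h3
  rw [← h, ← vecMul_vecMul, vecMul_transpose] at h1
  have h2 : DB *ᵥ (I *ᵥ c) = 0 := by
    rw [← vecMul_transpose, hB, vecMul_neg, h1, neg_zero]
  have h3 := hker c h2
  apply hf1
  rw [hval, dotProduct_mulVec, dotProduct_mulVec, vecMul_vecMul, ← hP, ← vecMul_vecMul,
    vecMul_transpose, h3, zero_vecMul, zero_dotProduct]

/-! ### Ihara's lemma in coordinates -/

section Ihara

variable {k : Type} [Field k] {N q : ℕ} [NeZero N] [NeZero (N * q)]

theorem relC_T {M : ℕ} [NeZero M] {l : ℕ} [NeZero l] (hl : l.Prime) (hlM : l.Coprime M)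
    {φ : Additive (Gamma0 M) →+ k} {u : Fin (rk M) → k} (h : Rel φ (emb M k u)) :
    Rel (heckeLin k M k l φ) (emb M k (cst k (matT M l) *ᵥ u)) := by
  have h1 := h.hecke (R := k) hl hlM (emb_isMM u).toIsSymb
  have h2 := mt_spec (A := k) (Natl.TT l) (Pres.TT hlM hl) u
  have h' : (pull k).TT l (emb M k u) = emb M k (cst k (matT M l) *ᵥ u) := h2
  rwa [h'] at h1

theorem relC_smul {M : ℕ} [NeZero M] (c : k) {φ : Additive (Gamma0 M) →+ k} {u : Fin (rk M) → k}
    (h : Rel φ (emb M k u)) : Rel (c • φ) (emb M k (c • u)) := by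
  rw [emb_smul]
  exact h.smul c

theorem relC_sub {M : ℕ} [NeZero M] {φ φ' : Additive (Gamma0 M) →+ k} {u u' : Fin (rk M) → k}
    (h : Rel φ (emb M k u)) (h' : Rel φ' (emb M k u')) : Rel (φ - φ') (emb M k (u - u')) := by
  rw [emb_sub]
  exact h.sub h'

variable (k N) in
/-- The matrix from Ihara's lemma. -/
def Pm (l : ℕ) : Matrix (Fin (rk N)) (Fin (rk N)) k :=
  Em k N l ((l : k) + 1) *
    (cst k (matT N l) * cst k (matT N l) - (((l : k) + 1) ^ 2) • (1 : Matrix _ _ k))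

theorem emb_I (hq : q ≠ 0) (hqN : q.Coprime N) (u1 u2 : Fin (rk N) → k) :
    emb (N * q) k (cst k (matI1 N q) *ᵥ u1 + cst k (matI2 N q) *ᵥ u2) =
      emb N k u1 + (pull k).act (gq q 0 0 1) (emb N k u2) := by
  rw [emb_add]
  congr 1
  · exact (mt_spec Natl.id Pres.res u1).symm
  · exact (mt_spec (Natl.act _) (Pres.deg hq hqN) u2).symm

theorem ihara_coord (h2 : (2 : k) ≠ 0) (hq : q.Prime) (hqN : q.Coprime N) {u1 u2 : Fin (rk N) → k}
    (hsum : emb N k u1 + (pull k).act (gq q 0 0 1) (emb N k u2) = 0)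
    {l0 : ℕ} (hl0 : l0.Prime) (hl0N : (N : ℤ) ∣ l0 - 1) (hl0N' : l0.Coprime N)
    {l1 : ℕ} (hl1 : l1.Prime) (hl1N : l1.Coprime N) (hl1q : q ≠ l1)
    (hl1q' : ¬ (l1 : ℤ) ∣ (q : ℤ) ^ 2 - 1) :
    Em k N l0 ((l0 : k) + 1) *ᵥ (Pm k N l1 *ᵥ u1) = 0 := by
  have : NeZero q := ⟨hq.ne_zero⟩
  have : NeZero l1 := ⟨hl1.ne_zero⟩
  have s1 := (emb_isMM (M := N) u1).toIsSymb
  have s2 := (emb_isMM (M := N) u2).toIsSymb
  obtain ⟨φ1, hφ1⟩ := exists_rel s1
  obtain ⟨φ2, hφ2⟩ := exists_rel s2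
  have hq0 : (q : ℚ) ≠ 0 := by exact_mod_cast hq.ne_zero
  have hBi : gq q 0 0 1 • (OnePoint.infty : Cu) = OnePoint.infty := by
    rw [OnePoint.smul_infty_eq_self_iff, gq_10 (by simpa using hq0)]
  have key := ihara_lin (R := k) (N := N) (A := k) (q := q) hq
    (fun h ↦ (Nat.Prime.coprime_iff_not_dvd hq).mp hqN h) (φ₁ := φ1) (φ₂ := φ2)
    (fun γ hγ ↦ by
      apply hφ1.parabolic s1
      rw [Matrix.trace_fin_two]
      have h3 : (γ : SL(2, ℤ)) 0 0 + (γ : SL(2, ℤ)) 1 1 = 2 := by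
        have h4 := hγ
        simp only [tr2] at h4
        rw [Matrix.trace_fin_two] at h4
        exact h4
      rw [h3]; norm_num) (fun γ ↦ by
      rw [hφ1, hφ2]
      have h3 := congrFun (congrFun hsum OnePoint.infty) (ι (γ : SL(2, ℤ)) • (OnePoint.infty : Cu))
      rw [Pi.add_apply, Pi.add_apply, pull_apply, hBi, ← mul_smul, ι_degConj, mul_smul, hBi] at h3
      exact h3) hl1 (fun h ↦ (Nat.Prime.coprime_iff_not_dvd hl1).mp hl1N h) hl1q hl1q'
  rw [Module.End.mul_apply] at key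
  simp only [LinearMap.sub_apply, Module.End.mul_apply, Module.algebraMap_end_apply] at key
  have r1 := relC_T hl1 hl1N (relC_T hl1 hl1N hφ1)
  have r2 := relC_sub r1 (relC_smul (((l1 : k) + 1) ^ 2) hφ1)
  have r3 := relC_T hl1 hl1N r2
  have r4 := relC_sub r3 (relC_smul ((l1 : k) + 1) r2)
  rw [key] at r4
  have e1 : cst k (matT N l1) *ᵥ (cst k (matT N l1) *ᵥ (cst k (matT N l1) *ᵥ u1) -
      ((l1 : k) + 1) ^ 2 • u1) - ((l1 : k) + 1) • (cst k (matT N l1) *ᵥ (cst k (matT N l1) *ᵥ u1) -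
      ((l1 : k) + 1) ^ 2 • u1) = Pm k N l1 *ᵥ u1 := by
    rw [Pm, ← mulVec_mulVec, Em, sub_mulVec, sub_mulVec, smul_mulVec, smul_mulVec, one_mulVec,
      one_mulVec, ← mulVec_mulVec]
  rw [e1] at r4
  exact Em_boundary h2 r4 hl0 hl0N hl0N'

/-- The kernel relation is symmetric. -/
theorem ker_swap (hq : q.Prime) (w : RA.WQ N q) {F1 F2 : Cu → Cu → k} (h1 : IsSymb N F1)
    (h2 : IsSymb N F2) (h : F1 + (pull k).act (gq q 0 0 1) F2 = 0) :
    F2 + (pull k).act (gq q 0 0 1) F1 = 0 := by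
  have i1 := (isSymb_iff.mp h1).2
  have i2 := (isSymb_iff.mp h2).2
  have h3 := congrArg ((pull k).act w.mat) h
  rw [map_add, map_zero, ← i2.act_w hq.ne_zero w, i1.act_w hq.ne_zero w,
    (i2.mono (dvd_mul_right N q)).WQ_WQ hq.ne_zero w] at h3
  rw [add_comm]
  exact h3

theorem Em_comm_I {l : ℕ} (hq : q.Prime) (hqN : q.Coprime N) (hl : l.Prime)
    (hlN : l.Coprime (N * q)) (c : k) (u1 u2 : Fin (rk N) → k) :
    cst k (matI1 N q) *ᵥ (Em k N l c *ᵥ u1) + cst k (matI2 N q) *ᵥ (Em k N l c *ᵥ u2) =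
      Em k (N * q) l c *ᵥ (cst k (matI1 N q) *ᵥ u1 + cst k (matI2 N q) *ᵥ u2) := by
  have h1 : cst k (matI1 N q) * cst k (matT N l) = cst k (matT (N * q) l) * cst k (matI1 N q) := by
    rw [← cst_mul, ← cst_mul, I1_T hl hlN]
  have h2 : cst k (matI2 N q) * cst k (matT N l) = cst k (matT (N * q) l) * cst k (matI2 N q) := by
    rw [← cst_mul, ← cst_mul, I2_T hq hqN hl hlN]
  simp only [Em, mulVec_mulVec, Matrix.mul_sub, Matrix.sub_mul, mulVec_add, h1, h2,
    Matrix.mul_smul, Matrix.smul_mul, Matrix.mul_one, Matrix.one_mul]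

theorem Em_comm_J1 {l : ℕ} (hq : q.Prime) (hqN : q.Coprime N) (hl : l.Prime)
    (hlN : l.Coprime (N * q)) (c : k) (v : Fin (rk (N * q)) → k) :
    Em k N l c *ᵥ (cst k (matJ1 N q) *ᵥ v) = cst k (matJ1 N q) *ᵥ (Em k (N * q) l c *ᵥ v) := by
  have h1 : cst k (matJ1 N q) * cst k (matT (N * q) l) = cst k (matT N l) * cst k (matJ1 N q) := by
    rw [← cst_mul, ← cst_mul, J1_T hq hqN hl hlN]
  simp only [Em, mulVec_mulVec, Matrix.mul_sub, Matrix.sub_mul, h1,
    Matrix.mul_smul, Matrix.smul_mul, Matrix.mul_one, Matrix.one_mul]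

theorem Em_comm_J2 {l : ℕ} (hq : q.Prime) (hqN : q.Coprime N) (w : RA.WQ N q) (hl : l.Prime)
    (hlN : l.Coprime (N * q)) (c : k) (v : Fin (rk (N * q)) → k) :
    Em k N l c *ᵥ (cst k (matJ2 N q w) *ᵥ v) = cst k (matJ2 N q w) *ᵥ (Em k (N * q) l c *ᵥ v) := by
  have h1 : cst k (matJ2 N q w) * cst k (matT (N * q) l) = cst k (matT N l) * cst k (matJ2 N q w) := by
    rw [← cst_mul, ← cst_mul, J2_T hq hqN w hl hlN]
  simp only [Em, mulVec_mulVec, Matrix.mul_sub, Matrix.sub_mul, h1,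
    Matrix.mul_smul, Matrix.smul_mul, Matrix.mul_one, Matrix.one_mul]

theorem self_Tk {M l : ℕ} [NeZero M] (hl : l.Prime) (hlM : l.Coprime M) :
    (cst k (matT M l))ᵀ * cst k (PM M) = cst k (PM M) * cst k (matT M l) := by
  rw [← cst_mul, ← self_T hl hlM, cst_mul]
  rfl

theorem self_Em {M l : ℕ} [NeZero M] (hl : l.Prime) (hlM : l.Coprime M) (c : k) :
    (Em k M l c)ᵀ * cst k (PM M) = cst k (PM M) * Em k M l c := by
  rw [Em, transpose_sub, transpose_smul, transpose_one, sub_mul, mul_sub, self_Tk hl hlM,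
    smul_mul_assoc, mul_smul_comm, one_mul, mul_one]

theorem comm_Em_T {M l : ℕ} [NeZero M] (c : k) :
    Em k M l c * cst k (matT M l) = cst k (matT M l) * Em k M l c := by
  simp only [Em, sub_mul, mul_sub, smul_mul_assoc, mul_smul_comm, one_mul, mul_one]

theorem self_Pm {l : ℕ} (hl : l.Prime) (hlN : l.Coprime N) :
    (Pm k N l)ᵀ * cst k (PM N) = cst k (PM N) * Pm k N l := by
  have h1 := self_Em (k := k) hl hlN ((l : k) + 1)
  have h2 := self_Tk (k := k) hl hlN
  have h3 : (cst k (matT N l) * cst k (matT N l) - (((l : k) + 1) ^ 2) • (1 : Matrix _ _ k))ᵀ *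
      cst k (PM N) = cst k (PM N) *
      (cst k (matT N l) * cst k (matT N l) - (((l : k) + 1) ^ 2) • (1 : Matrix _ _ k)) := by
    rw [transpose_sub, transpose_smul, transpose_one, transpose_mul, sub_mul, mul_sub,
      smul_mul_assoc, mul_smul_comm, one_mul, mul_one, mul_assoc, h2, ← mul_assoc, h2, mul_assoc]
  have h4 : Em k N l ((l : k) + 1) *
      (cst k (matT N l) * cst k (matT N l) - (((l : k) + 1) ^ 2) • (1 : Matrix _ _ k)) =
      (cst k (matT N l) * cst k (matT N l) - (((l : k) + 1) ^ 2) • (1 : Matrix _ _ k)) *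
      Em k N l ((l : k) + 1) := by
    have h5 := comm_Em_T (k := k) (M := N) (l := l) ((l : k) + 1)
    rw [mul_sub, sub_mul, ← mul_assoc, h5, mul_assoc, h5, ← mul_assoc, smul_mul_assoc,
      mul_smul_comm, one_mul, mul_one]
  rw [Pm, transpose_mul, mul_assoc, h1, ← mul_assoc, h3, mul_assoc, ← h4]

/-- Surjectivity in coordinates. -/
theorem surj_coord (h2 : (2 : k) ≠ 0) (hq : q.Prime) (hqN : q.Coprime N) (w : RA.WQ N q)
    {l0 : ℕ} (hl0 : l0.Prime) (hl0N : ((N * q : ℕ) : ℤ) ∣ l0 - 1) (hl0N' : l0.Coprime (N * q))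
    {l1 : ℕ} (hl1 : l1.Prime) (hl1N : l1.Coprime (N * q))
    (hl1q' : ¬ (l1 : ℤ) ∣ (q : ℤ) ^ 2 - 1) (u1 u2 : Fin (rk N) → k) :
    ∃ v : Fin (rk (N * q)) → k,
      Em k N l0 ((l0 : k) + 1) *ᵥ ((Em k N l0 ((l0 : k) + 1) * Pm k N l1 *
        Em k N l0 ((l0 : k) + 1)) *ᵥ u1) = cst k (matJ1 N q) *ᵥ v ∧
      Em k N l0 ((l0 : k) + 1) *ᵥ ((Em k N l0 ((l0 : k) + 1) * Pm k N l1 *
        Em k N l0 ((l0 : k) + 1)) *ᵥ u2) = cst k (matJ2 N q w) *ᵥ v := by
  have hl0N1 : (N : ℤ) ∣ l0 - 1 := by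
    refine dvd_trans ?_ hl0N
    exact_mod_cast dvd_mul_right (N : ℤ) q
  have hl0c := Nat.Coprime.coprime_mul_right_right hl0N'
  have hl1c := Nat.Coprime.coprime_mul_right_right hl1N
  have hl1q : q ≠ l1 := by
    rintro rfl
    have := Nat.Coprime.coprime_mul_left_right hl1N
    rw [Nat.coprime_self] at this
    exact hq.one_lt.ne' this
  set E0 := Em k N l0 ((l0 : k) + 1) with hE0
  set P1 := Pm k N l1 with hP1
  set P := E0 * P1 * E0 with hP
  have hPself : Pᵀ * cst k (PM N) = cst k (PM N) * P := by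
    have e1 := self_Em (k := k) hl0 hl0c ((l0 : k) + 1)
    have e2 := self_Pm (k := k) hl1 hl1c
    rw [← hE0] at e1
    rw [← hP1] at e2
    rw [hP, transpose_mul, transpose_mul, mul_assoc, mul_assoc, e1, ← mul_assoc P1ᵀ, e2,
      ← mul_assoc E0ᵀ, ← mul_assoc E0ᵀ, e1]
    simp only [mul_assoc]
  have hanti : ∀ (M : ℕ) [NeZero M], (cst k (PM M))ᵀ = - cst k (PM M) := by
    intro M _
    ext i j
    simp only [transpose_apply, map_apply, PM]
    rw [pr_anti]
    simp only [map_neg]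
    rfl
  have key := range_le_of (k := k) (α := Fin (rk N) ⊕ Fin (rk N)) (β := Fin (rk (N * q)))
    (fromBlocks (cst k (PM N)) 0 0 (cst k (PM N))) (cst k (PM (N * q)))
    (fromCols (cst k (matI1 N q)) (cst k (matI2 N q)))
    (fromRows (cst k (matJ1 N q)) (cst k (matJ2 N q w)))
    (by
      have a1 : (cst k (matI1 N q))ᵀ * cst k (PM (N * q)) = cst k (PM N) * cst k (matJ1 N q) := by
        rw [← cst_mul, ← adj_I1 hqN, cst_mul]; rfl
      have a2 : (cst k (matI2 N q))ᵀ * cst k (PM (N * q)) = cst k (PM N) * cst k (matJ2 N q w) := by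
        rw [← cst_mul, ← adj_I2 hq hqN w, cst_mul]; rfl
      rw [transpose_fromCols, fromRows_mul, fromBlocks_mul_fromRows]
      simp only [Matrix.zero_mul, add_zero, zero_add, a1, a2])
    (hanti (N * q)) (fromBlocks P 0 0 P)
    (by
      rw [fromBlocks_transpose, fromBlocks_multiply, fromBlocks_multiply]
      simp only [transpose_zero, Matrix.mul_zero, Matrix.zero_mul, add_zero, zero_add, hPself])
    (by
      intro u hu
      have hs : u = Sum.elim (u ∘ Sum.inl) (u ∘ Sum.inr) := by ext i; cases i <;> rfl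
      set a := u ∘ Sum.inl with ha
      set b := u ∘ Sum.inr with hb
      rw [hs, fromCols_mulVec_sumElim] at hu
      have h3 := Em_radical h2 hu hl0 hl0N hl0N'
      rw [← Em_comm_I hq hqN hl0 hl0N'] at h3
      have h4 : emb N k (E0 *ᵥ a) + (pull k).act (gq q 0 0 1) (emb N k (E0 *ᵥ b)) = 0 := by
        rw [← emb_I hq.ne_zero hqN, h3, emb_zero]
      have h5 := ihara_coord h2 hq hqN h4 hl0 hl0N1 hl0c hl1 hl1c hl1q hl1q'
      have h6 := ihara_coord h2 hq hqN (ker_swap hq w (emb_isMM _).toIsSymb (emb_isMM _).toIsSymb h4)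
        hl0 hl0N1 hl0c hl1 hl1c hl1q hl1q'
      rw [mulVec_mulVec, mulVec_mulVec] at h5 h6
      rw [hs, fromBlocks_mulVec]
      ext i
      cases i with
      | inl i =>
        simp only [Sum.elim_comp_inl, Sum.elim_comp_inr, Matrix.zero_mulVec, add_zero, Sum.elim_inl,
          Pi.zero_apply]
        exact congrFun h5 i
      | inr i =>
        simp only [Sum.elim_comp_inl, Sum.elim_comp_inr, Matrix.zero_mulVec, zero_add, Sum.elim_inr,
          Pi.zero_apply]
        exact congrFun h6 i) (Sum.elim u1 u2)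
  obtain ⟨v, hv⟩ := key
  rw [fromBlocks_mulVec, fromRows_mulVec, fromBlocks_mulVec] at hv
  refine ⟨Em k (N * q) l0 ((l0 : k) + 1) *ᵥ v, ?_, ?_⟩
  · have h3 : cst k (PM N) *ᵥ (P *ᵥ u1 - cst k (matJ1 N q) *ᵥ v) = 0 := by
      ext i
      have := congrFun hv (Sum.inl i)
      simp only [Pi.sub_apply, Matrix.zero_mulVec, Function.comp_def, add_zero, zero_add,
        Sum.elim_inl, Sum.elim_inr, Pi.zero_apply] at this
      exact this
    have h4 := Em_radical h2 h3 hl0 hl0N1 hl0c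
    rw [mulVec_sub, sub_eq_zero, Em_comm_J1 hq hqN hl0 hl0N'] at h4
    exact h4
  · have h3 : cst k (PM N) *ᵥ (P *ᵥ u2 - cst k (matJ2 N q w) *ᵥ v) = 0 := by
      ext i
      have := congrFun hv (Sum.inr i)
      simp only [Pi.sub_apply, Matrix.zero_mulVec, Function.comp_def, add_zero, zero_add,
        Sum.elim_inl, Sum.elim_inr, Pi.zero_apply] at this
      exact this
    have h4 := Em_radical h2 h3 hl0 hl0N1 hl0c
    rw [mulVec_sub, sub_eq_zero, Em_comm_J2 hq hqN w hl0 hl0N'] at h4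
    exact h4

end Ihara

end Fermat.Agent.H16.LR
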