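import Mathlib
import Fermat.Agent.H16.LR.DualI

/-!
# The dual of Ihara's lemma: final form
-/

set_option autoImplicit false

open Matrix ModularGroup CongruenceSubgroup Function
open scoped MatrixGroups

noncomputable section

namespace Fermat.Agent.H16.LR

open H22 LA

variable {k : Type} [Field k]

theorem two_ne_of_charP {p : ℕ} [CharP k p] (hp2 : p ≠ 2) : (2 : k) ≠ 0 := by
  intro h
  have h1 : ((2 : ℕ) : k) = 0 := by exact_mod_cast h
  rw [CharP.cast_eq_zero_iff k p] at h1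
  rcases (Nat.dvd_prime Nat.prime_two).mp h1 with h2 | h2
  · exact CharP.char_ne_one k p h2
  · exact hp2 h2

theorem three_ne_of_charP {p : ℕ} [CharP k p] (hp3 : p ≠ 3) : (3 : k) ≠ 0 := by
  intro h
  have h1 : ((3 : ℕ) : k) = 0 := by exact_mod_cast h
  rw [CharP.cast_eq_zero_iff k p] at h1
  rcases (Nat.dvd_prime Nat.prime_three).mp h1 with h2 | h2
  · exact CharP.char_ne_one k p h2
  · exact hp3 h2

theorem U_eq' : U = S⁻¹ * TC.U * S := by
  have h : TC.U = S * T := rfl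
  rw [h]
  have h2 : S⁻¹ * (S * T) * S = T * S := by group
  rw [h2]
  ext i j
  fin_cases i <;> fin_cases j <;> simp [U, T, S]

theorem Ell3.of {p : ℕ} [CharP k p] {N : ℕ} (h : TC.Ell p N) : Ell3 k N := by
  rcases h with h | h
  · exact Or.inl (three_ne_of_charP h)
  · right
    intro y hy
    apply h (S • y)
    have h1 : S⁻¹ • TC.U • S • y = y := by
      rw [← mul_smul, ← mul_smul, ← U_eq']
      exact hy
    exact inv_smul_eq_iff.mp h1

theorem ellX_of {p : ℕ} [CharP k p] {N : ℕ} (h : TC.Ell p N) :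
    TC.EllX (SL(2, ℤ) ⧸ Gamma0 N) k := by
  rcases h with h | h
  · left
    have h3 := three_ne_of_charP (k := k) h
    intro a
    refine ⟨a / 3, by beta_reduce; field_simp; ring, fun b hb ↦ ?_⟩
    rw [eq_div_iff h3, ← hb]
    ring
  · exact Or.inr h

theorem two_of (h2 : (2 : k) ≠ 0) : TC.Two k := by
  intro a
  refine ⟨a / 2, by beta_reduce; field_simp; ring, fun b hb ↦ ?_⟩
  rw [eq_div_iff h2, ← hb]
  ring

theorem evH_eisP_parabolic {p : ℕ} [CharP k p] (hp2 : p ≠ 2) {N : ℕ} [NeZero N]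
    (hell : TC.Ell p N) {D : ℕ} (ℓ : TC.Pr D) (hℓN : (N : ℤ) ∣ (ℓ : ℤ) - 1)
    (φ : Additive (Gamma0 N) →+ k) :
    TC.evH D k N k (TC.eisP ℓ) φ ∈ ModularCurve.Period.parabolicHoms k (Gamma0 N) k := by
  classical
  let f : (k →₀ ℤ) →+ k := Finsupp.liftAddHom fun x ↦ (AddMonoidHom.mk' (fun n : ℤ ↦ n • x)
    fun m n ↦ add_smul m n x)
  have hf : Surjective f := fun x ↦ ⟨Finsupp.single x 1, by simp [f]⟩
  have hneg : (-1 : SL(2, ℤ)) ∈ Gamma0 N := by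
    rw [mem_Gamma0_iff]; simp
  obtain ⟨ψ, hψ⟩ := TC.hom_lift (Γ := Gamma0 N) hneg f hf (two_of (two_ne_of_charP hp2))
    (ellX_of hell) φ
  have h1 := TC.evH_map (R := ℤ) (R' := k) (D := D) (N := N) f (TC.eisP ℓ) ψ
  have h2 : f.comp ψ = φ := hψ
  rw [h2] at h1
  rw [h1]
  have h3 := TC.evH_eisP (R := ℤ) (A := k →₀ ℤ) (fun n hn x hx ↦ by
    ext i
    have h4 := DFunLike.congr_fun hx i
    rw [Finsupp.smul_apply, Finsupp.zero_apply] at h4
    exact (smul_eq_zero.mp h4).resolve_left hn) ℓ hℓN ψ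
  intro γ hγ
  have h4 := h3 γ hγ
  show f _ = 0
  rw [h4, map_zero]

section Main

variable {N q : ℕ} [NeZero N] [NeZero q] [NeZero (N * q)]

theorem rel_eis {M : ℕ} [NeZero M] {D : ℕ} (hMD : M ∣ D) (ℓ : TC.Pr D) (c : ℤ)
    {φ : Additive (Gamma0 M) →+ k} {u : Fin (rk M) → k} (h : Rel φ (emb M k u)) :
    Rel (TC.evH D k M k (MvPolynomial.X ℓ - MvPolynomial.C c) φ) (emb M k (Em k M ℓ c *ᵥ u)) := by
  have : NeZero (ℓ : ℕ) := ⟨ℓ.2.1.ne_zero⟩
  have hc : (ℓ : ℕ).Coprime M := (Nat.Prime.coprime_iff_not_dvd ℓ.2.1).mpr fun h ↦ ℓ.2.2 (h.trans hMD)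
  have h1 := relC_sub (relC_T (k := k) ℓ.2.1 hc h) (relC_smul (c : k) h)
  rw [Em, sub_mulVec, smul_mulVec, one_mulVec]
  convert h1 using 1
  rw [map_sub, LinearMap.sub_apply, TC.evH, evalComm_X, ← MvPolynomial.algebraMap_eq, eq_intCast,
    map_intCast, Module.End.intCast_apply, Int.cast_smul_eq_zsmul]
  rfl

theorem rel_quad {M : ℕ} [NeZero M] {D : ℕ} (hMD : M ∣ D) (ℓ : TC.Pr D) (c : ℤ)
    {φ : Additive (Gamma0 M) →+ k} {u : Fin (rk M) → k} (h : Rel φ (emb M k u)) :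
    Rel (TC.evH D k M k (MvPolynomial.X ℓ * MvPolynomial.X ℓ - MvPolynomial.C c) φ)
      (emb M k ((cst k (matT M ℓ) * cst k (matT M ℓ) - (c : k) • (1 : Matrix _ _ k)) *ᵥ u)) := by
  have : NeZero (ℓ : ℕ) := ⟨ℓ.2.1.ne_zero⟩
  have hc : (ℓ : ℕ).Coprime M := (Nat.Prime.coprime_iff_not_dvd ℓ.2.1).mpr fun h ↦ ℓ.2.2 (h.trans hMD)
  have h1 := relC_sub (relC_T (k := k) ℓ.2.1 hc (relC_T (k := k) ℓ.2.1 hc h)) (relC_smul (c : k) h)
  rw [sub_mulVec, smul_mulVec, one_mulVec, ← mulVec_mulVec]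
  convert h1 using 1
  rw [map_sub, map_mul, LinearMap.sub_apply, Module.End.mul_apply, TC.evH, evalComm_X,
    ← MvPolynomial.algebraMap_eq, eq_intCast,
    map_intCast, Module.End.intCast_apply, Int.cast_smul_eq_zsmul]
  rfl

/-- **The dual of Ihara's lemma.** -/
theorem dual_ihara {p : ℕ} [CharP k p] (hp2 : p ≠ 2) (hell : TC.Ell p N) {D : ℕ} (hq : q.Prime)
    (hqN : ¬ q ∣ N) (hD : N * q ∣ D) (a : TC.Pr D → k)
    (l0 : TC.Pr D) (hl0 : ((N * q : ℕ) : ℤ) ∣ (l0 : ℤ) - 1) (ha0 : a l0 ≠ (l0 : ℕ) + 1)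
    (l1 : TC.Pr D) (hl1 : ¬ (l1 : ℤ) ∣ (q : ℤ) ^ 2 - 1)
    (ha1 : a l1 ≠ (l1 : ℕ) + 1) (ha1' : a l1 ≠ -((l1 : ℕ) + 1))
    (hi : Injective (degConj N q)) [(degConj N q).range.FiniteIndex]
    [(Subgroup.inclusion (Gamma0_mul_le N q)).range.FiniteIndex]
    (x y : Additive (Gamma0 N) →+ k)
    (hx : ∀ s : MvPolynomial (TC.Pr D) ℤ, MvPolynomial.aeval a s ≠ 0 →
      x ∈ LinearMap.range (TC.evH D k N k s))
    (hy : ∀ s : MvPolynomial (TC.Pr D) ℤ, MvPolynomial.aeval a s ≠ 0 →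
      y ∈ LinearMap.range (TC.evH D k N k s)) :
    ∃ z : Additive (Gamma0 (N * q)) →+ k, jj1 N q k z = x ∧ jj2 N q k hi z = y := by
  have h2 : (2 : k) ≠ 0 := two_ne_of_charP hp2
  have hell' : Ell3 k N := Ell3.of hell
  have hND : N ∣ D := (dvd_mul_right N q).trans hD
  have hl0N : (N : ℤ) ∣ (l0 : ℤ) - 1 := by
    refine dvd_trans ?_ hl0
    exact_mod_cast dvd_mul_right N q
  have hqc : q.Coprime N := (Nat.Prime.coprime_iff_not_dvd hq).mpr hqN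
  have hc0 : (l0 : ℕ).Coprime (N * q) :=
    (Nat.Prime.coprime_iff_not_dvd l0.2.1).mpr fun h ↦ l0.2.2 (h.trans hD)
  have hc1 : (l1 : ℕ).Coprime (N * q) :=
    (Nat.Prime.coprime_iff_not_dvd l1.2.1).mpr fun h ↦ l1.2.2 (h.trans hD)
  obtain ⟨w, -⟩ := RA.exists_WQ hqc 1 (Nat.coprime_one_right q)
  set e0 : MvPolynomial (TC.Pr D) ℤ := TC.eisP l0 with he0
  set b1 : MvPolynomial (TC.Pr D) ℤ := MvPolynomial.X l1 - MvPolynomial.C ((l1 : ℤ) + 1) with hb1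
  set b2 : MvPolynomial (TC.Pr D) ℤ := MvPolynomial.X l1 * MvPolynomial.X l1 -
    MvPolynomial.C (((l1 : ℤ) + 1) ^ 2) with hb2
  set s : MvPolynomial (TC.Pr D) ℤ := e0 * (e0 * (b1 * b2) * e0) * e0 with hs
  have v0 : MvPolynomial.aeval a e0 ≠ 0 := by
    rw [he0, TC.eisP, map_sub, MvPolynomial.aeval_X, MvPolynomial.aeval_C]
    intro h
    apply ha0
    rw [sub_eq_zero] at h
    rw [h]
    push_cast
    rfl
  have v1 : MvPolynomial.aeval a b1 ≠ 0 := by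
    rw [hb1, map_sub, MvPolynomial.aeval_X, MvPolynomial.aeval_C]
    intro h
    apply ha1
    rw [sub_eq_zero] at h
    rw [h]
    push_cast
    rfl
  have v2 : MvPolynomial.aeval a b2 ≠ 0 := by
    rw [hb2, map_sub, map_mul, MvPolynomial.aeval_X, MvPolynomial.aeval_C]
    intro h
    have h3 : (a l1 - ((l1 : ℕ) + 1)) * (a l1 + ((l1 : ℕ) + 1)) = 0 := by
      rw [← h]
      push_cast
      ring
    rcases mul_eq_zero.mp h3 with h4 | h4
    · exact ha1 (sub_eq_zero.mp h4)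
    · exact ha1' (eq_neg_of_add_eq_zero_left h4)
  have vs : MvPolynomial.aeval a s ≠ 0 := by
    rw [hs]
    simp only [map_mul]
    exact mul_ne_zero (mul_ne_zero v0 (mul_ne_zero (mul_ne_zero v0 (mul_ne_zero v1 v2)) v0)) v0
  have main : ∀ x : Additive (Gamma0 N) →+ k, x ∈ LinearMap.range (TC.evH D k N k s) →
      ∃ u : Fin (rk N) → k, Rel x (emb N k (Em k N l0 (((l0 : ℕ) : k) + 1) *ᵥ
        ((Em k N l0 (((l0 : ℕ) : k) + 1) * Pm k N l1 * Em k N l0 (((l0 : ℕ) : k) + 1)) *ᵥ u))) := by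
    rintro x ⟨x', rfl⟩
    obtain ⟨F, hF, hrel⟩ := exists_symb_of_parabolic
      (φ := TC.evH D k N k e0 x') (fun γ hγ ↦ evH_eisP_parabolic hp2 hell l0 hl0N x' γ hγ)
    have hMM := isMM_of h2 hell' hF
    refine ⟨co F, ?_⟩
    rw [← emb_co hMM] at hrel
    have q0 : (((l0 : ℤ) + 1 : ℤ) : k) = ((l0 : ℕ) : k) + 1 := by push_cast; rfl
    have q1 : (((l1 : ℤ) + 1 : ℤ) : k) = ((l1 : ℕ) : k) + 1 := by push_cast; rfl
    have q2 : ((((l1 : ℤ) + 1) ^ 2 : ℤ) : k) = (((l1 : ℕ) : k) + 1) ^ 2 := by push_cast; rfl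
    have r1 := rel_eis hND l0 ((l0 : ℤ) + 1) hrel
    have r2 := rel_quad hND l1 (((l1 : ℤ) + 1) ^ 2) r1
    have r3 := rel_eis hND l1 ((l1 : ℤ) + 1) r2
    have r4 := rel_eis hND l0 ((l0 : ℤ) + 1) r3
    have r5 := rel_eis hND l0 ((l0 : ℤ) + 1) r4
    rw [q0, q1, q2] at r5
    have e1 : TC.evH D k N k s x' = TC.evH D k N k (MvPolynomial.X l0 - MvPolynomial.C ((l0 : ℤ) + 1))
      (TC.evH D k N k (MvPolynomial.X l0 - MvPolynomial.C ((l0 : ℤ) + 1))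
      (TC.evH D k N k (MvPolynomial.X l1 - MvPolynomial.C ((l1 : ℤ) + 1))
      (TC.evH D k N k (MvPolynomial.X l1 * MvPolynomial.X l1 - MvPolynomial.C (((l1 : ℤ) + 1) ^ 2))
      (TC.evH D k N k (MvPolynomial.X l0 - MvPolynomial.C ((l0 : ℤ) + 1))
      (TC.evH D k N k e0 x'))))) := by
      simp only [← Module.End.mul_apply, ← map_mul]
      rw [hs, he0, TC.eisP]
      congr 2
      ring
    rw [e1]
    convert r5 using 2
    rw [Pm]
    simp only [mulVec_mulVec, Matrix.mul_assoc]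
  obtain ⟨u1, hu1⟩ := main x (hx s vs)
  obtain ⟨u2, hu2⟩ := main y (hy s vs)
  obtain ⟨v, hv1, hv2⟩ := surj_coord (k := k) h2 hq hqc w l0.2.1 hl0 hc0 l1.2.1 hc1 hl1 u1 u2
  have sv := (emb_isMM (M := N * q) v).toIsSymb
  obtain ⟨z, hz⟩ := exists_rel sv
  refine ⟨z, ?_, ?_⟩
  · have t1 := hz.tr1 sv
    rw [hv1] at hu1
    have h' : (pull k).tr N q (emb (N * q) k v) = emb N k (cst k (matJ1 N q) *ᵥ v) :=
      mt_spec (A := k) (Natl.tr N q) (Pres.tr hqc) v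
    rw [h'] at t1
    exact t1.ext hu1
  · have t1 := hz.tr2 hi w sv
    rw [hv2] at hu2
    have h' : (pull k).tr N q ((pull k).act w.mat (emb (N * q) k v)) =
        emb N k (cst k (matJ2 N q w) *ᵥ v) :=
      mt_spec (A := k) ((Natl.tr N q).comp (Natl.act _)) (Pres.trw hq.ne_zero hqc w) v
    rw [h'] at t1
    exact t1.ext hu2

end Main

end Fermat.Agent.H16.LR
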